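import Fermat.Agent.W1.GenPos

/-!
# W1-geo: the abstract reduction package (PR) and the first geometric pieces — exact statements

Plan: `NOTES/W1-geo.md`.  `K ⊃ A` a valuation ring with residue map `res : A → k`; `F/K`, `Fk/k`
function fields; `O ⊂ F` the Gauss valuation ring with residue map `red : O → Fk`;
`r : Place K F → Place k Fk` the reduction of places.

* `PRData`, `PRData.IsPR` : the package; the key field is `r_div` : `r_*(div u) = div(ū)`.
* `IsNiceCurve K F g` : places of degree one, principal divisors, Riemann with genus `g`.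
* `PRData.Semicont` : `dim L(D) ≤ dim L̄(r_* D)`.
* `PRData.GoodFn t` : `t ∈ O` and the poles of `t` reduce to poles of `t̄`
  (for `t = j` this is `[F : K(j)] = [Fk : k(j̄)]`, S28; by `StmtEval` the zeros of `t - c`
  then reduce to zeros of `t̄ - c̄`).
* `HasValueAt P f a` : `f(P) = a`.

Pieces (Props): `StmtEval` (E2), `StmtOnto` (E1), `StmtDisc` (L1).
-/

set_option autoImplicit false

open AlgebraicCurve Module

namespace Fermat.Agent.W1

variable {K F k Fk : Type} [Field K] [Field F] [Algebra K F] [Field k] [Field Fk] [Algebra k Fk]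

/-- `f(P) = a` : the function `f` is regular at the place `P` with value `a`. -/
def HasValueAt (P : Place K F) (f : F) (a : K) : Prop :=
  f - algebraMap K F a ∈ P.toValuationSubring.nonunits

variable (K F k Fk) in
/-- The data of a reduction: residue map of `A`, Gauss valuation ring of `F` with its residue map
to `Fk`, and the reduction of places. -/
structure PRData (A : ValuationSubring K) where
  res : A →+* k
  O : ValuationSubring F
  red : O →+* Fk
  r : Place K F → Place k Fk

variable {A : ValuationSubring K}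

/-- The axioms of a reduction of places. -/
structure PRData.IsPR (R : PRData K F k Fk A) : Prop where
  res_surjective : Function.Surjective R.res
  res_eq_zero_iff : ∀ a : A, R.res a = 0 ↔ (a : K) ∈ A.nonunits
  algebraMap_mem_iff : ∀ a : K, algebraMap K F a ∈ R.O ↔ a ∈ A
  red_surjective : Function.Surjective R.red
  red_eq_zero_iff : ∀ x : R.O, R.red x = 0 ↔ (x : F) ∈ R.O.nonunits
  red_algebraMap : ∀ (a : A) (h : algebraMap K F (a : K) ∈ R.O),
    R.red ⟨algebraMap K F (a : K), h⟩ = algebraMap k Fk (R.res a)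
  prim : ∀ f : F, f ≠ 0 → ∃ a : K, a ≠ 0 ∧ ∃ h : algebraMap K F a * f ∈ R.O,
    R.red ⟨algebraMap K F a * f, h⟩ ≠ 0
  r_div : ∀ u : R.O, R.red u ≠ 0 → ∀ D : Divisor K F, (∀ P, D P = P.ord (u : F)) →
    ∀ Q : Place k Fk, Finsupp.mapDomain R.r D Q = Q.ord (R.red u)

variable (K F) in
/-- A function field of one variable over an algebraically closed constant field, of genus `g`,
in the prelude's language. -/
structure IsNiceCurve (g : ℕ) : Prop where
  hres : ∀ v : Place K F, Function.Bijective (algebraMap K v.ResidueField)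
  hpd : HasPrincipalDivisors K F
  upper : GPRiemannUpper K F g
  lower : GPRiemannLower K F g
  infinite : (Set.univ : Set (Place K F)).Infinite

/-- semicontinuity: `dim L(D) ≤ dim L̄(r_* D)` -/
def PRData.Semicont (R : PRData K F k Fk A) : Prop :=
  ∀ D : Divisor K F,
    finrank K ↥(riemannRochSpace D) ≤ finrank k ↥(riemannRochSpace (Finsupp.mapDomain R.r D))

/-- `t` has good reduction as a map to the projective line. -/
def PRData.GoodFn (R : PRData K F k Fk A) (t : F) : Prop :=
  ∃ ht : t ∈ R.O, ∀ P : Place K F, P.ord t < 0 → (R.r P).ord (R.red ⟨t, ht⟩) < 0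

/-- **(E2) evaluation**: if `f ∈ O` and no pole of `f` reduces to `r P`, then `f(P) ∈ A` and
`f(P)‾ = f̄(r P)`. -/
def StmtEval : Prop :=
  ∀ (K F k Fk : Type) [Field K] [Field F] [Algebra K F] [Field k] [Field Fk] [Algebra k Fk]
    (A : ValuationSubring K) (R : PRData K F k Fk A) (g : ℕ),
    R.IsPR → IsNiceCurve K F g → IsNiceCurve k Fk g →
    ∀ (f : R.O) (P : Place K F), (∀ P' : Place K F, P'.ord (f : F) < 0 → R.r P' ≠ R.r P) →
      ∃ a : A, HasValueAt P (f : F) (a : K) ∧ HasValueAt (R.r P) (R.red f) (R.res a)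

/-- **(E1)**: `r` is onto. -/
def StmtOnto : Prop :=
  ∀ (K F k Fk : Type) [Field K] [Field F] [Algebra K F] [Field k] [Field Fk] [Algebra k Fk]
    (A : ValuationSubring K) (R : PRData K F k Fk A) (g : ℕ),
    R.IsPR → IsNiceCurve K F g → IsNiceCurve k Fk g → Function.Surjective R.r

/-- **(L1) the disc**: if `t` is a good function and `t̄ - c̄` has a simple zero at `Q`, then
`P ↦ t(P) - c` is a bijection from `r⁻¹(Q)` to `𝔪_A`. -/
def StmtDisc : Prop :=
  ∀ (K F k Fk : Type) [Field K] [Field F] [Algebra K F] [Field k] [Field Fk] [Algebra k Fk]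
    (A : ValuationSubring K) (R : PRData K F k Fk A) (g : ℕ),
    R.IsPR → IsNiceCurve K F g → IsNiceCurve k Fk g →
    ∀ (t : F) (ht : t ∈ R.O), R.GoodFn t → ∀ (c : A) (Q : Place k Fk),
      Q.ord (R.red ⟨t, ht⟩ - algebraMap k Fk (R.res c)) = 1 →
      (∀ P : Place K F, R.r P = Q →
        ∃ z : K, z ∈ A.nonunits ∧ HasValueAt P t ((c : K) + z)) ∧
      (∀ z : K, z ∈ A.nonunits →
        ∃! P : Place K F, R.r P = Q ∧ HasValueAt P t ((c : K) + z))

end Fermat.Agent.W1
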