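import Mathlib
import Fermat.Agent.W1.PlanGeo

/-!
# W1-geo, part 2: chart, kernel of reduction, expansions — exact statements

Plan: `NOTES/W1-geo.md` §1, §2, §4.  Notation of `PlanGeo.lean`.

* `PRData.Orth` : every `L(D)` has a basis in `O` whose reductions are `k`-linearly independent
  elements of `L̄(r_* D)` (orthonormal bases; gives semicontinuity and lifting of sections).
* `PRData.Chart`, `IsChart` : a good function `t`, values `c i ∈ A`, centres `Q i` with
  `t(Q i) = c i`, `t̄ - c̄ i` of order one at `Q̄ i := r (Q i)`, the `Q̄ i` pairwise distinct and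
  `Σ Q̄ i` non-special.
* `PRData.J1` : the kernel of reduction on `Pic⁰`.
* `IsExpansion P u f s` : the Laurent series `s ∈ K((T))` is the expansion of `f` at the place `P`
  in the uniformiser `u`.

Pieces (Props): `StmtExpand` (GEO-X), `StmtTaylorInt` (GEO-T), `StmtC1`, `StmtLift` (GEO-C1).
-/

set_option autoImplicit false

open AlgebraicCurve Module

namespace Fermat.Agent.W1

variable {K F k Fk : Type} [Field K] [Field F] [Algebra K F] [Field k] [Field Fk] [Algebra k Fk]
variable {A : ValuationSubring K}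

/-- orthonormal bases of the spaces `L(D)` -/
def PRData.Orth (R : PRData K F k Fk A) : Prop :=
  ∀ D : Divisor K F, ∃ (n : ℕ) (e : Fin n → F) (he : ∀ i, e i ∈ R.O),
    Submodule.span K (Set.range e) = riemannRochSpace D ∧
    LinearIndependent k (fun i => R.red ⟨e i, he i⟩) ∧
    ∀ i, R.red ⟨e i, he i⟩ ∈ riemannRochSpace (Finsupp.mapDomain R.r D)

/-- the data of a chart with `g` centres -/
structure PRData.Chart (R : PRData K F k Fk A) (g : ℕ) where
  t : F
  c : Fin g → A
  Q : Fin g → Place K F

/-- the local parameter `τ i = t - c i` of a chart -/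
def PRData.Chart.tau {R : PRData K F k Fk A} {g : ℕ} (C : R.Chart g) (i : Fin g) : F :=
  C.t - algebraMap K F (C.c i : K)

/-- the axioms of a chart -/
structure PRData.Chart.IsChart {R : PRData K F k Fk A} {g : ℕ} (C : R.Chart g) : Prop where
  good : R.GoodFn C.t
  value : ∀ i, HasValueAt (C.Q i) C.t (C.c i : K)
  simple : ∀ (ht : C.t ∈ R.O) (i : Fin g),
    (R.r (C.Q i)).ord (R.red ⟨C.t, ht⟩ - algebraMap k Fk (R.res (C.c i))) = 1
  inj : Function.Injective fun i => R.r (C.Q i)
  nonspecial : finrank k ↥(riemannRochSpace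
    (∑ i : Fin g, Finsupp.single (R.r (C.Q i)) (1 : ℤ) : Divisor k Fk)) = 1

/-- `P` lies in the `i`-th disc of the chart with coordinate `z` -/
def PRData.Chart.InDisc {R : PRData K F k Fk A} {g : ℕ} (C : R.Chart g) (i : Fin g)
    (P : Place K F) (z : K) : Prop :=
  R.r P = R.r (C.Q i) ∧ z ∈ A.nonunits ∧ HasValueAt P C.t ((C.c i : K) + z)

/-- the divisor `Σ P i - Σ Q i` attached to a tuple of places -/
noncomputable def PRData.Chart.div {R : PRData K F k Fk A} {g : ℕ} (C : R.Chart g)
    (P : Fin g → Place K F) : Divisor K F :=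
  ∑ i : Fin g, (Finsupp.single (P i) (1 : ℤ) - Finsupp.single (C.Q i) (1 : ℤ))

/-- The kernel of reduction: classes of divisors of degree `0` whose reduction is principal. -/
def PRData.J1 (R : PRData K F k Fk A) : AddSubgroup (Pic0 K F) where
  carrier := {x | ∃ D : Divisor.degZero (K := K) (F := F), Pic0.mk D = x ∧
    Finsupp.mapDomain R.r (D : Divisor K F) ∈ Divisor.principal (K := k) (F := Fk)}
  zero_mem' := ⟨0, rfl, by
    rw [AddSubgroup.coe_zero, Finsupp.mapDomain_zero]; exact AddSubgroup.zero_mem _⟩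
  add_mem' := by
    rintro x y ⟨D, rfl, hD⟩ ⟨E, rfl, hE⟩
    refine ⟨D + E, rfl, ?_⟩
    rw [AddSubgroup.coe_add, Finsupp.mapDomain_add]
    exact AddSubgroup.add_mem _ hD hE
  neg_mem' := by
    rintro x ⟨D, rfl, hD⟩
    refine ⟨-D, rfl, ?_⟩
    have h : Finsupp.mapDomain R.r (-(D : Divisor K F)) = -Finsupp.mapDomain R.r (D : Divisor K F) := by
      rw [← Finsupp.mapDomain.addMonoidHom_apply, map_neg, Finsupp.mapDomain.addMonoidHom_apply]
    rw [AddSubgroup.coe_neg, h]
    exact AddSubgroup.neg_mem _ hD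

/-- **(C1)**: every class in the kernel of reduction is `[Σ P i - Σ Q i]` for exactly one tuple of
places `P i` in the discs of the chart. -/
def StmtC1 : Prop :=
  ∀ (K F k Fk : Type) [Field K] [Field F] [Algebra K F] [Field k] [Field Fk] [Algebra k Fk]
    (A : ValuationSubring K) (R : PRData K F k Fk A) (g : ℕ),
    R.IsPR → IsNiceCurve K F g → IsNiceCurve k Fk g → R.Orth →
    ∀ C : R.Chart g, C.IsChart → ∀ x : Pic0 K F, x ∈ R.J1 →
      ∃! P : Fin g → Place K F, (∀ i, R.r (P i) = R.r (C.Q i)) ∧
        ∃ D : Divisor.degZero (K := K) (F := F), (D : Divisor K F) = C.div P ∧ Pic0.mk D = x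

/-- converse of (C1) (easy) -/
def StmtC1Conv : Prop :=
  ∀ (K F k Fk : Type) [Field K] [Field F] [Algebra K F] [Field k] [Field Fk] [Algebra k Fk]
    (A : ValuationSubring K) (R : PRData K F k Fk A) (g : ℕ),
    R.IsPR → IsNiceCurve K F g → IsNiceCurve k Fk g →
    ∀ C : R.Chart g, C.IsChart → ∀ P : Fin g → Place K F, (∀ i, R.r (P i) = R.r (C.Q i)) →
      ∀ D : Divisor.degZero (K := K) (F := F), (D : Divisor K F) = C.div P → Pic0.mk D ∈ R.J1

/-- **lift**: every class is congruent modulo the kernel of reduction to the class of a divisor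
supported on places `P` at which `t` takes a value in a given set `S ⊂ A` of representatives of
the residue field and `t̄` is unramified at `r P`.  (For `S` the Teichmüller representatives such
places are fixed by inertia.)  `hram`: `t̄` is unramified outside a finite set. -/
def StmtLift : Prop :=
  ∀ (K F k Fk : Type) [Field K] [Field F] [Algebra K F] [Field k] [Field Fk] [Algebra k Fk]
    (A : ValuationSubring K) (R : PRData K F k Fk A) (g : ℕ),
    R.IsPR → IsNiceCurve K F g → IsNiceCurve k Fk g →
    ∀ (t : F) (ht : t ∈ R.O), R.GoodFn t →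
      {Q : Place k Fk | ¬ ∃ c : k, Q.ord (R.red ⟨t, ht⟩ - algebraMap k Fk c) = 1}.Finite →
    ∀ S : Set A, (∀ c : k, ∃ s ∈ S, R.res s = c) →
    ∀ x : Pic0 K F, ∃ D : Divisor.degZero (K := K) (F := F),
      x - Pic0.mk D ∈ R.J1 ∧
      ∀ P : Place K F, (D : Divisor K F) P ≠ 0 →
        ∃ s ∈ S, HasValueAt P t (s : K) ∧
          (R.r P).ord (R.red ⟨t, ht⟩ - algebraMap k Fk (R.res s)) = 1

/-! ## Expansions at a place -/

/-- the truncation `Σ_{m < n} s_m u^m` of a Laurent series, as an element of `F` -/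
noncomputable def truncAt (u : F) (s : LaurentSeries K) (n : ℤ) : F :=
  ∑ m ∈ Finset.Ico s.order n, algebraMap K F (s.coeff m) * u ^ m

/-- `s` is the expansion of `f` at `P` in the uniformiser `u`: `f ≡ Σ_{m<n} s_m u^m` modulo
`u^n` for every `n`. -/
def IsExpansion (P : Place K F) (u : F) (f : F) (s : LaurentSeries K) : Prop :=
  ∀ n : ℤ, f = truncAt u s n ∨ n ≤ P.ord (f - truncAt u s n)

/-- **GEO-X**: expansions exist, are unique, and form a ring homomorphism `F → K((T))`
(generic function-field fact, no reduction involved). -/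
def StmtExpand : Prop :=
  ∀ (K F : Type) [Field K] [Field F] [Algebra K F] (P : Place K F),
    Function.Bijective (algebraMap K P.ResidueField) → ∀ u : F, P.ord u = 1 →
    ∃ ι : F →+* LaurentSeries K,
      (∀ f, IsExpansion P u f (ι f)) ∧
      (∀ f s, IsExpansion P u f s → s = ι f) ∧
      (∀ a : K, ι (algebraMap K F a) = HahnSeries.C a) ∧
      ι u = HahnSeries.single 1 1 ∧
      ∀ f, f ≠ 0 → (ι f).order = P.ord f

/-- **GEO-T** (Taylor, integrality): for `f ∈ O` without poles in the `i`-th disc, the expansion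
of `f` at `Q i` in `τ i` is a power series with coefficients in `A`; its coefficientwise
reduction is the expansion of `f̄` at `Q̄ i` in `τ̄ i`; and it computes the values of `f` on the
disc up to any order. -/
def StmtTaylorInt : Prop :=
  ∀ (K F k Fk : Type) [Field K] [Field F] [Algebra K F] [Field k] [Field Fk] [Algebra k Fk]
    (A : ValuationSubring K) (R : PRData K F k Fk A) (g : ℕ),
    R.IsPR → IsNiceCurve K F g → IsNiceCurve k Fk g →
    ∀ C : R.Chart g, C.IsChart → ∀ (i : Fin g) (f : R.O),
      (∀ P : Place K F, P.ord (f : F) < 0 → R.r P ≠ R.r (C.Q i)) →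
      ∀ s : LaurentSeries K, IsExpansion (C.Q i) (C.tau i) (f : F) s →
        (∀ m : ℤ, m < 0 → s.coeff m = 0) ∧
        (∃ a : ℕ → A, (∀ m : ℕ, s.coeff (m : ℤ) = (a m : K)) ∧
          (∀ (ht : C.t ∈ R.O) (sk : LaurentSeries k),
            IsExpansion (R.r (C.Q i))
              (R.red ⟨C.t, ht⟩ - algebraMap k Fk (R.res (C.c i))) (R.red f) sk →
            ∀ m : ℕ, sk.coeff (m : ℤ) = R.res (a m)) ∧
          ∀ (P : Place K F) (z : K), C.InDisc i P z → ∀ n : ℕ,
            ∃ y : A, HasValueAt P (f : F)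
              ((∑ m ∈ Finset.range n, (a m : K) * z ^ m) + z ^ n * (y : K)))

end Fermat.Agent.W1
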