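import Fermat.Agent.W1.PlanGeo2
import Fermat.Agent.DEU.Inf
import Fermat.Agent.ES.Riemann

/-!
# GEO-PR / `ModPR`: `IsNiceCurve` in characteristic `0`

* `nice_semicont` : orthonormal bases (`PRData.Orth`) give `dim_K L(D) ≤ dim_k L̄(r_* D)`;
* `nice_degree_mapDomain` : `deg (r_* D) = deg D` when all places are rational;
* `nice_upper` : Riemann's upper bound passes from the reduction `F̄ / k` to `F / K`
  (`dim_K L(D) ≤ dim_k L̄(r_* D) ≤ deg D + 1 - g` for `deg D ≥ c`);
* `nice_FF` : `IsNiceCurve ℚ̄ (FF N) (gN N)` from a reduction package with orthonormal bases whose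
  reduction satisfies Riemann's upper bound with the same genus.
-/

set_option autoImplicit false

open AlgebraicCurve Module ModularCurve

namespace Fermat.Agent.W1

open Fermat.Agent.ES.R Fermat.Agent.S24

section Abstract

variable {K F k Fk : Type} [Field K] [Field F] [Algebra K F] [Field k] [Field Fk] [Algebra k Fk]
variable {A : ValuationSubring K}

/-- semicontinuity from orthonormal bases -/
theorem nice_semicont {R : PRData K F k Fk A} [HasPrincipalDivisors k Fk]
    (hresk : ∀ v : Place k Fk, Function.Bijective (algebraMap k v.ResidueField))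
    (w₀ : Place k Fk) (hOrth : R.Orth) (D : Divisor K F) :
    finrank K ↥(riemannRochSpace D)
      ≤ finrank k ↥(riemannRochSpace (Finsupp.mapDomain R.r D)) := by
  obtain ⟨n, e, he, hspan, hli, hmem⟩ := hOrth D
  have := rr_finite w₀ hresk (Finsupp.mapDomain R.r D)
  have h1 : finrank K ↥(riemannRochSpace D) ≤ n := by
    rw [← hspan]
    have := finrank_range_le_card (R := K) e
    simpa [Set.finrank] using this
  have h2 : n ≤ finrank k ↥(riemannRochSpace (Finsupp.mapDomain R.r D)) := by
    have hli' : LinearIndependent k (fun i =>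
        (⟨R.red ⟨e i, he i⟩, hmem i⟩ : ↥(riemannRochSpace (Finsupp.mapDomain R.r D)))) := by
      apply LinearIndependent.of_comp (Submodule.subtype _)
      exact hli
    have := hli'.fintype_card_le_finrank
    simpa using this
  exact h1.trans h2

theorem nice_degree_mapDomain
    (hres : ∀ v : Place K F, Function.Bijective (algebraMap K v.ResidueField))
    (hresk : ∀ v : Place k Fk, Function.Bijective (algebraMap k v.ResidueField))
    (r : Place K F → Place k Fk) (D : Divisor K F) :
    Divisor.degree (Finsupp.mapDomain r D) = Divisor.degree D := by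
  have h : (Divisor.degree (K := k) (F := Fk)).comp (Finsupp.mapDomain.addMonoidHom r)
      = Divisor.degree (K := K) (F := F) := by
    refine Finsupp.addHom_ext fun P n => ?_
    simp [Divisor.degree_single, place_deg_eq_one _ (hres P), place_deg_eq_one _ (hresk (r P))]
  exact DFunLike.congr_fun h D

/-- Riemann's upper bound passes from the reduction to characteristic `0`. -/
theorem nice_upper {R : PRData K F k Fk A} [HasPrincipalDivisors k Fk]
    (hres : ∀ v : Place K F, Function.Bijective (algebraMap K v.ResidueField))
    (hresk : ∀ v : Place k Fk, Function.Bijective (algebraMap k v.ResidueField))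
    (w₀ : Place k Fk) (hOrth : R.Orth) {g : ℕ} (hup : GPRiemannUpper k Fk g) :
    GPRiemannUpper K F g := by
  obtain ⟨c, hc⟩ := hup
  refine ⟨c, fun D hD => ?_⟩
  have hdeg := nice_degree_mapDomain hres hresk R.r D
  have h1 := hc (Finsupp.mapDomain R.r D) (by rw [hdeg]; exact hD)
  rw [hdeg] at h1
  have h2 := nice_semicont hresk w₀ hOrth D
  have h3 : (finrank K ↥(riemannRochSpace D) : ℤ)
      ≤ (finrank k ↥(riemannRochSpace (Finsupp.mapDomain R.r D)) : ℤ) := by exact_mod_cast h2
  exact h3.trans h1

end Abstract

section Concrete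

variable (N : ℕ) [NeZero N] {k Fk : Type} [Field k] [Field Fk] [Algebra k Fk]
variable {A : ValuationSubring Kb}

/-- **`nice` in characteristic `0`.** -/
theorem nice_FF (R : PRData Kb (FF N) k Fk A) [HasPrincipalDivisors k Fk]
    (hresk : ∀ v : Place k Fk, Function.Bijective (algebraMap k v.ResidueField))
    (w₀ : Place k Fk) (hOrth : R.Orth)
    (hup : GPRiemannUpper k Fk (Fermat.Agent.ES.M.gN N)) :
    IsNiceCurve Kb (FF N) (Fermat.Agent.ES.M.gN N) where
  hres := Fermat.Agent.ES.H.residue_bijective_FF N
  hpd := Fermat.Agent.ES.H.hasPrincipalDivisors_FF N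
  upper := nice_upper (Fermat.Agent.ES.H.residue_bijective_FF N) hresk w₀ hOrth hup
  lower := Fermat.Agent.ES.R.stmtR N
  infinite := Fermat.Agent.DEU.deuInf_infinite_FF N

end Concrete

end Fermat.Agent.W1
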