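import Mathlib

/-!
# W1-GL(a): interface — a Hopf lattice of equivariant functions gives the S19-shaped conclusion

`R` is a subring of `ℚ` (in S19: `GaloisRep.ratLocalizedAt ℓ`), `K = AlgebraicClosure ℚ`,
`G = K ≃ₐ[ℚ] K`, `M` a finite abelian group with a map `act : G → M → M`
(in S19: `M = torsionBy ℤ (JZero N) (ℓ ^ k)` with the Galois action).

`IsHopfLattice R act H` says that the `R`-subalgebra `H` of the algebra of all functions `M → K`
is a *Hopf order* in the `ℚ`-Hopf algebra `Map_G(M, K)`: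
* `fg`           : `H` is a finitely generated `R`-module;
* `equivariant`  : every `h ∈ H` is Galois equivariant, `h (σ P) = σ (h P)`;
* `separates`    : `H` separates the points of `M`;
* `comul_mem`    : `(P, Q) ↦ h (P + Q)` is an `R`-combination of functions `a(P) * b(Q)`, `a b ∈ H`;
* `antipode_mem` : `P ↦ h (-P)` lies in `H`;
* `counit_mem`   : `h 0 ∈ R`.

`HopfOfLatticeStatement` (proved in `Fermat/Agent/W1/HopfOfLattice.lean`) turns such an `H` into
exactly the conclusion of S19 / of `GaloisRepAdic.IsFlatAt` (a commutative, cocommutative Hopf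
algebra, finite and flat over `R`, with an additive Galois equivariant bijection from its
`K`-points to `M`).  No power series, no completion, no scheme.
-/

set_option autoImplicit false

namespace Fermat.Agent.W1

/-- The `R`-subalgebra `H` of `M → ℚ̄` is a Hopf order in `Map_G(M, ℚ̄)`. -/
structure IsHopfLattice (R : Subring ℚ) {M : Type} [AddCommGroup M]
    (act : (AlgebraicClosure ℚ ≃ₐ[ℚ] AlgebraicClosure ℚ) → M → M)
    (H : Subalgebra R (M → AlgebraicClosure ℚ)) : Prop where
  fg : (Subalgebra.toSubmodule H).FG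
  equivariant : ∀ h ∈ H, ∀ (σ : AlgebraicClosure ℚ ≃ₐ[ℚ] AlgebraicClosure ℚ) (P : M),
    h (act σ P) = σ (h P)
  separates : ∀ P Q : M, (∀ h ∈ H, h P = h Q) → P = Q
  comul_mem : ∀ h ∈ H, (fun PQ : M × M => h (PQ.1 + PQ.2)) ∈
    Submodule.span R {F : M × M → AlgebraicClosure ℚ |
      ∃ a ∈ H, ∃ b ∈ H, F = fun PQ => a PQ.1 * b PQ.2}
  antipode_mem : ∀ h ∈ H, (fun P : M => h (-P)) ∈ H
  counit_mem : ∀ h ∈ H, ∃ r : R, h 0 = algebraMap R (AlgebraicClosure ℚ) r

/-- The S19-shaped conclusion for a finite abelian group `M` with a map `act`. -/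
def HasFiniteFlatModel (R : Subring ℚ) (M : Type) [AddCommGroup M]
    (act : (AlgebraicClosure ℚ ≃ₐ[ℚ] AlgebraicClosure ℚ) → M → M) : Prop :=
  ∃ (H : Type) (_ : CommRing H) (_ : HopfAlgebra R H),
    Module.Finite R H ∧ Module.Flat R H ∧ Coalgebra.IsCocomm R H ∧
    ∃ e : WithConv (H →ₐ[R] AlgebraicClosure ℚ) ≃ M,
      (∀ f g : WithConv (H →ₐ[R] AlgebraicClosure ℚ), e (f * g) = e f + e g) ∧
      ∀ (σ : AlgebraicClosure ℚ ≃ₐ[ℚ] AlgebraicClosure ℚ)
        (f g : WithConv (H →ₐ[R] AlgebraicClosure ℚ)),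
        (∀ h : H, g.ofConv h = σ (f.ofConv h)) → e g = act σ (e f)

/-- W1-GL(a): a Hopf lattice gives a finite flat model. -/
def HopfOfLatticeStatement : Prop :=
  ∀ (R : Subring ℚ) (_ : IsPrincipalIdealRing R) (_ : IsFractionRing R ℚ)
    (M : Type) (_ : AddCommGroup M) (_ : Finite M)
    (act : (AlgebraicClosure ℚ ≃ₐ[ℚ] AlgebraicClosure ℚ) → M → M)
    (H : Subalgebra R (M → AlgebraicClosure ℚ)),
    IsHopfLattice R act H → HasFiniteFlatModel R M act

end Fermat.Agent.W1
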