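import Mathlib
import Fermat.Prelude.Def_FLTPrelim_Ramification
import Fermat.Prelude.Def_GaloisRep_Flat
import Fermat.Agent.W1.PlanGL

/-!
# W1-ALG: the pure-algebra half of WALL 1 — exact statements

Plan: `NOTES/W1-plan.md` §2 and `NOTES/W1-alg.md`.  `K = ℚ̄`, `G = Gal(ℚ̄/ℚ)`, `A ⊂ ℚ̄` a valuation
subring over `p`, `D ⊃ I` its decomposition and inertia groups, `R = ℤ_(p)`.

* `IsContAction act` : `act : G → M → M` is an additive action with open stabilisers.
* `IsLocalHopfLattice A act Ht` : the `A`-subalgebra `Ht ⊂ Map(M, ℚ̄)` has values in `A`, separates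
  points, is stable under `D`, is spanned over `A` by `I`-equivariant functions and is closed
  under the comultiplication `h ↦ ((P,Q) ↦ h (P+Q))`.
* `LocalToGlobalStatement` (**ALG-A**, Galois descent): a local Hopf lattice over `A` gives a Hopf
  lattice over `R` in the sense of `PlanGL.lean` (namely `H = Ht ∩ Map_G(M, ℚ̄)`).
* `KernelChart A J J1 g z` : `J1 ≤ J` is a `D`-stable subgroup ("kernel of reduction") with an
  injective, `I`-equivariant coordinate map `z : J1 → 𝔪_A^g` in which the addition of `J1` is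
  uniformly approximable by polynomials with coefficients in `A`, and every torsion point of `J`
  is congruent modulo `J1` to an `I`-fixed point.
* `ChartToLocalStatement` (**ALG-B**): a kernel chart gives a local Hopf lattice on `J[n]`
  (the algebra generated by the indicator functions of the cosets of `J1` and by the functions
  `c ↦ σ(z(σ⁻¹(c - b)))`, `σ ∈ D`, `b` an `I`-fixed point).
-/

set_option autoImplicit false

namespace Fermat.Agent.W1

/-- `act` is an action of `G_ℚ` by additive maps with open stabilisers. -/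
structure IsContAction {M : Type} [AddCommGroup M]
    (act : (AlgebraicClosure ℚ ≃ₐ[ℚ] AlgebraicClosure ℚ) → M → M) : Prop where
  one : ∀ P, act 1 P = P
  mul : ∀ σ τ P, act (σ * τ) P = act σ (act τ P)
  add : ∀ σ P Q, act σ (P + Q) = act σ P + act σ Q
  open_stab : ∀ P, ∃ E : IntermediateField ℚ (AlgebraicClosure ℚ),
    FiniteDimensional ℚ E ∧
      ∀ σ : AlgebraicClosure ℚ ≃ₐ[ℚ] AlgebraicClosure ℚ, (∀ a ∈ E, σ a = a) → act σ P = P

/-- A "local Hopf lattice": an `A`-subalgebra of `Map(M, ℚ̄)` with the properties that make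
Galois descent to `ℤ_(p)` possible. -/
structure IsLocalHopfLattice (A : ValuationSubring (AlgebraicClosure ℚ)) {M : Type}
    [AddCommGroup M] (act : (AlgebraicClosure ℚ ≃ₐ[ℚ] AlgebraicClosure ℚ) → M → M)
    (Ht : Subalgebra A (M → AlgebraicClosure ℚ)) : Prop where
  integral : ∀ h ∈ Ht, ∀ P : M, h P ∈ A
  separates : ∀ P Q : M, (∀ h ∈ Ht, h P = h Q) → P = Q
  decomp_stable : ∀ σ ∈ A.decompositionSubgroup ℚ, ∀ h ∈ Ht,
    (fun P : M => σ (h (act σ⁻¹ P))) ∈ Ht
  inertia_span : ∀ h ∈ Ht, h ∈ Submodule.span A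
    {f : M → AlgebraicClosure ℚ | f ∈ Ht ∧
      ∀ σ ∈ A.inertiaSubgroupIn ℚ, ∀ P : M, f (act σ P) = σ (f P)}
  comul_mem : ∀ h ∈ Ht, (fun PQ : M × M => h (PQ.1 + PQ.2)) ∈
    Submodule.span A {F : M × M → AlgebraicClosure ℚ |
      ∃ a ∈ Ht, ∃ b ∈ Ht, F = fun PQ => a PQ.1 * b PQ.2}

/-- **ALG-A** (Galois descent): a local Hopf lattice over `A` gives a Hopf lattice over `ℤ_(p)`. -/
def LocalToGlobalStatement : Prop :=
  ∀ (p : ℕ) (_ : p.Prime) (A : ValuationSubring (AlgebraicClosure ℚ)) (_ : A.LiesOverPrime p)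
    (M : Type) (_ : AddCommGroup M) (_ : Finite M)
    (act : (AlgebraicClosure ℚ ≃ₐ[ℚ] AlgebraicClosure ℚ) → M → M) (_ : IsContAction act)
    (Ht : Subalgebra A (M → AlgebraicClosure ℚ)), IsLocalHopfLattice A act Ht →
    ∃ H : Subalgebra (GaloisRep.ratLocalizedAt p) (M → AlgebraicClosure ℚ),
      IsHopfLattice (GaloisRep.ratLocalizedAt p) act H

/-- The chart of the kernel of reduction (all that the algebra needs from the geometry). -/
structure KernelChart (A : ValuationSubring (AlgebraicClosure ℚ)) (J : Type) [AddCommGroup J]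
    [DistribMulAction (AlgebraicClosure ℚ ≃ₐ[ℚ] AlgebraicClosure ℚ) J]
    (J1 : AddSubgroup J) (g : ℕ) (z : J → Fin g → AlgebraicClosure ℚ) : Prop where
  decomp_stable : ∀ σ ∈ A.decompositionSubgroup ℚ, ∀ x ∈ J1, σ • x ∈ J1
  mem_nonunits : ∀ x ∈ J1, ∀ i, z x i ∈ A.nonunits
  injOn : ∀ x ∈ J1, ∀ y ∈ J1, z x = z y → x = y
  inertia_equivariant : ∀ σ ∈ A.inertiaSubgroupIn ℚ, ∀ x ∈ J1, ∀ i, z (σ • x) i = σ (z x i)
  add_approx : ∀ ϖ ∈ A.nonunits, ϖ ≠ 0 → ∀ n : ℕ,
    ∃ F : Fin g → MvPolynomial (Fin g ⊕ Fin g) (AlgebraicClosure ℚ),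
      (∀ i m, (F i).coeff m ∈ A) ∧
      ∀ x ∈ J1, ∀ y ∈ J1, (∀ i, ∃ a ∈ A, z x i = ϖ * a) → (∀ i, ∃ a ∈ A, z y i = ϖ * a) →
        ∀ i, ∃ a ∈ A, z (x + y) i - MvPolynomial.eval (Sum.elim (z x) (z y)) (F i) = ϖ ^ n * a
  lift : ∀ x : J, (∃ n : ℕ, 0 < n ∧ n • x = 0) →
    ∃ b : J, (∀ σ ∈ A.inertiaSubgroupIn ℚ, σ • b = b) ∧ x - b ∈ J1

/-- The action of `G_ℚ` on the `n`-torsion of a `G_ℚ`-module. -/
noncomputable def torsAct (J : Type) [AddCommGroup J]
    [DistribMulAction (AlgebraicClosure ℚ ≃ₐ[ℚ] AlgebraicClosure ℚ) J] (n : ℤ)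
    (σ : AlgebraicClosure ℚ ≃ₐ[ℚ] AlgebraicClosure ℚ) (x : Submodule.torsionBy ℤ J n) :
    Submodule.torsionBy ℤ J n :=
  ⟨σ • (x : J), by
    have hx := x.2
    rw [Submodule.mem_torsionBy_iff] at hx ⊢
    rw [← smul_comm, hx, smul_zero]⟩

/-- **ALG-B**: a kernel chart on `J` gives a local Hopf lattice on the finite group `J[n]`. -/
def ChartToLocalStatement : Prop :=
  ∀ (p : ℕ) (_ : p.Prime) (A : ValuationSubring (AlgebraicClosure ℚ)) (_ : A.LiesOverPrime p)
    (J : Type) (_ : AddCommGroup J)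
    (_ : DistribMulAction (AlgebraicClosure ℚ ≃ₐ[ℚ] AlgebraicClosure ℚ) J)
    (J1 : AddSubgroup J) (g : ℕ) (z : J → Fin g → AlgebraicClosure ℚ),
    KernelChart A J J1 g z →
    ∀ n : ℕ, 0 < n → Finite (Submodule.torsionBy ℤ J (n : ℤ)) →
      IsContAction (torsAct J (n : ℤ)) →
      ∃ Ht : Subalgebra A (Submodule.torsionBy ℤ J (n : ℤ) → AlgebraicClosure ℚ),
        IsLocalHopfLattice A (torsAct J (n : ℤ)) Ht

end Fermat.Agent.W1
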