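import Mathlib
import Fermat.Agent.W1.PlanGeo2

/-!
# W1-geo, part 3: the normalised family, the approximation lemma, the addition law

Plan: `NOTES/W1-geo.md` §3.  Notation of `PlanGeo.lean`, `PlanGeo2.lean`.

* `StmtBFamily` (**GEO-B**): functions `b (i,k) ∈ O`, poles only at the centres, expansions at the
  centres with coefficients in `A`, normalised principal parts: the coefficient of `T^{-(k'+2)}`
  of `b (i,k)` at `Q i'` is `1` if `(i,k) = (i',k')` and `0` otherwise
  (= the hypothesis `pol n (b j) = single j 1`, `n = 1`, of `RHF.exists_unique_rhf`).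
* `StmtApprox` (**GEO-AL**): a function of `O` with poles only in the discs, at points with
  coordinates in `ϖ A`, is congruent modulo `ϖ ^ n O` to a function of `O` with poles only at the
  centres.
* `StmtAddApprox` (**GEO-CMP**): the addition of the kernel of reduction in the coordinates of the
  chart is given modulo `ϖ ^ n` by polynomials with coefficients in `A` (not depending on `ϖ`).
-/

set_option autoImplicit false

open AlgebraicCurve Module

namespace Fermat.Agent.W1

variable {K F k Fk : Type} [Field K] [Field F] [Algebra K F] [Field k] [Field Fk] [Algebra k Fk]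
variable {A : ValuationSubring K}

/-- the values of the chart are representatives: congruent values are equal
(e.g. Teichmüller representatives) -/
def PRData.Chart.Rep {R : PRData K F k Fk A} {g : ℕ} (C : R.Chart g) : Prop :=
  ∀ i i' : Fin g, R.res (C.c i) = R.res (C.c i') → C.c i = C.c i'

/-- `f` has poles only at the centres of the chart -/
def PRData.Chart.PolesAtCentres {R : PRData K F k Fk A} {g : ℕ} (C : R.Chart g) (f : F) : Prop :=
  ∀ P : Place K F, P.ord f < 0 → ∃ i, P = C.Q i

/-- `f` has poles only in the discs of the chart, at points with coordinates in `ϖ A` -/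
def PRData.Chart.PolesInDiscs {R : PRData K F k Fk A} {g : ℕ} (C : R.Chart g) (ϖ : K) (f : F) :
    Prop :=
  ∀ P : Place K F, P.ord f < 0 → ∃ (i : Fin g) (z : K), C.InDisc i P z ∧ ∃ a ∈ A, z = ϖ * a

/-- **GEO-B**: the normalised family. -/
def StmtBFamily : Prop :=
  ∀ (K F k Fk : Type) [Field K] [Field F] [Algebra K F] [Field k] [Field Fk] [Algebra k Fk]
    (A : ValuationSubring K) (R : PRData K F k Fk A) (g : ℕ),
    R.IsPR → IsNiceCurve K F g → IsNiceCurve k Fk g → R.Orth →
    ∀ C : R.Chart g, C.IsChart →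
    ∃ b : Fin g × ℕ → F,
      (∀ j, b j ∈ R.O) ∧ (∀ j, C.PolesAtCentres (b j)) ∧
      ∀ (j : Fin g × ℕ) (i' : Fin g) (s : LaurentSeries K),
        IsExpansion (C.Q i') (C.tau i') (b j) s →
          (∀ m : ℤ, s.coeff m ∈ A) ∧
          ∀ k' : ℕ, s.coeff (-((k' : ℤ) + 2)) = if j = (i', k') then 1 else 0

/-- **GEO-AL**: moving the poles to the centres modulo `ϖ ^ n`. -/
def StmtApprox : Prop :=
  ∀ (K F k Fk : Type) [Field K] [Field F] [Algebra K F] [Field k] [Field Fk] [Algebra k Fk]
    (A : ValuationSubring K) (R : PRData K F k Fk A) (g : ℕ),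
    R.IsPR → IsNiceCurve K F g → IsNiceCurve k Fk g → R.Orth →
    ∀ C : R.Chart g, C.IsChart → C.Rep →
    ∀ ϖ : K, ϖ ∈ A.nonunits → ϖ ≠ 0 → ∀ f : F, f ∈ R.O → C.PolesInDiscs ϖ f →
    ∀ n : ℕ, ∃ f' : F, f' ∈ R.O ∧ C.PolesAtCentres f' ∧
      ∃ h : F, h ∈ R.O ∧ f - f' = algebraMap K F (ϖ ^ n) * h

/-- **GEO-CMP**: the addition law in the coordinates of the chart, modulo `ϖ ^ n`. -/
def StmtAddApprox : Prop :=
  ∀ (K F k Fk : Type) [Field K] [Field F] [Algebra K F] [Field k] [Field Fk] [Algebra k Fk]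
    (A : ValuationSubring K) (R : PRData K F k Fk A) (g : ℕ),
    R.IsPR → IsNiceCurve K F g → IsNiceCurve k Fk g → R.Orth →
    ∀ C : R.Chart g, C.IsChart → C.Rep →
    ∀ n : ℕ, ∃ Φ : Fin g → MvPolynomial (Fin g ⊕ Fin g) K,
      (∀ i m, (Φ i).coeff m ∈ A) ∧
      ∀ ϖ : K, ϖ ∈ A.nonunits → ϖ ≠ 0 →
      ∀ (P P' P'' : Fin g → Place K F) (z z' ζ : Fin g → K),
        (∀ i, C.InDisc i (P i) (z i)) → (∀ i, C.InDisc i (P' i) (z' i)) →
        (∀ i, C.InDisc i (P'' i) (ζ i)) →
        (∀ i, ∃ a ∈ A, z i = ϖ * a) → (∀ i, ∃ a ∈ A, z' i = ϖ * a) →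
        C.div P + C.div P' - C.div P'' ∈ Divisor.principal (K := K) (F := F) →
        ∀ i, ∃ a ∈ A, ζ i - MvPolynomial.eval (Sum.elim z z') (Φ i) = ϖ ^ n * a

end Fermat.Agent.W1
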