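import Mathlib
import Fermat.Prelude.Def_ModularCurve_ArithmeticGalois
import Fermat.Prelude.Def_ModularCurve_X0ModL
import Fermat.Agent.W1.PlanAlg
import Fermat.Agent.W1.PlanGeo3

/-!
# W1-geo, part 4: the concrete package for `F = ℚ̄(X₀(N))` and the final geometric statement

* `IsTeich A S` : `S ⊂ A` is a set of representatives of the residue field, fixed by inertia
  (`0` and the roots of unity of order prime to `p`).  `StmtTeich` : it exists.
* `ModPR N A g R t` : the reduction package `R` for `F = FF N`, `F̄ = k(j̄_d)`, with a Galois-fixed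
  good function `t` (in practice `t = j`), and its compatibility with the decomposition group.
  THIS is what the modular side (DEU + ES/INJ inputs) has to deliver (**GEO-PR**).
* `StmtKC` (**GEO-KC**): the package gives a `KernelChart` on `JZero N`.
* `StmtLevelUp` (**GEO-LVL**): pull-back `JZero N → JZero N'` (for the auxiliary level when
  `p ∈ {2, 3}`): additive, Galois equivariant, injective on `p`-power torsion.
-/

set_option autoImplicit false

open AlgebraicCurve Module ModularCurve

namespace Fermat.Agent.W1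

/-- Teichmüller-type representatives of the residue field of `A`. -/
structure IsTeich (A : ValuationSubring (AlgebraicClosure ℚ)) (S : Set A) : Prop where
  surj : ∀ c : IsLocalRing.ResidueField A, ∃ s ∈ S, IsLocalRing.residue A s = c
  inj : ∀ s ∈ S, ∀ s' ∈ S, IsLocalRing.residue A s = IsLocalRing.residue A s' → s = s'
  fixed : ∀ σ ∈ A.inertiaSubgroupIn ℚ, ∀ s ∈ S, σ (s : AlgebraicClosure ℚ) = s

/-- Teichmüller representatives exist. -/
def StmtTeich : Prop :=
  ∀ p : ℕ, p.Prime → ∀ A : ValuationSubring (AlgebraicClosure ℚ), A.LiesOverPrime p →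
    ∃ S : Set A, IsTeich A S

/-- **GEO-PR**: the reduction package of `X₀(N)` at `A`, with its Galois compatibility. -/
structure ModPR (N : ℕ) [NeZero N] (A : ValuationSubring (AlgebraicClosure ℚ)) (g : ℕ)
    (R : PRData (AlgebraicClosure ℚ) ↥(modularFunctionFieldBar N) (IsLocalRing.ResidueField A)
      ↥(modularFunctionFieldFullC (IsLocalRing.ResidueField A) N) A)
    (t : ↥(modularFunctionFieldBar N)) : Prop where
  isPR : R.IsPR
  res_eq : R.res = IsLocalRing.residue A
  orth : R.Orth
  nice : IsNiceCurve (AlgebraicClosure ℚ) ↥(modularFunctionFieldBar N) g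
  nice_k : IsNiceCurve (IsLocalRing.ResidueField A)
    ↥(modularFunctionFieldFullC (IsLocalRing.ResidueField A) N) g
  good : R.GoodFn t
  ram : ∀ ht : t ∈ R.O,
    {Q : Place (IsLocalRing.ResidueField A)
        ↥(modularFunctionFieldFullC (IsLocalRing.ResidueField A) N) |
      ¬ ∃ c : IsLocalRing.ResidueField A, Q.ord (R.red ⟨t, ht⟩ - algebraMap _ _ c) = 1}.Finite
  t_fixed : ∀ σ : AlgebraicClosure ℚ ≃ₐ[ℚ] AlgebraicClosure ℚ,
    arithmeticGalois (modularFunctionFieldFull N) σ • t = t
  decomp : ∀ σ ∈ A.decompositionSubgroup ℚ,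
    ∃ σb : Place (IsLocalRing.ResidueField A)
        ↥(modularFunctionFieldFullC (IsLocalRing.ResidueField A) N) →
      Place (IsLocalRing.ResidueField A)
        ↥(modularFunctionFieldFullC (IsLocalRing.ResidueField A) N),
      (∀ P, R.r (arithmeticGalois (modularFunctionFieldFull N) σ • P) = σb (R.r P)) ∧
      ∀ E ∈ Divisor.principal (K := IsLocalRing.ResidueField A)
          (F := ↥(modularFunctionFieldFullC (IsLocalRing.ResidueField A) N)),
        Finsupp.mapDomain σb E ∈ Divisor.principal (K := IsLocalRing.ResidueField A)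
          (F := ↥(modularFunctionFieldFullC (IsLocalRing.ResidueField A) N))
  inertia : ∀ σ ∈ A.inertiaSubgroupIn ℚ, ∀ P,
    R.r (arithmeticGalois (modularFunctionFieldFull N) σ • P) = R.r P

/-- the package exists at the level `N` and the valuation ring `A` -/
def HasModPR (N : ℕ) [NeZero N] (A : ValuationSubring (AlgebraicClosure ℚ)) : Prop :=
  ∃ (g : ℕ) (R : PRData (AlgebraicClosure ℚ) ↥(modularFunctionFieldBar N)
      (IsLocalRing.ResidueField A) ↥(modularFunctionFieldFullC (IsLocalRing.ResidueField A) N) A)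
    (t : ↥(modularFunctionFieldBar N)), ModPR N A g R t

/-- the final geometric statement at `(N, A)` -/
def HasKernelChart (N : ℕ) [NeZero N] (A : ValuationSubring (AlgebraicClosure ℚ)) : Prop :=
  ∃ (J1 : AddSubgroup (JZero N)) (g : ℕ) (z : JZero N → Fin g → AlgebraicClosure ℚ),
    KernelChart A (JZero N) J1 g z

/-- **GEO-KC**: the abstract pieces and the concrete package give the kernel chart. -/
def StmtKC : Prop :=
  StmtEval → StmtOnto → StmtDisc → StmtC1 → StmtC1Conv → StmtLift → StmtAddApprox → StmtTeich →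
    ∀ (N : ℕ) [NeZero N] (p : ℕ), p.Prime →
      ∀ A : ValuationSubring (AlgebraicClosure ℚ), A.LiesOverPrime p →
        HasModPR N A → HasKernelChart N A

/-- **GEO-LVL**: pull-back to a higher level, injective on `p`-power torsion. -/
def StmtLevelUp (N N' p : ℕ) [NeZero N] [NeZero N'] : Prop :=
  ∃ φ : JZero N →+ JZero N',
    (∀ (σ : AlgebraicClosure ℚ ≃ₐ[ℚ] AlgebraicClosure ℚ) (x : JZero N), φ (σ • x) = σ • φ x) ∧
    ∀ x : JZero N, (∃ n : ℕ, (p ^ n) • x = 0) → φ x = 0 → x = 0

end Fermat.Agent.W1
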