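import Mathlib
import Fermat.Agent.S05.Inertia
import Fermat.Agent.Common.FrobLemmaX
import Fermat.Agent.W1.PlanGeo4

/-!
# W1: Teichmüller representatives in a valuation ring of `ℚ̄` over `p`

`teichSet p A := {0} ∪ {roots of unity of order prime to p}` (as a subset of `A`).

* `teich_eq_one_of_sub_mem` : a root of unity of order prime to `p` which is `≡ 1` mod `𝔪` is `1`;
* `teich_exists_root` : every `m`-th root of unity of the residue field lifts to an `m`-th root of
  unity of `ℚ̄`;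
* `teich_residue_finOrder` : every nonzero element of the residue field is a root of unity of
  order prime to `p`;
* `isTeich_teichSet`, `stmtTeich : StmtTeich`.
-/

set_option autoImplicit false

open Polynomial

namespace Fermat.Agent.W1

variable {p : ℕ} {A : ValuationSubring (AlgebraicClosure ℚ)}

/-! ### Elementary facts -/

theorem teich_one_not_mem_nonunits (A : ValuationSubring (AlgebraicClosure ℚ)) :
    (1 : AlgebraicClosure ℚ) ∉ A.nonunits := by
  intro h
  rw [ValuationSubring.mem_nonunits_iff] at h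
  simp at h

theorem teich_natCast_mem (A : ValuationSubring (AlgebraicClosure ℚ)) (n : ℕ) :
    (n : AlgebraicClosure ℚ) ∈ A := natCast_mem A n

theorem teich_nonunits_add {x y : AlgebraicClosure ℚ} (hx : x ∈ A.nonunits)
    (hy : y ∈ A.nonunits) : x + y ∈ A.nonunits := by
  rw [ValuationSubring.mem_nonunits_iff_exists_mem_maximalIdeal] at hx hy ⊢
  obtain ⟨hx1, hx2⟩ := hx
  obtain ⟨hy1, hy2⟩ := hy
  exact ⟨add_mem hx1 hy1, (IsLocalRing.maximalIdeal A).add_mem hx2 hy2⟩

theorem teich_nonunits_sub {x y : AlgebraicClosure ℚ} (hx : x ∈ A.nonunits)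
    (hy : y ∈ A.nonunits) : x - y ∈ A.nonunits := by
  rw [ValuationSubring.mem_nonunits_iff_exists_mem_maximalIdeal] at hx hy ⊢
  obtain ⟨hx1, hx2⟩ := hx
  obtain ⟨hy1, hy2⟩ := hy
  exact ⟨sub_mem hx1 hy1, (IsLocalRing.maximalIdeal A).sub_mem hx2 hy2⟩

theorem teich_mul_nonunits {x y : AlgebraicClosure ℚ} (hx : x ∈ A)
    (hy : y ∈ A.nonunits) : x * y ∈ A.nonunits := by
  rw [ValuationSubring.mem_nonunits_iff_exists_mem_maximalIdeal] at hy ⊢
  obtain ⟨hy1, hy2⟩ := hy
  exact ⟨mul_mem hx hy1, (IsLocalRing.maximalIdeal A).mul_mem_left ⟨x, hx⟩ hy2⟩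

theorem teich_zero_mem_nonunits (A : ValuationSubring (AlgebraicClosure ℚ)) :
    (0 : AlgebraicClosure ℚ) ∈ A.nonunits := by
  rw [ValuationSubring.mem_nonunits_iff_or]
  exact Or.inl rfl

theorem teich_nonunits_mem {x : AlgebraicClosure ℚ} (hx : x ∈ A.nonunits) : x ∈ A := by
  rw [ValuationSubring.mem_nonunits_iff_exists_mem_maximalIdeal] at hx
  exact hx.1

theorem teich_mem_nonunits_iff_residue (x : A) :
    (x : AlgebraicClosure ℚ) ∈ A.nonunits ↔ IsLocalRing.residue A x = 0 := by
  rw [IsLocalRing.residue_eq_zero_iff, ValuationSubring.mem_nonunits_iff_exists_mem_maximalIdeal]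
  exact ⟨fun ⟨_, h⟩ => h, fun h => ⟨x.2, h⟩⟩

/-- An integer prime to `p` is a unit of `A`. -/
theorem teich_natCast_not_mem_nonunits (hp : p.Prime) (hA : A.LiesOverPrime p) {n : ℕ}
    (hn : ¬ p ∣ n) : (n : AlgebraicClosure ℚ) ∉ A.nonunits := by
  intro h
  have hcop : IsCoprime (p : ℤ) (n : ℤ) := by
    rw [Int.isCoprime_iff_gcd_eq_one, Int.gcd_natCast_natCast]
    exact (Nat.Prime.coprime_iff_not_dvd hp).mpr hn
  obtain ⟨u, v, huv⟩ := hcop
  have h1 : (u : AlgebraicClosure ℚ) * (p : AlgebraicClosure ℚ)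
      + (v : AlgebraicClosure ℚ) * (n : AlgebraicClosure ℚ) = 1 := by
    have := congrArg (fun z : ℤ => (z : AlgebraicClosure ℚ)) huv
    simpa using this
  have h2 : (u : AlgebraicClosure ℚ) * (p : AlgebraicClosure ℚ)
      + (v : AlgebraicClosure ℚ) * (n : AlgebraicClosure ℚ) ∈ A.nonunits :=
    teich_nonunits_add (teich_mul_nonunits (intCast_mem A u) hA)
      (teich_mul_nonunits (intCast_mem A v) h)
  rw [h1] at h2
  exact teich_one_not_mem_nonunits A h2

/-- A root of unity lies in `A` and is a unit there. -/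
theorem teich_root_mem {ζ : AlgebraicClosure ℚ} {m : ℕ} (hm : 0 < m) (hζ : ζ ^ m = 1) :
    ζ ∈ A ∧ ζ ∉ A.nonunits ∧ ζ⁻¹ ∈ A := by
  have hζ0 : ζ ≠ 0 := by
    rintro rfl
    rw [zero_pow hm.ne'] at hζ
    exact zero_ne_one hζ
  have key : ∀ ξ : AlgebraicClosure ℚ, ξ ^ m = 1 → ξ ∈ A := by
    intro ξ hξ
    by_contra hξA
    have h1 : ξ⁻¹ ∈ A.nonunits := by
      rw [ValuationSubring.mem_nonunits_iff_or]
      right
      rwa [inv_inv]
    have h2 : (ξ⁻¹) ^ m ∈ A.nonunits := by
      obtain ⟨j, rfl⟩ : ∃ j, m = j + 1 := ⟨m - 1, by omega⟩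
      rw [pow_succ]
      exact teich_mul_nonunits (pow_mem (teich_nonunits_mem h1) j) h1
    rw [inv_pow, hξ, inv_one] at h2
    exact teich_one_not_mem_nonunits A h2
  have hinv : ζ⁻¹ ∈ A := key ζ⁻¹ (by rw [inv_pow, hζ, inv_one])
  refine ⟨key ζ hζ, ?_, hinv⟩
  rw [ValuationSubring.mem_nonunits_iff_or]
  push Not
  exact ⟨hζ0, hinv⟩

/-- **Injectivity of the residue map on roots of unity of order prime to `p`**: a root of unity
of order prime to `p` which is congruent to `1` is `1`. -/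
theorem teich_eq_one_of_sub_mem (hp : p.Prime) (hA : A.LiesOverPrime p)
    {ξ : AlgebraicClosure ℚ} {n : ℕ} (hn : ¬ p ∣ n) (hξ : ξ ^ n = 1)
    (h1 : ξ - 1 ∈ A.nonunits) : ξ = 1 := by
  by_contra hne
  have hgeom : (∑ i ∈ Finset.range n, ξ ^ i) * (ξ - 1) = 0 := by
    rw [geom_sum_mul, hξ, sub_self]
  have hsum0 : ∑ i ∈ Finset.range n, ξ ^ i = 0 := by
    rcases mul_eq_zero.mp hgeom with h | h
    · exact h
    · exact absurd (sub_eq_zero.mp h) hne
  have hξA : ξ ∈ A := by
    have := add_mem (teich_nonunits_mem h1) A.one_mem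
    simpa using this
  have hpow : ∀ i : ℕ, ξ ^ i - 1 ∈ A.nonunits := by
    intro i
    have : ξ ^ i - 1 = (∑ j ∈ Finset.range i, ξ ^ j) * (ξ - 1) := by rw [geom_sum_mul]
    rw [this]
    exact teich_mul_nonunits (sum_mem fun j _ => pow_mem hξA j) h1
  have hdiff : (∑ i ∈ Finset.range n, ξ ^ i) - (n : AlgebraicClosure ℚ) ∈ A.nonunits := by
    have : (∑ i ∈ Finset.range n, ξ ^ i) - (n : AlgebraicClosure ℚ)
        = ∑ i ∈ Finset.range n, (ξ ^ i - 1) := by
      rw [Finset.sum_sub_distrib]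
      simp
    rw [this]
    exact sum_mem fun i _ => hpow i
  rw [hsum0, zero_sub] at hdiff
  have hn' : (n : AlgebraicClosure ℚ) ∈ A.nonunits := by
    have := neg_mem hdiff
    simpa using this
  exact teich_natCast_not_mem_nonunits hp hA hn hn'

/-- Two roots of unity of order prime to `p` which are congruent are equal. -/
theorem teich_eq_of_sub_mem (hp : p.Prime) (hA : A.LiesOverPrime p)
    {ζ ζ' : AlgebraicClosure ℚ} {m m' : ℕ} (hm : 0 < m) (hpm : ¬ p ∣ m) (hpm' : ¬ p ∣ m')
    (hζ : ζ ^ m = 1) (hζ' : ζ' ^ m' = 1) (h : ζ' - ζ ∈ A.nonunits) : ζ' = ζ := by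
  obtain ⟨-, hζu, hζinv⟩ := teich_root_mem (A := A) hm hζ
  have hζ0 : ζ ≠ 0 := by
    rintro rfl
    exact hζu (teich_zero_mem_nonunits A)
  have hξ : (ζ' * ζ⁻¹) ^ (m * m') = 1 := by
    rw [mul_pow, inv_pow, pow_mul ζ, hζ, one_pow, inv_one, mul_one, mul_comm m m', pow_mul, hζ',
      one_pow]
  have hdvd : ¬ p ∣ m * m' := fun hd => (hp.dvd_mul.mp hd).elim hpm hpm'
  have h1 : ζ' * ζ⁻¹ - 1 ∈ A.nonunits := by
    have : ζ' * ζ⁻¹ - 1 = ζ⁻¹ * (ζ' - ζ) := by field_simp
    rw [this]
    exact teich_mul_nonunits hζinv h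
  have := teich_eq_one_of_sub_mem hp hA hdvd hξ h1
  field_simp at this
  exact this

/-! ### Lifting roots of unity -/

/-- a product of elements of `A` lying in `𝔪` has a factor in `𝔪` -/
theorem teich_exists_mem_of_prod_mem (s : Multiset (AlgebraicClosure ℚ))
    (hs : ∀ x ∈ s, x ∈ A) (hprod : s.prod ∈ A.nonunits) : ∃ x ∈ s, x ∈ A.nonunits := by
  induction s using Multiset.induction_on with
  | empty =>
    rw [Multiset.prod_zero] at hprod
    exact absurd hprod (teich_one_not_mem_nonunits A)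
  | cons a s ih =>
    rw [Multiset.prod_cons] at hprod
    have haA : a ∈ A := hs a (Multiset.mem_cons_self a s)
    have hsA : ∀ x ∈ s, x ∈ A := fun x hx => hs x (Multiset.mem_cons_of_mem hx)
    have hpA : s.prod ∈ A := multiset_prod_mem s hsA
    by_cases ha : a ∈ A.nonunits
    · exact ⟨a, Multiset.mem_cons_self a s, ha⟩
    · by_cases hp' : s.prod ∈ A.nonunits
      · obtain ⟨x, hx, hx'⟩ := ih hsA hp'
        exact ⟨x, Multiset.mem_cons_of_mem hx, hx'⟩
      · exfalso
        rw [ValuationSubring.mem_nonunits_iff] at ha hp' hprod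
        rw [not_lt] at ha hp'
        rw [map_mul] at hprod
        have h1 : A.valuation a = 1 := le_antisymm ((A.valuation_le_one_iff a).mpr haA) ha
        have h2 : A.valuation s.prod = 1 :=
          le_antisymm ((A.valuation_le_one_iff _).mpr hpA) hp'
        rw [h1, h2, one_mul] at hprod
        exact lt_irrefl _ hprod

/-- every `a ∈ A` with `a ^ m ≡ 1` is congruent to an `m`-th root of unity -/
theorem teich_exists_root {m : ℕ} (hm : 0 < m) {a : AlgebraicClosure ℚ} (ha : a ∈ A)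
    (h : a ^ m - 1 ∈ A.nonunits) :
    ∃ ζ : AlgebraicClosure ℚ, ζ ^ m = 1 ∧ a - ζ ∈ A.nonunits := by
  set f : (AlgebraicClosure ℚ)[X] := X ^ m - 1 with hf
  have hmonic : f.Monic := monic_X_pow_sub_C (1 : AlgebraicClosure ℚ) hm.ne'
  have hsplit : f.Splits := IsAlgClosed.splits f
  have hprod : f = (f.roots.map fun ζ => X - C ζ).prod :=
    hsplit.eq_prod_roots_of_monic hmonic
  have heval : a ^ m - 1 = (f.roots.map fun ζ => a - ζ).prod := by
    have h1 := congrArg (Polynomial.eval a) hprod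
    rw [Polynomial.eval_multiset_prod, Multiset.map_map] at h1
    simpa [hf] using h1
  have hroot : ∀ ζ ∈ f.roots, ζ ^ m = 1 := by
    intro ζ hζ
    have := (Polynomial.mem_roots hmonic.ne_zero).mp hζ
    rw [Polynomial.IsRoot, hf] at this
    simpa [sub_eq_zero] using this
  rw [heval] at h
  obtain ⟨x, hx, hx'⟩ := teich_exists_mem_of_prod_mem _ (by
    intro x hx
    obtain ⟨ζ, hζ, rfl⟩ := Multiset.mem_map.mp hx
    exact sub_mem ha (teich_root_mem (A := A) hm (hroot ζ hζ)).1) h
  obtain ⟨ζ, hζ, rfl⟩ := Multiset.mem_map.mp hx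
  exact ⟨ζ, hroot ζ hζ, hx'⟩

/-! ### The residue field is algebraic over `𝔽_p` -/

theorem teich_residue_natCast_self (hA : A.LiesOverPrime p) :
    ((p : ℕ) : IsLocalRing.ResidueField A) = 0 := by
  have h1 : (((p : A) : A) : AlgebraicClosure ℚ) ∈ A.nonunits := by
    have : (((p : A) : A) : AlgebraicClosure ℚ) = (p : AlgebraicClosure ℚ) := by push_cast; rfl
    rw [this]; exact hA
  have h2 := (teich_mem_nonunits_iff_residue (p : A)).mp h1
  simpa using h2

theorem teich_charP (hp : p.Prime) (hA : A.LiesOverPrime p) :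
    CharP (IsLocalRing.ResidueField A) p :=
  (CharP.charP_iff_prime_eq_zero hp).mpr (teich_residue_natCast_self hA)

/-- every nonzero element of the residue field has finite order -/
theorem teich_residue_pow_eq_one (hp : p.Prime) (hA : A.LiesOverPrime p)
    (c : IsLocalRing.ResidueField A) (hc : c ≠ 0) : ∃ n : ℕ, 0 < n ∧ c ^ n = 1 := by
  have : Fact p.Prime := ⟨hp⟩
  have := teich_charP hp hA
  let _ : Algebra (ZMod p) (IsLocalRing.ResidueField A) := ZMod.algebra _ p
  obtain ⟨a, rfl⟩ := IsLocalRing.residue_surjective c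
  obtain ⟨f, -, hfa, i, hi⟩ := Fermat.Agent.Common.lemmaX_exists_poly p hp (a : AlgebraicClosure ℚ)
  -- `c` is algebraic over `𝔽_p`
  have hfA : Polynomial.eval₂ (Int.castRingHom A) a f = 0 := by
    apply Subtype.ext
    have h1 : ((Polynomial.eval₂ (Int.castRingHom A) a f : A) : AlgebraicClosure ℚ)
        = Polynomial.eval₂ ((A.subtype).comp (Int.castRingHom A)) (A.subtype a) f :=
      Polynomial.hom_eval₂ f (Int.castRingHom A) A.subtype a
    have h2 : (A.subtype).comp (Int.castRingHom A) = algebraMap ℤ (AlgebraicClosure ℚ) :=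
      RingHom.ext_int _ _
    rw [h1, h2]
    exact hfa
  have halg : IsAlgebraic (ZMod p) (IsLocalRing.residue A a) := by
    refine ⟨f.map (Int.castRingHom (ZMod p)), ?_, ?_⟩
    · intro h0
      apply hi
      have h3 := congrArg (fun q => Polynomial.coeff q i) h0
      simp only [Polynomial.coeff_map, Polynomial.coeff_zero] at h3
      exact (ZMod.intCast_zmod_eq_zero_iff_dvd _ _).mp h3
    · rw [Polynomial.aeval_def, Polynomial.eval₂_map]
      have h4 : (algebraMap (ZMod p) (IsLocalRing.ResidueField A)).comp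
          (Int.castRingHom (ZMod p)) = (IsLocalRing.residue A).comp (Int.castRingHom A) :=
        RingHom.ext_int _ _
      rw [h4, ← Polynomial.hom_eval₂, hfA, map_zero]
  have hint : IsIntegral (ZMod p) (IsLocalRing.residue A a) := halg.isIntegral
  -- the subalgebra generated by `c` is finite
  set B := Algebra.adjoin (ZMod p) {IsLocalRing.residue A a} with hB
  have : Module.Finite (ZMod p) B :=
    Module.Finite.iff_fg.2 hint.fg_adjoin_singleton
  have : Finite B := Module.finite_of_finite (ZMod p)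
  have hcB : IsLocalRing.residue A a ∈ B := Algebra.subset_adjoin (Set.mem_singleton _)
  obtain ⟨i, j, hij, hpow⟩ := Finite.exists_ne_map_eq_of_infinite
    (fun n : ℕ => (⟨IsLocalRing.residue A a, hcB⟩ : B) ^ n)
  have hpow' : (IsLocalRing.residue A a) ^ i = (IsLocalRing.residue A a) ^ j := by
    have := congrArg (fun b : B => (b : IsLocalRing.ResidueField A)) hpow
    simpa using this
  rcases lt_or_gt_of_ne hij with hlt | hlt
  · refine ⟨j - i, by omega, ?_⟩
    have h5 : (IsLocalRing.residue A a) ^ i * (IsLocalRing.residue A a) ^ (j - i)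
        = (IsLocalRing.residue A a) ^ i * 1 := by
      have hij' : i + (j - i) = j := by omega
      rw [← pow_add, mul_one, hij', hpow']
    exact mul_left_cancel₀ (pow_ne_zero i hc) h5
  · refine ⟨i - j, by omega, ?_⟩
    have h5 : (IsLocalRing.residue A a) ^ j * (IsLocalRing.residue A a) ^ (i - j)
        = (IsLocalRing.residue A a) ^ j * 1 := by
      have hij' : j + (i - j) = i := by omega
      rw [← pow_add, mul_one, hij', hpow']
    exact mul_left_cancel₀ (pow_ne_zero j hc) h5

/-- every nonzero element of the residue field is a root of unity of order prime to `p` -/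
theorem teich_residue_finOrder (hp : p.Prime) (hA : A.LiesOverPrime p)
    (c : IsLocalRing.ResidueField A) (hc : c ≠ 0) :
    ∃ m : ℕ, 0 < m ∧ ¬ p ∣ m ∧ c ^ m = 1 := by
  have : Fact p.Prime := ⟨hp⟩
  have := teich_charP hp hA
  obtain ⟨n, hn, hcn⟩ := teich_residue_pow_eq_one hp hA c hc
  obtain ⟨e, m, hpm, rfl⟩ := Nat.exists_eq_pow_mul_and_not_dvd hn.ne' p hp.ne_one
  have hm : 0 < m := by
    rcases Nat.eq_zero_or_pos m with h | h
    · rw [h, mul_zero] at hn; exact absurd hn (lt_irrefl _)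
    · exact h
  refine ⟨m, hm, hpm, ?_⟩
  have h1 : (c ^ m - 1) ^ p ^ e = 0 := by
    rw [sub_pow_char_pow, one_pow, ← pow_mul, mul_comm m, hcn, sub_self]
  exact sub_eq_zero.mp (pow_eq_zero_iff (pow_pos hp.pos e).ne' |>.mp h1)

/-! ### The Teichmüller set -/

/-- `{0} ∪ {roots of unity of order prime to p}` as a subset of `A`. -/
def teichSet (p : ℕ) (A : ValuationSubring (AlgebraicClosure ℚ)) : Set A :=
  {s | (s : AlgebraicClosure ℚ) = 0 ∨
    ∃ m : ℕ, 0 < m ∧ ¬ p ∣ m ∧ (s : AlgebraicClosure ℚ) ^ m = 1}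

theorem isTeich_teichSet (hp : p.Prime) (hA : A.LiesOverPrime p) : IsTeich A (teichSet p A) where
  surj := by
    intro c
    by_cases hc : c = 0
    · exact ⟨0, Or.inl rfl, by rw [map_zero, hc]⟩
    obtain ⟨m, hm, hpm, hcm⟩ := teich_residue_finOrder hp hA c hc
    obtain ⟨a, rfl⟩ := IsLocalRing.residue_surjective c
    have h1 : ((a : AlgebraicClosure ℚ)) ^ m - 1 ∈ A.nonunits := by
      have h2 : IsLocalRing.residue A (a ^ m - 1) = 0 := by
        rw [map_sub, map_pow, hcm, map_one, sub_self]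
      exact (teich_mem_nonunits_iff_residue (a ^ m - 1)).mpr h2
    obtain ⟨ζ, hζ, hζa⟩ := teich_exists_root hm a.2 h1
    have hζA : ζ ∈ A := (teich_root_mem (A := A) hm hζ).1
    refine ⟨⟨ζ, hζA⟩, Or.inr ⟨m, hm, hpm, hζ⟩, ?_⟩
    have h3 : IsLocalRing.residue A (a - ⟨ζ, hζA⟩) = 0 :=
      (teich_mem_nonunits_iff_residue (a - ⟨ζ, hζA⟩)).mp hζa
    rw [map_sub, sub_eq_zero] at h3
    exact h3.symm
  inj := by
    intro s hs s' hs' hres
    have hdiff : ((s' : AlgebraicClosure ℚ)) - (s : AlgebraicClosure ℚ) ∈ A.nonunits := by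
      have h2 : IsLocalRing.residue A (s' - s) = 0 := by rw [map_sub, hres, sub_self]
      exact (teich_mem_nonunits_iff_residue (s' - s)).mpr h2
    apply Subtype.ext
    rcases hs with hs | ⟨m, hm, hpm, hsm⟩ <;> rcases hs' with hs' | ⟨m', hm', hpm', hsm'⟩
    · rw [hs, hs']
    · exfalso
      rw [hs, sub_zero] at hdiff
      exact (teich_root_mem (A := A) hm' hsm').2.1 hdiff
    · exfalso
      rw [hs', zero_sub] at hdiff
      have := neg_mem hdiff
      rw [neg_neg] at this
      exact (teich_root_mem (A := A) hm hsm).2.1 this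
    · exact (teich_eq_of_sub_mem hp hA hm hpm hpm' hsm hsm' hdiff).symm
  fixed := by
    intro σ hσ s hs
    rcases hs with hs | ⟨m, hm, hpm, hsm⟩
    · rw [hs, map_zero]
    · have h1 : σ (s : AlgebraicClosure ℚ) - (s : AlgebraicClosure ℚ) ∈ A.nonunits :=
        Fermat.Agent.S05.inertia_apply_sub_mem_nonunits hσ s.2
      have h2 : (σ (s : AlgebraicClosure ℚ)) ^ m = 1 := by rw [← map_pow, hsm, map_one]
      exact teich_eq_of_sub_mem hp hA hm hpm hpm hsm h2 h1

/-- **Teichmüller representatives exist.** -/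
theorem stmtTeich : StmtTeich := fun p hp A hA => ⟨teichSet p A, isTeich_teichSet hp hA⟩

end Fermat.Agent.W1
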