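import Mathlib
import Fermat.Agent.W1.PlanAlg

/-!
# W1 ALG-B: a kernel chart gives a local Hopf lattice on `J[n]`

`chartToLocalStatement : ChartToLocalStatement` (statement in `PlanAlg.lean`).

`Ht` := the `A`-subalgebra of `Map(J[n], ℚ̄)` generated by the indicator functions
`ctlInd b : c ↦ [c - b ∈ J1]` and by `ctlPsi σ b i : c ↦ [c - b ∈ J1] · σ (z (σ⁻¹ (c - b)) i)`
(`σ` in the decomposition group, `b` an inertia-fixed point of `J`).

* integral, separates, decomp_stable, inertia_span: by induction on the generators.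
* comul_mem: on a product of cosets the comultiplication of `ctlPsi σ b i` is
  `σ(F_i)(ψ ⊗ 1, 1 ⊗ ψ') + σ(ϖ)ⁿ · (A-valued)` by `add_approx`; the error term lies in
  `Ht ⊗ Ht` for `n ≫ 0` by Lagrange interpolation (`d · δ_c ∈ Ht`) and because the value group
  of `A` has rank one (`ctl_exists_pow_eq_mul`).
-/

set_option autoImplicit false
set_option linter.style.haveILetI false
set_option linter.unusedSectionVars false

namespace Fermat.Agent.W1

open Polynomial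
open scoped Pointwise

section Basic

variable (A : ValuationSubring (AlgebraicClosure ℚ))

/-- the inertia group is contained in the decomposition group -/
theorem ctl_inertia_le_decomp {γ : AlgebraicClosure ℚ ≃ₐ[ℚ] AlgebraicClosure ℚ}
    (hγ : γ ∈ A.inertiaSubgroupIn ℚ) : γ ∈ A.decompositionSubgroup ℚ := by
  obtain ⟨g, -, rfl⟩ := Subgroup.mem_map.1 hγ
  exact g.2

/-- the inertia group is normalised by the decomposition group -/
theorem ctl_inertia_conj {σ γ : AlgebraicClosure ℚ ≃ₐ[ℚ] AlgebraicClosure ℚ}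
    (hσ : σ ∈ A.decompositionSubgroup ℚ) (hγ : γ ∈ A.inertiaSubgroupIn ℚ) :
    σ * γ * σ⁻¹ ∈ A.inertiaSubgroupIn ℚ := by
  obtain ⟨g, hg, rfl⟩ := Subgroup.mem_map.1 hγ
  have hn : (A.inertiaSubgroup ℚ).Normal := by
    unfold ValuationSubring.inertiaSubgroup
    infer_instance
  have h1 := hn.conj_mem g hg ⟨σ, hσ⟩
  refine Subgroup.mem_map.2 ⟨_, h1, ?_⟩
  simp only [Subgroup.subtype_apply, Subgroup.coe_mul, Subgroup.coe_inv]

theorem ctl_inertia_conj' {σ γ : AlgebraicClosure ℚ ≃ₐ[ℚ] AlgebraicClosure ℚ}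
    (hσ : σ ∈ A.decompositionSubgroup ℚ) (hγ : γ ∈ A.inertiaSubgroupIn ℚ) :
    σ⁻¹ * γ * σ ∈ A.inertiaSubgroupIn ℚ := by
  have := ctl_inertia_conj A (Subgroup.inv_mem _ hσ) hγ
  rwa [inv_inv] at this

/-- the decomposition group preserves `A` -/
theorem ctl_decomp_mem {σ : AlgebraicClosure ℚ ≃ₐ[ℚ] AlgebraicClosure ℚ}
    (hσ : σ ∈ A.decompositionSubgroup ℚ) {a : AlgebraicClosure ℚ} (ha : a ∈ A) : σ a ∈ A := by
  have hstab : σ • A = A := MulAction.mem_stabilizer_iff.mp hσ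
  have h1 : σ • a ∈ σ • A := ValuationSubring.smul_mem_pointwise_smul σ a _ ha
  rw [hstab] at h1
  exact h1

theorem ctl_decomp_mem_iff {σ : AlgebraicClosure ℚ ≃ₐ[ℚ] AlgebraicClosure ℚ}
    (hσ : σ ∈ A.decompositionSubgroup ℚ) {a : AlgebraicClosure ℚ} : σ a ∈ A ↔ a ∈ A := by
  refine ⟨fun h => ?_, ctl_decomp_mem A hσ⟩
  have := ctl_decomp_mem A (Subgroup.inv_mem _ hσ) h
  have h2 : σ⁻¹ (σ a) = a := by
    show (σ⁻¹ * σ) a = a
    rw [inv_mul_cancel]; rfl
  rwa [h2] at this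

/-- the decomposition group preserves the maximal ideal of `A` -/
theorem ctl_decomp_mem_nonunits {σ : AlgebraicClosure ℚ ≃ₐ[ℚ] AlgebraicClosure ℚ}
    (hσ : σ ∈ A.decompositionSubgroup ℚ) {a : AlgebraicClosure ℚ} (ha : a ∈ A.nonunits) :
    σ a ∈ A.nonunits := by
  rw [ValuationSubring.mem_nonunits_iff_or] at ha ⊢
  rcases ha with rfl | ha
  · left; exact map_zero σ
  · right
    rw [← map_inv₀, ctl_decomp_mem_iff A hσ]
    exact ha

end Basic


section RankOne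

variable (A : ValuationSubring (AlgebraicClosure ℚ)) {p : ℕ}

theorem ctl_one_not_mem_nonunits : (1 : AlgebraicClosure ℚ) ∉ A.nonunits := by
  rw [ValuationSubring.mem_nonunits_iff_or]
  push Not
  exact ⟨one_ne_zero, by rw [inv_one]; exact A.one_mem⟩

theorem ctl_inv_mem_of_not_mem_nonunits {x : AlgebraicClosure ℚ} (hx : x ∉ A.nonunits) :
    x⁻¹ ∈ A := by
  rw [ValuationSubring.mem_nonunits_iff_or] at hx
  push Not at hx
  exact hx.2

theorem ctl_mul_mem_nonunits {a x : AlgebraicClosure ℚ} (ha : a ∈ A) (hx : x ∈ A.nonunits) :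
    a * x ∈ A.nonunits := by
  obtain ⟨hx', hxm⟩ := ValuationSubring.mem_nonunits_iff_exists_mem_maximalIdeal.1 hx
  exact ValuationSubring.mem_nonunits_iff_exists_mem_maximalIdeal.2
    ⟨mul_mem ha hx', Ideal.mul_mem_left _ ⟨a, ha⟩ hxm⟩

/-- an integer prime to `p` is a unit of `A` -/
theorem ctl_int_inv_mem (hp : p.Prime) (hA : A.LiesOverPrime p) (u : ℤ) (hu : ¬ (p : ℤ) ∣ u) :
    ((u : AlgebraicClosure ℚ))⁻¹ ∈ A := by
  apply ctl_inv_mem_of_not_mem_nonunits
  intro hmem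
  have hcop : IsCoprime u (p : ℤ) :=
    ((Nat.prime_iff_prime_int.1 hp).irreducible.coprime_iff_not_dvd.2 hu).symm
  obtain ⟨s, t, hst⟩ := hcop
  have h1 : (1 : AlgebraicClosure ℚ) = (s : AlgebraicClosure ℚ) * u + t * (p : ℕ) := by
    have := congrArg (fun x : ℤ => (x : AlgebraicClosure ℚ)) hst
    simp only [Int.cast_add, Int.cast_mul, Int.cast_one, Int.cast_natCast] at this
    exact this.symm
  have hs : (s : AlgebraicClosure ℚ) ∈ A := intCast_mem A s
  have ht : (t : AlgebraicClosure ℚ) ∈ A := intCast_mem A t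
  have h2 : (s : AlgebraicClosure ℚ) * u + t * (p : ℕ) ∈ A.nonunits :=
    A.nonunits.add_mem (ctl_mul_mem_nonunits A hs hmem) (ctl_mul_mem_nonunits A ht hA)
  rw [← h1] at h2
  exact ctl_one_not_mem_nonunits A h2


/-- integral elements lie in `A` -/
theorem ctl_mem_of_isIntegral {x : AlgebraicClosure ℚ} (hx : IsIntegral ℤ x) : x ∈ A := by
  have h1 : IsIntegral A x := hx.tower_top
  obtain ⟨y, hy⟩ := (IsIntegrallyClosed.isIntegral_iff (R := A) (K := AlgebraicClosure ℚ)).1 h1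
  rw [← hy]
  exact y.2

/-- every nonzero element of `A` divides a power of `p` -/
theorem ctl_dvd_prime_pow (hp : p.Prime) (hA : A.LiesOverPrime p) {d : AlgebraicClosure ℚ}
    (hd0 : d ≠ 0) :
    ∃ m : ℕ, ∃ a ∈ A, ((p : ℕ) : AlgebraicClosure ℚ) ^ m = d * a := by
  have halg : IsAlgebraic ℤ d⁻¹ :=
    (IsFractionRing.isAlgebraic_iff ℤ ℚ (AlgebraicClosure ℚ)).2
      ((AlgebraicClosure.isAlgebraic ℚ).isAlgebraic d⁻¹)
  obtain ⟨N, hN0, hint⟩ := halg.exists_integral_multiple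
  have ha' : N • d⁻¹ ∈ A := ctl_mem_of_isIntegral A hint
  have hNd : (N : AlgebraicClosure ℚ) = d * (N • d⁻¹) := by
    rw [zsmul_eq_mul]; field_simp
  obtain ⟨m, u, hu, hNu⟩ := Nat.exists_eq_pow_mul_and_not_dvd (Int.natAbs_ne_zero.2 hN0) p
    hp.ne_one
  have huinv : ((u : ℤ) : AlgebraicClosure ℚ)⁻¹ ∈ A :=
    ctl_int_inv_mem A hp hA (u : ℤ) (fun h => hu (Int.natCast_dvd_natCast.1 h))
  have hu0 : ((u : ℤ) : AlgebraicClosure ℚ) ≠ 0 := by
    intro h
    apply hu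
    have : (u : ℤ) = 0 := by exact_mod_cast h
    have hu0' : u = 0 := by exact_mod_cast this
    rw [hu0']; exact dvd_zero _
  -- sign
  have hsign : ∃ ε : AlgebraicClosure ℚ, ε ∈ A ∧ ((N.natAbs : ℕ) : AlgebraicClosure ℚ) = ε * N := by
    rcases Int.natAbs_eq N with h | h
    · refine ⟨1, one_mem A, ?_⟩
      rw [one_mul]
      have := congrArg (fun x : ℤ => (x : AlgebraicClosure ℚ)) h
      simpa using this.symm
    · refine ⟨-1, neg_mem (one_mem A), ?_⟩
      have := congrArg (fun x : ℤ => (x : AlgebraicClosure ℚ)) h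
      simp only [Int.cast_neg, Int.cast_natCast] at this
      rw [this]; ring
  obtain ⟨ε, hε, hεN⟩ := hsign
  refine ⟨m, ε * (N • d⁻¹) * ((u : ℤ) : AlgebraicClosure ℚ)⁻¹,
    mul_mem (mul_mem hε ha') huinv, ?_⟩
  have h3 : ((N.natAbs : ℕ) : AlgebraicClosure ℚ) = (p : AlgebraicClosure ℚ) ^ m * (u : ℤ) := by
    rw [hNu]; push_cast; ring
  have h4 : (p : AlgebraicClosure ℚ) ^ m * (u : ℤ) = ε * (d * (N • d⁻¹)) := by
    rw [← h3, hεN, hNd]
  calc (p : AlgebraicClosure ℚ) ^ m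
      = (p : AlgebraicClosure ℚ) ^ m * (u : ℤ) * ((u : ℤ) : AlgebraicClosure ℚ)⁻¹ := by
        rw [mul_assoc, mul_inv_cancel₀ hu0, mul_one]
    _ = d * (ε * (N • d⁻¹) * ((u : ℤ) : AlgebraicClosure ℚ)⁻¹) := by rw [h4]; ring


/-- `p` divides a power of every nonzero nonunit of `A` -/
theorem ctl_prime_dvd_pow (hp : p.Prime) (hA : A.LiesOverPrime p) {ϖ : AlgebraicClosure ℚ}
    (hϖ : ϖ ∈ A.nonunits) :
    ∃ n : ℕ, ∃ a ∈ A, ϖ ^ n = ((p : ℕ) : AlgebraicClosure ℚ) * a := by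
  classical
  have halg : IsAlgebraic ℤ ϖ :=
    (IsFractionRing.isAlgebraic_iff ℤ ℚ (AlgebraicClosure ℚ)).2
      ((AlgebraicClosure.isAlgebraic ℚ).isAlgebraic ϖ)
  obtain ⟨f, hf0, hfϖ⟩ := halg
  set g : ℤ[X] := f.primPart with hg
  have hgprim : g.IsPrimitive := f.isPrimitive_primPart
  have hgϖ : aeval ϖ g = 0 := aeval_primPart_eq_zero hf0 hfϖ
  have hex : ∃ j, ¬ (p : ℤ) ∣ g.coeff j := by
    by_contra h
    push Not at h
    have h1 : C (p : ℤ) ∣ g := (C_dvd_iff_dvd_coeff _ _).2 h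
    have h2 : IsUnit (p : ℤ) := hgprim _ h1
    rw [Int.isUnit_iff] at h2
    rcases h2 with h2 | h2
    · have : p = 1 := by exact_mod_cast h2
      exact hp.ne_one this
    · have h3 : (0 : ℤ) ≤ p := Int.natCast_nonneg p
      omega
  set j₀ := Nat.find hex with hj₀
  have hj₀spec : ¬ (p : ℤ) ∣ g.coeff j₀ := Nat.find_spec hex
  have hj₀min : ∀ j, j < j₀ → (p : ℤ) ∣ g.coeff j := fun j hj =>
    not_not.1 (Nat.find_min hex hj)
  -- work in the ring `A`
  obtain ⟨hϖA, hϖm⟩ := ValuationSubring.mem_nonunits_iff_exists_mem_maximalIdeal.1 hϖ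
  set w : A := ⟨ϖ, hϖA⟩ with hw
  have hgw : aeval w g = 0 := by
    apply Subtype.ext
    have h1 : ((aeval w g : A) : AlgebraicClosure ℚ) = aeval ϖ g := by
      have := aeval_algHom_apply (A.subtype.toIntAlgHom) w g
      exact this.symm
    rw [h1, hgϖ]; rfl
  set I : Ideal A := Ideal.span {((p : ℕ) : A), w ^ (j₀ + 1)} with hI
  have hpI : ((p : ℕ) : A) ∈ I := Ideal.subset_span (by simp)
  have hwI : w ^ (j₀ + 1) ∈ I := Ideal.subset_span (by simp)
  have hterm : ∀ j, j ≠ j₀ → (g.coeff j) • w ^ j ∈ I := by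
    intro j hj
    rcases lt_or_gt_of_ne hj with hlt | hgt
    · obtain ⟨c, hc⟩ := hj₀min j hlt
      rw [hc, zsmul_eq_mul]
      push_cast
      rw [mul_assoc]
      exact Ideal.mul_mem_right _ _ hpI
    · obtain ⟨k, rfl⟩ := Nat.exists_eq_add_of_lt hgt
      rw [zsmul_eq_mul, show j₀ + k + 1 = (j₀ + 1) + k by ring, pow_add]
      exact Ideal.mul_mem_left _ _ (Ideal.mul_mem_right _ _ hwI)
  have hsum : ∑ j ∈ Finset.range (max g.natDegree j₀ + 1), (g.coeff j) • w ^ j = 0 := by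
    rw [← aeval_eq_sum_range' (Nat.lt_succ_of_le (le_max_left _ _)), hgw]
  have hmem : j₀ ∈ Finset.range (max g.natDegree j₀ + 1) :=
    Finset.mem_range.2 (Nat.lt_succ_of_le (le_max_right _ _))
  have hj₀I : (g.coeff j₀) • w ^ j₀ ∈ I := by
    have h1 := Finset.add_sum_erase _ (fun j => (g.coeff j) • w ^ j) hmem
    rw [hsum] at h1
    have h2 : (g.coeff j₀) • w ^ j₀ =
        - ∑ j ∈ (Finset.range (max g.natDegree j₀ + 1)).erase j₀, (g.coeff j) • w ^ j :=
      eq_neg_of_add_eq_zero_left h1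
    rw [h2]
    refine I.neg_mem (I.sum_mem fun j hj => hterm j (Finset.ne_of_mem_erase hj))
  -- the coefficient is a unit
  have hcinv : ((g.coeff j₀ : ℤ) : AlgebraicClosure ℚ)⁻¹ ∈ A :=
    ctl_int_inv_mem A hp hA _ hj₀spec
  have hc0 : ((g.coeff j₀ : ℤ) : AlgebraicClosure ℚ) ≠ 0 := by
    intro h
    apply hj₀spec
    have : g.coeff j₀ = 0 := by exact_mod_cast h
    rw [this]; exact dvd_zero _
  have hwj₀ : w ^ j₀ ∈ I := by
    have h1 : w ^ j₀ = (⟨_, hcinv⟩ : A) * ((g.coeff j₀) • w ^ j₀) := by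
      apply Subtype.ext
      rw [zsmul_eq_mul]
      push_cast
      rw [← mul_assoc, inv_mul_cancel₀ hc0, one_mul]
    rw [h1]
    exact Ideal.mul_mem_left _ _ hj₀I
  obtain ⟨a₁, a₂, h12⟩ := Ideal.mem_span_pair.1 hwj₀
  -- `w ^ j₀ * (1 - a₂ * w) = a₁ * p`
  have hunit : IsUnit (1 - a₂ * w) := by
    apply IsLocalRing.isUnit_one_sub_self_of_mem_nonunits
    exact Ideal.mul_mem_left _ _ hϖm
  obtain ⟨v, hv⟩ := hunit
  refine ⟨j₀, ((a₁ * (v⁻¹ : Aˣ) : A) : AlgebraicClosure ℚ), (a₁ * (v⁻¹ : Aˣ) : A).2, ?_⟩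
  have h5 : w ^ j₀ * (1 - a₂ * w) = a₁ * ((p : ℕ) : A) := by
    linear_combination (-1 : A) * h12
  have h6 : w ^ j₀ = ((p : ℕ) : A) * (a₁ * (v⁻¹ : Aˣ)) := by
    have : w ^ j₀ * (v : A) = a₁ * ((p : ℕ) : A) := by rw [hv]; exact h5
    calc w ^ j₀ = w ^ j₀ * (v : A) * (v⁻¹ : Aˣ) := by
          rw [mul_assoc, Units.mul_inv, mul_one]
      _ = ((p : ℕ) : A) * (a₁ * (v⁻¹ : Aˣ)) := by rw [this]; ring
  have := congrArg (fun x : A => (x : AlgebraicClosure ℚ)) h6
  simpa using this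

/-- rank one: a power of a nonzero nonunit is divisible by any given nonzero element -/
theorem ctl_exists_pow_eq_mul (hp : p.Prime) (hA : A.LiesOverPrime p) {ϖ d : AlgebraicClosure ℚ}
    (hϖ : ϖ ∈ A.nonunits) (hd0 : d ≠ 0) :
    ∃ n : ℕ, ∃ a ∈ A, ϖ ^ n = d * a := by
  obtain ⟨m, a, ha, hm⟩ := ctl_dvd_prime_pow A hp hA hd0
  obtain ⟨n, b, hb, hn⟩ := ctl_prime_dvd_pow A hp hA hϖ
  refine ⟨n * m, a * b ^ m, mul_mem ha (pow_mem hb m), ?_⟩
  rw [pow_mul, hn, mul_pow, hm]; ring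

/-- a common nonzero nonunit divisor of finitely many nonunits -/
theorem ctl_exists_common_dvd (hp : p.Prime) (hA : A.LiesOverPrime p)
    (S : Finset (AlgebraicClosure ℚ)) (hS : ∀ s ∈ S, s ∈ A.nonunits) :
    ∃ ϖ ∈ A.nonunits, ϖ ≠ 0 ∧ ∀ s ∈ S, ∃ a ∈ A, s = ϖ * a := by
  classical
  induction S using Finset.induction_on with
  | empty =>
    refine ⟨(p : ℕ), hA, ?_, by simp⟩
    exact_mod_cast hp.ne_zero
  | insert s S' hs ih =>
    obtain ⟨ϖ, hϖ, hϖ0, hdiv⟩ := ih (fun t ht => hS t (Finset.mem_insert_of_mem ht))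
    have hsn : s ∈ A.nonunits := hS s (Finset.mem_insert_self _ _)
    by_cases hs0 : s = 0
    · refine ⟨ϖ, hϖ, hϖ0, fun t ht => ?_⟩
      rcases Finset.mem_insert.1 ht with rfl | ht
      · exact ⟨0, zero_mem A, by rw [hs0, mul_zero]⟩
      · exact hdiv t ht
    rcases A.mem_or_inv_mem (s / ϖ) with h | h
    · refine ⟨ϖ, hϖ, hϖ0, fun t ht => ?_⟩
      rcases Finset.mem_insert.1 ht with rfl | ht
      · exact ⟨t / ϖ, h, by field_simp⟩
      · exact hdiv t ht
    · refine ⟨s, hsn, hs0, fun t ht => ?_⟩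
      rcases Finset.mem_insert.1 ht with rfl | ht
      · exact ⟨1, one_mem A, by rw [mul_one]⟩
      · obtain ⟨a, ha, rfl⟩ := hdiv t ht
        refine ⟨(s / ϖ)⁻¹ * a, mul_mem h ha, ?_⟩
        field_simp

end RankOne


section SpanMul

variable {R B : Type*} [CommSemiring R] [CommSemiring B] [Algebra R B]

/-- the span of a multiplicatively closed set is closed under multiplication -/
theorem ctl_span_mul_mem {S : Set B} (hS : ∀ x ∈ S, ∀ y ∈ S, x * y ∈ S) {x y : B}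
    (hx : x ∈ Submodule.span R S) (hy : y ∈ Submodule.span R S) :
    x * y ∈ Submodule.span R S := by
  have h1 : x * y ∈ Submodule.span R S * Submodule.span R S := Submodule.mul_mem_mul hx hy
  rw [Submodule.span_mul_span] at h1
  refine Submodule.span_mono ?_ h1
  rintro _ ⟨a, ha, b, hb, rfl⟩
  exact hS a ha b hb

end SpanMul

section Chart

variable (A : ValuationSubring (AlgebraicClosure ℚ)) {J : Type} [AddCommGroup J]
  [DistribMulAction (AlgebraicClosure ℚ ≃ₐ[ℚ] AlgebraicClosure ℚ) J]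
  (J1 : AddSubgroup J) {g : ℕ} (z : J → Fin g → AlgebraicClosure ℚ) (n : ℕ)

open Classical in
/-- indicator function of the coset `b + J1` on `J[n]` -/
noncomputable def ctlInd (b : J) : Submodule.torsionBy ℤ J (n : ℤ) → AlgebraicClosure ℚ :=
  fun c => if (c : J) - b ∈ J1 then 1 else 0

open Classical in
/-- the coordinate function `c ↦ σ (z (σ⁻¹ (c - b)) i)` on the coset `b + J1`, extended by `0` -/
noncomputable def ctlPsi (σ : AlgebraicClosure ℚ ≃ₐ[ℚ] AlgebraicClosure ℚ) (b : J) (i : Fin g) :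
    Submodule.torsionBy ℤ J (n : ℤ) → AlgebraicClosure ℚ :=
  fun c => if (c : J) - b ∈ J1 then σ (z (σ⁻¹ • ((c : J) - b)) i) else 0

/-- the generators of the local Hopf lattice -/
def ctlGen : Set (Submodule.torsionBy ℤ J (n : ℤ) → AlgebraicClosure ℚ) :=
  {f | (∃ b : J, f = ctlInd J1 n b) ∨
    (∃ σ ∈ A.decompositionSubgroup ℚ, ∃ b : J, (∀ γ ∈ A.inertiaSubgroupIn ℚ, γ • b = b) ∧
      ∃ i : Fin g, f = ctlPsi J1 z n σ b i)}

/-- the local Hopf lattice -/
noncomputable def ctlHt : Subalgebra A (Submodule.torsionBy ℤ J (n : ℤ) → AlgebraicClosure ℚ) :=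
  Algebra.adjoin A (ctlGen A J1 z n)

variable {A J1 z n}

theorem ctlInd_of_mem {b : J} {c : Submodule.torsionBy ℤ J (n : ℤ)} (h : (c : J) - b ∈ J1) :
    ctlInd J1 n b c = 1 := by
  unfold ctlInd; rw [if_pos h]

theorem ctlInd_of_not_mem {b : J} {c : Submodule.torsionBy ℤ J (n : ℤ)} (h : (c : J) - b ∉ J1) :
    ctlInd J1 n b c = 0 := by
  unfold ctlInd; rw [if_neg h]

theorem ctlPsi_of_mem {σ : AlgebraicClosure ℚ ≃ₐ[ℚ] AlgebraicClosure ℚ} {b : J} {i : Fin g}
    {c : Submodule.torsionBy ℤ J (n : ℤ)} (h : (c : J) - b ∈ J1) :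
    ctlPsi J1 z n σ b i c = σ (z (σ⁻¹ • ((c : J) - b)) i) := by
  unfold ctlPsi; rw [if_pos h]

theorem ctlPsi_of_not_mem {σ : AlgebraicClosure ℚ ≃ₐ[ℚ] AlgebraicClosure ℚ} {b : J} {i : Fin g}
    {c : Submodule.torsionBy ℤ J (n : ℤ)} (h : (c : J) - b ∉ J1) :
    ctlPsi J1 z n σ b i c = 0 := by
  unfold ctlPsi; rw [if_neg h]

theorem ctl_torsAct_coe (σ : AlgebraicClosure ℚ ≃ₐ[ℚ] AlgebraicClosure ℚ)
    (c : Submodule.torsionBy ℤ J (n : ℤ)) :
    ((torsAct J (n : ℤ) σ c : Submodule.torsionBy ℤ J (n : ℤ)) : J) = σ • (c : J) := rfl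

theorem ctlInd_mem_ctlHt (b : J) : ctlInd J1 n b ∈ ctlHt A J1 z n :=
  Algebra.subset_adjoin (Or.inl ⟨b, rfl⟩)

theorem ctlPsi_mem_ctlHt {σ : AlgebraicClosure ℚ ≃ₐ[ℚ] AlgebraicClosure ℚ}
    (hσ : σ ∈ A.decompositionSubgroup ℚ) {b : J}
    (hb : ∀ γ ∈ A.inertiaSubgroupIn ℚ, γ • b = b) (i : Fin g) :
    ctlPsi J1 z n σ b i ∈ ctlHt A J1 z n :=
  Algebra.subset_adjoin (Or.inr ⟨σ, hσ, b, hb, i, rfl⟩)

theorem ctl_smul_mem_iff (hK : KernelChart A J J1 g z)
    {σ : AlgebraicClosure ℚ ≃ₐ[ℚ] AlgebraicClosure ℚ} (hσ : σ ∈ A.decompositionSubgroup ℚ)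
    {x : J} : σ • x ∈ J1 ↔ x ∈ J1 := by
  refine ⟨fun h => ?_, hK.decomp_stable σ hσ x⟩
  have := hK.decomp_stable σ⁻¹ (Subgroup.inv_mem _ hσ) _ h
  rwa [inv_smul_smul] at this

/-- values of `ctlPsi` lie in the maximal ideal -/
theorem ctlPsi_apply_mem (hK : KernelChart A J J1 g z)
    {σ : AlgebraicClosure ℚ ≃ₐ[ℚ] AlgebraicClosure ℚ} (hσ : σ ∈ A.decompositionSubgroup ℚ)
    (b : J) (i : Fin g) (c : Submodule.torsionBy ℤ J (n : ℤ)) :
    ctlPsi J1 z n σ b i c ∈ A.nonunits := by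
  by_cases h : (c : J) - b ∈ J1
  · rw [ctlPsi_of_mem h]
    apply ctl_decomp_mem_nonunits A hσ
    apply hK.mem_nonunits
    exact (ctl_smul_mem_iff hK (Subgroup.inv_mem _ hσ)).2 h
  · rw [ctlPsi_of_not_mem h]; exact zero_mem _

/-- (P1) the functions of `Ht` have values in `A` -/
theorem ctl_integral (hK : KernelChart A J J1 g z) :
    ∀ h ∈ ctlHt A J1 z n, ∀ P : Submodule.torsionBy ℤ J (n : ℤ), h P ∈ A := by
  intro h hh
  induction hh using Algebra.adjoin_induction with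
  | mem f hf =>
    intro P
    rcases hf with ⟨b, rfl⟩ | ⟨σ, hσ, b, -, i, rfl⟩
    · by_cases hc : (P : J) - b ∈ J1
      · rw [ctlInd_of_mem hc]; exact one_mem A
      · rw [ctlInd_of_not_mem hc]; exact zero_mem A
    · exact A.nonunits_subset (ctlPsi_apply_mem hK hσ b i P)
  | algebraMap r => intro P; exact r.2
  | add x y _ _ hx hy => intro P; exact add_mem (hx P) (hy P)
  | mul x y _ _ hx hy => intro P; exact mul_mem (hx P) (hy P)

/-- inertia acts trivially on `J[tors] / J1` -/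
theorem ctl_inertia_sub_mem (hK : KernelChart A J J1 g z)
    {γ : AlgebraicClosure ℚ ≃ₐ[ℚ] AlgebraicClosure ℚ} (hγ : γ ∈ A.inertiaSubgroupIn ℚ)
    {x : J} (hx : ∃ m : ℕ, 0 < m ∧ m • x = 0) : γ • x - x ∈ J1 := by
  obtain ⟨b, hb, hxb⟩ := hK.lift x hx
  have h1 : γ • x - x = γ • (x - b) - (x - b) := by
    rw [smul_sub, hb γ hγ]; abel
  rw [h1]
  exact J1.sub_mem (hK.decomp_stable γ (ctl_inertia_le_decomp A hγ) _ hxb) hxb


theorem ctl_torsion (hn : 0 < n) (c : Submodule.torsionBy ℤ J (n : ℤ)) :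
    ∃ m : ℕ, 0 < m ∧ m • (c : J) = 0 := by
  refine ⟨n, hn, ?_⟩
  have := (Submodule.mem_torsionBy_iff _ _).1 c.2
  rwa [natCast_zsmul] at this

/-- (P2) `Ht` separates the points of `J[n]` -/
theorem ctl_separates (hK : KernelChart A J J1 g z) (hn : 0 < n)
    (P Q : Submodule.torsionBy ℤ J (n : ℤ))
    (h : ∀ f ∈ ctlHt A J1 z n, f P = f Q) : P = Q := by
  -- same coset
  have h1 := h _ (ctlInd_mem_ctlHt (A := A) (z := z) (n := n) (J1 := J1) (P : J))
  have hPQ : (Q : J) - (P : J) ∈ J1 := by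
    by_contra hne
    rw [ctlInd_of_mem (by rw [sub_self]; exact zero_mem J1), ctlInd_of_not_mem hne] at h1
    exact one_ne_zero h1
  obtain ⟨b, hb, hPb⟩ := hK.lift (P : J) (ctl_torsion hn P)
  have hQb : (Q : J) - b ∈ J1 := by
    have : (Q : J) - b = ((Q : J) - P) + ((P : J) - b) := by abel
    rw [this]; exact J1.add_mem hPQ hPb
  have hz : z ((P : J) - b) = z ((Q : J) - b) := by
    funext i
    have h2 := h _ (ctlPsi_mem_ctlHt (A := A) (z := z) (n := n) (J1 := J1)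
      (Subgroup.one_mem _) hb i)
    rw [ctlPsi_of_mem hPb, ctlPsi_of_mem hQb] at h2
    simpa using h2
  have := hK.injOn _ hPb _ hQb hz
  apply Subtype.ext
  exact sub_left_injective this

/-- (P3) `Ht` is stable under the decomposition group -/
theorem ctl_decomp_stable (hK : KernelChart A J J1 g z) :
    ∀ τ ∈ A.decompositionSubgroup ℚ, ∀ h ∈ ctlHt A J1 z n,
      (fun P : Submodule.torsionBy ℤ J (n : ℤ) => τ (h (torsAct J (n : ℤ) τ⁻¹ P))) ∈
        ctlHt A J1 z n := by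
  intro τ hτ h hh
  have hτ' : τ⁻¹ ∈ A.decompositionSubgroup ℚ := Subgroup.inv_mem _ hτ
  induction hh using Algebra.adjoin_induction with
  | mem f hf =>
    rcases hf with ⟨b, rfl⟩ | ⟨σ, hσ, b, hb, i, rfl⟩
    · have : (fun P : Submodule.torsionBy ℤ J (n : ℤ) =>
          τ (ctlInd J1 n b (torsAct J (n : ℤ) τ⁻¹ P))) = ctlInd J1 n (τ • b) := by
        funext P
        have hiff : (τ⁻¹ • (P : J) - b ∈ J1) ↔ ((P : J) - τ • b ∈ J1) := by
          rw [← ctl_smul_mem_iff hK hτ' (x := (P : J) - τ • b), smul_sub, inv_smul_smul]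
        by_cases hc : (P : J) - τ • b ∈ J1
        · rw [ctlInd_of_mem hc, ctlInd_of_mem (by rw [ctl_torsAct_coe]; exact hiff.2 hc), map_one]
        · rw [ctlInd_of_not_mem hc,
            ctlInd_of_not_mem (by rw [ctl_torsAct_coe]; exact fun h' => hc (hiff.1 h')), map_zero]
      rw [this]
      exact ctlInd_mem_ctlHt _
    · have hτb : ∀ γ ∈ A.inertiaSubgroupIn ℚ, γ • (τ • b) = τ • b := by
        intro γ hγ
        have h1 := hb _ (ctl_inertia_conj' A hτ hγ)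
        rw [mul_smul, mul_smul] at h1
        have h2 := congrArg (fun x => τ • x) h1
        simpa using h2
      have : (fun P : Submodule.torsionBy ℤ J (n : ℤ) =>
          τ (ctlPsi J1 z n σ b i (torsAct J (n : ℤ) τ⁻¹ P))) = ctlPsi J1 z n (τ * σ) (τ • b) i := by
        funext P
        have hiff : (τ⁻¹ • (P : J) - b ∈ J1) ↔ ((P : J) - τ • b ∈ J1) := by
          rw [← ctl_smul_mem_iff hK hτ' (x := (P : J) - τ • b), smul_sub, inv_smul_smul]
        by_cases hc : (P : J) - τ • b ∈ J1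
        · rw [ctlPsi_of_mem hc, ctlPsi_of_mem (by rw [ctl_torsAct_coe]; exact hiff.2 hc)]
          have e1 : (τ * σ)⁻¹ • ((P : J) - τ • b) = σ⁻¹ • (τ⁻¹ • (P : J) - b) := by
            rw [mul_inv_rev, mul_smul, smul_sub, inv_smul_smul]
          rw [e1, ctl_torsAct_coe]; rfl
        · rw [ctlPsi_of_not_mem hc,
            ctlPsi_of_not_mem (by rw [ctl_torsAct_coe]; exact fun h' => hc (hiff.1 h')), map_zero]
      rw [this]
      exact ctlPsi_mem_ctlHt (Subgroup.mul_mem _ hτ hσ) hτb i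
  | algebraMap r =>
    have : (fun P : Submodule.torsionBy ℤ J (n : ℤ) =>
        τ ((algebraMap A (Submodule.torsionBy ℤ J (n : ℤ) → AlgebraicClosure ℚ) r)
          (torsAct J (n : ℤ) τ⁻¹ P))) =
        algebraMap A (Submodule.torsionBy ℤ J (n : ℤ) → AlgebraicClosure ℚ)
          ⟨τ r, ctl_decomp_mem A hτ r.2⟩ := by
      funext P; rfl
    rw [this]
    exact Subalgebra.algebraMap_mem _ _
  | add x y _ _ hx hy =>
    have : (fun P : Submodule.torsionBy ℤ J (n : ℤ) => τ ((x + y) (torsAct J (n : ℤ) τ⁻¹ P))) =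
        (fun P => τ (x (torsAct J (n : ℤ) τ⁻¹ P))) + fun P => τ (y (torsAct J (n : ℤ) τ⁻¹ P)) := by
      funext P; simp
    rw [this]; exact add_mem hx hy
  | mul x y _ _ hx hy =>
    have : (fun P : Submodule.torsionBy ℤ J (n : ℤ) => τ ((x * y) (torsAct J (n : ℤ) τ⁻¹ P))) =
        (fun P => τ (x (torsAct J (n : ℤ) τ⁻¹ P))) * fun P => τ (y (torsAct J (n : ℤ) τ⁻¹ P)) := by
      funext P; simp
    rw [this]; exact mul_mem hx hy


/-- the generators are inertia-equivariant -/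
theorem ctl_gen_equivariant (hK : KernelChart A J J1 g z) (hn : 0 < n)
    {f : Submodule.torsionBy ℤ J (n : ℤ) → AlgebraicClosure ℚ} (hf : f ∈ ctlGen A J1 z n)
    {γ : AlgebraicClosure ℚ ≃ₐ[ℚ] AlgebraicClosure ℚ} (hγ : γ ∈ A.inertiaSubgroupIn ℚ)
    (P : Submodule.torsionBy ℤ J (n : ℤ)) : f (torsAct J (n : ℤ) γ P) = γ (f P) := by
  have hγD := ctl_inertia_le_decomp A hγ
  have hPP : γ • (P : J) - (P : J) ∈ J1 := ctl_inertia_sub_mem hK hγ (ctl_torsion hn P)
  rcases hf with ⟨b, rfl⟩ | ⟨σ, hσ, b, hb, i, rfl⟩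
  · have hiff : (γ • (P : J) - b ∈ J1) ↔ ((P : J) - b ∈ J1) := by
      have e : γ • (P : J) - b = (γ • (P : J) - P) + ((P : J) - b) := by abel
      rw [e]
      exact ⟨fun h => by simpa using J1.sub_mem h hPP, fun h => J1.add_mem hPP h⟩
    by_cases hc : (P : J) - b ∈ J1
    · rw [ctlInd_of_mem hc, ctlInd_of_mem (by rw [ctl_torsAct_coe]; exact hiff.2 hc), map_one]
    · rw [ctlInd_of_not_mem hc,
        ctlInd_of_not_mem (by rw [ctl_torsAct_coe]; exact fun h' => hc (hiff.1 h')), map_zero]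
  · have e : γ • (P : J) - b = γ • ((P : J) - b) := by rw [smul_sub, hb γ hγ]
    have hiff : (γ • (P : J) - b ∈ J1) ↔ ((P : J) - b ∈ J1) := by
      rw [e]; exact ctl_smul_mem_iff hK hγD
    by_cases hc : (P : J) - b ∈ J1
    · rw [ctlPsi_of_mem hc, ctlPsi_of_mem (by rw [ctl_torsAct_coe]; exact hiff.2 hc),
        ctl_torsAct_coe, e]
      have hx : σ⁻¹ • ((P : J) - b) ∈ J1 := (ctl_smul_mem_iff hK (Subgroup.inv_mem _ hσ)).2 hc
      have hγ' := ctl_inertia_conj' A hσ hγ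
      have e2 : σ⁻¹ • γ • ((P : J) - b) = (σ⁻¹ * γ * σ) • (σ⁻¹ • ((P : J) - b)) := by
        rw [mul_smul, mul_smul, smul_inv_smul]
      rw [e2, hK.inertia_equivariant _ hγ' _ hx i]
      show σ ((σ⁻¹ * γ * σ) (z (σ⁻¹ • ((P : J) - b)) i)) = γ (σ (z (σ⁻¹ • ((P : J) - b)) i))
      have e3 : σ * (σ⁻¹ * γ * σ) = γ * σ := by group
      have := congrArg (fun τ : AlgebraicClosure ℚ ≃ₐ[ℚ] AlgebraicClosure ℚ =>
        τ (z (σ⁻¹ • ((P : J) - b)) i)) e3
      exact this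
    · rw [ctlPsi_of_not_mem hc,
        ctlPsi_of_not_mem (by rw [ctl_torsAct_coe]; exact fun h' => hc (hiff.1 h')), map_zero]

/-- (P4) `Ht` is spanned by inertia-equivariant functions -/
theorem ctl_inertia_span (hK : KernelChart A J J1 g z) (hn : 0 < n) :
    ∀ h ∈ ctlHt A J1 z n, h ∈ Submodule.span A
      {f : Submodule.torsionBy ℤ J (n : ℤ) → AlgebraicClosure ℚ | f ∈ ctlHt A J1 z n ∧
        ∀ σ ∈ A.inertiaSubgroupIn ℚ, ∀ P : Submodule.torsionBy ℤ J (n : ℤ),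
          f (torsAct J (n : ℤ) σ P) = σ (f P)} := by
  intro h hh
  induction hh using Algebra.adjoin_induction with
  | mem f hf =>
    exact Submodule.subset_span ⟨Algebra.subset_adjoin hf,
      fun γ hγ P => ctl_gen_equivariant hK hn hf hγ P⟩
  | algebraMap r =>
    have h1 : (1 : Submodule.torsionBy ℤ J (n : ℤ) → AlgebraicClosure ℚ) ∈ Submodule.span A
        {f : Submodule.torsionBy ℤ J (n : ℤ) → AlgebraicClosure ℚ | f ∈ ctlHt A J1 z n ∧
          ∀ σ ∈ A.inertiaSubgroupIn ℚ, ∀ P : Submodule.torsionBy ℤ J (n : ℤ),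
            f (torsAct J (n : ℤ) σ P) = σ (f P)} :=
      Submodule.subset_span ⟨one_mem _, fun γ _ P => by simp⟩
    have := Submodule.smul_mem _ r h1
    rwa [Algebra.smul_def, mul_one] at this
  | add x y _ _ hx hy => exact add_mem hx hy
  | mul x y _ _ hx hy =>
    refine ctl_span_mul_mem ?_ hx hy
    rintro a ⟨ha, ha'⟩ b ⟨hb, hb'⟩
    refine ⟨mul_mem ha hb, fun γ hγ P => ?_⟩
    rw [Pi.mul_apply, Pi.mul_apply, ha' γ hγ P, hb' γ hγ P, map_mul]

end Chart

section Tensor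

variable (A : ValuationSubring (AlgebraicClosure ℚ)) {M : Type}
  (Ht : Subalgebra A (M → AlgebraicClosure ℚ))

/-- pure tensors `a ⊗ b`, `a b ∈ Ht`, as functions on `M × M` -/
def ctlTens : Set (M × M → AlgebraicClosure ℚ) :=
  {F | ∃ a ∈ Ht, ∃ b ∈ Ht, F = fun PQ => a PQ.1 * b PQ.2}

variable {A Ht}

theorem ctlTens_mul {F G : M × M → AlgebraicClosure ℚ} (hF : F ∈ ctlTens A Ht)
    (hG : G ∈ ctlTens A Ht) : F * G ∈ ctlTens A Ht := by
  obtain ⟨a, ha, b, hb, rfl⟩ := hF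
  obtain ⟨a', ha', b', hb', rfl⟩ := hG
  refine ⟨a * a', mul_mem ha ha', b * b', mul_mem hb hb', ?_⟩
  funext PQ
  simp only [Pi.mul_apply]
  ring

theorem ctl_tens_mem {a b : M → AlgebraicClosure ℚ} (ha : a ∈ Ht) (hb : b ∈ Ht) :
    (fun PQ : M × M => a PQ.1 * b PQ.2) ∈ Submodule.span A (ctlTens A Ht) :=
  Submodule.subset_span ⟨a, ha, b, hb, rfl⟩

theorem ctl_tensSpan_mul {F G : M × M → AlgebraicClosure ℚ}
    (hF : F ∈ Submodule.span A (ctlTens A Ht)) (hG : G ∈ Submodule.span A (ctlTens A Ht)) :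
    F * G ∈ Submodule.span A (ctlTens A Ht) :=
  ctl_span_mul_mem (fun _ hx _ hy => ctlTens_mul hx hy) hF hG

theorem ctl_tensSpan_one : (1 : M × M → AlgebraicClosure ℚ) ∈ Submodule.span A (ctlTens A Ht) := by
  have := ctl_tens_mem (one_mem Ht) (one_mem Ht)
  have e : (fun PQ : M × M => (1 : M → AlgebraicClosure ℚ) PQ.1 *
      (1 : M → AlgebraicClosure ℚ) PQ.2) = 1 := by
    funext PQ; simp
  rwa [e] at this

/-- Lagrange interpolation: a nonzero multiple of every delta function lies in `Ht` -/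
theorem ctl_exists_delta [Fintype M] [DecidableEq M]
    (hint : ∀ h ∈ Ht, ∀ P : M, h P ∈ A)
    (hsep : ∀ P Q : M, (∀ h ∈ Ht, h P = h Q) → P = Q) :
    ∃ d : AlgebraicClosure ℚ, d ∈ A ∧ d ≠ 0 ∧
      ∀ c : M, (fun P : M => if P = c then d else 0) ∈ Ht := by
  classical
  -- separating functions
  have hex : ∀ c c' : M, ∃ h : M → AlgebraicClosure ℚ, h ∈ Ht ∧ (c ≠ c' → h c ≠ h c') := by
    intro c c'
    by_cases hcc : c = c'
    · exact ⟨1, one_mem _, fun h => (h hcc).elim⟩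
    · by_contra hne
      push Not at hne
      apply hcc
      apply hsep
      intro h hh
      by_contra hh'
      obtain ⟨-, h2⟩ := hne h hh
      exact hh' h2
  choose h hh hsep' using hex
  -- `L c = ∏_{c' ≠ c} (h c c' - h c c' c')`
  set L : M → (M → AlgebraicClosure ℚ) := fun c =>
    ∏ c' ∈ Finset.univ.erase c,
      (h c c' - algebraMap A (M → AlgebraicClosure ℚ) ⟨h c c' c', hint _ (hh c c') c'⟩) with hL
  have hLmem : ∀ c, L c ∈ Ht := fun c =>
    Subalgebra.prod_mem _ fun c' _ => sub_mem (hh c c') (Subalgebra.algebraMap_mem _ _)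
  have hLapply : ∀ c P, L c P = ∏ c' ∈ Finset.univ.erase c, (h c c' P - h c c' c') := by
    intro c P
    rw [hL]
    simp only [Finset.prod_apply, Pi.sub_apply]
    rfl
  have hLne : ∀ c P, P ≠ c → L c P = 0 := by
    intro c P hP
    rw [hLapply]
    exact Finset.prod_eq_zero (Finset.mem_erase.2 ⟨hP, Finset.mem_univ _⟩) (sub_self _)
  have hLc : ∀ c, L c c ≠ 0 := by
    intro c
    rw [hLapply]
    refine Finset.prod_ne_zero_iff.2 fun c' hc' => ?_
    exact sub_ne_zero.2 (hsep' c c' (Finset.ne_of_mem_erase hc').symm)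
  have hLA : ∀ c, L c c ∈ A := fun c => hint _ (hLmem c) c
  refine ⟨∏ c, L c c, Subring.prod_mem _ fun c _ => hLA c,
    Finset.prod_ne_zero_iff.2 fun c _ => hLc c, fun c => ?_⟩
  have e : (fun P : M => if P = c then ∏ c, L c c else 0) =
      (⟨∏ c' ∈ Finset.univ.erase c, L c' c', Subring.prod_mem _ fun c _ => hLA c⟩ : A) • L c := by
    funext P
    rw [Pi.smul_apply]
    by_cases hP : P = c
    · subst hP
      rw [if_pos rfl, ← Finset.mul_prod_erase Finset.univ _ (Finset.mem_univ P), mul_comm]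
      rfl
    · rw [if_neg hP, hLne c P hP, smul_zero]
  rw [e]
  exact Subalgebra.smul_mem _ (hLmem c) _


/-- `d² · Map(M × M, A) ⊂ Ht ⊗ Ht` -/
theorem ctl_delta_sq_mem [Fintype M] [DecidableEq M] {d : AlgebraicClosure ℚ}
    (hd : ∀ c : M, (fun P : M => if P = c then d else 0) ∈ Ht)
    (E : M × M → AlgebraicClosure ℚ) (hE : ∀ PQ, E PQ ∈ A) :
    (fun PQ : M × M => d ^ 2 * E PQ) ∈ Submodule.span A (ctlTens A Ht) := by
  classical
  have e : (fun PQ : M × M => d ^ 2 * E PQ) =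
      ∑ c : M, ∑ c' : M, (⟨E (c, c'), hE _⟩ : A) •
        (fun PQ : M × M => (fun P : M => if P = c then d else 0) PQ.1 *
          (fun P : M => if P = c' then d else 0) PQ.2) := by
    funext PQ
    obtain ⟨P, Q⟩ := PQ
    simp only [Finset.sum_apply, Pi.smul_apply]
    rw [Finset.sum_eq_single P, Finset.sum_eq_single Q]
    · simp only [if_true]
      show d ^ 2 * E (P, Q) = E (P, Q) * (d * d)
      ring
    · intro c' _ hc'
      simp [Ne.symm hc']
    · intro h; exact (h (Finset.mem_univ _)).elim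
    · intro c _ hc
      apply Finset.sum_eq_zero
      intro c' _
      simp [Ne.symm hc]
    · intro h; exact (h (Finset.mem_univ _)).elim
  rw [e]
  refine Submodule.sum_mem _ fun c _ => Submodule.sum_mem _ fun c' _ => ?_
  exact Submodule.smul_mem _ _ (ctl_tens_mem (hd c) (hd c'))

end Tensor

section Comul

variable {A : ValuationSubring (AlgebraicClosure ℚ)} {J : Type} [AddCommGroup J]
  [DistribMulAction (AlgebraicClosure ℚ ≃ₐ[ℚ] AlgebraicClosure ℚ) J]
  {J1 : AddSubgroup J} {g : ℕ} {z : J → Fin g → AlgebraicClosure ℚ} {n : ℕ}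

/-- comultiplication of an indicator function, cut down to a coset in the first variable -/
theorem ctl_comul_ind_cut (b₁ b : J) :
    (fun PQ : Submodule.torsionBy ℤ J (n : ℤ) × Submodule.torsionBy ℤ J (n : ℤ) =>
      ctlInd J1 n b₁ PQ.1 * ctlInd J1 n b (PQ.1 + PQ.2)) ∈
      Submodule.span A (ctlTens A (ctlHt A J1 z n)) := by
  have e : (fun PQ : Submodule.torsionBy ℤ J (n : ℤ) × Submodule.torsionBy ℤ J (n : ℤ) =>
      ctlInd J1 n b₁ PQ.1 * ctlInd J1 n b (PQ.1 + PQ.2)) =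
      fun PQ => ctlInd J1 n b₁ PQ.1 * ctlInd J1 n (b - b₁) PQ.2 := by
    funext PQ
    obtain ⟨P, Q⟩ := PQ
    show ctlInd J1 n b₁ P * ctlInd J1 n b (P + Q) = ctlInd J1 n b₁ P * ctlInd J1 n (b - b₁) Q
    by_cases hP : (P : J) - b₁ ∈ J1
    · have hiff : (((P + Q : Submodule.torsionBy ℤ J (n : ℤ)) : J) - b ∈ J1) ↔
          ((Q : J) - (b - b₁) ∈ J1) := by
        have e1 : ((P + Q : Submodule.torsionBy ℤ J (n : ℤ)) : J) - b =
            ((P : J) - b₁) + ((Q : J) - (b - b₁)) := by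
          rw [Submodule.coe_add]; abel
        rw [e1]
        exact ⟨fun h => by simpa using J1.sub_mem h hP, fun h => J1.add_mem hP h⟩
      by_cases hQ : (Q : J) - (b - b₁) ∈ J1
      · rw [ctlInd_of_mem (hiff.2 hQ), ctlInd_of_mem hQ]
      · rw [ctlInd_of_not_mem (fun h => hQ (hiff.1 h)), ctlInd_of_not_mem hQ]
    · rw [ctlInd_of_not_mem hP, zero_mul, zero_mul]
  rw [e]
  exact ctl_tens_mem (ctlInd_mem_ctlHt _) (ctlInd_mem_ctlHt _)

/-- partition of unity by the cosets of `J1`: it is enough to treat the comultiplication after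
cutting down to a coset `b₁ + J1`, `b₁` inertia-fixed, in the first variable -/
theorem ctl_comul_of_cut (hK : KernelChart A J J1 g z) (hn : 0 < n)
    [Finite (Submodule.torsionBy ℤ J (n : ℤ))]
    (f : Submodule.torsionBy ℤ J (n : ℤ) → AlgebraicClosure ℚ)
    (hf : ∀ b₁ : J, (∀ γ ∈ A.inertiaSubgroupIn ℚ, γ • b₁ = b₁) →
      (fun PQ : Submodule.torsionBy ℤ J (n : ℤ) × Submodule.torsionBy ℤ J (n : ℤ) =>
        ctlInd J1 n b₁ PQ.1 * f (PQ.1 + PQ.2)) ∈ Submodule.span A (ctlTens A (ctlHt A J1 z n))) :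
    (fun PQ : Submodule.torsionBy ℤ J (n : ℤ) × Submodule.torsionBy ℤ J (n : ℤ) =>
      f (PQ.1 + PQ.2)) ∈ Submodule.span A (ctlTens A (ctlHt A J1 z n)) := by
  classical
  -- the subgroup `M ∩ J1` of `M`
  set M1 : AddSubgroup (Submodule.torsionBy ℤ J (n : ℤ)) :=
    J1.comap (Submodule.torsionBy ℤ J (n : ℤ)).subtype.toAddMonoidHom with hM1
  haveI : Fintype (Submodule.torsionBy ℤ J (n : ℤ) ⧸ M1) := Fintype.ofFinite _
  have hlift : ∀ q : Submodule.torsionBy ℤ J (n : ℤ) ⧸ M1,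
      ∃ b : J, (∀ γ ∈ A.inertiaSubgroupIn ℚ, γ • b = b) ∧ ((q.out : J) - b ∈ J1) :=
    fun q => hK.lift _ (ctl_torsion hn q.out)
  choose β hβfix hβ using hlift
  have hind : ∀ (q : Submodule.torsionBy ℤ J (n : ℤ) ⧸ M1)
      (P : Submodule.torsionBy ℤ J (n : ℤ)),
      ctlInd J1 n (β q) P = if (QuotientAddGroup.mk P : _ ⧸ M1) = q then 1 else 0 := by
    intro q P
    have hiff : ((P : J) - β q ∈ J1) ↔ (QuotientAddGroup.mk P : _ ⧸ M1) = q := by
      have h1 : (QuotientAddGroup.mk P : _ ⧸ M1) = q ↔ (P : J) - (q.out : J) ∈ J1 := by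
        conv_lhs => rw [← QuotientAddGroup.out_eq' q]
        rw [eq_comm, QuotientAddGroup.eq]
        show (((-q.out + P : Submodule.torsionBy ℤ J (n : ℤ)) : J) ∈ J1) ↔ _
        rw [Submodule.coe_add, Submodule.coe_neg, neg_add_eq_sub]
      rw [h1]
      have e1 : (P : J) - β q = ((P : J) - (q.out : J)) + ((q.out : J) - β q) := by abel
      rw [e1]
      exact ⟨fun h => by simpa using J1.sub_mem h (hβ q), fun h => J1.add_mem h (hβ q)⟩
    by_cases hc : (P : J) - β q ∈ J1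
    · rw [ctlInd_of_mem hc, if_pos (hiff.1 hc)]
    · rw [ctlInd_of_not_mem hc, if_neg (fun h => hc (hiff.2 h))]
  have e : (fun PQ : Submodule.torsionBy ℤ J (n : ℤ) × Submodule.torsionBy ℤ J (n : ℤ) =>
      f (PQ.1 + PQ.2)) =
      ∑ q : Submodule.torsionBy ℤ J (n : ℤ) ⧸ M1,
        (fun PQ : Submodule.torsionBy ℤ J (n : ℤ) × Submodule.torsionBy ℤ J (n : ℤ) =>
          ctlInd J1 n (β q) PQ.1 * f (PQ.1 + PQ.2)) := by
    funext PQ
    rw [Finset.sum_apply]
    simp only [hind]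
    rw [Finset.sum_eq_single (QuotientAddGroup.mk PQ.1 : _ ⧸ M1)]
    · rw [if_pos rfl, one_mul]
    · intro q _ hq
      rw [if_neg (Ne.symm hq), zero_mul]
    · intro h; exact (h (Finset.mem_univ _)).elim
  rw [e]
  exact Submodule.sum_mem _ fun q _ => hf (β q) (hβfix q)


/-- comultiplication of a coordinate function, cut down to a coset in the first variable -/
theorem ctl_comul_psi_cut {p : ℕ} (hp : p.Prime) (hA : A.LiesOverPrime p)
    (hK : KernelChart A J J1 g z) (hn : 0 < n) [Finite (Submodule.torsionBy ℤ J (n : ℤ))]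
    {σ : AlgebraicClosure ℚ ≃ₐ[ℚ] AlgebraicClosure ℚ} (hσ : σ ∈ A.decompositionSubgroup ℚ)
    {b : J} (hb : ∀ γ ∈ A.inertiaSubgroupIn ℚ, γ • b = b) (i : Fin g)
    (b₁ : J) (hb₁ : ∀ γ ∈ A.inertiaSubgroupIn ℚ, γ • b₁ = b₁) :
    (fun PQ : Submodule.torsionBy ℤ J (n : ℤ) × Submodule.torsionBy ℤ J (n : ℤ) =>
      ctlInd J1 n b₁ PQ.1 * ctlPsi J1 z n σ b i (PQ.1 + PQ.2)) ∈
      Submodule.span A (ctlTens A (ctlHt A J1 z n)) := by
  classical
  haveI : Fintype (Submodule.torsionBy ℤ J (n : ℤ)) := Fintype.ofFinite _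
  have hσ' : σ⁻¹ ∈ A.decompositionSubgroup ℚ := Subgroup.inv_mem _ hσ
  set b₂ : J := b - b₁ with hb₂def
  have hb₂ : ∀ γ ∈ A.inertiaSubgroupIn ℚ, γ • b₂ = b₂ := fun γ hγ => by
    rw [hb₂def, smul_sub, hb γ hγ, hb₁ γ hγ]
  -- Lagrange
  obtain ⟨d, -, hd0, hδ⟩ := ctl_exists_delta (Ht := ctlHt A J1 z n) (ctl_integral hK)
    (ctl_separates hK hn)
  -- the finitely many coordinates that occur
  set v : J → Submodule.torsionBy ℤ J (n : ℤ) × Fin g → AlgebraicClosure ℚ := fun β Pj =>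
    if (Pj.1 : J) - β ∈ J1 then z (σ⁻¹ • ((Pj.1 : J) - β)) Pj.2 else 0 with hv
  have hvmem : ∀ β Pj, v β Pj ∈ A.nonunits := by
    intro β Pj
    rw [hv]
    dsimp only
    split_ifs with h
    · exact hK.mem_nonunits _ ((ctl_smul_mem_iff hK hσ').2 h) _
    · exact zero_mem _
  set S : Finset (AlgebraicClosure ℚ) :=
    Finset.univ.image (v b₁) ∪ Finset.univ.image (v b₂) with hS
  have hSmem : ∀ s ∈ S, s ∈ A.nonunits := by
    intro s hs
    rcases Finset.mem_union.1 hs with h | h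
    · obtain ⟨Pj, -, rfl⟩ := Finset.mem_image.1 h; exact hvmem _ _
    · obtain ⟨Pj, -, rfl⟩ := Finset.mem_image.1 h; exact hvmem _ _
  obtain ⟨ϖ, hϖ, hϖ0, hdiv⟩ := ctl_exists_common_dvd A hp hA S hSmem
  have hσϖ : σ ϖ ∈ A.nonunits := ctl_decomp_mem_nonunits A hσ hϖ
  obtain ⟨N, a₀, ha₀, hN⟩ := ctl_exists_pow_eq_mul A hp hA hσϖ (pow_ne_zero 2 hd0)
  obtain ⟨F, hFA, hF⟩ := hK.add_approx ϖ hϖ hϖ0 N
  -- main term
  set Main : Submodule.torsionBy ℤ J (n : ℤ) × Submodule.torsionBy ℤ J (n : ℤ) →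
      AlgebraicClosure ℚ := fun PQ =>
    ∑ m ∈ (F i).support, σ ((F i).coeff m) *
      ((ctlInd J1 n b₁ PQ.1 * ∏ j, (ctlPsi J1 z n σ b₁ j PQ.1) ^ (m (Sum.inl j))) *
        (ctlInd J1 n b₂ PQ.2 * ∏ j, (ctlPsi J1 z n σ b₂ j PQ.2) ^ (m (Sum.inr j)))) with hMain
  have hMainmem : Main ∈ Submodule.span A (ctlTens A (ctlHt A J1 z n)) := by
    have e : Main = ∑ m ∈ (F i).support,
        (⟨σ ((F i).coeff m), ctl_decomp_mem A hσ (hFA i m)⟩ : A) •
          (fun PQ : Submodule.torsionBy ℤ J (n : ℤ) × Submodule.torsionBy ℤ J (n : ℤ) =>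
            (ctlInd J1 n b₁ * ∏ j, (ctlPsi J1 z n σ b₁ j) ^ (m (Sum.inl j))) PQ.1 *
            (ctlInd J1 n b₂ * ∏ j, (ctlPsi J1 z n σ b₂ j) ^ (m (Sum.inr j))) PQ.2) := by
      funext PQ
      rw [hMain, Finset.sum_apply]
      refine Finset.sum_congr rfl fun m _ => ?_
      simp only [Pi.smul_apply, Pi.mul_apply, Finset.prod_apply, Pi.pow_apply]
      rfl
    rw [e]
    refine Submodule.sum_mem _ fun m _ => Submodule.smul_mem _ _ (ctl_tens_mem ?_ ?_)
    · exact mul_mem (ctlInd_mem_ctlHt _)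
        (Subalgebra.prod_mem _ fun j _ => pow_mem (ctlPsi_mem_ctlHt hσ hb₁ j) _)
    · exact mul_mem (ctlInd_mem_ctlHt _)
        (Subalgebra.prod_mem _ fun j _ => pow_mem (ctlPsi_mem_ctlHt hσ hb₂ j) _)
  -- error term
  set U : Submodule.torsionBy ℤ J (n : ℤ) × Submodule.torsionBy ℤ J (n : ℤ) →
      AlgebraicClosure ℚ := fun PQ =>
    ctlInd J1 n b₁ PQ.1 * ctlPsi J1 z n σ b i (PQ.1 + PQ.2) with hU
  have hE : ∀ PQ, ∃ a ∈ A, U PQ - Main PQ = d ^ 2 * a := by
    rintro ⟨P, Q⟩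
    by_cases hP : (P : J) - b₁ ∈ J1
    swap
    · refine ⟨0, zero_mem A, ?_⟩
      rw [hU, hMain]
      simp only [ctlInd_of_not_mem hP, zero_mul, mul_zero, Finset.sum_const_zero, sub_zero]
    have hsum : ((P + Q : Submodule.torsionBy ℤ J (n : ℤ)) : J) - b =
        ((P : J) - b₁) + ((Q : J) - b₂) := by
      rw [Submodule.coe_add, hb₂def]; abel
    by_cases hQ : (Q : J) - b₂ ∈ J1
    swap
    · refine ⟨0, zero_mem A, ?_⟩
      have hPQ : ((P + Q : Submodule.torsionBy ℤ J (n : ℤ)) : J) - b ∉ J1 := by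
        rw [hsum]
        intro h
        apply hQ
        simpa using J1.sub_mem h hP
      rw [hU, hMain]
      simp only [ctlInd_of_not_mem hQ, ctlPsi_of_not_mem hPQ, zero_mul, mul_zero,
        Finset.sum_const_zero, sub_zero]
    -- both in the cosets
    have hPQ : ((P + Q : Submodule.torsionBy ℤ J (n : ℤ)) : J) - b ∈ J1 := by
      rw [hsum]; exact J1.add_mem hP hQ
    set x : J := σ⁻¹ • ((P : J) - b₁) with hx
    set y : J := σ⁻¹ • ((Q : J) - b₂) with hy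
    have hxJ : x ∈ J1 := (ctl_smul_mem_iff hK hσ').2 hP
    have hyJ : y ∈ J1 := (ctl_smul_mem_iff hK hσ').2 hQ
    have hxy : σ⁻¹ • (((P + Q : Submodule.torsionBy ℤ J (n : ℤ)) : J) - b) = x + y := by
      rw [hsum, smul_add]
    have hxdiv : ∀ j, ∃ a ∈ A, z x j = ϖ * a := by
      intro j
      have hmem : v b₁ (P, j) ∈ S :=
        Finset.mem_union_left _ (Finset.mem_image_of_mem _ (Finset.mem_univ _))
      have hval : v b₁ (P, j) = z x j := by
        rw [hv]; dsimp only; rw [if_pos hP]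
      rw [← hval]
      exact hdiv _ hmem
    have hydiv : ∀ j, ∃ a ∈ A, z y j = ϖ * a := by
      intro j
      have hmem : v b₂ (Q, j) ∈ S :=
        Finset.mem_union_right _ (Finset.mem_image_of_mem _ (Finset.mem_univ _))
      have hval : v b₂ (Q, j) = z y j := by
        rw [hv]; dsimp only; rw [if_pos hQ]
      rw [← hval]
      exact hdiv _ hmem
    obtain ⟨a, ha, hFa⟩ := hF x hxJ y hyJ hxdiv hydiv i
    refine ⟨a₀ * σ a, mul_mem ha₀ (ctl_decomp_mem A hσ ha), ?_⟩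
    have hUval : U (P, Q) = σ (z (x + y) i) := by
      rw [hU]
      simp only
      rw [ctlInd_of_mem hP, ctlPsi_of_mem hPQ, one_mul, hxy]
    have hMainval : Main (P, Q) = σ (MvPolynomial.eval (Sum.elim (z x) (z y)) (F i)) := by
      rw [hMain, MvPolynomial.eval_eq', map_sum]
      simp only
      refine Finset.sum_congr rfl fun m _ => ?_
      rw [map_mul, map_prod, Fintype.prod_sum_type, ctlInd_of_mem hP, ctlInd_of_mem hQ,
        one_mul, one_mul]
      congr 1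
      congr 1
      · refine Finset.prod_congr rfl fun j _ => ?_
        rw [map_pow, ctlPsi_of_mem hP]; rfl
      · refine Finset.prod_congr rfl fun j _ => ?_
        rw [map_pow, ctlPsi_of_mem hQ]; rfl
    rw [hUval, hMainval, ← map_sub, hFa, map_mul, map_pow, hN]
    ring
  choose E hEA hEeq using hE
  have hUeq : U = Main + fun PQ => d ^ 2 * E PQ := by
    funext PQ
    rw [Pi.add_apply, ← hEeq PQ]; ring
  show U ∈ _
  rw [hUeq]
  exact add_mem hMainmem (ctl_delta_sq_mem hδ E hEA)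


/-- (P5) `Ht` is closed under the comultiplication -/
theorem ctl_comul_mem {p : ℕ} (hp : p.Prime) (hA : A.LiesOverPrime p)
    (hK : KernelChart A J J1 g z) (hn : 0 < n) [Finite (Submodule.torsionBy ℤ J (n : ℤ))] :
    ∀ h ∈ ctlHt A J1 z n,
      (fun PQ : Submodule.torsionBy ℤ J (n : ℤ) × Submodule.torsionBy ℤ J (n : ℤ) =>
        h (PQ.1 + PQ.2)) ∈ Submodule.span A (ctlTens A (ctlHt A J1 z n)) := by
  intro h hh
  induction hh using Algebra.adjoin_induction with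
  | mem f hf =>
    rcases hf with ⟨b, rfl⟩ | ⟨σ, hσ, b, hb, i, rfl⟩
    · exact ctl_comul_of_cut hK hn _ fun b₁ _ => ctl_comul_ind_cut b₁ b
    · exact ctl_comul_of_cut hK hn _ fun b₁ hb₁ => ctl_comul_psi_cut hp hA hK hn hσ hb i b₁ hb₁
  | algebraMap r =>
    have e : (fun PQ : Submodule.torsionBy ℤ J (n : ℤ) × Submodule.torsionBy ℤ J (n : ℤ) =>
        (algebraMap A (Submodule.torsionBy ℤ J (n : ℤ) → AlgebraicClosure ℚ) r) (PQ.1 + PQ.2)) =
        r • (1 : Submodule.torsionBy ℤ J (n : ℤ) × Submodule.torsionBy ℤ J (n : ℤ) →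
          AlgebraicClosure ℚ) := by
      funext PQ
      rw [Pi.smul_apply, Pi.one_apply, Algebra.smul_def, mul_one]
      rfl
    rw [e]
    exact Submodule.smul_mem _ _ ctl_tensSpan_one
  | add x y _ _ hx hy =>
    have e : (fun PQ : Submodule.torsionBy ℤ J (n : ℤ) × Submodule.torsionBy ℤ J (n : ℤ) =>
        (x + y) (PQ.1 + PQ.2)) = (fun PQ => x (PQ.1 + PQ.2)) + fun PQ => y (PQ.1 + PQ.2) := by
      funext PQ; rfl
    rw [e]; exact add_mem hx hy
  | mul x y _ _ hx hy =>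
    have e : (fun PQ : Submodule.torsionBy ℤ J (n : ℤ) × Submodule.torsionBy ℤ J (n : ℤ) =>
        (x * y) (PQ.1 + PQ.2)) = (fun PQ => x (PQ.1 + PQ.2)) * fun PQ => y (PQ.1 + PQ.2) := by
      funext PQ; rfl
    rw [e]; exact ctl_tensSpan_mul hx hy

end Comul

/-- **ALG-B**: a kernel chart on `J` gives a local Hopf lattice on the finite group `J[n]`. -/
theorem chartToLocalStatement : ChartToLocalStatement := by
  intro p hp A hA J instJ instAct J1 g z hK n hn hfin _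
  exact ⟨ctlHt A J1 z n,
    { integral := ctl_integral hK
      separates := ctl_separates hK hn
      decomp_stable := ctl_decomp_stable hK
      inertia_span := ctl_inertia_span hK hn
      comul_mem := ctl_comul_mem hp hA hK hn }⟩

end Fermat.Agent.W1
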