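import Mathlib

/-!
# W1-GL(a), linear algebra: Artin's lemma for equivariant functions, products, interpolation

`K = AlgebraicClosure ℚ`, `G = K ≃ₐ[ℚ] K`.

* `linearIndependent_qbar_of_rat` : a family of Galois equivariant functions `X → K` that is
  linearly independent over `ℚ` is linearly independent over `K`.
* `linearIndependent_prod_fun` : products `(x, y) ↦ f i x * g j y` of two linearly independent
  families of functions are linearly independent.
* `span_eq_top_of_separates` : over a finite set, a `K`-subspace of functions that is closed under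
  multiplication, contains `1` and separates points is everything.
-/

set_option autoImplicit false

namespace Fermat.Agent.W1

/-- `ℚ̄/ℚ` is Galois, for the `Algebra ℚ ℚ̄` instance found by unification. -/
theorem w1_qbar_isGalois : IsGalois ℚ (AlgebraicClosure ℚ) := by
  have h1 : @IsGalois ℚ _ (AlgebraicClosure ℚ) _ (AlgebraicClosure.instAlgebra ℚ) :=
    inferInstance
  convert h1
  exact Subsingleton.elim _ _

/-- An element of `ℚ̄` fixed by the whole Galois group is rational. -/
theorem w1_exists_rat_of_fixed (x : AlgebraicClosure ℚ)
    (hx : ∀ σ : AlgebraicClosure ℚ ≃ₐ[ℚ] AlgebraicClosure ℚ, σ x = x) :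
    ∃ q : ℚ, algebraMap ℚ (AlgebraicClosure ℚ) q = x := by
  have := w1_qbar_isGalois
  exact (InfiniteGalois.mem_range_algebraMap_iff_fixed x).2 hx

/-- **Artin's lemma** for equivariant functions: linear independence over `ℚ` implies linear
independence over `ℚ̄`. -/
theorem linearIndependent_qbar_of_rat {X ι : Type*}
    (act : (AlgebraicClosure ℚ ≃ₐ[ℚ] AlgebraicClosure ℚ) → X → X)
    (h : ι → X → AlgebraicClosure ℚ)
    (hequiv : ∀ i (σ : AlgebraicClosure ℚ ≃ₐ[ℚ] AlgebraicClosure ℚ) (x : X),
      h i (act σ x) = σ (h i x))
    (hQ : LinearIndependent ℚ h) : LinearIndependent (AlgebraicClosure ℚ) h := by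
  classical
  rw [linearIndependent_iff']
  intro s
  induction s using Finset.induction_on with
  | empty => intro g _ i hi; simp at hi
  | insert a s has ih =>
    intro g hg
    -- twisting a relation by `σ`
    have twist : ∀ (t : Finset ι) (c : ι → AlgebraicClosure ℚ),
        ∑ i ∈ t, c i • h i = 0 →
        ∀ σ : AlgebraicClosure ℚ ≃ₐ[ℚ] AlgebraicClosure ℚ, ∑ i ∈ t, (σ (c i)) • h i = 0 := by
      intro t c hc σ
      funext x
      have h1 := congrFun hc (act σ.symm x)
      simp only [Finset.sum_apply, Pi.smul_apply, smul_eq_mul, Pi.zero_apply] at h1 ⊢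
      have h2 := congrArg σ h1
      simp only [map_sum, map_mul, map_zero] at h2
      rw [← h2]
      refine Finset.sum_congr rfl fun i _ => ?_
      rw [hequiv i σ.symm x]
      simp
    by_cases hga : g a = 0
    · -- reduce to `s`
      have hs : ∑ i ∈ s, g i • h i = 0 := by
        rw [Finset.sum_insert has, hga, zero_smul, zero_add] at hg
        exact hg
      intro i hi
      rcases Finset.mem_insert.1 hi with rfl | hi
      · exact hga
      · exact ih g hs i hi
    · exfalso
      -- normalise
      set c : ι → AlgebraicClosure ℚ := fun i => (g a)⁻¹ * g i with hc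
      have hca : c a = 1 := by simp [hc, hga]
      have hcrel : ∑ i ∈ insert a s, c i • h i = 0 := by
        have : ∑ i ∈ insert a s, c i • h i = (g a)⁻¹ • ∑ i ∈ insert a s, g i • h i := by
          rw [Finset.smul_sum]
          refine Finset.sum_congr rfl fun i _ => ?_
          simp [hc, mul_smul]
        rw [this, hg, smul_zero]
      -- all coefficients are fixed
      have hfix : ∀ i ∈ insert a s, ∀ σ : AlgebraicClosure ℚ ≃ₐ[ℚ] AlgebraicClosure ℚ,
          σ (c i) = c i := by
        intro i hi σ
        have h1 := twist _ c hcrel σ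
        have h2 : ∑ i ∈ s, (σ (c i) - c i) • h i = 0 := by
          have h3 : ∑ i ∈ insert a s, (σ (c i) - c i) • h i = 0 := by
            simp only [sub_smul, Finset.sum_sub_distrib, h1, hcrel, sub_zero]
          rw [Finset.sum_insert has, hca, map_one, sub_self, zero_smul, zero_add] at h3
          exact h3
        rcases Finset.mem_insert.1 hi with rfl | hi
        · rw [hca, map_one]
        · exact sub_eq_zero.1 (ih _ h2 i hi)
      choose! q hq using fun i (hi : i ∈ insert a s) =>
        w1_exists_rat_of_fixed (c i) (hfix i hi)
      have hqrel : ∑ i ∈ insert a s, q i • h i = 0 := by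
        rw [← hcrel]
        refine Finset.sum_congr rfl fun i hi => ?_
        rw [← hq i hi]
        funext x
        simp [Algebra.smul_def]
      have := linearIndependent_iff'.1 hQ _ q hqrel a (Finset.mem_insert_self a s)
      have h1 := hq a (Finset.mem_insert_self a s)
      rw [this, map_zero, hca] at h1
      exact zero_ne_one h1

/-- Products of two linearly independent families of functions are linearly independent. -/
theorem linearIndependent_prod_fun {K X Y ι κ : Type*} [Field K]
    (f : ι → X → K) (g : κ → Y → K)
    (hf : LinearIndependent K f) (hg : LinearIndependent K g) :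
    LinearIndependent K (fun ij : ι × κ => fun xy : X × Y => f ij.1 xy.1 * g ij.2 xy.2) := by
  classical
  rw [linearIndependent_iff']
  intro s c hc ij hij
  -- enlarge `s` to a product
  set s1 := s.image Prod.fst
  set s2 := s.image Prod.snd
  set c' : ι × κ → K := fun p => if p ∈ s then c p else 0 with hc'
  have hsub : s ⊆ s1 ×ˢ s2 := by
    intro p hp
    exact Finset.mem_product.2 ⟨Finset.mem_image_of_mem _ hp, Finset.mem_image_of_mem _ hp⟩
  have hrel : ∀ x y, ∑ i ∈ s1, (∑ j ∈ s2, c' (i, j) * g j y) * f i x = 0 := by
    intro x y
    have h1 := congrFun hc (x, y)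
    simp only [Finset.sum_apply, Pi.smul_apply, smul_eq_mul, Pi.zero_apply] at h1
    have h2 : ∑ p ∈ s1 ×ˢ s2, c' p * (f p.1 x * g p.2 y) = 0 := by
      rw [← h1]
      symm
      refine Finset.sum_subset_zero_on_sdiff hsub ?_ ?_
      · intro p hp
        have : p ∉ s := (Finset.mem_sdiff.1 hp).2
        simp [hc', this]
      · intro p hp
        simp [hc', hp]
    rw [Finset.sum_product] at h2
    rw [← h2]
    refine Finset.sum_congr rfl fun i _ => ?_
    rw [Finset.sum_mul]
    refine Finset.sum_congr rfl fun j _ => ?_
    ring
  -- first use independence of `f`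
  have h3 : ∀ y, ∀ i ∈ s1, ∑ j ∈ s2, c' (i, j) * g j y = 0 := by
    intro y
    refine linearIndependent_iff'.1 hf s1 (fun i => ∑ j ∈ s2, c' (i, j) * g j y) ?_
    funext x
    simpa [Finset.sum_apply] using hrel x y
  -- then independence of `g`
  have h4 : ∀ i ∈ s1, ∀ j ∈ s2, c' (i, j) = 0 := by
    intro i hi
    refine linearIndependent_iff'.1 hg s2 (fun j => c' (i, j)) ?_
    funext y
    simpa [Finset.sum_apply] using h3 y i hi
  have h5 := h4 ij.1 (Finset.mem_image_of_mem _ hij) ij.2 (Finset.mem_image_of_mem _ hij)
  simpa [hc', hij] using h5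

end Fermat.Agent.W1
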