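import Fermat.Agent.W1.PlanGL
import Fermat.Agent.W1.HopfLinAlg

/-!
# W1-GL(a): a Hopf lattice of equivariant functions is a finite flat Hopf algebra

Proof of `HopfOfLatticeStatement` (see `PlanGL.lean`).

Plan: an `R`-basis of the lattice `H` is linearly independent over `ℚ̄` (Artin), hence the
multiplication maps `H ⊗ H → Map(M × M, ℚ̄)`, `H ⊗ (H ⊗ H) → Map(M × (M × M), ℚ̄)` are injective.
All Hopf algebra identities are then checked pointwise on functions.
-/

set_option autoImplicit false
set_option linter.unusedSectionVars false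
set_option linter.unusedSimpArgs false
set_option linter.style.haveILetI false

open TensorProduct

namespace Fermat.Agent.W1

section Pull

variable (R : Subring ℚ)

/-- Pull-back of functions along a map, as an algebra homomorphism. -/
noncomputable def pullFn {X Y : Type} (p : Y → X) :
    (X → AlgebraicClosure ℚ) →ₐ[R] (Y → AlgebraicClosure ℚ) :=
  AlgHom.pi (fun y => Pi.evalAlgHom R (fun _ : X => AlgebraicClosure ℚ) (p y))

@[simp] theorem pullFn_apply {X Y : Type} (p : Y → X) (f : X → AlgebraicClosure ℚ) (y : Y) :
    pullFn R p f y = f (p y) := rfl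

end Pull

section Main

variable {R : Subring ℚ} {M : Type} [AddCommGroup M]
  {act : (AlgebraicClosure ℚ ≃ₐ[ℚ] AlgebraicClosure ℚ) → M → M}
  {H : Subalgebra R (M → AlgebraicClosure ℚ)}

/-- The algebra map `R → ℚ̄` is injective. -/
theorem algebraMap_R_injective :
    Function.Injective (algebraMap R (AlgebraicClosure ℚ)) := by
  intro x y hxy
  rw [IsScalarTower.algebraMap_apply R ℚ (AlgebraicClosure ℚ),
    IsScalarTower.algebraMap_apply R ℚ (AlgebraicClosure ℚ)] at hxy
  exact Subtype.ext ((algebraMap ℚ (AlgebraicClosure ℚ)).injective hxy)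

/-- The lattice is torsion free. -/
theorem isTorsionFree_lattice (H : Subalgebra R (M → AlgebraicClosure ℚ)) :
    Module.IsTorsionFree R H := by
  refine Module.IsTorsionFree.of_smul_eq_zero fun r h hrh => ?_
  by_cases hr : r = 0
  · exact Or.inl hr
  · right
    apply Subtype.ext
    funext P
    have h1 : r • ((h : M → AlgebraicClosure ℚ) P) = 0 :=
      congrArg (fun x : H => (x : M → AlgebraicClosure ℚ) P) hrh
    rw [Algebra.smul_def] at h1
    rcases mul_eq_zero.1 h1 with h2 | h2
    · exact absurd (algebraMap_R_injective (by simpa using h2)) hr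
    · simpa using h2

/-- The evaluation at a point, an algebra homomorphism `H → ℚ̄`. -/
noncomputable def evPt (H : Subalgebra R (M → AlgebraicClosure ℚ)) (P : M) :
    H →ₐ[R] AlgebraicClosure ℚ :=
  (Pi.evalAlgHom R (fun _ : M => AlgebraicClosure ℚ) P).comp H.val

@[simp] theorem evPt_apply (P : M) (h : H) : evPt H P h = (h : M → AlgebraicClosure ℚ) P := rfl

/-- The multiplication map `H ⊗ H → Map(M × M, ℚ̄)`. -/
noncomputable def mu2 (H : Subalgebra R (M → AlgebraicClosure ℚ)) :
    H ⊗[R] H →ₐ[R] (M × M → AlgebraicClosure ℚ) :=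
  Algebra.TensorProduct.lift ((pullFn R (Prod.fst : M × M → M)).comp H.val)
    ((pullFn R (Prod.snd : M × M → M)).comp H.val) (fun _ _ => Commute.all _ _)

@[simp] theorem mu2_tmul (a b : H) (PQ : M × M) :
    mu2 H (a ⊗ₜ[R] b) PQ = (a : M → AlgebraicClosure ℚ) PQ.1 * (b : M → AlgebraicClosure ℚ) PQ.2 := by
  simp [mu2, Algebra.TensorProduct.lift_tmul]

/-- The multiplication map `H ⊗ (H ⊗ H) → Map(M × (M × M), ℚ̄)`. -/
noncomputable def mu3 (H : Subalgebra R (M → AlgebraicClosure ℚ)) :
    H ⊗[R] (H ⊗[R] H) →ₐ[R] (M × (M × M) → AlgebraicClosure ℚ) :=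
  Algebra.TensorProduct.lift ((pullFn R (Prod.fst : M × (M × M) → M)).comp H.val)
    ((pullFn R (Prod.snd : M × (M × M) → M × M)).comp (mu2 H)) (fun _ _ => Commute.all _ _)

@[simp] theorem mu3_tmul (a : H) (t : H ⊗[R] H) (x : M × (M × M)) :
    mu3 H (a ⊗ₜ[R] t) x = (a : M → AlgebraicClosure ℚ) x.1 * mu2 H t x.2 := by
  simp [mu3, Algebra.TensorProduct.lift_tmul]

/-- A linear map to functions which sends a basis to a family linearly independent over `ℚ̄`
is injective. -/
theorem injective_of_basis_indep {V : Type} [AddCommGroup V] [Module R V] {ι : Type}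
    [Fintype ι] (b : Module.Basis ι R V) {X : Type} (f : V →ₗ[R] (X → AlgebraicClosure ℚ))
    (hf : LinearIndependent (AlgebraicClosure ℚ) (fun i => f (b i))) : Function.Injective f := by
  rw [injective_iff_map_eq_zero]
  intro t ht
  have h1 : t = ∑ i, b.repr t i • b i := (b.sum_repr t).symm
  have h2 : ∑ i, (algebraMap R (AlgebraicClosure ℚ) (b.repr t i)) • f (b i) = 0 := by
    rw [← ht]
    conv_rhs => rw [h1]
    rw [map_sum]
    refine Finset.sum_congr rfl fun i _ => ?_
    rw [map_smul]
    funext x
    simp [Algebra.smul_def]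
  have h3 := Fintype.linearIndependent_iff.1 hf _ h2
  have h4 : ∀ i, b.repr t i = 0 := fun i =>
    algebraMap_R_injective (by rw [h3 i, map_zero])
  rw [h1]
  simp [h4]

variable [IsPrincipalIdealRing R] [IsFractionRing R ℚ]

/-- A Hopf lattice has an `R`-basis which is linearly independent over `ℚ̄`. -/
theorem exists_basis_linearIndependent (hH : IsHopfLattice R act H) :
    ∃ (n : ℕ) (b : Module.Basis (Fin n) R H),
      LinearIndependent (AlgebraicClosure ℚ)
        (fun i => ((b i : H) : M → AlgebraicClosure ℚ)) := by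
  haveI : Module.Finite R H := Module.Finite.iff_fg.2 hH.fg
  haveI : Module.IsTorsionFree R H := isTorsionFree_lattice H
  haveI : Module.Free R H := Module.free_of_finite_type_torsion_free'
  refine ⟨_, Module.finBasis R H, ?_⟩
  set b := Module.finBasis R H
  have h1 : LinearIndependent R (fun i => ((b i : H) : M → AlgebraicClosure ℚ)) := by
    have := b.linearIndependent.map' (Subalgebra.toSubmodule H).subtype
      (Submodule.ker_subtype _)
    exact this
  have h2 : LinearIndependent ℚ (fun i => ((b i : H) : M → AlgebraicClosure ℚ)) :=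
    (LinearIndependent.iff_fractionRing R ℚ).1 h1
  exact linearIndependent_qbar_of_rat act _ (fun i σ x => hH.equivariant _ (b i).2 σ x) h2

/-- `mu2` is injective. -/
theorem mu2_injective (hH : IsHopfLattice R act H) : Function.Injective (mu2 H) := by
  obtain ⟨n, b, hb⟩ := exists_basis_linearIndependent hH
  have hK := linearIndependent_prod_fun _ _ hb hb
  have hinj : Function.Injective (mu2 H).toLinearMap := by
    refine injective_of_basis_indep (V := H ⊗[R] H) (b.tensorProduct b) _ ?_
    convert hK using 1
    funext ⟨i, j⟩ PQ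
    simp [Module.Basis.tensorProduct_apply]
  exact hinj

/-- `mu3` is injective. -/
theorem mu3_injective (hH : IsHopfLattice R act H) : Function.Injective (mu3 H) := by
  obtain ⟨n, b, hb⟩ := exists_basis_linearIndependent hH
  have hK2 := linearIndependent_prod_fun _ _ hb hb
  have hK := linearIndependent_prod_fun _ _ hb hK2
  have hinj : Function.Injective (mu3 H).toLinearMap := by
    refine injective_of_basis_indep (V := H ⊗[R] (H ⊗[R] H))
      (b.tensorProduct (b.tensorProduct b)) _ ?_
    convert hK using 1
    funext ⟨i, j, k⟩ x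
    simp [Module.Basis.tensorProduct_apply]
  exact hinj

/-- `(P, Q) ↦ h (P + Q)`. -/
noncomputable def addFn (H : Subalgebra R (M → AlgebraicClosure ℚ)) :
    H →ₐ[R] (M × M → AlgebraicClosure ℚ) :=
  (pullFn R (fun PQ : M × M => PQ.1 + PQ.2)).comp H.val

@[simp] theorem addFn_apply (h : H) (PQ : M × M) :
    addFn H h PQ = (h : M → AlgebraicClosure ℚ) (PQ.1 + PQ.2) := rfl

theorem addFn_mem_range (hH : IsHopfLattice R act H) (h : H) : addFn H h ∈ (mu2 H).range := by
  have h1 := hH.comul_mem h.1 h.2
  have h2 : Submodule.span R {F : M × M → AlgebraicClosure ℚ |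
      ∃ a ∈ H, ∃ b ∈ H, F = fun PQ => a PQ.1 * b PQ.2} ≤
      Subalgebra.toSubmodule (mu2 H).range := by
    rw [Submodule.span_le]
    rintro F ⟨a, ha, b, hb, rfl⟩
    refine ⟨(⟨a, ha⟩ : H) ⊗ₜ[R] (⟨b, hb⟩ : H), ?_⟩
    funext PQ
    simp
  exact h2 h1

/-- The comultiplication of a Hopf lattice. -/
noncomputable def comulAlg (hH : IsHopfLattice R act H) : H →ₐ[R] H ⊗[R] H :=
  ((AlgEquiv.ofInjective (mu2 H) (mu2_injective hH)).symm : (mu2 H).range →ₐ[R] H ⊗[R] H).comp
    ((addFn H).codRestrict (mu2 H).range (addFn_mem_range hH))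

theorem mu2_comulAlg (hH : IsHopfLattice R act H) (h : H) :
    mu2 H (comulAlg hH h) = addFn H h := by
  have h1 : (AlgEquiv.ofInjective (mu2 H) (mu2_injective hH)) (comulAlg hH h) =
      (addFn H).codRestrict (mu2 H).range (addFn_mem_range hH) h := by
    simp [comulAlg]
  exact congrArg Subtype.val h1

theorem mu2_comulAlg_apply (hH : IsHopfLattice R act H) (h : H) (P Q : M) :
    mu2 H (comulAlg hH h) (P, Q) = (h : M → AlgebraicClosure ℚ) (P + Q) := by
  rw [mu2_comulAlg]; rfl

theorem evZero_mem_range (hH : IsHopfLattice R act H) (h : H) :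
    evPt H 0 h ∈ (Algebra.ofId R (AlgebraicClosure ℚ)).range := by
  obtain ⟨r, hr⟩ := hH.counit_mem h.1 h.2
  exact ⟨r, hr.symm⟩

/-- The counit of a Hopf lattice. -/
noncomputable def counitAlg (hH : IsHopfLattice R act H) : H →ₐ[R] R :=
  ((AlgEquiv.ofInjective (Algebra.ofId R (AlgebraicClosure ℚ)) algebraMap_R_injective).symm :
      (Algebra.ofId R (AlgebraicClosure ℚ)).range →ₐ[R] R).comp
    ((evPt H 0).codRestrict (Algebra.ofId R (AlgebraicClosure ℚ)).range (evZero_mem_range hH))

theorem algebraMap_counitAlg (hH : IsHopfLattice R act H) (h : H) :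
    algebraMap R (AlgebraicClosure ℚ) (counitAlg hH h) = (h : M → AlgebraicClosure ℚ) 0 := by
  have h1 : (AlgEquiv.ofInjective (Algebra.ofId R (AlgebraicClosure ℚ)) algebraMap_R_injective)
      (counitAlg hH h) =
      (evPt H 0).codRestrict (Algebra.ofId R (AlgebraicClosure ℚ)).range
        (evZero_mem_range hH) h := by
    simp [counitAlg]
  exact congrArg Subtype.val h1

theorem mu3_assoc_tmul (u : H ⊗[R] H) (b : H) (P Q S : M) :
    mu3 H (Algebra.TensorProduct.assoc R R R H H H (u ⊗ₜ[R] b)) (P, (Q, S)) =
      mu2 H u (P, Q) * (b : M → AlgebraicClosure ℚ) S := by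
  induction u using TensorProduct.induction_on with
  | zero => simp
  | tmul a a' => simp [mul_assoc]
  | add x y hx hy => simp only [TensorProduct.add_tmul, map_add, Pi.add_apply, hx, hy, add_mul]

theorem mu3_assoc_map_comul (hH : IsHopfLattice R act H) (t : H ⊗[R] H) (P Q S : M) :
    mu3 H (Algebra.TensorProduct.assoc R R R H H H
      (Algebra.TensorProduct.map (comulAlg hH) (AlgHom.id R H) t)) (P, (Q, S)) =
      mu2 H t (P + Q, S) := by
  induction t using TensorProduct.induction_on with
  | zero => simp
  | tmul a b =>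
    rw [Algebra.TensorProduct.map_tmul, mu3_assoc_tmul, mu2_comulAlg_apply]
    simp
  | add x y hx hy => simp only [map_add, Pi.add_apply, hx, hy]

theorem mu3_map_id_comul (hH : IsHopfLattice R act H) (t : H ⊗[R] H) (P Q S : M) :
    mu3 H (Algebra.TensorProduct.map (AlgHom.id R H) (comulAlg hH) t) (P, (Q, S)) =
      mu2 H t (P, Q + S) := by
  induction t using TensorProduct.induction_on with
  | zero => simp
  | tmul a b =>
    rw [Algebra.TensorProduct.map_tmul, mu3_tmul, mu2_comulAlg_apply]
    simp
  | add x y hx hy => simp only [map_add, Pi.add_apply, hx, hy]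

theorem lid_map_counit (hH : IsHopfLattice R act H) (t : H ⊗[R] H) (P : M) :
    ((Algebra.TensorProduct.lid R H
      (Algebra.TensorProduct.map (counitAlg hH) (AlgHom.id R H) t) : H) :
        M → AlgebraicClosure ℚ) P = mu2 H t (0, P) := by
  induction t using TensorProduct.induction_on with
  | zero => simp
  | tmul a b =>
    rw [Algebra.TensorProduct.map_tmul, Algebra.TensorProduct.lid_tmul, mu2_tmul]
    simp only [AlgHom.coe_id, id_eq, Subalgebra.coe_smul, Pi.smul_apply]
    rw [Algebra.smul_def, algebraMap_counitAlg]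
  | add x y hx hy => simp only [map_add, Subalgebra.coe_add, Pi.add_apply, hx, hy]

theorem rid_map_counit (hH : IsHopfLattice R act H) (t : H ⊗[R] H) (P : M) :
    ((Algebra.TensorProduct.rid R R H
      (Algebra.TensorProduct.map (AlgHom.id R H) (counitAlg hH) t) : H) :
        M → AlgebraicClosure ℚ) P = mu2 H t (P, 0) := by
  induction t using TensorProduct.induction_on with
  | zero => simp
  | tmul a b =>
    rw [Algebra.TensorProduct.map_tmul, Algebra.TensorProduct.rid_tmul, mu2_tmul]
    simp only [AlgHom.coe_id, id_eq, Subalgebra.coe_smul, Pi.smul_apply]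
    rw [Algebra.smul_def, algebraMap_counitAlg, mul_comm]
  | add x y hx hy => simp only [map_add, Subalgebra.coe_add, Pi.add_apply, hx, hy]

/-- The bialgebra structure of a Hopf lattice. -/
@[instance_reducible]
noncomputable def bialgebraOfLattice (hH : IsHopfLattice R act H) : Bialgebra R H :=
  Bialgebra.ofAlgHom (comulAlg hH) (counitAlg hH)
    (by
      apply AlgHom.ext
      intro h
      apply mu3_injective hH
      funext ⟨P, Q, S⟩
      refine (mu3_assoc_map_comul hH (comulAlg hH h) P Q S).trans ?_
      refine Eq.trans ?_ (mu3_map_id_comul hH (comulAlg hH h) P Q S).symm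
      rw [mu2_comulAlg_apply, mu2_comulAlg_apply, add_assoc])
    (by
      apply AlgHom.ext
      intro h
      apply (Algebra.TensorProduct.lid R H).injective
      apply Subtype.ext
      funext P
      refine (lid_map_counit hH (comulAlg hH h) P).trans ?_
      rw [mu2_comulAlg_apply, zero_add]
      exact congrArg (fun x : H => (x : M → AlgebraicClosure ℚ) P)
        ((Algebra.TensorProduct.lid R H).apply_symm_apply h).symm)
    (by
      apply AlgHom.ext
      intro h
      apply (Algebra.TensorProduct.rid R R H).injective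
      apply Subtype.ext
      funext P
      refine (rid_map_counit hH (comulAlg hH h) P).trans ?_
      rw [mu2_comulAlg_apply, add_zero]
      exact congrArg (fun x : H => (x : M → AlgebraicClosure ℚ) P)
        ((Algebra.TensorProduct.rid R R H).apply_symm_apply h).symm)

/-- The antipode of a Hopf lattice. -/
noncomputable def antipodeAlg (hH : IsHopfLattice R act H) : H →ₐ[R] H :=
  ((pullFn R (fun P : M => -P)).comp H.val).codRestrict H (fun h => hH.antipode_mem h.1 h.2)

theorem antipodeAlg_apply (hH : IsHopfLattice R act H) (h : H) (P : M) :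
    ((antipodeAlg hH h : H) : M → AlgebraicClosure ℚ) P = (h : M → AlgebraicClosure ℚ) (-P) :=
  rfl

theorem lift_antipode_id (hH : IsHopfLattice R act H) (t : H ⊗[R] H) (P : M) :
    ((Algebra.TensorProduct.lift (antipodeAlg hH) (AlgHom.id R H) (fun _ _ => Commute.all _ _) t
      : H) : M → AlgebraicClosure ℚ) P = mu2 H t (-P, P) := by
  induction t using TensorProduct.induction_on with
  | zero => simp
  | tmul a b =>
    rw [Algebra.TensorProduct.lift_tmul, mu2_tmul]
    simp [antipodeAlg_apply]
  | add x y hx hy => simp only [map_add, Subalgebra.coe_add, Pi.add_apply, hx, hy]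

theorem lift_id_antipode (hH : IsHopfLattice R act H) (t : H ⊗[R] H) (P : M) :
    ((Algebra.TensorProduct.lift (AlgHom.id R H) (antipodeAlg hH) (fun _ _ => Commute.all _ _) t
      : H) : M → AlgebraicClosure ℚ) P = mu2 H t (P, -P) := by
  induction t using TensorProduct.induction_on with
  | zero => simp
  | tmul a b =>
    rw [Algebra.TensorProduct.lift_tmul, mu2_tmul]
    simp [antipodeAlg_apply]
  | add x y hx hy => simp only [map_add, Subalgebra.coe_add, Pi.add_apply, hx, hy]

theorem mu2_comm (t : H ⊗[R] H) (P Q : M) :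
    mu2 H (TensorProduct.comm R H H t) (P, Q) = mu2 H t (Q, P) := by
  induction t using TensorProduct.induction_on with
  | zero => simp
  | tmul a b => simp [mul_comm]
  | add x y hx hy => simp only [map_add, Pi.add_apply, hx, hy]

/-- The Hopf algebra structure of a Hopf lattice. -/
@[instance_reducible]
noncomputable def hopfAlgebraOfLattice (hH : IsHopfLattice R act H) : HopfAlgebra R H :=
  letI := bialgebraOfLattice hH
  HopfAlgebra.ofAlgHom (antipodeAlg hH)
    (by
      apply AlgHom.ext
      intro h
      apply Subtype.ext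
      funext P
      refine (lift_antipode_id hH (comulAlg hH h) P).trans ?_
      rw [mu2_comulAlg_apply, neg_add_cancel]
      exact (algebraMap_counitAlg hH h).symm)
    (by
      apply AlgHom.ext
      intro h
      apply Subtype.ext
      funext P
      refine (lift_id_antipode hH (comulAlg hH h) P).trans ?_
      rw [mu2_comulAlg_apply, add_neg_cancel]
      exact (algebraMap_counitAlg hH h).symm)

theorem comul_hopfAlgebraOfLattice (hH : IsHopfLattice R act H) (h : H) :
    letI := hopfAlgebraOfLattice hH
    Coalgebra.comul (R := R) h = comulAlg hH h := rfl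

theorem isCocomm_hopfAlgebraOfLattice (hH : IsHopfLattice R act H) :
    letI := hopfAlgebraOfLattice hH
    Coalgebra.IsCocomm R H := by
  letI := hopfAlgebraOfLattice hH
  refine ⟨?_⟩
  apply LinearMap.ext
  intro h
  apply mu2_injective hH
  funext ⟨P, Q⟩
  refine (mu2_comm (comulAlg hH h) P Q).trans ?_
  rw [mu2_comulAlg_apply, add_comm]
  exact (mu2_comulAlg_apply hH h P Q).symm

theorem evPt_injective (hH : IsHopfLattice R act H) : Function.Injective (evPt H) := by
  intro P Q hPQ
  refine hH.separates P Q fun h hh => ?_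
  exact congrArg (fun φ : H →ₐ[R] AlgebraicClosure ℚ => φ ⟨h, hh⟩) hPQ

theorem evPt_bijective [Finite M] (hH : IsHopfLattice R act H) :
    Function.Bijective (evPt H) := by
  classical
  haveI : Fintype M := Fintype.ofFinite M
  haveI : Module.Finite R H := Module.Finite.iff_fg.2 hH.fg
  haveI : Module.IsTorsionFree R H := isTorsionFree_lattice H
  haveI : Module.Free R H := Module.free_of_finite_type_torsion_free'
  haveI : Finite (H →ₐ[R] AlgebraicClosure ℚ) := Finite.algHom R H (AlgebraicClosure ℚ)
  refine Function.Injective.bijective_of_nat_card_le (evPt_injective hH) ?_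
  refine (card_algHom_le_finrank R H (AlgebraicClosure ℚ)).trans ?_
  -- an `R`-basis of `H` is linearly independent over `ℚ̄` inside `M → ℚ̄`
  have h1 : LinearIndependent (AlgebraicClosure ℚ)
      (fun i => ((Module.finBasis R H i : H) : M → AlgebraicClosure ℚ)) := by
    have h2 : LinearIndependent R
        (fun i => ((Module.finBasis R H i : H) : M → AlgebraicClosure ℚ)) :=
      (Module.finBasis R H).linearIndependent.map' (Subalgebra.toSubmodule H).subtype
        (Submodule.ker_subtype _)
    have h3 : LinearIndependent ℚ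
        (fun i => ((Module.finBasis R H i : H) : M → AlgebraicClosure ℚ)) :=
      (LinearIndependent.iff_fractionRing R ℚ).1 h2
    exact linearIndependent_qbar_of_rat act _
      (fun i σ x => hH.equivariant _ (Module.finBasis R H i).2 σ x) h3
  have h4 := h1.fintype_card_le_finrank
  simpa [Nat.card_eq_fintype_card] using h4

/-- The points of a Hopf lattice. -/
noncomputable def pointsEquiv [Finite M] (hH : IsHopfLattice R act H) :
    WithConv (H →ₐ[R] AlgebraicClosure ℚ) ≃ M :=
  (WithConv.equiv _).trans (Equiv.ofBijective (evPt H) (evPt_bijective hH)).symm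

theorem pointsEquiv_eq_iff [Finite M] (hH : IsHopfLattice R act H)
    (f : WithConv (H →ₐ[R] AlgebraicClosure ℚ)) (P : M) :
    pointsEquiv hH f = P ↔ ∀ h : H, f.ofConv h = (h : M → AlgebraicClosure ℚ) P := by
  constructor
  · rintro rfl h
    have h1 : evPt H (pointsEquiv hH f) = f.ofConv :=
      (Equiv.ofBijective (evPt H) (evPt_bijective hH)).apply_symm_apply f.ofConv
    rw [← evPt_apply (H := H), h1]
  · intro hf
    have h1 : f.ofConv = evPt H P := AlgHom.ext hf
    show (Equiv.ofBijective (evPt H) (evPt_bijective hH)).symm f.ofConv = P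
    rw [h1]
    exact (Equiv.ofBijective (evPt H) (evPt_bijective hH)).symm_apply_apply P

theorem lift_ofConv (P Q : M) (t : H ⊗[R] H) :
    Algebra.TensorProduct.lift (evPt H P) (evPt H Q) (fun _ _ => Commute.all _ _) t =
      mu2 H t (P, Q) := by
  induction t using TensorProduct.induction_on with
  | zero => simp
  | tmul a b => simp
  | add x y hx hy => simp only [map_add, Pi.add_apply, hx, hy]

/-- **W1-GL(a)**: a Hopf lattice gives a finite flat model. -/
theorem hasFiniteFlatModel_of_isHopfLattice [Finite M] (hH : IsHopfLattice R act H) :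
    HasFiniteFlatModel R M act := by
  haveI : Module.Finite R H := Module.Finite.iff_fg.2 hH.fg
  haveI : Module.IsTorsionFree R H := isTorsionFree_lattice H
  haveI : Module.Free R H := Module.free_of_finite_type_torsion_free'
  letI := hopfAlgebraOfLattice hH
  refine ⟨H, inferInstance, hopfAlgebraOfLattice hH, inferInstance, inferInstance,
    isCocomm_hopfAlgebraOfLattice hH, pointsEquiv hH, ?_, ?_⟩
  · intro f g
    rw [pointsEquiv_eq_iff]
    intro h
    rw [AlgHom.convMul_apply]
    have hf := (pointsEquiv_eq_iff hH f _).1 rfl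
    have hg := (pointsEquiv_eq_iff hH g _).1 rfl
    have hf' : f.ofConv = evPt H (pointsEquiv hH f) := AlgHom.ext hf
    have hg' : g.ofConv = evPt H (pointsEquiv hH g) := AlgHom.ext hg
    have h1 : Algebra.TensorProduct.lift f.ofConv g.ofConv (fun _ _ => Commute.all _ _)
        (Coalgebra.comul (R := R) h) =
        Algebra.TensorProduct.lift (evPt H (pointsEquiv hH f)) (evPt H (pointsEquiv hH g))
          (fun _ _ => Commute.all _ _) (comulAlg hH h) := by
      congr 1
      · congr 1
    rw [h1, lift_ofConv, mu2_comulAlg_apply]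
  · intro σ f g hfg
    rw [pointsEquiv_eq_iff]
    intro h
    rw [hfg h, (pointsEquiv_eq_iff hH f _).1 rfl h]
    exact (hH.equivariant _ h.2 σ _).symm

/-- The statement of `PlanGL.lean`. -/
theorem hopfOfLatticeStatement : HopfOfLatticeStatement := by
  intro R hR hF M hM hfin act H hH
  exact hasFiniteFlatModel_of_isHopfLattice hH

end Main

end Fermat.Agent.W1
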