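import Fermat.Agent.W1.PlanDescent
import Fermat.Agent.Common.FrobProfinite
import Fermat.Agent.S28.RatLoc

/-!
# W1 ALG-A: basic facts on a valuation subring `A ⊂ ℚ̄` over `p`

* `desc_mem_of_isIntegral` : algebraic integers lie in `A`;
* `desc_inv_mem_of_not_dvd` : integers prime to `p` are units of `A`;
* `desc_arch` : every nonzero `d ∈ ℚ̄` divides a power of `p` in `A` (`p^N = d·a`, `a ∈ A`);
* `desc_rat_mem_iff` : `A ∩ ℚ = ℤ_(p)`;
* `desc_pow_mul_mem_iff`-type helpers for congruences modulo `p^k`.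
-/

set_option autoImplicit false

namespace Fermat.Agent.W1

open Fermat.Agent.Common

local notation "Qb" => AlgebraicClosure ℚ

theorem desc_mem_of_isIntegral (A : ValuationSubring Qb) {x : Qb} (hx : IsIntegral ℤ x) :
    x ∈ A := by
  have h1 : IsIntegral A x := by
    obtain ⟨P, hP, hPx⟩ := hx
    refine ⟨P.map (algebraMap ℤ A), hP.map _, ?_⟩
    rw [Polynomial.eval₂_map]
    have : (algebraMap A Qb).comp (algebraMap ℤ A) = algebraMap ℤ Qb := by
      ext z; simp
    rw [this]; exact hPx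
  obtain ⟨y, hy⟩ := IsIntegrallyClosed.isIntegral_iff.mp h1
  rw [← hy]
  exact y.2

theorem desc_inv_mem_of_not_nonunits (A : ValuationSubring Qb) {c : Qb} (hc : c ∈ A)
    (hc' : c ∉ A.nonunits) : c⁻¹ ∈ A := by
  rw [ValuationSubring.mem_nonunits_iff, not_lt] at hc'
  have h1 := (ValuationSubring.valuation_le_one_iff A c).mpr hc
  have h2 : A.valuation c = 1 := le_antisymm h1 hc'
  rw [← ValuationSubring.valuation_le_one_iff, map_inv₀, h2, inv_one]

theorem desc_inv_mem_of_not_dvd {p : ℕ} (hp : p.Prime) (A : ValuationSubring Qb)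
    (hA : A.LiesOverPrime p) (z : ℤ) (hz : ¬ (p : ℤ) ∣ z) : ((z : Qb))⁻¹ ∈ A :=
  desc_inv_mem_of_not_nonunits A (intCast_mem_valuationSubring A z)
    (intCast_not_mem_nonunits hp A hA z hz)

theorem desc_natCast_mem (A : ValuationSubring Qb) (n : ℕ) : (n : Qb) ∈ A := by
  have := intCast_mem_valuationSubring A (n : ℤ)
  simpa using this

theorem desc_p_pow_mem {p : ℕ} (A : ValuationSubring Qb) (N : ℕ) : (p : Qb) ^ N ∈ A :=
  pow_mem (desc_natCast_mem A p) N

/-- Every nonzero element of `ℚ̄` divides a power of `p` in `A`. -/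
theorem desc_arch {p : ℕ} (hp : p.Prime) (A : ValuationSubring Qb) (hA : A.LiesOverPrime p)
    {d : Qb} (hd : d ≠ 0) : ∃ N : ℕ, ∃ a ∈ A, (p : Qb) ^ N = d * a := by
  have halg : IsAlgebraic ℤ d⁻¹ := by
    have : Algebra.IsAlgebraic ℚ Qb := AlgebraicClosure.isAlgebraic ℚ
    exact (IsFractionRing.isAlgebraic_iff ℤ ℚ Qb).mpr (Algebra.IsAlgebraic.isAlgebraic _)
  obtain ⟨n, hn0, hn⟩ := halg.exists_integral_multiple
  have hmem : n • d⁻¹ ∈ A := desc_mem_of_isIntegral A hn
  have hfin : FiniteMultiplicity (p : ℤ) n := by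
    rw [Int.finiteMultiplicity_iff]
    refine ⟨?_, hn0⟩
    simpa using hp.one_lt.ne'
  obtain ⟨c, hc, hpc⟩ := hfin.exists_eq_pow_mul_and_not_dvd
  refine ⟨multiplicity (p : ℤ) n, (n • d⁻¹) * ((c : Qb))⁻¹,
    A.mul_mem _ _ hmem (desc_inv_mem_of_not_dvd hp A hA c hpc), ?_⟩
  have hc0 : (c : Qb) ≠ 0 := by
    intro h
    have : c = 0 := by exact_mod_cast h
    exact hpc (this ▸ dvd_zero _)
  have hn' : (n : Qb) = (p : Qb) ^ multiplicity (p : ℤ) n * (c : Qb) := by
    have := congrArg (fun t : ℤ => (t : Qb)) hc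
    simpa using this
  rw [zsmul_eq_mul, hn']
  field_simp

/-- `A ∩ ℚ = ℤ_(p)`. -/
theorem desc_rat_mem_iff {p : ℕ} (hp : p.Prime) (A : ValuationSubring Qb)
    (hA : A.LiesOverPrime p) (q : ℚ) :
    algebraMap ℚ Qb q ∈ A ↔ q ∈ GaloisRep.ratLocalizedAt p := by
  have : Fact p.Prime := ⟨hp⟩
  rw [Fermat.Agent.S28.mem_ratLocalizedAt_iff]
  have hq : algebraMap ℚ Qb q = (q.num : Qb) * ((q.den : ℤ) : Qb)⁻¹ := by
    have h1 : (q : Qb) = (q.num : Qb) / (q.den : Qb) := by
      exact_mod_cast congrArg (fun t : ℚ => (t : Qb)) (Rat.num_div_den q).symm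
    rw [eq_ratCast, h1, div_eq_mul_inv]
    simp
  constructor
  · intro h hdvd
    -- then `p ∤ num`, so `num` is a unit, but `num = q * den ∈ 𝔪`
    have hnum : ¬ (p : ℤ) ∣ q.num := by
      intro hn
      have h1 : p ∣ q.num.natAbs := Int.natCast_dvd.mp hn
      have h2 := Nat.dvd_gcd h1 hdvd
      rw [q.reduced] at h2
      exact hp.one_lt.ne' (Nat.dvd_one.mp h2)
    have hunit := intCast_not_mem_nonunits hp A hA q.num hnum
    apply hunit
    have hden0 : ((q.den : ℤ) : Qb) ≠ 0 := by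
      have := q.den_ne_zero
      exact_mod_cast this
    have hnumeq : (q.num : Qb) = algebraMap ℚ Qb q * ((q.den : ℤ) : Qb) := by
      rw [hq]; field_simp
    rw [hnumeq, ValuationSubring.mem_nonunits_iff, map_mul]
    have h1 := (ValuationSubring.valuation_le_one_iff A _).mpr h
    obtain ⟨m, hm⟩ := hdvd
    have hden_mem : ((q.den : ℤ) : Qb) ∈ A.nonunits := by
      have h3 : ((q.den : ℤ) : Qb) = (p : Qb) * (m : Qb) := by
        rw [hm]; push_cast; ring
      rw [h3, ValuationSubring.mem_nonunits_iff, map_mul]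
      have h4 := (ValuationSubring.mem_nonunits_iff A).mp hA
      have h5 := (ValuationSubring.valuation_le_one_iff A _).mpr (desc_natCast_mem A m)
      exact mul_lt_one_of_nonneg_of_lt_one_left zero_le h4 h5
    exact mul_lt_one_of_nonneg_of_lt_one_right h1 zero_le
      ((ValuationSubring.mem_nonunits_iff A).mp hden_mem)
  · intro h
    rw [hq]
    refine A.mul_mem _ _ (intCast_mem_valuationSubring A _)
      (desc_inv_mem_of_not_dvd hp A hA _ ?_)
    intro hd
    exact h (Int.natCast_dvd_natCast.mp hd)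

end Fermat.Agent.W1
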