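import Mathlib
import Fermat.Agent.W1.DescentBasic
import Fermat.Agent.S14.ValGalois
import Fermat.Agent.S05.Inertia
import Fermat.Agent.Common.FrobExists
import Fermat.Agent.S31.Helpers

/-!
# W1 ALG-A, piece P3: `DescApproxStatement` (`D → G`, approximation)

A `D`-equivariant function `g : M → ℚ̄` with values in `A` is congruent modulo `p^k · Map(M, A)`
to a `G`-equivariant function.  See `PlanDescent.lean` for the plan of the proof.
All helper names carry the prefix `da_`.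
-/

set_option autoImplicit false

namespace Fermat.Agent.W1

open Fermat.Agent.Common

local notation "Qb" => AlgebraicClosure ℚ
local notation "GQ" => (AlgebraicClosure ℚ ≃ₐ[ℚ] AlgebraicClosure ℚ)

/-! ### Part 0: valuation basics -/

theorem da_val_p_lt_one {p : ℕ} (A : ValuationSubring Qb) (hA : A.LiesOverPrime p) :
    A.valuation (p : Qb) < 1 :=
  (ValuationSubring.mem_nonunits_iff A).mp hA

theorem da_val_p_ne_zero {p : ℕ} (hp : p.Prime) (A : ValuationSubring Qb) :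
    A.valuation (p : Qb) ≠ 0 := by
  rw [Valuation.ne_zero_iff]
  exact_mod_cast hp.ne_zero

/-- `v(p)^c · v(y) ≤ 1` for some `c`. -/
theorem da_exists_pow_mul_le_one {p : ℕ} (hp : p.Prime) (A : ValuationSubring Qb)
    (hA : A.LiesOverPrime p) (y : Qb) :
    ∃ c : ℕ, A.valuation (p : Qb) ^ c * A.valuation y ≤ 1 := by
  by_cases hy : y = 0
  · exact ⟨0, by simp [hy]⟩
  obtain ⟨N, a, ha, hN⟩ := desc_arch hp A hA (inv_ne_zero hy)
  refine ⟨N, ?_⟩
  have h1 : (p : Qb) ^ N * y = a := by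
    rw [hN]; field_simp
  rw [← map_pow, ← map_mul, h1]
  exact (ValuationSubring.valuation_le_one_iff A a).mpr ha

/-- A rational number in the maximal ideal of `A` is divisible by `p` in `A`. -/
theorem da_rat_val_le {p : ℕ} (hp : p.Prime) (A : ValuationSubring Qb)
    (hA : A.LiesOverPrime p) (c : ℚ) (hc : A.valuation (algebraMap ℚ Qb c) < 1) :
    A.valuation (algebraMap ℚ Qb c) ≤ A.valuation (p : Qb) := by
  have hp0 : (p : ℚ) ≠ 0 := by exact_mod_cast hp.ne_zero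
  have hpv := da_val_p_ne_zero hp A
  -- it is enough to show that `c / p ∈ A`
  suffices h : algebraMap ℚ Qb (c / p) ∈ A by
    have h1 := (ValuationSubring.valuation_le_one_iff A _).mpr h
    rw [map_div₀, map_div₀, map_natCast] at h1
    rwa [div_le_one₀ (zero_lt_iff.mpr hpv)] at h1
  by_cases hc0 : c = 0
  · simp [hc0, A.zero_mem]
  rw [desc_rat_mem_iff hp A hA]
  have : Fact p.Prime := ⟨hp⟩
  rw [Fermat.Agent.S28.mem_ratLocalizedAt_iff]
  -- `c ∈ A`, so `p ∤ c.den`; `c⁻¹ ∉ A`, so `p ∣ c.num`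
  have hcA : algebraMap ℚ Qb c ∈ A := (ValuationSubring.valuation_le_one_iff A _).mp hc.le
  have hden : ¬ p ∣ c.den := by
    have := (desc_rat_mem_iff hp A hA c).mp hcA
    rwa [Fermat.Agent.S28.mem_ratLocalizedAt_iff] at this
  have hnum : (p : ℤ) ∣ c.num := by
    by_contra hn
    have h1 : ((c.num : ℤ) : Qb)⁻¹ ∈ A := desc_inv_mem_of_not_dvd hp A hA c.num hn
    have h2 : A.valuation ((c.num : ℤ) : Qb) = 1 := by
      have h3 := (ValuationSubring.valuation_le_one_iff A _).mpr h1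
      have h4 := (ValuationSubring.valuation_le_one_iff A _).mpr
        (intCast_mem_valuationSubring A c.num)
      rw [map_inv₀] at h3
      have hne : A.valuation ((c.num : ℤ) : Qb) ≠ 0 := by
        rw [Valuation.ne_zero_iff]
        exact_mod_cast Rat.num_ne_zero.mpr hc0
      rw [inv_le_one₀ (zero_lt_iff.mpr hne)] at h3
      exact le_antisymm h4 h3
    have h5 : ((c.num : ℤ) : Qb) = algebraMap ℚ Qb c * ((c.den : ℕ) : Qb) := by
      have h6 : (c : Qb) = (c.num : Qb) / (c.den : Qb) := by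
        exact_mod_cast congrArg (fun t : ℚ => (t : Qb)) (Rat.num_div_den c).symm
      have hd0 : ((c.den : ℕ) : Qb) ≠ 0 := by exact_mod_cast c.den_ne_zero
      rw [eq_ratCast, h6]; field_simp
    rw [h5, map_mul] at h2
    have h7 := (ValuationSubring.valuation_le_one_iff A _).mpr (desc_natCast_mem A c.den)
    have h8 : A.valuation (algebraMap ℚ Qb c) * A.valuation ((c.den : ℕ) : Qb) < 1 :=
      mul_lt_one_of_nonneg_of_lt_one_left zero_le hc h7
    exact absurd h2 h8.ne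
  obtain ⟨m, hm⟩ := hnum
  have hcp : c / p = (m : ℚ) / ((c.den : ℤ) : ℚ) := by
    have hd0 : ((c.den : ℤ) : ℚ) ≠ 0 := by exact_mod_cast c.den_ne_zero
    have h6 : (c.num : ℚ) / ((c.den : ℤ) : ℚ) = c := by
      exact_mod_cast Rat.num_div_den c
    calc c / p = ((c.num : ℚ) / ((c.den : ℤ) : ℚ)) / p := by rw [h6]
      _ = (m : ℚ) / ((c.den : ℤ) : ℚ) := by
        rw [hm]; push_cast; field_simp
  rw [hcp]
  intro hd
  have h9 : (((m : ℚ) / ((c.den : ℤ) : ℚ)).den : ℤ) ∣ (c.den : ℤ) := by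
    have := Rat.den_dvd m (c.den : ℤ)
    rwa [Rat.divInt_eq_div] at this
  have h10 : ((m : ℚ) / ((c.den : ℤ) : ℚ)).den ∣ c.den := Int.natCast_dvd_natCast.mp h9
  exact hden (dvd_trans hd h10)


/-- An element of the maximal ideal of `A` has a power divisible by `p`. -/
theorem da_exists_pow_le {p : ℕ} (hp : p.Prime) (A : ValuationSubring Qb)
    (hA : A.LiesOverPrime p) (x : Qb) (hx : A.valuation x < 1) :
    ∃ n : ℕ, A.valuation x ^ n ≤ A.valuation (p : Qb) := by
  by_cases hx0 : x = 0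
  · exact ⟨1, by simp [hx0]⟩
  have halg : IsAlgebraic ℚ x := (Fermat.Agent.S05.isAlgebraic_rat_qbar).isAlgebraic x
  obtain ⟨n, hn, c, hc, hval⟩ :=
    Fermat.Agent.S05.exists_pow_valuation_eq_algebraMap (K := ℚ) A hx0 halg
  refine ⟨n, ?_⟩
  rw [← map_pow, hval]
  apply da_rat_val_le hp A hA c
  rw [← hval, map_pow]
  exact pow_lt_one₀ zero_le hx hn.ne'

/-- Uniform version: `v(x)^n ≤ v(p)^K`. -/
theorem da_exists_pow_le_pow {p : ℕ} (hp : p.Prime) (A : ValuationSubring Qb)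
    (hA : A.LiesOverPrime p) (x : Qb) (hx : A.valuation x < 1) (K : ℕ) :
    ∃ n : ℕ, ∀ n' : ℕ, n ≤ n' → A.valuation x ^ n' ≤ A.valuation (p : Qb) ^ K := by
  obtain ⟨n, hn⟩ := da_exists_pow_le hp A hA x hx
  refine ⟨n * K, fun n' hn' => ?_⟩
  calc A.valuation x ^ n' ≤ A.valuation x ^ (n * K) :=
        pow_le_pow_of_le_one zero_le hx.le hn'
    _ = (A.valuation x ^ n) ^ K := pow_mul _ _ _
    _ ≤ A.valuation (p : Qb) ^ K := pow_le_pow_left₀ zero_le hn K

/-! ### Part 1: the field `F₀` -/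

/-- A finite normal extension `F₀/ℚ` containing the values of `g` and trivialising `M`. -/
theorem da_exists_field {M : Type} [AddCommGroup M] [Finite M]
    (act : GQ → M → M) (hact : IsContAction act) (g : M → Qb) :
    ∃ F₀ : IntermediateField ℚ Qb, FiniteDimensional ℚ F₀ ∧
      (∀ (σ : GQ) (x : Qb), x ∈ F₀ → σ x ∈ F₀) ∧ (∀ P, g P ∈ F₀) ∧
      (∀ σ : GQ, (∀ x ∈ F₀, σ x = x) → ∀ P, act σ P = P) := by
  classical
  have hn := Fermat.Agent.S31.qbar_normal
  choose E hEfin hE using hact.open_stab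
  have halg : ∀ P, IsIntegral ℚ (g P) := fun P => hn.isIntegral (g P)
  set K : IntermediateField ℚ Qb := ⨆ P, (E P ⊔ IntermediateField.adjoin ℚ {g P}) with hK
  have : ∀ P, FiniteDimensional ℚ (E P) := hEfin
  have : ∀ P, FiniteDimensional ℚ (IntermediateField.adjoin ℚ {g P}) :=
    fun P => IntermediateField.adjoin.finiteDimensional (halg P)
  have : FiniteDimensional ℚ K := IntermediateField.finiteDimensional_iSup_of_finite
  have hle : ∀ P, E P ⊔ IntermediateField.adjoin ℚ {g P} ≤ K :=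
    fun P => le_iSup (fun P => E P ⊔ IntermediateField.adjoin ℚ {g P}) P
  refine ⟨IntermediateField.normalClosure ℚ K Qb, inferInstance, ?_, ?_, ?_⟩
  · intro σ x hx
    have hnorm : Normal ℚ (IntermediateField.normalClosure ℚ K Qb) :=
      normalClosure.normal ℚ K Qb
    have := (IntermediateField.normal_iff_forall_map_le'.mp hnorm) σ
    exact this ⟨x, hx, rfl⟩
  · intro P
    exact (IntermediateField.le_normalClosure K)
      (hle P (le_sup_right (a := E P) (IntermediateField.mem_adjoin_simple_self ℚ (g P))))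
  · intro σ hσ P
    apply hE P σ
    intro a ha
    apply hσ
    exact (IntermediateField.le_normalClosure K) (hle P (le_sup_left (a := E P) ha))

/-! ### Part 2: a power `q` of `p` with `x^q ≡ x` on `A ∩ F₀` -/

theorem da_frob_sub_pow {p : ℕ} (A : ValuationSubring Qb) (φ : GQ)
    (hφ : A.IsFrobeniusAt φ p) (x : Qb) (hx : x ∈ A) :
    A.valuation (φ x - x ^ p) < 1 := by
  have h1 := hφ.smul_residue_eq (IsLocalRing.residue A ⟨x, hx⟩)
  rw [← IsLocalRing.ResidueField.residue_smul, ← map_pow, ← sub_eq_zero, ← map_sub,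
    IsLocalRing.residue_eq_zero_iff] at h1
  rw [← ValuationSubring.mem_nonunits_iff, ValuationSubring.mem_nonunits_iff_exists_mem_maximalIdeal]
  have hmem : φ x - x ^ p ∈ A :=
    sub_mem (Fermat.Agent.S05.apply_mem_of_mem_decomposition hφ.mem_decompositionSubgroup hx)
      (pow_mem hx p)
  exact ⟨hmem, h1⟩

theorem da_frob_pow_sub_pow {p : ℕ} (A : ValuationSubring Qb) (φ : GQ)
    (hφ : A.IsFrobeniusAt φ p) (j : ℕ) (x : Qb) (hx : x ∈ A) :
    A.valuation ((φ ^ j) x - x ^ (p ^ j)) < 1 := by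
  have halg := Fermat.Agent.S05.isAlgebraic_rat_qbar
  induction j with
  | zero => simp
  | succ j ih =>
    have h1 : (φ ^ (j + 1)) x - x ^ (p ^ (j + 1)) =
        φ ((φ ^ j) x - x ^ (p ^ j)) + (φ (x ^ (p ^ j)) - (x ^ (p ^ j)) ^ p) := by
      rw [pow_succ' φ, AlgEquiv.mul_apply, pow_succ p, pow_mul, map_sub]
      ring
    rw [h1]
    apply Valuation.map_add_lt
    · rw [Fermat.Agent.S05.valuation_apply_of_mem_decomposition hφ.mem_decompositionSubgroup]
      exact ih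
    · exact da_frob_sub_pow A φ hφ _ (pow_mem hx _)

theorem da_exists_frob_fix (F₀ : IntermediateField ℚ Qb) [FiniteDimensional ℚ F₀] (φ : GQ) :
    ∃ m : ℕ, 0 < m ∧ ∀ x ∈ F₀, (φ ^ m) x = x := by
  obtain ⟨i, j, hij, h⟩ := Finite.exists_ne_map_eq_of_infinite
    (fun j : ℕ => ((φ ^ j : GQ) : Qb →ₐ[ℚ] Qb).comp F₀.val)
  wlog hlt : i < j generalizing i j
  · exact this j i hij.symm h.symm (lt_of_le_of_ne (not_lt.mp hlt) hij.symm)
  refine ⟨j - i, Nat.sub_pos_of_lt hlt, fun x hx => ?_⟩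
  have h1 : (φ ^ i) x = (φ ^ j) x := DFunLike.congr_fun h ⟨x, hx⟩
  have h2 : φ ^ j = φ ^ i * φ ^ (j - i) := by
    rw [← pow_add, Nat.add_sub_cancel' hlt.le]
  rw [h2, AlgEquiv.mul_apply] at h1
  exact ((φ ^ i).injective h1).symm

theorem da_exists_q {p : ℕ} (hp : p.Prime) (A : ValuationSubring Qb)
    (hA : A.LiesOverPrime p) (F₀ : IntermediateField ℚ Qb) [FiniteDimensional ℚ F₀] :
    ∃ q : ℕ, 2 ≤ q ∧ ∀ x ∈ F₀, A.valuation x = 1 → A.valuation (x ^ (q - 1) - 1) < 1 := by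
  obtain ⟨φ, hφ⟩ := exists_isFrobeniusAt_of_liesOverPrime p hp A hA
  obtain ⟨m, hm, hfix⟩ := da_exists_frob_fix F₀ φ
  have hq1 : 1 ≤ p ^ m := Nat.one_le_pow _ _ hp.pos
  refine ⟨p ^ m, ?_, fun x hx hvx => ?_⟩
  · calc 2 ≤ p := hp.two_le
      _ = p ^ 1 := (pow_one p).symm
      _ ≤ p ^ m := Nat.pow_le_pow_right hp.pos hm
  · have hxA : x ∈ A := (A.valuation_le_one_iff x).mp hvx.le
    have h1 := da_frob_pow_sub_pow A φ hφ m x hxA
    rw [hfix x hx] at h1
    have h2 : x - x ^ (p ^ m) = - (x * (x ^ (p ^ m - 1) - 1)) := by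
      have h3 : x ^ (p ^ m) = x * x ^ (p ^ m - 1) := by
        rw [← pow_succ', Nat.sub_add_cancel hq1]
      rw [h3]; ring
    rw [h2, Valuation.map_neg, map_mul, hvx, one_mul] at h1
    exact h1

/-! ### Part 3: the function `ψ` -/

/-- `ψ(y) = s / (1 + s - s²)`, `s = y^(q-1)`. -/
noncomputable def da_psi (q : ℕ) (y : Qb) : Qb :=
  y ^ (q - 1) / (1 + y ^ (q - 1) - (y ^ (q - 1)) ^ 2)

theorem da_psi_map (q : ℕ) (σ : GQ) (y : Qb) : σ (da_psi q y) = da_psi q (σ y) := by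
  simp only [da_psi, map_div₀, map_sub, map_add, map_pow, map_one]

theorem da_psi_mem (q : ℕ) (F₀ : IntermediateField ℚ Qb) {y : Qb} (hy : y ∈ F₀) :
    da_psi q y ∈ F₀ := by
  unfold da_psi
  exact F₀.div_mem (pow_mem hy _)
    (F₀.sub_mem (F₀.add_mem F₀.one_mem (pow_mem hy _)) (pow_mem (pow_mem hy _) _))

theorem da_core_unit (A : ValuationSubring Qb) (s : Qb) (hs : A.valuation (s - 1) < 1) :
    A.valuation (s / (1 + s - s ^ 2) - 1) < 1 := by
  have hs1 : A.valuation s = 1 := by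
    have : s = 1 + (s - 1) := by ring
    rw [this]; exact Valuation.map_one_add_of_lt _ hs
  have hden : A.valuation (1 + s - s ^ 2) = 1 := by
    have : 1 + s - s ^ 2 = 1 + (-(s * (s - 1))) := by ring
    rw [this]
    apply Valuation.map_one_add_of_lt
    rw [Valuation.map_neg, map_mul, hs1, one_mul]; exact hs
  have hden0 : 1 + s - s ^ 2 ≠ 0 := by
    intro h; rw [h, map_zero] at hden; exact zero_ne_one hden
  have h1 : s / (1 + s - s ^ 2) - 1 = ((s - 1) * (s + 1)) / (1 + s - s ^ 2) := by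
    field_simp; ring
  rw [h1, map_div₀, hden, div_one, map_mul]
  have h2 : A.valuation (s + 1) ≤ 1 :=
    Valuation.map_add_le _ hs1.le (by simp)
  exact mul_lt_one_of_nonneg_of_lt_one_left zero_le hs h2

theorem da_core_small (A : ValuationSubring Qb) (s : Qb) (hs : A.valuation s < 1) :
    A.valuation (s / (1 + s - s ^ 2)) < 1 := by
  have hden : A.valuation (1 + s - s ^ 2) = 1 := by
    have : 1 + s - s ^ 2 = 1 + (s * (1 - s)) := by ring
    rw [this]; apply Valuation.map_one_add_of_lt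
    rw [map_mul]
    have : A.valuation (1 - s) ≤ 1 := Valuation.map_sub_le _ (by simp) hs.le
    exact mul_lt_one_of_nonneg_of_lt_one_left zero_le hs this
  rw [map_div₀, hden, div_one]; exact hs

theorem da_core_big (A : ValuationSubring Qb) (s : Qb) (hs : 1 < A.valuation s) :
    A.valuation (s / (1 + s - s ^ 2)) < 1 := by
  have hs0 : A.valuation s ≠ 0 := (zero_lt_one.trans hs).ne'
  have hpos : 0 < A.valuation s := zero_lt_one.trans hs
  have h1 : A.valuation (1 + s) < A.valuation (s ^ 2) := by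
    have h2 : A.valuation (1 + s) ≤ A.valuation s :=
      Valuation.map_add_le _ (by simpa using hs.le) le_rfl
    apply lt_of_le_of_lt h2
    rw [map_pow, sq]
    exact lt_mul_of_one_lt_left hpos hs
  have hden : A.valuation (1 + s - s ^ 2) = A.valuation (s ^ 2) :=
    Valuation.map_sub_eq_of_lt_right _ h1
  rw [map_div₀, hden, map_pow, sq, div_mul_cancel_left₀ hs0]
  exact inv_lt_one_of_one_lt₀ hs

theorem da_psi_unit {q : ℕ} (A : ValuationSubring Qb) (y : Qb)
    (h : A.valuation (y ^ (q - 1) - 1) < 1) : A.valuation (da_psi q y - 1) < 1 :=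
  da_core_unit A _ h

theorem da_psi_nonunit {q : ℕ} (hq : 2 ≤ q) (A : ValuationSubring Qb) (y : Qb)
    (hy : A.valuation y ≠ 1) : A.valuation (da_psi q y) < 1 := by
  rcases lt_or_gt_of_ne hy with h | h
  · apply da_core_small; rw [map_pow]; exact pow_lt_one₀ zero_le h (by omega)
  · apply da_core_big; rw [map_pow]; exact one_lt_pow₀ h (by omega)

theorem da_le_one_of_sub_one_lt (A : ValuationSubring Qb) (x : Qb)
    (h : A.valuation (x - 1) < 1) : A.valuation x = 1 := by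
  have : x = 1 + (x - 1) := by ring
  rw [this]; exact Valuation.map_one_add_of_lt _ h

theorem da_psi_le_one {q : ℕ} (hq : 2 ≤ q) (A : ValuationSubring Qb) (y : Qb)
    (hqy : A.valuation y = 1 → A.valuation (y ^ (q - 1) - 1) < 1) :
    A.valuation (da_psi q y) ≤ 1 := by
  by_cases hy : A.valuation y = 1
  · exact (da_le_one_of_sub_one_lt A _ (da_psi_unit A y (hqy hy))).le
  · exact (da_psi_nonunit hq A y hy).le


/-! ### Part 4: bad automorphisms and the elements `t_γ` -/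

/-- `γ` is *bad* for `(A, F₀)` if `γ⁻¹ A ∩ F₀ ≠ A ∩ F₀`. -/
def da_Bad (A : ValuationSubring Qb) (F₀ : IntermediateField ℚ Qb) (γ : GQ) : Prop :=
  ∃ x ∈ F₀, ¬ (x ∈ A ↔ γ x ∈ A)

/-- Restriction of an automorphism of `ℚ̄` to `F₀`. -/
noncomputable def da_res (F₀ : IntermediateField ℚ Qb) (γ : GQ) : F₀ →ₐ[ℚ] Qb :=
  (γ : Qb →ₐ[ℚ] Qb).comp F₀.val

theorem da_res_apply (F₀ : IntermediateField ℚ Qb) (γ : GQ) (x : F₀) :
    da_res F₀ γ x = γ x := rfl

theorem da_res_eq_iff (F₀ : IntermediateField ℚ Qb) (γ γ' : GQ) :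
    da_res F₀ γ = da_res F₀ γ' ↔ ∀ x ∈ F₀, γ x = γ' x := by
  constructor
  · intro h x hx
    exact DFunLike.congr_fun h ⟨x, hx⟩
  · intro h
    ext x
    exact h x x.2

open scoped Pointwise in
/-- A good automorphism agrees on `F₀` with an element of the decomposition group. -/
theorem da_good_rep (A : ValuationSubring Qb) (F₀ : IntermediateField ℚ Qb) (γ : GQ)
    (h : ¬ da_Bad A F₀ γ) :
    ∃ δ ∈ A.decompositionSubgroup ℚ, ∀ x ∈ F₀, γ x = δ x := by
  have h' : ∀ x ∈ F₀, x ∈ A ↔ x ∈ γ⁻¹ • A := by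
    intro x hx
    rw [ValuationSubring.mem_inv_pointwise_smul_iff]
    by_contra hne
    exact h ⟨x, hx, hne⟩
  obtain ⟨ρ, hρ, hρA⟩ := Fermat.Agent.S14.exists_fixing_smul_eq F₀ A (γ⁻¹ • A) h'
  refine ⟨γ * ρ, ?_, fun x hx => ?_⟩
  · show γ * ρ ∈ MulAction.stabilizer _ A
    rw [MulAction.mem_stabilizer_iff, mul_smul, hρA, smul_inv_smul]
  · rw [AlgEquiv.mul_apply, hρ x hx]

theorem da_exists_t_aux (A : ValuationSubring Qb) (F₀ : IntermediateField ℚ Qb) (γ : GQ)
    (x : Qb) (hx : x ∈ F₀) (h1 : A.valuation x ≤ 1) (h2 : 1 < A.valuation (γ x)) :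
    ∃ t ∈ F₀, A.valuation t = 1 ∧ A.valuation (γ t) < 1 := by
  rcases h1.lt_or_eq with h | h
  · refine ⟨(1 + x)⁻¹, F₀.inv_mem (F₀.add_mem F₀.one_mem hx), ?_, ?_⟩
    · rw [map_inv₀, Valuation.map_one_add_of_lt _ h, inv_one]
    · rw [map_inv₀, map_inv₀, map_add, map_one]
      have h3 : A.valuation (1 + γ x) = A.valuation (γ x) :=
        Valuation.map_add_eq_of_lt_right _ (by simpa using h2)
      rw [h3]; exact inv_lt_one_of_one_lt₀ h2
  · refine ⟨x⁻¹, F₀.inv_mem hx, ?_, ?_⟩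
    · rw [map_inv₀, h, inv_one]
    · rw [map_inv₀, map_inv₀]; exact inv_lt_one_of_one_lt₀ h2

/-- For a bad `γ` there is a unit `t ∈ F₀` of `A` with `γ t ∈ 𝔪_A`. -/
theorem da_exists_t {p : ℕ} (hp : p.Prime) (A : ValuationSubring Qb)
    (hA : A.LiesOverPrime p) (F₀ : IntermediateField ℚ Qb) (γ : GQ) (h : da_Bad A F₀ γ) :
    ∃ t ∈ F₀, A.valuation t = 1 ∧ A.valuation (γ t) < 1 := by
  obtain ⟨x, hx, hne⟩ := h
  by_cases hxA : x ∈ A
  · have h2 : γ x ∉ A := fun h' => hne ⟨fun _ => h', fun _ => hxA⟩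
    exact da_exists_t_aux A F₀ γ x hx ((A.valuation_le_one_iff x).mpr hxA)
      (by rwa [← not_le, A.valuation_le_one_iff])
  · have h2 : γ x ∈ A := by
      by_contra h'
      exact hne ⟨fun h'' => absurd h'' hxA, fun h'' => absurd h'' h'⟩
    have hx0 : x ≠ 0 := fun h0 => hxA (h0 ▸ A.zero_mem)
    have hγx0 : γ x ≠ 0 := by simpa using hx0
    have hvx : 1 < A.valuation x := by rwa [← not_le, A.valuation_le_one_iff]
    have hz : A.valuation x⁻¹ < 1 := by
      rw [map_inv₀]; exact inv_lt_one_of_one_lt₀ hvx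
    have hγz : 1 ≤ A.valuation (γ x⁻¹) := by
      rw [map_inv₀, map_inv₀]
      exact (one_le_inv₀ (zero_lt_iff.mpr ((Valuation.ne_zero_iff _).mpr hγx0))).mpr
        ((A.valuation_le_one_iff _).mpr h2)
    rcases hγz.lt_or_eq with h3 | h3
    · exact da_exists_t_aux A F₀ γ x⁻¹ (F₀.inv_mem hx) hz.le h3
    · obtain ⟨n, hn⟩ := da_exists_pow_le hp A hA x⁻¹ hz
      have hpv := da_val_p_ne_zero hp A
      refine da_exists_t_aux A F₀ γ ((x⁻¹) ^ n / (p : Qb))
        (F₀.div_mem (pow_mem (F₀.inv_mem hx) n) (natCast_mem F₀ p)) ?_ ?_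
      · rw [map_div₀, map_pow]
        exact div_le_one_of_le₀ hn zero_le
      · rw [map_div₀, map_pow, map_natCast, map_div₀, map_pow, ← h3, one_pow, one_div]
        exact (one_lt_inv₀ (zero_lt_iff.mpr hpv)).mpr (da_val_p_lt_one A hA)

/-! ### Part 5: products congruent to `1` -/

theorem da_prod_sub_one_le (A : ValuationSubring Qb) {ι : Type*} (s : Finset ι) (f : ι → Qb)
    (c : A.ValueGroup) (hc : c ≤ 1) (h : ∀ i ∈ s, A.valuation (f i - 1) ≤ c) :
    A.valuation (∏ i ∈ s, f i - 1) ≤ c := by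
  refine Finset.prod_induction f (fun x => A.valuation (x - 1) ≤ c) ?_ ?_ h
  · intro a b ha hb
    have h1 : a * b - 1 = a * (b - 1) + (a - 1) := by ring
    have ha1 : A.valuation a ≤ 1 := by
      have : a = (a - 1) + 1 := by ring
      rw [this]
      exact Valuation.map_add_le _ (ha.trans hc) (by simp)
    rw [h1]
    refine Valuation.map_add_le _ ?_ ha
    rw [map_mul]
    exact mul_le_of_le_one_of_le ha1 hb
  · simp

theorem da_prod_sub_one_lt (A : ValuationSubring Qb) {ι : Type*} (s : Finset ι) (f : ι → Qb)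
    (h : ∀ i ∈ s, A.valuation (f i - 1) < 1) :
    A.valuation (∏ i ∈ s, f i - 1) < 1 := by
  refine Finset.prod_induction f (fun x => A.valuation (x - 1) < 1) ?_ ?_ h
  · intro a b ha hb
    have h1 : a * b - 1 = a * (b - 1) + (a - 1) := by ring
    have ha1 : A.valuation a = 1 := da_le_one_of_sub_one_lt A a ha
    rw [h1]
    refine Valuation.map_add_lt _ ?_ ha
    rw [map_mul, ha1, one_mul]
    exact hb
  · simp

theorem da_pow_sub_one_lt (A : ValuationSubring Qb) (x : Qb) (h : A.valuation (x - 1) < 1)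
    (n : ℕ) : A.valuation (x ^ n - 1) < 1 := by
  have := da_prod_sub_one_lt A (Finset.range n) (fun _ => x) (fun _ _ => h)
  simpa using this

/-- `v(1 - (1 - y)^b) ≤ v(y)` if `v(y) ≤ 1`. -/
theorem da_one_sub_pow_le (A : ValuationSubring Qb) (y : Qb) (hy : A.valuation y ≤ 1) (b : ℕ) :
    A.valuation (1 - (1 - y) ^ b) ≤ A.valuation y := by
  have h1 : 1 - (1 - y) ^ b = y * ∑ i ∈ Finset.range b, (1 - y) ^ i := by
    rw [← mul_neg_geom_sum (1 - y) b]; ring
  have h2 : A.valuation (1 - y) ≤ 1 := Valuation.map_sub_le _ (by simp) hy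
  have h3 : A.valuation (∑ i ∈ Finset.range b, (1 - y) ^ i) ≤ 1 := by
    apply Valuation.map_sum_le
    intro i _
    rw [map_pow]
    exact pow_le_one₀ zero_le h2
  rw [h1, map_mul]
  exact mul_le_of_le_of_le_one le_rfl h3

/-! ### Part 6: the element `e` -/

theorem da_exists_e {p : ℕ} (hp : p.Prime) (A : ValuationSubring Qb)
    (hA : A.LiesOverPrime p) (F₀ : IntermediateField ℚ Qb) [FiniteDimensional ℚ F₀]
    (hF : ∀ (σ : GQ) (x : Qb), x ∈ F₀ → σ x ∈ F₀) :
    ∃ e ∈ F₀, A.valuation (e - 1) < 1 ∧ (∀ σ : GQ, A.valuation (σ e) ≤ 1) ∧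
      ∀ γ : GQ, da_Bad A F₀ γ → A.valuation (γ e) < 1 := by
  classical
  obtain ⟨q, hq2, hq⟩ := da_exists_q hp A hA F₀
  have hr : ∀ r : F₀ →ₐ[ℚ] Qb, ∃ t ∈ F₀, A.valuation t = 1 ∧
      ∀ γ : GQ, da_Bad A F₀ γ → da_res F₀ γ = r → A.valuation (γ t) < 1 := by
    intro r
    by_cases h : ∃ γ : GQ, da_Bad A F₀ γ ∧ da_res F₀ γ = r
    · obtain ⟨γ₀, hb, hr⟩ := h
      obtain ⟨t, htF, ht1, ht2⟩ := da_exists_t hp A hA F₀ γ₀ hb
      refine ⟨t, htF, ht1, fun γ _ hγr => ?_⟩
      have h3 : γ t = γ₀ t := (da_res_eq_iff F₀ γ γ₀).mp (hγr.trans hr.symm) t htF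
      rw [h3]; exact ht2
    · exact ⟨1, F₀.one_mem, by simp, fun γ hb hγr => absurd ⟨γ, hb, hγr⟩ h⟩
  choose t htF ht1 ht2 using hr
  have hle : ∀ (σ : GQ) (r : F₀ →ₐ[ℚ] Qb), A.valuation (σ (da_psi q (t r))) ≤ 1 := by
    intro σ r
    rw [da_psi_map]
    exact da_psi_le_one hq2 A _ (hq _ (hF σ _ (htF r)))
  refine ⟨∏ r, da_psi q (t r), prod_mem (fun r _ => da_psi_mem q F₀ (htF r)), ?_, ?_, ?_⟩
  · apply da_prod_sub_one_lt
    intro r _
    exact da_psi_unit A _ (hq _ (htF r) (ht1 r))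
  · intro σ
    rw [map_prod, map_prod]
    exact Finset.prod_le_one' (fun r _ => hle σ r)
  · intro γ hγ
    rw [map_prod, map_prod, ← Finset.mul_prod_erase Finset.univ _ (Finset.mem_univ (da_res F₀ γ))]
    apply mul_lt_one_of_nonneg_of_lt_one_left zero_le
    · rw [da_psi_map]
      exact da_psi_nonunit hq2 A _ (ht2 _ γ hγ rfl).ne
    · exact Finset.prod_le_one' (fun r _ => hle γ r)

/-! ### Part 7: the elements `u₀` and `u` -/

theorem da_exists_u0 {p : ℕ} (hp : p.Prime) (A : ValuationSubring Qb)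
    (hA : A.LiesOverPrime p) (F₀ : IntermediateField ℚ Qb) [FiniteDimensional ℚ F₀]
    (hF : ∀ (σ : GQ) (x : Qb), x ∈ F₀ → σ x ∈ F₀) (K : ℕ) :
    ∃ u₀ ∈ F₀, A.valuation (u₀ - 1) ≤ A.valuation (p : Qb) ^ K ∧
      (∀ σ : GQ, A.valuation (σ u₀) ≤ 1) ∧
      ∀ γ : GQ, da_Bad A F₀ γ → A.valuation (γ u₀) ≤ A.valuation (p : Qb) ^ K := by
  classical
  obtain ⟨e, heF, he1, heσ, hebad⟩ := da_exists_e hp A hA F₀ hF
  have ha : ∃ a : ℕ, ∀ γ : GQ, da_Bad A F₀ γ →
      A.valuation (γ e) ^ a ≤ A.valuation (p : Qb) ^ K := by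
    have h1 : ∀ r : F₀ →ₐ[ℚ] Qb, ∃ n : ℕ, ∀ n', n ≤ n' → A.valuation (r ⟨e, heF⟩) < 1 →
        A.valuation (r ⟨e, heF⟩) ^ n' ≤ A.valuation (p : Qb) ^ K := by
      intro r
      by_cases h : A.valuation (r ⟨e, heF⟩) < 1
      · obtain ⟨n, hn⟩ := da_exists_pow_le_pow hp A hA _ h K
        exact ⟨n, fun n' hn' _ => hn n' hn'⟩
      · exact ⟨0, fun _ _ h' => absurd h' h⟩
    choose n hn using h1
    refine ⟨∑ r, n r, fun γ hγ => ?_⟩
    exact hn (da_res F₀ γ) _
      (Finset.single_le_sum (fun _ _ => Nat.zero_le _) (Finset.mem_univ _)) (hebad γ hγ)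
  obtain ⟨a, ha⟩ := ha
  have he1a : A.valuation (e ^ a - 1) < 1 := da_pow_sub_one_lt A e he1 a
  obtain ⟨b, hb⟩ := da_exists_pow_le_pow hp A hA (e ^ a - 1) he1a K
  have hσ : ∀ σ : GQ, σ (1 - (1 - e ^ a) ^ b) = 1 - (1 - (σ e) ^ a) ^ b := by
    intro σ
    simp only [map_sub, map_pow, map_one]
  have hσle : ∀ σ : GQ, A.valuation ((σ e) ^ a) ≤ 1 := by
    intro σ
    rw [map_pow]
    exact pow_le_one₀ zero_le (heσ σ)
  refine ⟨1 - (1 - e ^ a) ^ b,
    F₀.sub_mem F₀.one_mem (pow_mem (F₀.sub_mem F₀.one_mem (pow_mem heF a)) b), ?_, ?_, ?_⟩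
  · have h1 : 1 - (1 - e ^ a) ^ b - 1 = - ((1 - e ^ a) ^ b) := by ring
    rw [h1, Valuation.map_neg, map_pow, Valuation.map_sub_swap]
    exact hb b le_rfl
  · intro σ
    rw [hσ]
    exact (da_one_sub_pow_le A _ (hσle σ) b).trans (hσle σ)
  · intro γ hγ
    rw [hσ]
    refine (da_one_sub_pow_le A _ (hσle γ) b).trans ?_
    rw [map_pow]
    exact ha γ hγ

theorem da_exists_u {p : ℕ} (hp : p.Prime) (A : ValuationSubring Qb)
    (hA : A.LiesOverPrime p) (F₀ : IntermediateField ℚ Qb) [FiniteDimensional ℚ F₀]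
    (hF : ∀ (σ : GQ) (x : Qb), x ∈ F₀ → σ x ∈ F₀) (K : ℕ) :
    ∃ u ∈ F₀, (∀ δ ∈ A.decompositionSubgroup ℚ, δ u = u) ∧
      A.valuation (u - 1) ≤ A.valuation (p : Qb) ^ K ∧
      ∀ γ : GQ, da_Bad A F₀ γ → A.valuation (γ u) ≤ A.valuation (p : Qb) ^ K := by
  classical
  have halg := Fermat.Agent.S05.isAlgebraic_rat_qbar
  obtain ⟨u₀, hu₀F, hu₀1, hu₀σ, hu₀bad⟩ := da_exists_u0 hp A hA F₀ hF K
  have hfin : Set.Finite {x : Qb | ∃ δ ∈ A.decompositionSubgroup ℚ, δ u₀ = x} := by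
    apply Set.Finite.subset (Set.finite_range (fun r : F₀ →ₐ[ℚ] Qb => r ⟨u₀, hu₀F⟩))
    rintro x ⟨δ, _, rfl⟩
    exact ⟨da_res F₀ δ, rfl⟩
  have hmemO : ∀ x, x ∈ hfin.toFinset ↔ ∃ δ ∈ A.decompositionSubgroup ℚ, δ u₀ = x :=
    fun x => by rw [Set.Finite.mem_toFinset]; rfl
  refine ⟨∏ x ∈ hfin.toFinset, x, ?_, ?_, ?_, ?_⟩
  · apply prod_mem
    intro x hx
    obtain ⟨δ, _, rfl⟩ := (hmemO x).mp hx
    exact hF δ _ hu₀F
  · intro δ hδ
    rw [map_prod]
    refine Finset.prod_nbij' (fun x => δ x) (fun x => δ⁻¹ x) ?_ ?_ ?_ ?_ ?_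
    · intro x hx
      obtain ⟨δ', hδ', rfl⟩ := (hmemO x).mp hx
      exact (hmemO _).mpr ⟨δ * δ', mul_mem hδ hδ', rfl⟩
    · intro x hx
      obtain ⟨δ', hδ', rfl⟩ := (hmemO x).mp hx
      exact (hmemO _).mpr ⟨δ⁻¹ * δ', mul_mem (inv_mem hδ) hδ', rfl⟩
    · intro x _
      show δ⁻¹ (δ x) = x
      rw [← AlgEquiv.mul_apply, inv_mul_cancel, AlgEquiv.one_apply]
    · intro x _
      show δ (δ⁻¹ x) = x
      rw [← AlgEquiv.mul_apply, mul_inv_cancel, AlgEquiv.one_apply]
    · intro x _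
      rfl
  · apply da_prod_sub_one_le A _ _ _ (pow_le_one₀ zero_le (da_val_p_lt_one A hA).le)
    intro x hx
    obtain ⟨δ, hδ, rfl⟩ := (hmemO x).mp hx
    have h1 : δ u₀ - 1 = δ (u₀ - 1) := by simp
    rw [h1, Fermat.Agent.S05.valuation_apply_of_mem_decomposition hδ]
    exact hu₀1
  · intro γ hγ
    rw [map_prod, map_prod]
    have h1 : u₀ ∈ hfin.toFinset := (hmemO _).mpr ⟨1, one_mem _, rfl⟩
    rw [← Finset.mul_prod_erase _ _ h1]
    apply mul_le_of_le_of_le_one (hu₀bad γ hγ)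
    apply Finset.prod_le_one'
    intro x hx
    obtain ⟨δ, hδ, rfl⟩ := (hmemO x).mp (Finset.mem_of_mem_erase hx)
    exact hu₀σ (γ * δ)


/-! ### Part 8: the assembly -/

/-- The twist of `f : M → ℚ̄` by `σ`. -/
noncomputable def da_tw {M : Type} (act : GQ → M → M) (σ : GQ) (f : M → Qb) : M → Qb :=
  fun P => σ (f (act σ⁻¹ P))

theorem da_tw_apply {M : Type} (act : GQ → M → M) (σ : GQ) (f : M → Qb) (P : M) :
    da_tw act σ f P = σ (f (act σ⁻¹ P)) := rfl

theorem da_tw_one {M : Type} [AddCommGroup M] (act : GQ → M → M) (hact : IsContAction act)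
    (f : M → Qb) : da_tw act 1 f = f := by
  funext P
  rw [da_tw_apply, inv_one, hact.one, AlgEquiv.one_apply]

theorem da_tw_mul {M : Type} [AddCommGroup M] (act : GQ → M → M) (hact : IsContAction act)
    (σ τ : GQ) (f : M → Qb) : da_tw act (σ * τ) f = da_tw act σ (da_tw act τ f) := by
  funext P
  rw [da_tw_apply, da_tw_apply, da_tw_apply, mul_inv_rev, hact.mul, AlgEquiv.mul_apply]

theorem da_act_inv_act {M : Type} [AddCommGroup M] (act : GQ → M → M) (hact : IsContAction act)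
    (σ : GQ) (P : M) : act σ⁻¹ (act σ P) = P := by
  rw [← hact.mul, inv_mul_cancel, hact.one]

theorem da_act_act_inv {M : Type} [AddCommGroup M] (act : GQ → M → M) (hact : IsContAction act)
    (σ : GQ) (P : M) : act σ (act σ⁻¹ P) = P := by
  rw [← hact.mul, mul_inv_cancel, hact.one]

/-- **P3** (`D → G`, approximation). -/
theorem descApprox : DescApproxStatement := by
  intro p hp A hA M _ _ act hact g hgA hgD k
  classical
  obtain ⟨F₀, hfd, hF, hgF, htriv⟩ := da_exists_field act hact g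
  have hpv := da_val_p_ne_zero hp A
  have hp1 := da_val_p_lt_one A hA
  -- the constant `c`
  have hc : ∃ c : ℕ, ∀ (σ : GQ) (Q : M),
      A.valuation (p : Qb) ^ c * A.valuation (σ (g Q)) ≤ 1 := by
    have hM : Fintype M := Fintype.ofFinite M
    have h1 : ∀ rQ : (F₀ →ₐ[ℚ] Qb) × M, ∃ c : ℕ,
        A.valuation (p : Qb) ^ c * A.valuation (rQ.1 ⟨g rQ.2, hgF rQ.2⟩) ≤ 1 :=
      fun rQ => da_exists_pow_mul_le_one hp A hA _
    choose c hc using h1
    refine ⟨∑ rQ, c rQ, fun σ Q => ?_⟩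
    have h2 := hc (da_res F₀ σ, Q)
    have h3 : c (da_res F₀ σ, Q) ≤ ∑ rQ, c rQ :=
      Finset.single_le_sum (fun _ _ => Nat.zero_le _) (Finset.mem_univ _)
    calc A.valuation (p : Qb) ^ (∑ rQ, c rQ) * A.valuation (σ (g Q))
        ≤ A.valuation (p : Qb) ^ (c (da_res F₀ σ, Q)) * A.valuation (σ (g Q)) :=
          mul_le_mul' (pow_le_pow_of_le_one zero_le hp1.le h3) le_rfl
      _ ≤ 1 := h2
  obtain ⟨c, hc⟩ := hc
  obtain ⟨u, huF, huD, hu1, hubad⟩ := da_exists_u hp A hA F₀ hF (k + c)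
  -- the function `f = u g` and its twists
  set f : M → Qb := fun P => u * g P with hf
  have hfF : ∀ P, f P ∈ F₀ := fun P => F₀.mul_mem huF (hgF P)
  have htw_res : ∀ σ σ' : GQ, da_res F₀ σ = da_res F₀ σ' → da_tw act σ f = da_tw act σ' f := by
    intro σ σ' h
    rw [da_res_eq_iff] at h
    funext P
    rw [da_tw_apply, da_tw_apply]
    have h1 : act σ'⁻¹ P = act σ⁻¹ P := by
      have h2 : ∀ x ∈ F₀, (σ'⁻¹ * σ) x = x := by
        intro x hx
        rw [AlgEquiv.mul_apply, h x hx, ← AlgEquiv.mul_apply, inv_mul_cancel, AlgEquiv.one_apply]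
      have h3 := htriv (σ'⁻¹ * σ) h2 (act σ⁻¹ P)
      rw [← hact.mul, mul_assoc, mul_inv_cancel, mul_one] at h3
      exact h3
    rw [h1]
    exact h _ (hfF _)
  have hgood : ∀ γ : GQ, ¬ da_Bad A F₀ γ → da_tw act γ f = f := by
    intro γ hγ
    obtain ⟨δ, hδ, hγδ⟩ := da_good_rep A F₀ γ hγ
    rw [htw_res γ δ ((da_res_eq_iff F₀ γ δ).mpr hγδ)]
    funext P
    rw [da_tw_apply, hf]
    show δ (u * g (act δ⁻¹ P)) = u * g P
    rw [map_mul, huD δ hδ, ← hgD δ hδ, da_act_act_inv act hact]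
  have hfin : (Set.range (fun σ : GQ => da_tw act σ f)).Finite := by
    apply Set.Finite.subset
      (Set.finite_range (Function.extend (da_res F₀) (fun σ : GQ => da_tw act σ f) 0))
    rintro _ ⟨σ, rfl⟩
    refine ⟨da_res F₀ σ, ?_⟩
    have hfac : Function.FactorsThrough (fun σ : GQ => da_tw act σ f) (da_res F₀) :=
      fun σ σ' h => htw_res σ σ' h
    exact hfac.extend_apply 0 σ
  have hmemO : ∀ f', f' ∈ hfin.toFinset ↔ ∃ σ : GQ, da_tw act σ f = f' :=
    fun f' => by rw [Set.Finite.mem_toFinset]; rfl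
  have hfO : f ∈ hfin.toFinset := (hmemO f).mpr ⟨1, da_tw_one act hact f⟩
  refine ⟨fun P => ∑ f' ∈ hfin.toFinset, f' P, ?_, ?_⟩
  · intro σ P
    show ∑ f' ∈ hfin.toFinset, f' (act σ P) = σ (∑ f' ∈ hfin.toFinset, f' P)
    rw [map_sum]
    symm
    refine Finset.sum_nbij' (fun f' => da_tw act σ f') (fun f' => da_tw act σ⁻¹ f')
      ?_ ?_ ?_ ?_ ?_
    · intro f' hf'
      obtain ⟨τ, rfl⟩ := (hmemO f').mp hf'
      exact (hmemO _).mpr ⟨σ * τ, da_tw_mul act hact σ τ f⟩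
    · intro f' hf'
      obtain ⟨τ, rfl⟩ := (hmemO f').mp hf'
      exact (hmemO _).mpr ⟨σ⁻¹ * τ, da_tw_mul act hact σ⁻¹ τ f⟩
    · intro f' _
      show da_tw act σ⁻¹ (da_tw act σ f') = f'
      rw [← da_tw_mul act hact, inv_mul_cancel, da_tw_one act hact]
    · intro f' _
      show da_tw act σ (da_tw act σ⁻¹ f') = f'
      rw [← da_tw_mul act hact, mul_inv_cancel, da_tw_one act hact]
    · intro f' _
      show σ (f' P) = da_tw act σ f' (act σ P)
      rw [da_tw_apply, da_act_inv_act act hact]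
  · intro P
    have hval : A.valuation ((∑ f' ∈ hfin.toFinset, f' P) - g P) ≤ A.valuation (p : Qb) ^ k := by
      rw [← Finset.add_sum_erase _ _ hfO]
      have h1 : f P + ∑ f' ∈ hfin.toFinset.erase f, f' P - g P =
          (u - 1) * g P + ∑ f' ∈ hfin.toFinset.erase f, f' P := by
        have hfP : f P = u * g P := rfl
        rw [hfP]; ring
      rw [h1]
      apply Valuation.map_add_le
      · rw [map_mul]
        have h2 : A.valuation (u - 1) ≤ A.valuation (p : Qb) ^ k :=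
          hu1.trans (pow_le_pow_of_le_one zero_le hp1.le (Nat.le_add_right k c))
        exact mul_le_of_le_of_le_one h2 ((A.valuation_le_one_iff _).mpr (hgA P))
      · apply Valuation.map_sum_le
        intro f' hf'
        obtain ⟨hne, hmem⟩ := Finset.mem_erase.mp hf'
        obtain ⟨γ, rfl⟩ := (hmemO f').mp hmem
        have hbad : da_Bad A F₀ γ := by
          by_contra hg
          exact hne (hgood γ hg)
        show A.valuation (γ (u * g (act γ⁻¹ P))) ≤ _
        rw [map_mul, map_mul]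
        calc A.valuation (γ u) * A.valuation (γ (g (act γ⁻¹ P)))
            ≤ A.valuation (p : Qb) ^ (k + c) * A.valuation (γ (g (act γ⁻¹ P))) :=
              mul_le_mul' (hubad γ hbad) le_rfl
          _ = A.valuation (p : Qb) ^ k *
                (A.valuation (p : Qb) ^ c * A.valuation (γ (g (act γ⁻¹ P)))) := by
              rw [pow_add, mul_assoc]
          _ ≤ A.valuation (p : Qb) ^ k * 1 := mul_le_mul' le_rfl (hc γ _)
          _ = A.valuation (p : Qb) ^ k := mul_one _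
    have hpk : (p : Qb) ^ k ≠ 0 := pow_ne_zero _ (by exact_mod_cast hp.ne_zero)
    refine ⟨((∑ f' ∈ hfin.toFinset, f' P) - g P) / (p : Qb) ^ k, ?_, ?_⟩
    · rw [← A.valuation_le_one_iff, map_div₀, map_pow]
      exact div_le_one_of_le₀ hval zero_le
    · show (∑ f' ∈ hfin.toFinset, f' P) - g P = _
      field_simp

end Fermat.Agent.W1
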