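import Fermat.Agent.W1.PlanAlg

/-!
# W1 ALG-A (Galois descent `Ht → H = Ht ∩ Map_G`): the three bricks, exact statements

`K = ℚ̄`, `G = Gal(ℚ̄/ℚ)`, `A ⊂ ℚ̄` a valuation subring over `p`, `D ⊃ I` decomposition and
inertia group of `A`, `M` a finite `G`-set (continuous action `act`).
For `F : M → ℚ̄` and `σ ∈ G` the twist is `σ⋆F := P ↦ σ (F (σ⁻¹ P))`; `F` is `S`-equivariant
(`F (σ P) = σ (F P)` for `σ ∈ S`) iff `σ⋆F = F` for `σ ∈ S`.

`LocalToGlobalStatement` (PlanAlg) is assembled in `LocalToGlobal.lean` (helper44) from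

* **P1** `DescLagrangeStatement`: a separating `A`-subalgebra `Ht` of integral functions contains
  `p^N · Map(M, A)` for some `N`.
  *Proof.* `e_P := ∏_{Q ≠ P} (h_{PQ} - h_{PQ}(Q))` with `h_{PQ}(P) ≠ h_{PQ}(Q)` is `d_P · δ_P`,
  `d_P ≠ 0` in `A`; every nonzero element of `A` divides a power of `p`.
* **P2** `DescInertiaStatement` (`I → D`, unramified descent): an `I`-equivariant `f ∈ Ht` is an
  `A`-combination of `D`-equivariant elements of `Ht` (`Ht` stable under the twists by `D`).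
  *Proof.* `F₀/ℚ` finite normal containing the values of `f` and trivialising `M`; `φ ∈ D` a
  Frobenius (`Common.exists_isFrobeniusAt`), `m ≥ 1` with `φ^m|F₀ = 1`, so `x^{p^m} ≡ x mod 𝔪_A`
  on `A ∩ F₀`; `ζ` a primitive root of unity of order `p^m - 1`.  If `τ ∈ D` fixes `ζ` then `τ`
  is trivial on the residue field of `A ∩ F₀`, so `τ|F₀ = ι|F₀` with `ι ∈ I`
  (`S14.exists_inertia_agree`), hence `τ⋆f = f`.  So `f_ξ := τ⋆f` (`τ ζ = ξ`) is well defined on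
  the finite orbit `T = D ζ`; `g_j := Σ_{ξ ∈ T} ξ^j • f_ξ ∈ Ht` is `D`-equivariant, and
  `f = Σ_j c_j g_j` with `c_j ∈ A` the coefficients of the Lagrange polynomial
  `∏_{ξ ≠ ζ} (X - ξ)/(ζ - ξ)` (`ζ - ξ ∈ Aˣ`: else `N = 1 + η + … + η^{N-1} ∈ 𝔪_A`, `η = ξ/ζ`).
* **P3** `DescApproxStatement` (`D → G`, approximation): a `D`-equivariant integral `g` is
  congruent modulo `p^k · Map(M, A)` to a `G`-equivariant function.
  *Proof.* `F₀` as above, `Γ = Gal(F₀/ℚ)`.  Call `γ ∈ G` *bad* if `γ|F₀ ∉ D|F₀`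
  (⇔ `γ⁻¹A ∩ F₀ ≠ A ∩ F₀`, `S14.exists_fixing_smul_eq`).  Valuation rings over `p` are
  incomparable, so for bad `γ` there is `t_γ ∈ F₀ ∩ Aˣ` with `γ t_γ ∈ 𝔪_A`.
  `ψ(t) := s/(1 + s - s²)`, `s = t^{q-1}`, `q = p^m`: for every `γ`, `γ ψ(t) ∈ A`, `≡ 1` if
  `γ t ∈ Aˣ`, `≡ 0 mod 𝔪_A` otherwise.  `e := ∏_{bad classes} ψ(t_γ)`, `u₀ := 1 - (1 - e^a)^b`
  (`a`, then `b` large), `u := ∏` of the `D`-conjugates of `u₀`:  `u` is `D`-invariant,
  `u - 1 ∈ p^k A`, `γ(u · g(P)) ∈ p^k A` for bad `γ`.  `h :=` sum of the finitely many distinct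
  twists `γ⋆(u g)`, `γ ∈ G`.
-/

set_option autoImplicit false

namespace Fermat.Agent.W1

/-- **P1** (Lagrange interpolation): `p^N · Map(M, A) ⊂ Ht`. -/
def DescLagrangeStatement : Prop :=
  ∀ (p : ℕ) (_ : p.Prime) (A : ValuationSubring (AlgebraicClosure ℚ)) (_ : A.LiesOverPrime p)
    (M : Type) (_ : Finite M) (Ht : Subalgebra A (M → AlgebraicClosure ℚ)),
    (∀ h ∈ Ht, ∀ P : M, h P ∈ A) →
    (∀ P Q : M, (∀ h ∈ Ht, h P = h Q) → P = Q) →
    ∃ N : ℕ, ∀ F : M → AlgebraicClosure ℚ, (∀ P, F P ∈ A) →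
      (fun P => (p : AlgebraicClosure ℚ) ^ N * F P) ∈ Ht

/-- **P2** (`I → D`): an inertia-equivariant element of a `D`-stable `A`-subalgebra `Ht` is an
`A`-linear combination of `D`-equivariant elements of `Ht`. -/
def DescInertiaStatement : Prop :=
  ∀ (p : ℕ) (_ : p.Prime) (A : ValuationSubring (AlgebraicClosure ℚ)) (_ : A.LiesOverPrime p)
    (M : Type) (_ : AddCommGroup M) (_ : Finite M)
    (act : (AlgebraicClosure ℚ ≃ₐ[ℚ] AlgebraicClosure ℚ) → M → M) (_ : IsContAction act)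
    (Ht : Subalgebra A (M → AlgebraicClosure ℚ)),
    (∀ σ ∈ A.decompositionSubgroup ℚ, ∀ h ∈ Ht, (fun P : M => σ (h (act σ⁻¹ P))) ∈ Ht) →
    ∀ f ∈ Ht, (∀ σ ∈ A.inertiaSubgroupIn ℚ, ∀ P : M, f (act σ P) = σ (f P)) →
      f ∈ Submodule.span A {g : M → AlgebraicClosure ℚ | g ∈ Ht ∧
        ∀ σ ∈ A.decompositionSubgroup ℚ, ∀ P : M, g (act σ P) = σ (g P)}

/-- **P3** (`D → G`): a `D`-equivariant function with values in `A` is congruent modulo `p^k` to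
a `G`-equivariant function. -/
def DescApproxStatement : Prop :=
  ∀ (p : ℕ) (_ : p.Prime) (A : ValuationSubring (AlgebraicClosure ℚ)) (_ : A.LiesOverPrime p)
    (M : Type) (_ : AddCommGroup M) (_ : Finite M)
    (act : (AlgebraicClosure ℚ ≃ₐ[ℚ] AlgebraicClosure ℚ) → M → M) (_ : IsContAction act)
    (g : M → AlgebraicClosure ℚ), (∀ P, g P ∈ A) →
    (∀ σ ∈ A.decompositionSubgroup ℚ, ∀ P : M, g (act σ P) = σ (g P)) →
    ∀ k : ℕ, ∃ h : M → AlgebraicClosure ℚ,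
      (∀ (σ : AlgebraicClosure ℚ ≃ₐ[ℚ] AlgebraicClosure ℚ) (P : M), h (act σ P) = σ (h P)) ∧
      ∀ P : M, ∃ a ∈ A, h P - g P = (p : AlgebraicClosure ℚ) ^ k * a

/-- The assembly (helper44, `LocalToGlobal.lean`). -/
def DescAssemblyStatement : Prop :=
  DescLagrangeStatement → DescInertiaStatement → DescApproxStatement → LocalToGlobalStatement

end Fermat.Agent.W1
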