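/-
W1 ALG-A, brick P2 (helper15): `descInertiaStatement : DescInertiaStatement`.

Unramified descent `I → D`: an inertia-equivariant element `f` of a `D`-stable `A`-subalgebra
`Ht ⊂ Map(M, ℚ̄)` is an `A`-linear combination of `D`-equivariant elements of `Ht`.

Proof.  `F₀/ℚ` finite normal such that the twist `σ⋆f` depends only on `σ|F₀`; `φ` a Frobenius at
`A`, `m ≥ 1` with `φ^m|F₀ = 1`, `n = p^m - 1`, `ζ` a primitive `n`-th root of unity.  Every
`x ∈ A ∩ F₀` is `≡ 0` or `≡ ζ^i` modulo `𝔪_A`; hence `τ ∈ D` with `τ ζ = ζ` is trivial on the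
residue field of `A ∩ F₀`, agrees on `F₀` with an element of `I`, and `τ⋆f = f`.  So
`f_ξ := τ⋆f` (`τ ζ = ξ`) is well defined on the orbit `T = D ζ`, the functions
`g_j := Σ_{ξ ∈ T} ξ^j f_ξ ∈ Ht` are `D`-equivariant and `f = Σ_j c_j g_j`, `c_j ∈ A` the coefficients
of the Lagrange polynomial `∏_{ξ ≠ ζ} (X - ξ)/(ζ - ξ)`.
-/
import Fermat.Agent.W1.PlanDescent
import Fermat.Agent.S14.ValGalois
import Fermat.Agent.Cheb.Glue
import Fermat.Agent.Common.InertiaLift
import Fermat.Agent.ES.LR.Arch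

set_option autoImplicit false
set_option linter.style.haveILetI false

noncomputable section

namespace Fermat.Agent.W1.DI

open Polynomial

/-- `ℚ̄` -/
abbrev Qb : Type := AlgebraicClosure ℚ

/-- `Gal(ℚ̄/ℚ)` -/
abbrev Gq : Type := AlgebraicClosure ℚ ≃ₐ[ℚ] AlgebraicClosure ℚ

section Twist

variable {M : Type} (act : Gq → M → M)

/-- the twist `σ⋆h = σ ∘ h ∘ σ⁻¹` -/
def tw (σ : Gq) (h : M → Qb) : M → Qb := fun P => σ (h (act σ⁻¹ P))

theorem tw_apply (σ : Gq) (h : M → Qb) (P : M) : tw act σ h P = σ (h (act σ⁻¹ P)) := rfl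

variable {act}

theorem tw_sum {ι : Type*} (s : Finset ι) (σ : Gq) (c : ι → Qb) (F : ι → M → Qb) :
    tw act σ (fun P => ∑ i ∈ s, c i * F i P) = fun P => ∑ i ∈ s, σ (c i) * tw act σ (F i) P := by
  funext P
  rw [tw_apply, map_sum]
  refine Finset.sum_congr rfl fun i _ => ?_
  rw [map_mul, tw_apply]

variable [AddCommGroup M]

theorem tw_one (hact : IsContAction act) (h : M → Qb) : tw act 1 h = h := by
  funext P
  rw [tw_apply, inv_one, hact.one]
  rfl

theorem tw_mul (hact : IsContAction act) (σ τ : Gq) (h : M → Qb) :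
    tw act (σ * τ) h = tw act σ (tw act τ h) := by
  funext P
  rw [tw_apply, tw_apply, tw_apply, mul_inv_rev, hact.mul]
  rfl

theorem tw_eq_self_iff (hact : IsContAction act) (σ : Gq) (g : M → Qb) :
    tw act σ g = g ↔ ∀ P, g (act σ P) = σ (g P) := by
  constructor
  · intro h P
    have h1 := congrFun h (act σ P)
    rw [tw_apply, ← hact.mul, inv_mul_cancel, hact.one] at h1
    exact h1.symm
  · intro h
    funext P
    rw [tw_apply, ← h, ← hact.mul, mul_inv_cancel, hact.one]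

theorem tw_eq_of_eq (hact : IsContAction act) {σ τ : Gq} {f : M → Qb}
    (h : tw act (τ⁻¹ * σ) f = f) : tw act σ f = tw act τ f := by
  have h1 : σ = τ * (τ⁻¹ * σ) := by group
  rw [h1, tw_mul hact, h]

/-- the finite normal field of definition of `f` and of the action on `M` -/
theorem exists_field [Finite M] (hact : IsContAction act) (f : M → Qb) :
    ∃ F₀ : IntermediateField ℚ Qb, FiniteDimensional ℚ F₀ ∧ Normal ℚ F₀ ∧
      ∀ σ : Gq, (∀ x ∈ F₀, σ x = x) → tw act σ f = f := by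
  classical
  haveI := Fermat.Agent.Common.isAlgClosure_rat_qbar
  haveI : Algebra.IsAlgebraic ℚ Qb := IsAlgClosure.isAlgebraic
  haveI : Normal ℚ Qb := IsAlgClosure.normal ℚ Qb
  choose E hEfin hE using hact.open_stab
  haveI : ∀ P, FiniteDimensional ℚ (E P) := hEfin
  haveI : Finite (Set.range f) := Set.finite_range f
  haveI : FiniteDimensional ℚ (IntermediateField.adjoin ℚ (Set.range f)) :=
    IntermediateField.finiteDimensional_adjoin
      (fun x _ => (Algebra.IsAlgebraic.isAlgebraic (R := ℚ) x).isIntegral)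
  set E₁ : IntermediateField ℚ Qb := (⨆ P, E P) ⊔ IntermediateField.adjoin ℚ (Set.range f)
    with hE₁
  haveI : FiniteDimensional ℚ E₁ := IntermediateField.finiteDimensional_sup _ _
  have hle : E₁ ≤ IntermediateField.normalClosure ℚ E₁ Qb := E₁.le_normalClosure
  refine ⟨IntermediateField.normalClosure ℚ E₁ Qb, inferInstance,
    normalClosure.normal (F := ℚ) (K := E₁) (L := Qb), ?_⟩
  intro σ hσ
  funext P
  rw [tw_apply]
  have hP : act σ⁻¹ P = P := by
    apply hE P σ⁻¹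
    intro a ha
    have ha' : a ∈ IntermediateField.normalClosure ℚ E₁ Qb :=
      hle (le_sup_left (a := ⨆ P, E P) (le_iSup E P ha))
    have h1 := hσ a ha'
    calc σ⁻¹ a = σ⁻¹ (σ a) := by rw [h1]
      _ = a := by simp
  rw [hP]
  apply hσ
  exact hle (le_sup_right (a := ⨆ P, E P) (IntermediateField.subset_adjoin ℚ _ ⟨P, rfl⟩))

end Twist

section Valuation

variable (A : ValuationSubring Qb)

/-- some positive power of an automorphism is trivial on a finite subextension -/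
theorem exists_pow_fix (F₀ : IntermediateField ℚ Qb) [FiniteDimensional ℚ F₀] (φ : Gq) :
    ∃ m : ℕ, 0 < m ∧ ∀ x ∈ F₀, (φ ^ m) x = x := by
  haveI : Finite (F₀ →ₐ[ℚ] Qb) := inferInstance
  let r : ℕ → (F₀ →ₐ[ℚ] Qb) := fun i => ((φ ^ i : Gq) : Qb →ₐ[ℚ] Qb).comp F₀.val
  obtain ⟨i, j, hij, h⟩ := Finite.exists_ne_map_eq_of_infinite r
  have key : ∀ i j : ℕ, i < j → r i = r j → ∃ m : ℕ, 0 < m ∧ ∀ x ∈ F₀, (φ ^ m) x = x := by
    intro i j hlt h
    refine ⟨j - i, Nat.sub_pos_of_lt hlt, fun x hx => ?_⟩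
    have h1 : (φ ^ i) x = (φ ^ j) x := DFunLike.congr_fun h ⟨x, hx⟩
    have h2 : (φ ^ i) x = (φ ^ i) ((φ ^ (j - i)) x) := by
      rw [← AlgEquiv.mul_apply, ← pow_add, Nat.add_sub_cancel' hlt.le]
      exact h1
    exact ((φ ^ i).injective h2).symm
  rcases lt_or_gt_of_ne hij with hlt | hlt
  · exact key i j hlt h
  · exact key j i hlt h.symm

/-- powers of a Frobenius element are Frobenius elements -/
theorem isFrobeniusAt_pow {p : ℕ} {φ : Gq} (hφ : A.IsFrobeniusAt φ p) :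
    ∀ m : ℕ, A.IsFrobeniusAt (φ ^ m) (p ^ m) := by
  obtain ⟨hD, hres⟩ := hφ
  intro m
  induction m with
  | zero =>
    have hmem : φ ^ 0 ∈ A.decompositionSubgroup ℚ := Subgroup.pow_mem _ hD _
    refine ⟨hmem, fun r => ?_⟩
    have h1 : (⟨φ ^ 0, hmem⟩ : A.decompositionSubgroup ℚ) = 1 := Subtype.ext (pow_zero φ)
    rw [h1, one_smul, pow_zero, pow_one]
  | succ m ih =>
    obtain ⟨hDm, hresm⟩ := ih
    have hmem : φ ^ (m + 1) ∈ A.decompositionSubgroup ℚ := Subgroup.pow_mem _ hD _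
    refine ⟨hmem, fun r => ?_⟩
    have h1 : (⟨φ ^ (m + 1), hmem⟩ : A.decompositionSubgroup ℚ) =
        ⟨φ ^ m, hDm⟩ * ⟨φ, hD⟩ := by
      apply Subtype.ext
      exact pow_succ φ m
    rw [h1, mul_smul, hres, hresm, ← pow_mul, pow_succ, mul_comm]

/-- a root of unity of order prime to `p`, different from `1`, is not `≡ 1` -/
theorem one_sub_val_eq_one {p : ℕ} (hp : p.Prime) (hA : A.LiesOverPrime p) {n : ℕ}
    (hn : ¬ p ∣ n) {η : Qb} (hη : η ^ n = 1) (hη1 : η ≠ 1) : A.valuation (η - 1) = 1 := by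
  set v := A.valuation with hv
  have hn0 : n ≠ 0 := fun h => hn (h ▸ dvd_zero p)
  have hηv : v η = 1 := by
    have h1 : v η ^ n = 1 := by rw [← map_pow, hη, map_one]
    exact (pow_eq_one_iff.1 h1).resolve_right hn0
  have hle : v (η - 1) ≤ 1 := by
    refine (Valuation.map_sub v _ _).trans ?_
    rw [hηv, map_one, max_self]
  refine le_antisymm hle ?_
  by_contra hlt
  rw [not_le] at hlt
  have hpow : ∀ i : ℕ, v (η ^ i - 1) < 1 := by
    intro i
    induction i with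
    | zero =>
      rw [pow_zero, sub_self, map_zero]
      exact zero_lt_one
    | succ i ih =>
      have h1 : η ^ (i + 1) - 1 = η * (η ^ i - 1) + (η - 1) := by ring
      rw [h1]
      refine Valuation.map_add_lt v ?_ hlt
      rw [map_mul, hηv, one_mul]
      exact ih
  have hsum : ∑ i ∈ Finset.range n, η ^ i = 0 := by
    have h1 := mul_geom_sum η n
    rw [hη, sub_self] at h1
    rcases mul_eq_zero.1 h1 with h | h
    · exact absurd (sub_eq_zero.1 h) hη1
    · exact h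
  have hn' : (n : Qb) = -∑ i ∈ Finset.range n, (η ^ i - 1) := by
    rw [Finset.sum_sub_distrib, hsum, Finset.sum_const, Finset.card_range, nsmul_eq_mul, mul_one]
    ring
  have h2 : v (n : Qb) < 1 := by
    rw [hn', Valuation.map_neg]
    exact Valuation.map_sum_lt' v zero_lt_one (fun i _ => hpow i)
  have h3 : v ((n : ℤ) : Qb) = 1 :=
    Fermat.Agent.ES.LR.arch_val_eq_one A hp hA (fun h => hn (Int.natCast_dvd_natCast.1 h))
  rw [Int.cast_natCast] at h3
  rw [h3] at h2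
  exact lt_irrefl _ h2

/-- roots of unity lie in `A` -/
theorem rootOfUnity_val {n : ℕ} (hn : n ≠ 0) {ξ : Qb} (hξ : ξ ^ n = 1) : A.valuation ξ = 1 := by
  have h1 : A.valuation ξ ^ n = 1 := by rw [← map_pow, hξ, map_one]
  exact (pow_eq_one_iff.1 h1).resolve_right hn

/-- the residue classes of the solutions of `x ^ q ≡ x`, `q = n + 1`, are `0` and the `n`-th
roots of unity -/
theorem exists_root_congr {n : ℕ} (hn : 0 < n) {ζ : Qb} (hζ : IsPrimitiveRoot ζ n) {x : Qb}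
    (hx : x ∈ A) (hxq : x ^ (n + 1) - x ∈ A.nonunits) :
    x ∈ A.nonunits ∨ ∃ ξ : Qb, ξ ^ n = 1 ∧ x - ξ ∈ A.nonunits := by
  classical
  set v := A.valuation with hv
  by_cases hxu : x ∈ A.nonunits
  · exact Or.inl hxu
  right
  have hxv : v x = 1 := by
    apply le_antisymm ((ValuationSubring.valuation_le_one_iff A _).2 hx)
    by_contra h
    exact hxu ((ValuationSubring.mem_nonunits_iff (A := A)).2 (not_le.1 h))
  have h1 : v (x ^ n - 1) < 1 := by
    have h2 : x ^ (n + 1) - x = x * (x ^ n - 1) := by ring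
    have h3 := (ValuationSubring.mem_nonunits_iff (A := A)).1 hxq
    rwa [h2, map_mul, hxv, one_mul] at h3
  have h4 : x ^ n - 1 = ∏ ξ ∈ nthRootsFinset n (1 : Qb), (x - ξ) := by
    have h5 := congrArg (Polynomial.eval x) (X_pow_sub_one_eq_prod hn hζ)
    rw [Polynomial.eval_prod] at h5
    simpa using h5
  by_contra hcon
  push Not at hcon
  have h6 : ∀ ξ ∈ nthRootsFinset n (1 : Qb), v (x - ξ) = 1 := by
    intro ξ hξ
    have hξ' : ξ ^ n = 1 := (mem_nthRootsFinset hn 1).1 hξ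
    have hle : v (x - ξ) ≤ 1 := by
      refine (Valuation.map_sub v _ _).trans ?_
      rw [hxv, rootOfUnity_val A hn.ne' hξ', max_self]
    refine le_antisymm hle ?_
    by_contra h
    exact hcon ξ hξ' ((ValuationSubring.mem_nonunits_iff (A := A)).2 (not_le.1 h))
  rw [h4, map_prod, Finset.prod_eq_one h6] at h1
  exact lt_irrefl _ h1

end Valuation

section Main

variable {M : Type} [AddCommGroup M] {act : Gq → M → M}

/-- an element of `D` fixing `ζ` fixes `f` under the twist -/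
theorem tw_eq_self_of_fix (hact : IsContAction act) (A : ValuationSubring Qb)
    (F₀ : IntermediateField ℚ Qb) [Normal ℚ F₀] {f : M → Qb}
    (hF₀ : ∀ σ : Gq, (∀ x ∈ F₀, σ x = x) → tw act σ f = f)
    (hI : ∀ σ ∈ A.inertiaSubgroupIn ℚ, ∀ P : M, f (act σ P) = σ (f P))
    {n : ℕ} (hn : 0 < n) {ζ : Qb} (hζ : IsPrimitiveRoot ζ n)
    (hq : ∀ x ∈ F₀, x ∈ A → x ^ (n + 1) - x ∈ A.nonunits)
    {τ : Gq} (hτ : τ ∈ A.decompositionSubgroup ℚ) (hτζ : τ ζ = ζ) : tw act τ f = f := by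
  have hroot : ∀ ξ : Qb, ξ ^ n = 1 → τ ξ = ξ := by
    intro ξ hξ
    haveI : NeZero n := ⟨hn.ne'⟩
    obtain ⟨i, -, rfl⟩ := hζ.eq_pow_of_pow_eq_one hξ
    rw [map_pow, hτζ]
  have hres : ∀ x ∈ F₀, x ∈ A → τ x - x ∈ A.nonunits := by
    intro x hxF hxA
    rcases exists_root_congr A hn hζ hxA (hq x hxF hxA) with h | ⟨ξ, hξ, h⟩
    · have h1 : τ x ∈ A.nonunits :=
        (Fermat.Agent.S05.apply_mem_nonunits_iff_of_mem_decomposition hτ x).2 h
      rw [ValuationSubring.mem_nonunits_iff] at h h1 ⊢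
      exact Valuation.map_sub_lt _ h1 h
    · have h1 : τ (x - ξ) ∈ A.nonunits :=
        (Fermat.Agent.S05.apply_mem_nonunits_iff_of_mem_decomposition hτ _).2 h
      rw [map_sub, hroot ξ hξ] at h1
      have h2 : τ x - x = (τ x - ξ) - (x - ξ) := by ring
      rw [h2]
      rw [ValuationSubring.mem_nonunits_iff] at h h1 ⊢
      exact Valuation.map_sub_lt _ h1 h
  obtain ⟨ι, hι, hιF⟩ := Fermat.Agent.S14.exists_inertia_agree F₀ A τ hτ
    (fun x hx => Fermat.Agent.Common.apply_mem_of_normal F₀ τ hx) hres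
  have h1 : tw act τ f = tw act ι f := by
    apply tw_eq_of_eq hact
    apply hF₀
    intro x hx
    rw [AlgEquiv.mul_apply, ← hιF x hx]
    simp
  rw [h1]
  exact (tw_eq_self_iff hact ι f).2 (hI ι hι)

/-- **P2** (`I → D`, unramified descent) -/
theorem descInertiaStatement : DescInertiaStatement := by
  intro p hp A hA M _ _ act hact Ht hD f hf hI
  classical
  obtain ⟨F₀, hfin, hnorm, hF₀⟩ := exists_field hact f
  haveI := hfin
  haveI := hnorm
  obtain ⟨φ, hφ⟩ := Fermat.Agent.Common.exists_isFrobeniusAt_of_liesOverPrime p hp A hA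
  obtain ⟨m, hm, hφm⟩ := exists_pow_fix F₀ φ
  have hpm : 2 ≤ p ^ m := by
    calc 2 ≤ p := hp.two_le
      _ = p ^ 1 := (pow_one p).symm
      _ ≤ p ^ m := Nat.pow_le_pow_right hp.pos hm
  set n := p ^ m - 1 with hn_def
  have hn : 0 < n := by omega
  have hn1 : n + 1 = p ^ m := by omega
  have hpn : ¬ p ∣ n := by
    intro h
    have h2 : p ∣ p ^ m := dvd_pow_self p hm.ne'
    have h3 : p ∣ p ^ m - n := Nat.dvd_sub h2 h
    have e : p ^ m - n = 1 := by omega
    rw [e] at h3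
    exact hp.one_lt.ne' (Nat.dvd_one.1 h3)
  obtain ⟨ζ, hζ⟩ : ∃ ζ : Qb, IsPrimitiveRoot ζ n := by
    haveI : NeZero (n : Qb) := ⟨Nat.cast_ne_zero.2 hn.ne'⟩
    exact HasEnoughRootsOfUnity.exists_primitiveRoot Qb n
  have hq : ∀ x ∈ F₀, x ∈ A → x ^ (n + 1) - x ∈ A.nonunits := by
    intro x hxF hxA
    have h1 := Fermat.Agent.Cheb.sub_pow_mem_nonunits_of_isFrobeniusAt A (φ ^ m) (p ^ m)
      (isFrobeniusAt_pow A hφ m) x hxA
    rw [hφm x hxF] at h1
    rw [hn1]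
    rw [ValuationSubring.mem_nonunits_iff] at h1 ⊢
    rwa [← Valuation.map_neg, neg_sub]
  have hK : ∀ τ ∈ A.decompositionSubgroup ℚ, τ ζ = ζ → tw act τ f = f :=
    fun τ hτ hτζ => tw_eq_self_of_fix hact A F₀ hF₀ hI hn hζ hq hτ hτζ
  -- the orbit of `ζ`
  set T : Finset Qb := (nthRootsFinset n (1 : Qb)).filter
    (fun ξ => ∃ τ ∈ A.decompositionSubgroup ℚ, τ ζ = ξ) with hT
  have hTmem : ∀ ξ, ξ ∈ T ↔ ∃ τ ∈ A.decompositionSubgroup ℚ, τ ζ = ξ := by
    intro ξ
    rw [hT, Finset.mem_filter, mem_nthRootsFinset hn]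
    constructor
    · exact fun h => h.2
    · rintro ⟨τ, hτ, rfl⟩
      exact ⟨by rw [← map_pow, hζ.pow_eq_one, map_one], τ, hτ, rfl⟩
  have hTroot : ∀ ξ ∈ T, ξ ^ n = 1 := by
    intro ξ hξ
    rw [hT, Finset.mem_filter, mem_nthRootsFinset hn] at hξ
    exact hξ.1
  have hζT : ζ ∈ T := (hTmem ζ).2 ⟨1, Subgroup.one_mem _, rfl⟩
  let rep : Qb → Gq := fun ξ =>
    if h : ∃ τ ∈ A.decompositionSubgroup ℚ, τ ζ = ξ then h.choose else 1
  have hrep : ∀ ξ ∈ T, rep ξ ∈ A.decompositionSubgroup ℚ ∧ rep ξ ζ = ξ := by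
    intro ξ hξ
    have h := (hTmem ξ).1 hξ
    simp only [rep, dif_pos h]
    exact h.choose_spec
  let Fξ : Qb → M → Qb := fun ξ => tw act (rep ξ) f
  have hW : ∀ τ ∈ A.decompositionSubgroup ℚ, tw act τ f = Fξ (τ ζ) := by
    intro τ hτ
    have hmem : τ ζ ∈ T := (hTmem _).2 ⟨τ, hτ, rfl⟩
    obtain ⟨h1, h2⟩ := hrep _ hmem
    apply tw_eq_of_eq hact
    apply hK
    · exact Subgroup.mul_mem _ (Subgroup.inv_mem _ h1) hτ
    · rw [AlgEquiv.mul_apply]
      show (rep (τ ζ)).symm (τ ζ) = ζ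
      rw [AlgEquiv.symm_apply_eq]
      exact h2.symm
  have hFζ : Fξ ζ = f := by
    have h1 := hW 1 (Subgroup.one_mem _)
    rw [tw_one hact] at h1
    exact h1.symm
  have hFmem : ∀ ξ ∈ T, Fξ ξ ∈ Ht := by
    intro ξ hξ
    have h1 := hD (rep ξ) (hrep ξ hξ).1 f hf
    exact h1
  have hTA : ∀ ξ ∈ T, ∀ j : ℕ, ξ ^ j ∈ A := by
    intro ξ hξ j
    rw [← ValuationSubring.valuation_le_one_iff, map_pow, rootOfUnity_val A hn.ne' (hTroot ξ hξ),
      one_pow]
  -- the `D`-equivariant functions `g_j`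
  let g : ℕ → M → Qb := fun j P => ∑ ξ ∈ T, ξ ^ j * Fξ ξ P
  have hgHt : ∀ j, g j ∈ Ht := by
    intro j
    have h1 : g j = ∑ ξ ∈ T.attach, (⟨ξ.1 ^ j, hTA ξ.1 ξ.2 j⟩ : A) • Fξ ξ.1 := by
      funext P
      rw [Finset.sum_apply]
      show ∑ ξ ∈ T, ξ ^ j * Fξ ξ P = _
      rw [← Finset.sum_attach]
      rfl
    rw [h1]
    exact Subalgebra.sum_mem _ fun ξ _ => Subalgebra.smul_mem _ (hFmem ξ.1 ξ.2) _
  have hgD : ∀ j, ∀ σ ∈ A.decompositionSubgroup ℚ, ∀ P : M, g j (act σ P) = σ (g j P) := by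
    intro j σ hσ
    rw [← tw_eq_self_iff hact]
    have h1 : tw act σ (g j) = fun P => ∑ ξ ∈ T, σ (ξ ^ j) * tw act σ (Fξ ξ) P :=
      tw_sum T σ (fun ξ => ξ ^ j) Fξ
    rw [h1]
    funext P
    have h2 : ∀ ξ ∈ T, σ (ξ ^ j) * tw act σ (Fξ ξ) P = (σ ξ) ^ j * Fξ (σ ξ) P := by
      intro ξ hξ
      obtain ⟨h3, h4⟩ := hrep ξ hξ
      have h5 : tw act σ (Fξ ξ) = Fξ (σ ξ) := by
        show tw act σ (tw act (rep ξ) f) = _
        rw [← tw_mul hact, hW _ (Subgroup.mul_mem _ hσ h3), AlgEquiv.mul_apply, h4]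
      rw [h5, map_pow]
    rw [Finset.sum_congr rfl h2]
    refine Finset.sum_nbij' (fun ξ => σ ξ) (fun ξ => σ⁻¹ ξ) ?_ ?_ ?_ ?_ ?_
    · intro ξ hξ
      obtain ⟨τ, hτ, rfl⟩ := (hTmem ξ).1 hξ
      exact (hTmem _).2 ⟨σ * τ, Subgroup.mul_mem _ hσ hτ, rfl⟩
    · intro ξ hξ
      obtain ⟨τ, hτ, rfl⟩ := (hTmem ξ).1 hξ
      exact (hTmem _).2 ⟨σ⁻¹ * τ, Subgroup.mul_mem _ (Subgroup.inv_mem _ hσ) hτ, rfl⟩
    · intro ξ _
      simp
    · intro ξ _
      simp
    · intro ξ _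
      rfl
  -- the Lagrange polynomial
  have hunit : ∀ ξ ∈ T.erase ζ, A.valuation (ζ - ξ) = 1 := by
    intro ξ hξ
    rw [Finset.mem_erase] at hξ
    have hζ0 : ζ ≠ 0 := hζ.ne_zero hn.ne'
    have h1 : (ξ / ζ) ^ n = 1 := by rw [div_pow, hTroot ξ hξ.2, hζ.pow_eq_one, div_one]
    have h2 : ξ / ζ ≠ 1 := by
      intro h
      apply hξ.1
      field_simp at h
      exact h
    have h3 := one_sub_val_eq_one A hp hA hpn h1 h2
    have h4 : ζ - ξ = -(ζ * (ξ / ζ - 1)) := by field_simp; ring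
    rw [h4, Valuation.map_neg, map_mul, h3, mul_one]
    exact rootOfUnity_val A hn.ne' hζ.pow_eq_one
  set L : Qb[X] := ∏ ξ ∈ T.erase ζ, (C (ζ - ξ)⁻¹ * (X - C ξ)) with hL
  have hLζ : L.eval ζ = 1 := by
    rw [hL, Polynomial.eval_prod]
    refine Finset.prod_eq_one fun ξ hξ => ?_
    have h0 : ζ - ξ ≠ 0 := by
      intro h
      have := hunit ξ hξ
      rw [h, map_zero] at this
      exact zero_ne_one this
    simp only [eval_mul, eval_C, eval_sub, eval_X]
    exact inv_mul_cancel₀ h0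
  have hLξ : ∀ ξ ∈ T, ξ ≠ ζ → L.eval ξ = 0 := by
    intro ξ hξ hne
    rw [hL, Polynomial.eval_prod]
    refine Finset.prod_eq_zero (Finset.mem_erase.2 ⟨hne, hξ⟩) ?_
    simp
  have hLA : ∀ j, L.coeff j ∈ A := by
    have hmem : L ∈ Polynomial.lifts (A.subtype) := by
      rw [hL]
      refine Subsemiring.prod_mem _ fun ξ hξ => ?_
      have hξT : ξ ∈ T := (Finset.mem_erase.1 hξ).2
      have h1 : (ζ - ξ)⁻¹ ∈ A := by
        rw [← ValuationSubring.valuation_le_one_iff, map_inv₀, hunit ξ hξ, inv_one]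
      have h2 : ξ ∈ A := by
        have := hTA ξ hξT 1
        rwa [pow_one] at this
      have h3 : C (ζ - ξ)⁻¹ * (X - C ξ) =
          C (A.subtype ⟨(ζ - ξ)⁻¹, h1⟩) * (X + C (A.subtype (-⟨ξ, h2⟩))) := by
        show C (ζ - ξ)⁻¹ * (X - C ξ) = C (ζ - ξ)⁻¹ * (X + C (-ξ))
        rw [C_neg, ← sub_eq_add_neg]
      rw [h3]
      exact Subsemiring.mul_mem _ (Polynomial.C_mem_lifts _ _)
        (Subsemiring.add_mem _ (Polynomial.X_mem_lifts _) (Polynomial.C_mem_lifts _ _))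
    intro j
    obtain ⟨a, ha⟩ := (Polynomial.lifts_iff_coeff_lifts L).1 hmem j
    rw [← ha]
    exact a.2
  -- the decomposition of `f`
  have hfsum : f = ∑ j ∈ Finset.range (L.natDegree + 1), (⟨L.coeff j, hLA j⟩ : A) • g j := by
    funext P
    rw [Finset.sum_apply]
    show f P = ∑ j ∈ Finset.range (L.natDegree + 1), L.coeff j * ∑ ξ ∈ T, ξ ^ j * Fξ ξ P
    have h1 : ∀ j ∈ Finset.range (L.natDegree + 1),
        L.coeff j * ∑ ξ ∈ T, ξ ^ j * Fξ ξ P = ∑ ξ ∈ T, (L.coeff j * ξ ^ j) * Fξ ξ P := by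
      intro j _
      rw [Finset.mul_sum]
      exact Finset.sum_congr rfl fun ξ _ => (mul_assoc _ _ _).symm
    rw [Finset.sum_congr rfl h1, Finset.sum_comm]
    have h2 : ∀ ξ ∈ T, ∑ j ∈ Finset.range (L.natDegree + 1), (L.coeff j * ξ ^ j) * Fξ ξ P =
        L.eval ξ * Fξ ξ P := by
      intro ξ _
      rw [← Finset.sum_mul, ← Polynomial.eval_eq_sum_range]
    rw [Finset.sum_congr rfl h2, Finset.sum_eq_single ζ, hLζ, one_mul, hFζ]
    · intro ξ hξ hne
      rw [hLξ ξ hξ hne, zero_mul]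
    · intro h
      exact absurd hζT h
  rw [hfsum]
  refine Submodule.sum_mem _ fun j _ => Submodule.smul_mem _ _ (Submodule.subset_span ?_)
  exact ⟨hgHt j, hgD j⟩

end Main

end Fermat.Agent.W1.DI
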