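import Fermat.Agent.W1.LocalToGlobal
import Fermat.Agent.W1.DescInertia
import Fermat.Agent.W1.DescApprox

/-!
# W1 ALG-A: `LocalToGlobalStatement` (final)

The Galois descent of a local Hopf lattice: P1 (`descLagrange`), P2 (`DI.descInertiaStatement`,
helper15), P3 (`descApprox`, helper33) and the assembly `descAssembly`.
-/

set_option autoImplicit false

namespace Fermat.Agent.W1

/-- **ALG-A**: a local Hopf lattice over a valuation ring `A` of `ℚ̄` over `p` descends to a Hopf
lattice over `ℤ_(p)`. -/
theorem localToGlobalStatement : LocalToGlobalStatement :=
  descAssembly descLagrange DI.descInertiaStatement descApprox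

end Fermat.Agent.W1
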