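import Mathlib
import Fermat.Prelude.Def_GaloisRep_Flat
import Fermat.Agent.S28.RatLoc

/-!
# W1: `ℤ_(ℓ) = GaloisRep.ratLocalizedAt ℓ` is a principal ideal domain

Needed to apply `hasFiniteFlatModel_of_isHopfLattice` / `IsHopfLattice.of_core` with
`R = GaloisRep.ratLocalizedAt ℓ`.

* `ratLoc_dvd_of_padicValRat_le` : divisibility in `ℤ_(ℓ)` from the `ℓ`-adic valuation;
* `ratLoc_isPrincipalIdealRing` : the instance.
-/

set_option autoImplicit false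

namespace Fermat.Agent.W1

open GaloisRep

variable (ℓ : ℕ) [Fact ℓ.Prime]

/-- In `ℤ_(ℓ)`: if `v_ℓ(x) ≤ v_ℓ(y)` and `x ≠ 0`, then `x ∣ y`. -/
theorem ratLoc_dvd_of_padicValRat_le {x y : ratLocalizedAt ℓ} (hx : x ≠ 0)
    (h : padicValRat ℓ (x : ℚ) ≤ padicValRat ℓ (y : ℚ)) : x ∣ y := by
  by_cases hy : y = 0
  · subst hy; exact dvd_zero x
  apply (Fermat.Agent.S28.ratLoc_integers ℓ).dvd_of_le
  have hx' : (x : ℚ) ≠ 0 := fun h0 => hx (Subtype.ext h0)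
  have hy' : (y : ℚ) ≠ 0 := fun h0 => hy (Subtype.ext h0)
  show Rat.padicValuation ℓ (y : ℚ) ≤ Rat.padicValuation ℓ (x : ℚ)
  simp only [Rat.padicValuation, Valuation.coe_mk, MonoidWithZeroHom.coe_mk, ZeroHom.coe_mk,
    hx', hy', if_false]
  rw [WithZero.exp_le_exp]
  omega

/-- The `ℓ`-adic valuation is nonnegative on `ℤ_(ℓ)`. -/
theorem ratLoc_padicValRat_nonneg (x : ratLocalizedAt ℓ) : 0 ≤ padicValRat ℓ (x : ℚ) := by
  by_cases hx : (x : ℚ) = 0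
  · rw [hx]; simp
  have h1 := (Fermat.Agent.S28.ratLoc_integers ℓ).map_le_one x
  have h2 : Rat.padicValuation ℓ (x : ℚ) ≤ 1 := h1
  simp only [Rat.padicValuation, Valuation.coe_mk, MonoidWithZeroHom.coe_mk, ZeroHom.coe_mk,
    hx, if_false] at h2
  rw [← WithZero.exp_zero, WithZero.exp_le_exp] at h2
  omega

/-- `ℤ_(ℓ)` is a principal ideal ring. -/
instance ratLoc_isPrincipalIdealRing : IsPrincipalIdealRing (ratLocalizedAt ℓ) := by
  classical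
  refine ⟨fun I => ?_⟩
  by_cases hI : I = ⊥
  · subst hI; exact ⟨⟨0, by simp⟩⟩
  obtain ⟨x₁, hx₁, hx₁0⟩ := Submodule.exists_mem_ne_zero_of_ne_bot hI
  -- the set of valuations of nonzero elements of `I`
  have hex : ∃ n : ℕ, ∃ x ∈ I, x ≠ 0 ∧ padicValRat ℓ ((x : ratLocalizedAt ℓ) : ℚ) = (n : ℤ) :=
    ⟨(padicValRat ℓ (x₁ : ℚ)).toNat, x₁, hx₁, hx₁0,
      (Int.toNat_of_nonneg (ratLoc_padicValRat_nonneg ℓ x₁)).symm⟩
  obtain ⟨x₀, hx₀, hx₀0, hv₀⟩ := Nat.find_spec hex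
  refine ⟨⟨x₀, le_antisymm (fun y hy => ?_) ?_⟩⟩
  · rw [Submodule.mem_span_singleton]
    by_cases hy0 : y = 0
    · exact ⟨0, by simp [hy0]⟩
    have hmin : Nat.find hex ≤ (padicValRat ℓ (y : ℚ)).toNat :=
      Nat.find_min' hex ⟨y, hy, hy0,
        (Int.toNat_of_nonneg (ratLoc_padicValRat_nonneg ℓ y)).symm⟩
    have hle : padicValRat ℓ (x₀ : ℚ) ≤ padicValRat ℓ (y : ℚ) := by
      have := ratLoc_padicValRat_nonneg ℓ y
      omega
    obtain ⟨c, hc⟩ := ratLoc_dvd_of_padicValRat_le ℓ hx₀0 hle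
    exact ⟨c, by rw [hc, smul_eq_mul, mul_comm]⟩
  · rw [Submodule.span_le]
    intro y hy
    rw [Set.mem_singleton_iff.mp hy]
    exact hx₀

end Fermat.Agent.W1
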