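import Fermat.Agent.W1.SubQuotQuot
import Fermat.Prelude.Def_GaloisRep_Flat

/-!
# W1-SQ: sub-objects, quotients and products of finite flat models (no Raynaud)

Main results (`R ⊂ ℚ` a PID with fraction field `ℚ`, `M` a finite abelian group with a map
`act : G_ℚ → M → M`):

* `sq_lattice_of_model` : `HasFiniteFlatModel R M act → ∃ H, IsHopfLattice R act H`
  (converse of `hasFiniteFlatModel_of_isHopfLattice`);
* `hasFiniteFlatModel_of_injective` : (SQ1) a sub-object of a group with a finite flat model has a
  finite flat model;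
* `hasFiniteFlatModel_of_surjective` : (SQ2) a quotient has one;
* `hasFiniteFlatModel_prod` : (SQ3) a product has one;
* `sq_isFlatAt_iff` : the prelude's `GaloisRepAdic.IsFlatAt` in terms of `HasFiniteFlatModel`.
-/

set_option autoImplicit false
set_option linter.unusedSectionVars false
set_option linter.unusedSimpArgs false
set_option linter.style.haveILetI false

open TensorProduct

namespace Fermat.Agent.W1

section Model

variable {R : Subring ℚ} {M : Type} [AddCommGroup M]
  {act : (AlgebraicClosure ℚ ≃ₐ[ℚ] AlgebraicClosure ℚ) → M → M}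

/-- A finite flat model gives a Hopf lattice of functions. -/
theorem sq_lattice_of_model [Finite M] (hM : HasFiniteFlatModel R M act) :
    ∃ H : Subalgebra R (M → AlgebraicClosure ℚ), IsHopfLattice R act H := by
  obtain ⟨Ha, instCR, instHopf, hfin, hflat, hcocomm, e, hadd, hgal⟩ := hM
  -- the functions attached to the elements of `Ha`
  let Φ : Ha →ₐ[R] (M → AlgebraicClosure ℚ) :=
    AlgHom.pi (fun P => (e.symm P).ofConv)
  have hΦ : ∀ (a : Ha) (P : M), Φ a P = (e.symm P).ofConv a := fun a P => rfl
  have hmul : ∀ P Q : M, e.symm (P + Q) = e.symm P * e.symm Q := by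
    intro P Q
    apply e.injective
    rw [hadd, e.apply_symm_apply, e.apply_symm_apply, e.apply_symm_apply]
  have hone : e.symm 0 = 1 := by
    apply e.injective
    rw [e.apply_symm_apply]
    have h1 := hadd 1 1
    rw [mul_one] at h1
    exact (add_eq_left.1 h1.symm).symm
  have hcomul : ∀ h ∈ Φ.range, (fun PQ : M × M => h (PQ.1 + PQ.2)) ∈
      Submodule.span R {F : M × M → AlgebraicClosure ℚ |
        ∃ a ∈ Φ.range, ∃ b ∈ Φ.range, F = fun PQ => a PQ.1 * b PQ.2} := by
    rintro _ ⟨a, rfl⟩
    have key : ∀ t : Ha ⊗[R] Ha, (fun PQ : M × M =>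
        Algebra.TensorProduct.lift (e.symm PQ.1).ofConv (e.symm PQ.2).ofConv
          (fun _ _ => Commute.all _ _) t) ∈
        Submodule.span R {F : M × M → AlgebraicClosure ℚ |
          ∃ a ∈ Φ.range, ∃ b ∈ Φ.range, F = fun PQ => a PQ.1 * b PQ.2} := by
      intro t
      induction t using TensorProduct.induction_on with
      | zero =>
        convert Submodule.zero_mem _ using 1
        funext PQ
        simp
      | tmul x y =>
        refine Submodule.subset_span ⟨Φ x, ⟨x, rfl⟩, Φ y, ⟨y, rfl⟩, ?_⟩
        funext PQ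
        simp [hΦ]
      | add x y hx hy =>
        convert Submodule.add_mem _ hx hy using 1
        funext PQ
        simp
    convert key (Coalgebra.comul (R := R) a) using 1
    funext PQ
    show (e.symm (PQ.1 + PQ.2)).ofConv a = _
    rw [hmul, AlgHom.convMul_apply]
  refine ⟨Φ.range, ?_⟩
  refine
    { fg := ?_
      equivariant := ?_
      separates := ?_
      comul_mem := hcomul
      antipode_mem := core_antipode_mem hcomul
      counit_mem := ?_ }
  · rw [← Algebra.map_top, Subalgebra.map_toSubmodule, Algebra.top_toSubmodule]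
    exact (Module.Finite.fg_top).map _
  · rintro _ ⟨a, rfl⟩ σ P
    show Φ a (act σ P) = σ (Φ a P)
    rw [hΦ, hΦ]
    set f := e.symm P with hf
    set g : WithConv (Ha →ₐ[R] AlgebraicClosure ℚ) :=
      WithConv.toConv ((AlgHom.restrictScalars R
        (σ : AlgebraicClosure ℚ →ₐ[ℚ] AlgebraicClosure ℚ)).comp f.ofConv) with hg
    have h1 : e g = act σ (e f) := hgal σ f g (fun h => rfl)
    rw [hf, e.apply_symm_apply] at h1
    rw [← h1, e.symm_apply_apply]
    rfl
  · intro P Q hPQ
    apply e.symm.injective
    apply WithConv.ofConv_injective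
    refine AlgHom.ext fun a => ?_
    exact hPQ (Φ a) ⟨a, rfl⟩
  · rintro _ ⟨a, rfl⟩
    refine ⟨Coalgebra.counit (R := R) a, ?_⟩
    show Φ a 0 = _
    rw [hΦ, hone]
    rfl

end Model

section Closure

variable {R : Subring ℚ} [IsPrincipalIdealRing R] [IsFractionRing R ℚ]
  {M M' : Type} [AddCommGroup M] [AddCommGroup M']
  {act : (AlgebraicClosure ℚ ≃ₐ[ℚ] AlgebraicClosure ℚ) → M → M}
  {act' : (AlgebraicClosure ℚ ≃ₐ[ℚ] AlgebraicClosure ℚ) → M' → M'}

/-- **(SQ1)** A sub-object of a group with a finite flat model has a finite flat model. -/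
theorem hasFiniteFlatModel_of_injective [Finite M] (hM : HasFiniteFlatModel R M act)
    (ι : M' →+ M) (hι : Function.Injective ι) (hequiv : ∀ σ P, ι (act' σ P) = act σ (ι P)) :
    HasFiniteFlatModel R M' act' := by
  obtain ⟨H, hH⟩ := sq_lattice_of_model hM
  haveI : Finite M' := Finite.of_injective ι hι
  exact hasFiniteFlatModel_of_isHopfLattice (sq_sub hH ι hι hequiv)

/-- **(SQ2)** A quotient of a group with a finite flat model has a finite flat model. -/
theorem hasFiniteFlatModel_of_surjective [Finite M] (hM : HasFiniteFlatModel R M act)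
    (π : M →+ M') (hπ : Function.Surjective π) (hequiv : ∀ σ P, π (act σ P) = act' σ (π P)) :
    HasFiniteFlatModel R M' act' := by
  obtain ⟨H, hH⟩ := sq_lattice_of_model hM
  haveI : Finite M' := Finite.of_surjective π hπ
  exact hasFiniteFlatModel_of_isHopfLattice (sq_quot hH π hπ hequiv)

/-- **(SQ3)** A product of groups with finite flat models has a finite flat model. -/
theorem hasFiniteFlatModel_prod [Finite M] [Finite M'] (hM : HasFiniteFlatModel R M act)
    (hM' : HasFiniteFlatModel R M' act') :
    HasFiniteFlatModel R (M × M') (fun σ P => (act σ P.1, act' σ P.2)) := by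
  obtain ⟨H, hH⟩ := sq_lattice_of_model hM
  obtain ⟨H', hH'⟩ := sq_lattice_of_model hM'
  exact hasFiniteFlatModel_of_isHopfLattice (sq_prod hH hH')

/-- Transport of a finite flat model along an equivariant additive bijection. -/
theorem hasFiniteFlatModel_of_equiv [Finite M] (hM : HasFiniteFlatModel R M act)
    (ε : M ≃+ M') (hequiv : ∀ σ P, ε (act σ P) = act' σ (ε P)) :
    HasFiniteFlatModel R M' act' :=
  hasFiniteFlatModel_of_surjective hM ε.toAddMonoidHom ε.surjective hequiv

/-- **Sub-quotients**: if `M'` is a quotient of a sub-object `N` of `M`, it has a finite flat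
model as soon as `M` has one. -/
theorem hasFiniteFlatModel_of_subquotient [Finite M] (hM : HasFiniteFlatModel R M act)
    {N : Type} [AddCommGroup N]
    (actN : (AlgebraicClosure ℚ ≃ₐ[ℚ] AlgebraicClosure ℚ) → N → N)
    (ι : N →+ M) (hι : Function.Injective ι) (hιequiv : ∀ σ P, ι (actN σ P) = act σ (ι P))
    (π : N →+ M') (hπ : Function.Surjective π) (hπequiv : ∀ σ P, π (actN σ P) = act' σ (π P)) :
    HasFiniteFlatModel R M' act' := by
  haveI : Finite N := Finite.of_injective ι hι
  exact hasFiniteFlatModel_of_surjective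
    (hasFiniteFlatModel_of_injective hM ι hι hιequiv) π hπ hπequiv

/-- (SQ1) for an `act`-stable subgroup. -/
theorem hasFiniteFlatModel_addSubgroup [Finite M] (hM : HasFiniteFlatModel R M act)
    (N : AddSubgroup M) (hN : ∀ σ, ∀ x ∈ N, act σ x ∈ N) :
    HasFiniteFlatModel R N (fun σ x => ⟨act σ x.1, hN σ x.1 x.2⟩) :=
  hasFiniteFlatModel_of_injective hM N.subtype N.subtype_injective (fun _ _ => rfl)

/-- (SQ2) for the quotient by a subgroup, with any action compatible with the projection. -/
theorem hasFiniteFlatModel_quotient [Finite M] (hM : HasFiniteFlatModel R M act)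
    (N : AddSubgroup M)
    (actQ : (AlgebraicClosure ℚ ≃ₐ[ℚ] AlgebraicClosure ℚ) → M ⧸ N → M ⧸ N)
    (hQ : ∀ σ (x : M), actQ σ (QuotientAddGroup.mk x) = QuotientAddGroup.mk (act σ x)) :
    HasFiniteFlatModel R (M ⧸ N) actQ :=
  hasFiniteFlatModel_of_surjective hM (QuotientAddGroup.mk' N)
    (QuotientAddGroup.mk'_surjective N) (fun σ x => (hQ σ x).symm)

end Closure

section Pi

variable {R : Subring ℚ} [IsPrincipalIdealRing R] [IsFractionRing R ℚ]
  {M : Type} [AddCommGroup M]
  {act : (AlgebraicClosure ℚ ≃ₐ[ℚ] AlgebraicClosure ℚ) → M → M}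

omit [IsPrincipalIdealRing R] [IsFractionRing R ℚ] in
/-- The lattice of constants on a trivial group. -/
theorem sq_isHopfLattice_bot [Subsingleton M] :
    IsHopfLattice R act (⊥ : Subalgebra R (M → AlgebraicClosure ℚ)) where
  fg := by
    rw [Algebra.toSubmodule_bot, Submodule.one_eq_span]
    exact Submodule.fg_span_singleton (R := R) (1 : M → AlgebraicClosure ℚ)
  equivariant := by
    intro h hh σ P
    obtain ⟨r, rfl⟩ := Algebra.mem_bot.1 hh
    simp only [Pi.algebraMap_apply]
    exact (sq_galois_algebraMap R σ r).symm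
  separates := fun P Q _ => Subsingleton.elim P Q
  comul_mem := by
    intro h hh
    obtain ⟨r, rfl⟩ := Algebra.mem_bot.1 hh
    have h1 : (fun PQ : M × M => (algebraMap R (M → AlgebraicClosure ℚ) r) (PQ.1 + PQ.2)) =
        r • (fun PQ : M × M => (1 : M → AlgebraicClosure ℚ) PQ.1 *
          (1 : M → AlgebraicClosure ℚ) PQ.2) := by
      funext PQ
      simp [Algebra.smul_def]
    rw [h1]
    exact Submodule.smul_mem _ _ (Submodule.subset_span
      ⟨1, Subalgebra.one_mem _, 1, Subalgebra.one_mem _, rfl⟩)
  antipode_mem := by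
    intro h hh
    obtain ⟨r, rfl⟩ := Algebra.mem_bot.1 hh
    exact Algebra.mem_bot.2 ⟨r, rfl⟩
  counit_mem := by
    intro h hh
    obtain ⟨r, rfl⟩ := Algebra.mem_bot.1 hh
    exact ⟨r, rfl⟩

/-- A trivial group has a finite flat model. -/
theorem hasFiniteFlatModel_of_subsingleton [Subsingleton M] : HasFiniteFlatModel R M act :=
  hasFiniteFlatModel_of_isHopfLattice (sq_isHopfLattice_bot (R := R) (act := act))

/-- **(SQ3')** Finite powers of a group with a finite flat model have a finite flat model. -/
theorem hasFiniteFlatModel_fin [Finite M] (hM : HasFiniteFlatModel R M act) (n : ℕ) :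
    HasFiniteFlatModel R (Fin n → M) (fun σ f i => act σ (f i)) := by
  induction n with
  | zero => exact hasFiniteFlatModel_of_subsingleton
  | succ n ih =>
    have h1 := hasFiniteFlatModel_prod hM ih
    let π : M × (Fin n → M) →+ (Fin (n + 1) → M) :=
      { toFun := fun x => Fin.cons x.1 x.2
        map_zero' := by
          funext i
          refine Fin.cases ?_ (fun j => ?_) i <;> simp
        map_add' := by
          intro x y
          funext i
          refine Fin.cases ?_ (fun j => ?_) i <;> simp }
    refine hasFiniteFlatModel_of_surjective h1 π ?_ ?_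
    · intro f
      refine ⟨(f 0, fun j => f j.succ), ?_⟩
      funext i
      refine Fin.cases ?_ (fun j => ?_) i <;> simp [π]
    · intro σ x
      funext i
      refine Fin.cases ?_ (fun j => ?_) i <;> simp [π]

/-- **(SQ3'')** Finite powers indexed by a finite type. -/
theorem hasFiniteFlatModel_pi [Finite M] (hM : HasFiniteFlatModel R M act)
    (ι : Type) [Finite ι] :
    HasFiniteFlatModel R (ι → M) (fun σ f i => act σ (f i)) := by
  obtain ⟨n, ⟨ε⟩⟩ := Finite.exists_equiv_fin ι
  let π : (Fin n → M) →+ (ι → M) :=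
    { toFun := fun f i => f (ε i)
      map_zero' := rfl
      map_add' := fun _ _ => rfl }
  refine hasFiniteFlatModel_of_surjective (hasFiniteFlatModel_fin hM n) π ?_ ?_
  · intro f
    refine ⟨fun j => f (ε.symm j), ?_⟩
    funext i
    simp [π]
  · intro σ f
    rfl

end Pi

section Flat

variable {A : Type} [CommRing A] [IsLocalRing A]

/-- The prelude's `IsFlatAt` in terms of `HasFiniteFlatModel`. -/
theorem sq_isFlatAt_iff (ρ : GaloisRepAdic A) (p : ℕ) :
    ρ.IsFlatAt p ↔ Finite (IsLocalRing.ResidueField A) ∧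
      ∀ I : Ideal A, Finite (A ⧸ I) →
        HasFiniteFlatModel (GaloisRep.ratLocalizedAt p)
          (ρ.V ⧸ (I • (⊤ : Submodule A ρ.V))) (fun σ => ρ.levelAction I σ) :=
  Iff.rfl

end Flat

end Fermat.Agent.W1
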