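import Fermat.Agent.W1.HopfCore
import Fermat.Agent.W1.HopfOfLattice

/-!
# W1-SQ, part 1: calculus of pure tensors, sub-objects and products of Hopf lattices

* `sqPureAlg H` : the subalgebra of functions on `M × M` generated by `a(P)` and `b(Q)`,
  `a b ∈ H`; its underlying module is the span of the pure tensors (`sq_span_pure_eq`).
* `sq_sub`  : (SQ1) pull-back of a Hopf lattice along an injective equivariant additive map.
* `sq_prod` : (SQ3) the product of two Hopf lattices.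
-/

set_option autoImplicit false
set_option linter.unusedSectionVars false
set_option linter.unusedSimpArgs false

namespace Fermat.Agent.W1

section Pure

variable {R : Subring ℚ} {M : Type}

/-- The subalgebra of functions on `M × M` generated by the `a (P)` and the `b (Q)`. -/
noncomputable def sqPureAlg (H : Subalgebra R (M → AlgebraicClosure ℚ)) :
    Subalgebra R (M × M → AlgebraicClosure ℚ) :=
  H.map (pullFn R (Prod.fst : M × M → M)) ⊔ H.map (pullFn R (Prod.snd : M × M → M))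

theorem sq_span_pure_eq (H : Subalgebra R (M → AlgebraicClosure ℚ)) :
    Submodule.span R {F : M × M → AlgebraicClosure ℚ |
      ∃ a ∈ H, ∃ b ∈ H, F = fun PQ => a PQ.1 * b PQ.2} =
      Subalgebra.toSubmodule (sqPureAlg H) := by
  rw [sqPureAlg, ← Subalgebra.mul_toSubmodule]
  apply le_antisymm
  · rw [Submodule.span_le]
    rintro F ⟨a, ha, b, hb, rfl⟩
    have h1 : pullFn R (Prod.fst : M × M → M) a ∈
        Subalgebra.toSubmodule (H.map (pullFn R (Prod.fst : M × M → M))) := ⟨a, ha, rfl⟩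
    have h2 : pullFn R (Prod.snd : M × M → M) b ∈
        Subalgebra.toSubmodule (H.map (pullFn R (Prod.snd : M × M → M))) := ⟨b, hb, rfl⟩
    exact Submodule.mul_mem_mul h1 h2
  · rw [Submodule.mul_le]
    rintro _ ⟨a, ha, rfl⟩ _ ⟨b, hb, rfl⟩
    exact Submodule.subset_span ⟨a, ha, b, hb, rfl⟩

theorem sq_mem_span_pure_iff (H : Subalgebra R (M → AlgebraicClosure ℚ))
    (F : M × M → AlgebraicClosure ℚ) :
    F ∈ Submodule.span R {F : M × M → AlgebraicClosure ℚ |
      ∃ a ∈ H, ∃ b ∈ H, F = fun PQ => a PQ.1 * b PQ.2} ↔ F ∈ sqPureAlg H := by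
  rw [sq_span_pure_eq]
  exact Iff.rfl

/-- Functoriality of `sqPureAlg` for pull-backs. -/
theorem sq_pureAlg_map {M' : Type} (H : Subalgebra R (M → AlgebraicClosure ℚ)) (ι : M' → M) :
    sqPureAlg (H.map (pullFn R ι)) =
      (sqPureAlg H).map (pullFn R (Prod.map ι ι)) := by
  simp only [sqPureAlg, Algebra.map_sup, Subalgebra.map_map]
  rfl

end Pure

section Sub

variable {R : Subring ℚ} {M M' : Type} [AddCommGroup M] [AddCommGroup M']
  {act : (AlgebraicClosure ℚ ≃ₐ[ℚ] AlgebraicClosure ℚ) → M → M}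
  {act' : (AlgebraicClosure ℚ ≃ₐ[ℚ] AlgebraicClosure ℚ) → M' → M'}
  {H : Subalgebra R (M → AlgebraicClosure ℚ)}

/-- **(SQ1)** The pull-back of a Hopf lattice along an injective equivariant additive map is a
Hopf lattice (restriction of functions to a sub-object). -/
theorem sq_sub (hH : IsHopfLattice R act H) (ι : M' →+ M) (hι : Function.Injective ι)
    (hequiv : ∀ σ P, ι (act' σ P) = act σ (ι P)) :
    IsHopfLattice R act' (H.map (pullFn R ι)) where
  fg := by
    rw [Subalgebra.map_toSubmodule]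
    exact hH.fg.map _
  equivariant := by
    rintro _ ⟨h, hh, rfl⟩ σ P
    show h (ι (act' σ P)) = σ (h (ι P))
    rw [hequiv]
    exact hH.equivariant h hh σ _
  separates := by
    intro P Q hPQ
    refine hι (hH.separates _ _ fun h hh => ?_)
    exact hPQ _ ⟨h, hh, rfl⟩
  comul_mem := by
    rintro _ ⟨h, hh, rfl⟩
    rw [sq_mem_span_pure_iff, sq_pureAlg_map]
    refine ⟨_, (sq_mem_span_pure_iff H _).1 (hH.comul_mem h hh), ?_⟩
    funext PQ
    show h (ι PQ.1 + ι PQ.2) = h (ι (PQ.1 + PQ.2))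
    rw [map_add]
  antipode_mem := by
    rintro _ ⟨h, hh, rfl⟩
    refine ⟨_, hH.antipode_mem h hh, ?_⟩
    funext P
    show h (-ι P) = h (ι (-P))
    rw [map_neg]
  counit_mem := by
    rintro _ ⟨h, hh, rfl⟩
    obtain ⟨r, hr⟩ := hH.counit_mem h hh
    refine ⟨r, ?_⟩
    show h (ι 0) = _
    rw [map_zero, hr]

end Sub

section Equiv

variable (R : Subring ℚ) {X : Type}

/-- Galois automorphisms fix the image of `R`. -/
theorem sq_galois_algebraMap (σ : AlgebraicClosure ℚ ≃ₐ[ℚ] AlgebraicClosure ℚ) (r : R) :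
    σ (algebraMap R (AlgebraicClosure ℚ) r) = algebraMap R (AlgebraicClosure ℚ) r := by
  rw [IsScalarTower.algebraMap_apply R ℚ (AlgebraicClosure ℚ)]
  exact σ.commutes _

/-- The subalgebra of Galois equivariant functions. -/
noncomputable def sqEquivAlg
    (act : (AlgebraicClosure ℚ ≃ₐ[ℚ] AlgebraicClosure ℚ) → X → X) :
    Subalgebra R (X → AlgebraicClosure ℚ) where
  carrier := {f | ∀ (σ : AlgebraicClosure ℚ ≃ₐ[ℚ] AlgebraicClosure ℚ) (P : X),
    f (act σ P) = σ (f P)}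
  mul_mem' := by
    intro f g hf hg σ P
    simp only [Pi.mul_apply, map_mul, hf σ P, hg σ P]
  add_mem' := by
    intro f g hf hg σ P
    simp only [Pi.add_apply, map_add, hf σ P, hg σ P]
  algebraMap_mem' := by
    intro r σ P
    simp only [Pi.algebraMap_apply]
    exact (sq_galois_algebraMap R σ r).symm

theorem sq_mem_equivAlg {act : (AlgebraicClosure ℚ ≃ₐ[ℚ] AlgebraicClosure ℚ) → X → X}
    {f : X → AlgebraicClosure ℚ} :
    f ∈ sqEquivAlg R act ↔
      ∀ (σ : AlgebraicClosure ℚ ≃ₐ[ℚ] AlgebraicClosure ℚ) (P : X), f (act σ P) = σ (f P) :=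
  Iff.rfl

end Equiv

section Prod

variable {R : Subring ℚ} {M₁ M₂ : Type} [AddCommGroup M₁] [AddCommGroup M₂]
  {act₁ : (AlgebraicClosure ℚ ≃ₐ[ℚ] AlgebraicClosure ℚ) → M₁ → M₁}
  {act₂ : (AlgebraicClosure ℚ ≃ₐ[ℚ] AlgebraicClosure ℚ) → M₂ → M₂}
  {H₁ : Subalgebra R (M₁ → AlgebraicClosure ℚ)}
  {H₂ : Subalgebra R (M₂ → AlgebraicClosure ℚ)}

/-- The product lattice: functions on `M₁ × M₂` generated by `a (P₁)` and `b (P₂)`. -/
noncomputable def sqProdAlg (H₁ : Subalgebra R (M₁ → AlgebraicClosure ℚ))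
    (H₂ : Subalgebra R (M₂ → AlgebraicClosure ℚ)) :
    Subalgebra R (M₁ × M₂ → AlgebraicClosure ℚ) :=
  H₁.map (pullFn R (Prod.fst : M₁ × M₂ → M₁)) ⊔ H₂.map (pullFn R (Prod.snd : M₁ × M₂ → M₂))

theorem sq_pureAlg_mono {M : Type} {H H' : Subalgebra R (M → AlgebraicClosure ℚ)}
    (h : H ≤ H') : sqPureAlg H ≤ sqPureAlg H' :=
  sup_le_sup (Subalgebra.map_mono h) (Subalgebra.map_mono h)

/-- **(SQ3)** The product of two Hopf lattices is a Hopf lattice. -/
theorem sq_prod (h₁ : IsHopfLattice R act₁ H₁) (h₂ : IsHopfLattice R act₂ H₂) :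
    IsHopfLattice R (fun σ (P : M₁ × M₂) => (act₁ σ P.1, act₂ σ P.2)) (sqProdAlg H₁ H₂) where
  fg := by
    rw [sqProdAlg, ← Subalgebra.mul_toSubmodule, Subalgebra.map_toSubmodule,
      Subalgebra.map_toSubmodule]
    exact (h₁.fg.map _).mul (h₂.fg.map _)
  equivariant := by
    have h : sqProdAlg H₁ H₂ ≤
        sqEquivAlg R (fun σ (P : M₁ × M₂) => (act₁ σ P.1, act₂ σ P.2)) := by
      refine sup_le ?_ ?_
      · rintro _ ⟨a, ha, rfl⟩ σ P
        exact h₁.equivariant a ha σ P.1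
      · rintro _ ⟨b, hb, rfl⟩ σ P
        exact h₂.equivariant b hb σ P.2
    intro f hf σ P
    exact h hf σ P
  separates := by
    intro P Q hPQ
    refine Prod.ext (h₁.separates _ _ fun a ha => ?_) (h₂.separates _ _ fun b hb => ?_)
    · exact hPQ _ (Algebra.mem_sup_left ⟨a, ha, rfl⟩)
    · exact hPQ _ (Algebra.mem_sup_right ⟨b, hb, rfl⟩)
  comul_mem := by
    have h : sqProdAlg H₁ H₂ ≤ (sqPureAlg (sqProdAlg H₁ H₂)).comap
        (pullFn R (fun PQ : (M₁ × M₂) × (M₁ × M₂) => PQ.1 + PQ.2)) := by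
      refine sup_le ?_ ?_
      · rintro _ ⟨a, ha, rfl⟩
        have h3 : sqPureAlg (H₁.map (pullFn R (Prod.fst : M₁ × M₂ → M₁))) ≤
            sqPureAlg (sqProdAlg H₁ H₂) := sq_pureAlg_mono le_sup_left
        rw [sq_pureAlg_map] at h3
        exact h3 ⟨_, (sq_mem_span_pure_iff H₁ _).1 (h₁.comul_mem a ha), rfl⟩
      · rintro _ ⟨b, hb, rfl⟩
        have h3 : sqPureAlg (H₂.map (pullFn R (Prod.snd : M₁ × M₂ → M₂))) ≤
            sqPureAlg (sqProdAlg H₁ H₂) := sq_pureAlg_mono le_sup_right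
        rw [sq_pureAlg_map] at h3
        exact h3 ⟨_, (sq_mem_span_pure_iff H₂ _).1 (h₂.comul_mem b hb), rfl⟩
    intro f hf
    rw [sq_mem_span_pure_iff]
    exact h hf
  antipode_mem := by
    have h : sqProdAlg H₁ H₂ ≤ (sqProdAlg H₁ H₂).comap
        (pullFn R (fun P : M₁ × M₂ => -P)) := by
      refine sup_le ?_ ?_
      · rintro _ ⟨a, ha, rfl⟩
        exact Algebra.mem_sup_left ⟨_, h₁.antipode_mem a ha, rfl⟩
      · rintro _ ⟨b, hb, rfl⟩
        exact Algebra.mem_sup_right ⟨_, h₂.antipode_mem b hb, rfl⟩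
    intro f hf
    exact h hf
  counit_mem := by
    have h : sqProdAlg H₁ H₂ ≤ (⊥ : Subalgebra R (AlgebraicClosure ℚ)).comap
        (Pi.evalAlgHom R (fun _ : M₁ × M₂ => AlgebraicClosure ℚ) 0) := by
      refine sup_le ?_ ?_
      · rintro _ ⟨a, ha, rfl⟩
        obtain ⟨r, hr⟩ := h₁.counit_mem a ha
        exact Algebra.mem_bot.2 ⟨r, hr.symm⟩
      · rintro _ ⟨b, hb, rfl⟩
        obtain ⟨r, hr⟩ := h₂.counit_mem b hb
        exact Algebra.mem_bot.2 ⟨r, hr.symm⟩
    intro f hf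
    obtain ⟨r, hr⟩ := Algebra.mem_bot.1 (h hf)
    exact ⟨r, hr.symm⟩

end Prod

end Fermat.Agent.W1
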