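import Fermat.Agent.W1.PlanGeo

/-!
# W1 GEO-E: evaluation, surjectivity of the reduction of places, and the disc

Proofs of `StmtEval` (E2), `StmtOnto` (E1) and `StmtDisc` (L1) of `PlanGeo.lean`.  Everything
comes out of the single identity `r_*(div u) = div(ū)` (`PRData.IsPR.r_div`).

Main auxiliary results (for the later GEO pieces):

* `ge_mapDomain_apply` : `(r_* D)(Q) = Σ_{P ∈ supp D} [r P = Q] D(P)`;
* `ge_sum_ord_le` : if no pole of `u ∈ O`, `ū ≠ 0`, reduces to `Q`, then
  `Σ_{P ∈ T} ord_P u ≤ ord_Q ū` for every finite set `T` of places reducing to `Q`;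
* `ge_exists_ord_ne_zero` : if `ord_Q ū ≠ 0` then some `P` with `ord_P u ≠ 0` reduces to `Q`;
* `ge_exists_value` : a function regular at a place of degree one has a value there;
* `hasValueAt_unique`, `hasValueAt_iff_ord_pos`.
-/

set_option autoImplicit false

open AlgebraicCurve Module

namespace Fermat.Agent.W1

open Fermat.Agent.S24

/-! ### Values -/

section Values

variable {K F : Type} [Field K] [Field F] [Algebra K F]

theorem ge_nonunits_sub {B : ValuationSubring F} {x y : F} (hx : x ∈ B.nonunits)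
    (hy : y ∈ B.nonunits) : x - y ∈ B.nonunits := by
  rw [ValuationSubring.mem_nonunits_iff_exists_mem_maximalIdeal] at hx hy ⊢
  obtain ⟨hx1, hx2⟩ := hx
  obtain ⟨hy1, hy2⟩ := hy
  exact ⟨sub_mem hx1 hy1, (IsLocalRing.maximalIdeal B).sub_mem hx2 hy2⟩

theorem ge_nonunits_mul_mem {B : ValuationSubring F} {x y : F} (hx : x ∈ B)
    (hy : y ∈ B.nonunits) : x * y ∈ B.nonunits := by
  rw [ValuationSubring.mem_nonunits_iff_exists_mem_maximalIdeal] at hy ⊢
  obtain ⟨hy1, hy2⟩ := hy
  exact ⟨mul_mem hx hy1, (IsLocalRing.maximalIdeal B).mul_mem_left ⟨x, hx⟩ hy2⟩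

theorem ge_nonunits_mem {B : ValuationSubring F} {x : F} (hx : x ∈ B.nonunits) : x ∈ B := by
  rw [ValuationSubring.mem_nonunits_iff_exists_mem_maximalIdeal] at hx
  exact hx.1

theorem ge_zero_mem_nonunits (B : ValuationSubring F) : (0 : F) ∈ B.nonunits := by
  rw [ValuationSubring.mem_nonunits_iff_or]
  exact Or.inl rfl

/-- A constant lies in the maximal ideal of a place only if it is zero. -/
theorem ge_algebraMap_mem_nonunits_iff (P : Place K F) (a : K) :
    algebraMap K F a ∈ P.toValuationSubring.nonunits ↔ a = 0 := by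
  constructor
  · intro h
    by_contra ha
    rw [ValuationSubring.mem_nonunits_iff_or] at h
    rcases h with h | h
    · exact ha ((map_eq_zero _).mp h)
    · apply h
      rw [← map_inv₀]
      exact P.algebraMap_mem' _
  · rintro rfl
    rw [map_zero]
    exact ge_zero_mem_nonunits _

theorem hasValueAt_iff_ord_pos (P : Place K F) {f : F} {a : K}
    (h : f - algebraMap K F a ≠ 0) :
    HasValueAt P f a ↔ 0 < P.ord (f - algebraMap K F a) :=
  (PlaceAux.ord_pos_iff_mem_nonunits P h).symm

theorem hasValueAt_of_eq (P : Place K F) {f : F} {a : K} (h : f - algebraMap K F a = 0) :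
    HasValueAt P f a := by
  unfold HasValueAt
  rw [h]
  exact ge_zero_mem_nonunits _

theorem hasValueAt_unique (P : Place K F) {f : F} {a b : K} (ha : HasValueAt P f a)
    (hb : HasValueAt P f b) : a = b := by
  have h := ge_nonunits_sub hb ha
  have h2 : f - algebraMap K F b - (f - algebraMap K F a) = algebraMap K F (a - b) := by
    rw [map_sub]; ring
  rw [h2, ge_algebraMap_mem_nonunits_iff] at h
  exact sub_eq_zero.mp h

theorem HasValueAt.mem (P : Place K F) {f : F} {a : K} (h : HasValueAt P f a) :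
    f ∈ P.toValuationSubring := by
  have h1 := ge_nonunits_mem h
  have h2 := add_mem h1 (P.algebraMap_mem' a)
  simpa using h2

/-- A function which is regular at a place with residue field `K` has a value there. -/
theorem ge_exists_value (P : Place K F)
    (hres : Function.Bijective (algebraMap K P.ResidueField)) {f : F}
    (hf : f ∈ P.toValuationSubring) : ∃ a : K, HasValueAt P f a := by
  obtain ⟨a, ha⟩ := hres.2 (IsLocalRing.residue P.toValuationSubring ⟨f, hf⟩)
  refine ⟨a, ?_⟩
  unfold HasValueAt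
  rw [ValuationSubring.mem_nonunits_iff_exists_mem_maximalIdeal]
  refine ⟨sub_mem hf (P.algebraMap_mem' a), ?_⟩
  rw [← IsLocalRing.residue_eq_zero_iff]
  have h1 : (⟨f - algebraMap K F a, sub_mem hf (P.algebraMap_mem' a)⟩ :
      P.toValuationSubring) = ⟨f, hf⟩ - algebraMap K P.toValuationSubring a := rfl
  rw [h1, map_sub, sub_eq_zero]
  rw [← ha]
  rfl

/-- regularity in terms of `ord` (including `f = 0`). -/
theorem ge_mem_of_not_ord_neg (P : Place K F) {f : F} (h : ¬ P.ord f < 0) :
    f ∈ P.toValuationSubring :=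
  PlaceAux.mem_of_ord_nonneg P (not_lt.mp h)

theorem ge_ord_nonneg_of_mem (P : Place K F) {f : F} (h : f ∈ P.toValuationSubring) :
    0 ≤ P.ord f := by
  rcases eq_or_ne f 0 with rfl | hf
  · simp
  · exact (PlaceAux.ord_nonneg_iff P hf).mpr h

end Values

/-! ### The push-forward of a divisor, pointwise -/

section MapDomain

variable {α β : Type} 

theorem ge_mapDomain_apply [DecidableEq β] (r : α → β) (D : α →₀ ℤ) (Q : β) :
    Finsupp.mapDomain r D Q = ∑ P ∈ D.support, if r P = Q then D P else 0 := by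
  rw [Finsupp.mapDomain, Finsupp.sum, Finsupp.finsetSum_apply]
  refine Finset.sum_congr rfl fun P _ => ?_
  rw [Finsupp.single_apply]

end MapDomain

/-! ### Consequences of `r_*(div u) = div(ū)` -/

section PR

variable {K F k Fk : Type} [Field K] [Field F] [Algebra K F] [Field k] [Field Fk] [Algebra k Fk]
variable {A : ValuationSubring K} {R : PRData K F k Fk A}

theorem ge_coe_ne_zero {u : R.O} (hu : R.red u ≠ 0) : (u : F) ≠ 0 := by
  intro h
  apply hu
  have : u = 0 := Subtype.ext h
  rw [this, map_zero]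

/-- If no pole of `u` reduces to `Q`, then `Σ_{P ∈ T} ord_P u ≤ ord_Q ū` for every finite set `T`
of places reducing to `Q`. -/
theorem ge_sum_ord_le (hR : R.IsPR) (hpd : HasPrincipalDivisors K F) {u : R.O}
    (hu : R.red u ≠ 0) (Q : Place k Fk)
    (hno : ∀ P' : Place K F, P'.ord (u : F) < 0 → R.r P' ≠ Q)
    (T : Finset (Place K F)) (hT : ∀ P ∈ T, R.r P = Q) :
    ∑ P ∈ T, P.ord (u : F) ≤ Q.ord (R.red u) := by
  classical
  obtain ⟨D, hD, -⟩ := hpd.exists_divisor (u : F) (ge_coe_ne_zero hu)
  rw [← hR.r_div u hu D hD Q, ge_mapDomain_apply]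
  have h1 : ∑ P ∈ T, P.ord (u : F) = ∑ P ∈ T ∩ D.support, (if R.r P = Q then D P else 0) := by
    rw [← Finset.sum_filter_add_sum_filter_not T (fun P => P ∈ D.support)]
    have h2 : ∑ P ∈ T.filter (fun P => ¬ P ∈ D.support), P.ord (u : F) = 0 := by
      refine Finset.sum_eq_zero fun P hP => ?_
      rw [Finset.mem_filter, Finsupp.notMem_support_iff] at hP
      rw [← hD P, hP.2]
    rw [h2, add_zero, Finset.filter_mem_eq_inter]
    refine Finset.sum_congr rfl fun P hP => ?_
    rw [if_pos (hT P (Finset.mem_inter.mp hP).1), hD P]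
  rw [h1]
  refine Finset.sum_le_sum_of_subset_of_nonneg Finset.inter_subset_right fun P _ _ => ?_
  split_ifs with h
  · rw [hD P]
    by_contra hneg
    exact hno P (not_le.mp hneg) h
  · exact le_rfl

/-- If `ord_Q ū ≠ 0`, some zero or pole of `u` reduces to `Q`. -/
theorem ge_exists_ord_ne_zero (hR : R.IsPR) (hpd : HasPrincipalDivisors K F) {u : R.O}
    (hu : R.red u ≠ 0) (Q : Place k Fk) (hQ : Q.ord (R.red u) ≠ 0) :
    ∃ P : Place K F, R.r P = Q ∧ P.ord (u : F) ≠ 0 := by
  classical
  obtain ⟨D, hD, -⟩ := hpd.exists_divisor (u : F) (ge_coe_ne_zero hu)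
  rw [← hR.r_div u hu D hD Q, ge_mapDomain_apply] at hQ
  obtain ⟨P, hP, hP2⟩ := Finset.exists_ne_zero_of_sum_ne_zero hQ
  by_cases h : R.r P = Q
  · rw [if_pos h] at hP2
    exact ⟨P, h, by rwa [← hD P]⟩
  · rw [if_neg h] at hP2
    exact absurd rfl hP2

theorem PRData.IsPR.algebraMap_mem (hR : R.IsPR) (a : A) : algebraMap K F (a : K) ∈ R.O :=
  (hR.algebraMap_mem_iff _).mpr a.2

/-- `O ∩ K = A`: the constants of `O` and their reductions. -/
theorem PRData.IsPR.red_const (hR : R.IsPR) (a : A) :
    R.red ⟨algebraMap K F (a : K), hR.algebraMap_mem a⟩ = algebraMap k Fk (R.res a) :=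
  hR.red_algebraMap a _

end PR

/-! ### (E1): `r` is onto -/

theorem stmtOnto : StmtOnto := by
  intro K F k Fk _ _ _ _ _ _ A R g hR hF _ Q
  -- a uniformiser at `Q`
  obtain ⟨π, hπ⟩ := IsDiscreteValuationRing.exists_irreducible Q.toValuationSubring
  have hord : Q.ord (π : Fk) = 1 := Q.ord_coe_irreducible hπ
  obtain ⟨u, hu⟩ := hR.red_surjective (π : Fk)
  have hu0 : R.red u ≠ 0 := by
    rw [hu]
    intro h0
    rw [h0, Place.ord_zero] at hord
    exact zero_ne_one hord
  obtain ⟨P, hP, -⟩ := ge_exists_ord_ne_zero hR hF.hpd hu0 Q (by rw [hu, hord]; exact one_ne_zero)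
  exact ⟨P, hP⟩

/-! ### (E2): evaluation -/

theorem stmtEval : StmtEval := by
  intro K F k Fk _ _ _ _ _ _ A R g hR hF _ f P hno
  -- `f` is regular at `P`
  have hreg : f.1 ∈ P.toValuationSubring :=
    ge_mem_of_not_ord_neg P fun h => hno P h rfl
  obtain ⟨a, ha⟩ := ge_exists_value P (hF.hres P) hreg
  -- the value lies in `A`
  have haA : a ∈ A := by
    by_contra haA
    have ha0 : a ≠ 0 := fun h => haA (h ▸ A.zero_mem)
    have hbA : a⁻¹ ∈ A := (A.mem_or_inv_mem a).resolve_left haA
    have hbnon : a⁻¹ ∈ A.nonunits := by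
      rw [ValuationSubring.mem_nonunits_iff_or]
      right
      rwa [inv_inv]
    have hbO : algebraMap K F a⁻¹ ∈ R.O := (hR.algebraMap_mem_iff _).mpr hbA
    -- `u = a⁻¹ f - 1`
    set u : R.O := ⟨algebraMap K F a⁻¹, hbO⟩ * f - 1 with hu
    have hured : R.red u = -1 := by
      rw [hu, map_sub, map_mul, map_one]
      have h1 : R.red ⟨algebraMap K F a⁻¹, hbO⟩ = 0 := by
        have h2 := hR.red_algebraMap ⟨a⁻¹, hbA⟩ hbO
        rw [h2, (hR.res_eq_zero_iff ⟨a⁻¹, hbA⟩).mpr hbnon, map_zero]
      rw [h1, zero_mul, zero_sub]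
    have hu0 : R.red u ≠ 0 := by rw [hured]; exact neg_ne_zero.mpr one_ne_zero
    have hucoe : (u : F) = algebraMap K F a⁻¹ * (f : F) - 1 := rfl
    have hno' : ∀ P' : Place K F, P'.ord (u : F) < 0 → R.r P' ≠ R.r P := by
      intro P' hP'
      apply hno P'
      by_contra hnn
      have hfm : (f : F) ∈ P'.toValuationSubring := ge_mem_of_not_ord_neg P' hnn
      have hum : (u : F) ∈ P'.toValuationSubring := by
        rw [hucoe]
        exact sub_mem (mul_mem (P'.algebraMap_mem' _) hfm) (one_mem _)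
      exact absurd (ge_ord_nonneg_of_mem P' hum) (not_le.mpr hP')
    have hupos : 0 < P.ord (u : F) := by
      rw [PlaceAux.ord_pos_iff_mem_nonunits P (ge_coe_ne_zero hu0)]
      have h3 : (u : F) = algebraMap K F a⁻¹ * ((f : F) - algebraMap K F a) := by
        rw [hucoe, mul_sub, ← map_mul, inv_mul_cancel₀ ha0, map_one]
      rw [h3]
      exact ge_nonunits_mul_mem (P.algebraMap_mem' _) ha
    have hle := ge_sum_ord_le hR hF.hpd hu0 (R.r P) hno' {P} (by simp)
    rw [Finset.sum_singleton, hured, PlaceAux.ord_neg, Place.ord_one] at hle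
    omega
  refine ⟨⟨a, haA⟩, ha, ?_⟩
  -- the reduction of the value
  set u : R.O := f - ⟨algebraMap K F a, hR.algebraMap_mem ⟨a, haA⟩⟩ with hu
  have hured : R.red u = R.red f - algebraMap k Fk (R.res ⟨a, haA⟩) := by
    rw [hu, map_sub, hR.red_const ⟨a, haA⟩]
  have hucoe : (u : F) = (f : F) - algebraMap K F a := rfl
  by_cases hu0 : R.red u = 0
  · apply hasValueAt_of_eq
    rw [← hured, hu0]
  · have hno' : ∀ P' : Place K F, P'.ord (u : F) < 0 → R.r P' ≠ R.r P := by
      intro P' hP'
      apply hno P'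
      by_contra hnn
      have hfm : (f : F) ∈ P'.toValuationSubring := ge_mem_of_not_ord_neg P' hnn
      have hum : (u : F) ∈ P'.toValuationSubring := by
        rw [hucoe]
        exact sub_mem hfm (P'.algebraMap_mem' _)
      exact absurd (ge_ord_nonneg_of_mem P' hum) (not_le.mpr hP')
    have hupos : 0 < P.ord (u : F) := by
      rw [PlaceAux.ord_pos_iff_mem_nonunits P (ge_coe_ne_zero hu0)]
      exact ha
    have hle := ge_sum_ord_le hR hF.hpd hu0 (R.r P) hno' {P} (by simp)
    rw [Finset.sum_singleton] at hle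
    have hpos : 0 < (R.r P).ord (R.red u) := lt_of_lt_of_le hupos hle
    rw [PlaceAux.ord_pos_iff_mem_nonunits (R.r P) hu0, hured] at hpos
    exact hpos

/-! ### (L1): the disc -/

theorem stmtDisc : StmtDisc := by
  classical
  intro K F k Fk _ _ _ _ _ _ A R g hR hF hFk t ht hgood c Q hQ
  obtain ⟨ht', hpoles⟩ := hgood
  set tb : Fk := R.red ⟨t, ht⟩ with htb
  have htb0 : tb - algebraMap k Fk (R.res c) ≠ 0 := by
    intro h0
    rw [h0, Place.ord_zero] at hQ
    exact zero_ne_one hQ
  have hcQ : HasValueAt Q tb (R.res c) := by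
    rw [hasValueAt_iff_ord_pos Q htb0, hQ]
    exact one_pos
  -- no pole of `t` reduces to `Q`
  have hnoPole : ∀ P' : Place K F, P'.ord t < 0 → R.r P' ≠ Q := by
    intro P' hP' hrP'
    have h1 := hpoles P' hP'
    rw [hrP'] at h1
    exact absurd (ge_ord_nonneg_of_mem Q (hcQ.mem Q)) (not_le.mpr h1)
  refine ⟨fun P hP => ?_, fun z hz => ?_⟩
  · -- values on the disc lie in `c + 𝔪`
    obtain ⟨a, ha1, ha2⟩ := stmtEval K F k Fk A R g hR hF hFk ⟨t, ht⟩ P
      (fun P' hP' => by rw [hP]; exact hnoPole P' hP')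
    rw [hP] at ha2
    have hac : R.res a = R.res c := hasValueAt_unique Q ha2 hcQ
    refine ⟨(a : K) - (c : K), ?_, ?_⟩
    · have h1 : R.res (a - c) = 0 := by rw [map_sub, hac, sub_self]
      exact (hR.res_eq_zero_iff (a - c)).mp h1
    · have h2 : (c : K) + ((a : K) - (c : K)) = (a : K) := by ring
      rw [h2]
      exact ha1
  · -- exactly one point of the disc with `t = c + z`
    have hzA : z ∈ A := ge_nonunits_mem hz
    set w : A := c + ⟨z, hzA⟩ with hw
    have hwres : R.res w = R.res c := by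
      rw [hw, map_add, (hR.res_eq_zero_iff ⟨z, hzA⟩).mpr hz, add_zero]
    set u : R.O := ⟨t, ht⟩ - ⟨algebraMap K F (w : K), hR.algebraMap_mem w⟩ with hu
    have hured : R.red u = tb - algebraMap k Fk (R.res c) := by
      rw [hu, map_sub, hR.red_const w, hwres]
    have hu0 : R.red u ≠ 0 := by rw [hured]; exact htb0
    have hucoe : (u : F) = t - algebraMap K F ((c : K) + z) := rfl
    have hno' : ∀ P' : Place K F, P'.ord (u : F) < 0 → R.r P' ≠ Q := by
      intro P' hP'
      apply hnoPole P'
      by_contra hnn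
      have hfm : t ∈ P'.toValuationSubring := ge_mem_of_not_ord_neg P' hnn
      have hum : (u : F) ∈ P'.toValuationSubring := by
        rw [hucoe]
        exact sub_mem hfm (P'.algebraMap_mem' _)
      exact absurd (ge_ord_nonneg_of_mem P' hum) (not_le.mpr hP')
    have hval : ∀ P : Place K F, HasValueAt P t ((c : K) + z) ↔ 0 < P.ord (u : F) := by
      intro P
      rw [hucoe]
      exact hasValueAt_iff_ord_pos P (ge_coe_ne_zero hu0)
    obtain ⟨P, hP1, hP2⟩ := ge_exists_ord_ne_zero hR hF.hpd hu0 Q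
      (by rw [hured, hQ]; exact one_ne_zero)
    have hPpos : 0 < P.ord (u : F) := by
      rcases lt_trichotomy (P.ord (u : F)) 0 with h | h | h
      · exact absurd hP1 (hno' P h)
      · exact absurd h hP2
      · exact h
    refine ⟨P, ⟨hP1, (hval P).mpr hPpos⟩, ?_⟩
    rintro P' ⟨hP'1, hP'2⟩
    by_contra hne
    have hP'pos : 0 < P'.ord (u : F) := (hval P').mp hP'2
    have hle := ge_sum_ord_le hR hF.hpd hu0 Q hno' {P', P} (by
      intro x hx
      rcases Finset.mem_insert.mp hx with rfl | hx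
      · exact hP'1
      · rw [Finset.mem_singleton.mp hx]; exact hP1)
    rw [Finset.sum_pair hne, hured, hQ] at hle
    omega

end Fermat.Agent.W1
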