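import Mathlib
import Fermat.Prelude.Def_AlgebraicCurve_BaseChangeGalois
import Fermat.Agent.W1.PlanGeo3
import Fermat.Agent.W1.GeoEval

/-!
# W1 GEO-KC, abstract part: the coordinate map of the kernel of reduction

Notation of `PlanGeo*.lean`: `R : PRData K F k Fk A`, `C : R.Chart g`.

* `kc_hasValueAt_smul` : values under a semilinear automorphism;
* `kc_exists_chart` : a chart exists (GenPos on `F̄` outside the ramification set of `t̄`,
  representatives `c i ∈ S`, centres from `StmtDisc`);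
* `IsCoord C x ζ` : `x = [Σ P i - Σ Q i]` with `P i` in the `i`-th disc, of coordinate `ζ i`;
  `isCoord_exists`, `isCoord_unique`, `isCoord_inj`;
* `InertiaLike R t S γ` : a semilinear automorphism which acts trivially on the reduction,
  fixes `t` and the representatives `S`; `isCoord_smul`, `kc_smul_place_eq`;
* `kcCoord C` : the coordinate map `Pic⁰ → Fin g → K` (zero outside the kernel of reduction).
-/

set_option autoImplicit false

open AlgebraicCurve Module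
open scoped Pointwise

namespace Fermat.Agent.W1

variable {K F k Fk : Type} [Field K] [Field F] [Algebra K F] [Field k] [Field Fk] [Algebra k Fk]
variable {A : ValuationSubring K} {R : PRData K F k Fk A} {g : ℕ}

/-! ### Values under semilinear automorphisms -/

theorem kc_smul_mem_nonunits (γ : SemilinearAut K F) (B : ValuationSubring F) {x : F}
    (hx : x ∈ B.nonunits) : γ • x ∈ (γ • B : ValuationSubring F).nonunits := by
  rw [ValuationSubring.mem_nonunits_iff_or] at hx ⊢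
  rcases hx with hx | hx
  · left
    rw [hx, smul_zero]
  · right
    intro h
    apply hx
    have h1 : (γ • x)⁻¹ = γ • x⁻¹ := by
      show (SemilinearAut.toRingAut γ x)⁻¹ = SemilinearAut.toRingAut γ x⁻¹
      rw [map_inv₀]
    rw [h1] at h
    exact (ValuationSubring.smul_mem_pointwise_smul_iff (g := γ) (S := B) (x := x⁻¹)).mp h

theorem kc_hasValueAt_smul (γ : SemilinearAut K F) (P : Place K F) {f : F} {a : K}
    (h : HasValueAt P f a) : HasValueAt (γ • P) (γ • f) (SemilinearAut.baseAut γ a) := by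
  unfold HasValueAt at h ⊢
  have h1 : γ • f - algebraMap K F (SemilinearAut.baseAut γ a) = γ • (f - algebraMap K F a) := by
    rw [smul_sub, SemilinearAut.smul_algebraMap]
  rw [h1, SemilinearAut.smul_toValuationSubring]
  exact kc_smul_mem_nonunits γ _ h

/-! ### The chart -/

theorem kc_sum_single_eq_gpSum (T : Finset (Place k Fk)) (e : Fin g ≃ T) :
    (∑ i : Fin g, Finsupp.single ((e i : T) : Place k Fk) (1 : ℤ) : Divisor k Fk) = gpSum T := by
  rw [gpSum, ← Finset.sum_coe_sort T (fun Q => (Finsupp.single Q (1 : ℤ) : Divisor k Fk))]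
  exact Equiv.sum_comp e (fun Q : T => (Finsupp.single (Q : Place k Fk) (1 : ℤ) : Divisor k Fk))

/-- **A chart exists.** -/
theorem kc_exists_chart (hDisc : StmtDisc) (hR : R.IsPR) (hF : IsNiceCurve K F g)
    (hFk : IsNiceCurve k Fk g) (t : F) (ht : t ∈ R.O) (hgood : R.GoodFn t)
    (hram : {Q : Place k Fk | ¬ ∃ c : k, Q.ord (R.red ⟨t, ht⟩ - algebraMap k Fk c) = 1}.Finite)
    (S : Set A) (hS : ∀ c : k, ∃ s ∈ S, R.res s = c)
    (hSinj : ∀ s ∈ S, ∀ s' ∈ S, R.res s = R.res s' → s = s') :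
    ∃ C : R.Chart g, C.IsChart ∧ C.Rep ∧ C.t = t ∧ ∀ i, C.c i ∈ S := by
  classical
  have := hFk.hpd
  obtain ⟨T, hTcard, hTdisj, hTrank⟩ :=
    gp_exists_chart hFk.hres hFk.upper hFk.infinite hram.toFinset
  let e : Fin g ≃ T := (T.equivFin.trans (finCongr hTcard)).symm
  have hgoodQ : ∀ i : Fin g, ∃ c : k, ((e i : T) : Place k Fk).ord
      (R.red ⟨t, ht⟩ - algebraMap k Fk c) = 1 := by
    intro i
    by_contra hcon
    have h1 : ((e i : T) : Place k Fk) ∈ hram.toFinset := by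
      rw [Set.Finite.mem_toFinset]
      exact hcon
    exact Finset.disjoint_left.mp hTdisj (e i).2 h1
  choose cb hcb using hgoodQ
  have hlift : ∀ i : Fin g, ∃ s : A, s ∈ S ∧ R.res s = cb i := fun i => by
    obtain ⟨s, hs, hs'⟩ := hS (cb i)
    exact ⟨s, hs, hs'⟩
  choose c hcS hcres using hlift
  have hord : ∀ i : Fin g, ((e i : T) : Place k Fk).ord
      (R.red ⟨t, ht⟩ - algebraMap k Fk (R.res (c i))) = 1 := fun i => by
    rw [hcres i]; exact hcb i
  have hcentre : ∀ i : Fin g, ∃ P : Place K F, R.r P = ((e i : T) : Place k Fk) ∧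
      HasValueAt P t ((c i : K)) := by
    intro i
    obtain ⟨P, ⟨hP1, hP2⟩, -⟩ := (hDisc K F k Fk A R g hR hF hFk t ht hgood (c i) _ (hord i)).2 0
      (ge_zero_mem_nonunits A)
    rw [add_zero] at hP2
    exact ⟨P, hP1, hP2⟩
  choose Q hQr hQv using hcentre
  refine ⟨⟨t, c, Q⟩, ⟨hgood, hQv, ?_, ?_, ?_⟩, ?_, rfl, hcS⟩
  · intro ht' i
    show (R.r (Q i)).ord (R.red ⟨t, ht'⟩ - algebraMap k Fk (R.res (c i))) = 1
    rw [hQr i]
    exact hord i
  · intro i j hij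
    have h1 : R.r (Q i) = R.r (Q j) := hij
    rw [hQr i, hQr j] at h1
    exact e.injective (Subtype.ext h1)
  · show finrank k ↥(riemannRochSpace
      (∑ i : Fin g, Finsupp.single (R.r (Q i)) (1 : ℤ) : Divisor k Fk)) = 1
    have h2 : (∑ i : Fin g, Finsupp.single (R.r (Q i)) (1 : ℤ) : Divisor k Fk) = gpSum T := by
      rw [← kc_sum_single_eq_gpSum T e]
      refine Finset.sum_congr rfl fun i _ => ?_
      rw [hQr i]
    rw [h2]
    exact hTrank
  · intro i j hij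
    exact hSinj _ (hcS i) _ (hcS j) hij

/-! ### Coordinates -/

/-- `x = [Σ P i - Σ Q i]` with `P i` in the `i`-th disc. -/
def PRData.Chart.IsTuple (C : R.Chart g) (x : Pic0 K F) (P : Fin g → Place K F) : Prop :=
  (∀ i, R.r (P i) = R.r (C.Q i)) ∧
    ∃ D : Divisor.degZero (K := K) (F := F), (D : Divisor K F) = C.div P ∧ Pic0.mk D = x

/-- `ζ` are the coordinates of `x` in the chart `C`. -/
def PRData.Chart.IsCoord (C : R.Chart g) (x : Pic0 K F) (ζ : Fin g → K) : Prop :=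
  ∃ P : Fin g → Place K F, C.IsTuple x P ∧ ∀ i, C.InDisc i (P i) (ζ i)

theorem PRData.Chart.IsChart.mem_O {C : R.Chart g} (hC : C.IsChart) : C.t ∈ R.O :=
  hC.good.1

theorem isCoord_exists (hDisc : StmtDisc) (hC1 : StmtC1) (hR : R.IsPR) (hF : IsNiceCurve K F g)
    (hFk : IsNiceCurve k Fk g) (hOrth : R.Orth) {C : R.Chart g} (hC : C.IsChart)
    {x : Pic0 K F} (hx : x ∈ R.J1) : ∃ ζ : Fin g → K, C.IsCoord x ζ := by
  obtain ⟨P, hP, -⟩ := hC1 K F k Fk A R g hR hF hFk hOrth C hC x hx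
  have h : ∀ i : Fin g, ∃ z : K, z ∈ A.nonunits ∧ HasValueAt (P i) C.t ((C.c i : K) + z) :=
    fun i => (hDisc K F k Fk A R g hR hF hFk C.t hC.mem_O hC.good (C.c i) (R.r (C.Q i))
      (hC.simple hC.mem_O i)).1 (P i) (hP.1 i)
  choose ζ hζ1 hζ2 using h
  exact ⟨ζ, P, hP, fun i => ⟨hP.1 i, hζ1 i, hζ2 i⟩⟩

theorem isTuple_unique (hC1 : StmtC1) (hR : R.IsPR) (hF : IsNiceCurve K F g)
    (hFk : IsNiceCurve k Fk g) (hOrth : R.Orth) {C : R.Chart g} (hC : C.IsChart)
    {x : Pic0 K F} (hx : x ∈ R.J1) {P P' : Fin g → Place K F} (hP : C.IsTuple x P)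
    (hP' : C.IsTuple x P') : P = P' :=
  (hC1 K F k Fk A R g hR hF hFk hOrth C hC x hx).unique hP hP'

theorem isCoord_unique (hC1 : StmtC1) (hR : R.IsPR) (hF : IsNiceCurve K F g)
    (hFk : IsNiceCurve k Fk g) (hOrth : R.Orth) {C : R.Chart g} (hC : C.IsChart)
    {x : Pic0 K F} (hx : x ∈ R.J1) {ζ ζ' : Fin g → K} (hζ : C.IsCoord x ζ)
    (hζ' : C.IsCoord x ζ') : ζ = ζ' := by
  obtain ⟨P, hP, hPd⟩ := hζ
  obtain ⟨P', hP', hPd'⟩ := hζ'
  have hPP := isTuple_unique hC1 hR hF hFk hOrth hC hx hP hP'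
  subst hPP
  funext i
  have h := hasValueAt_unique (P i) (hPd i).2.2 (hPd' i).2.2
  exact add_left_cancel h

theorem isCoord_inj (hDisc : StmtDisc) (hR : R.IsPR) (hF : IsNiceCurve K F g)
    (hFk : IsNiceCurve k Fk g) {C : R.Chart g} (hC : C.IsChart)
    {x y : Pic0 K F} {ζ : Fin g → K} (hx : C.IsCoord x ζ) (hy : C.IsCoord y ζ) : x = y := by
  obtain ⟨P, ⟨-, D, hD, rfl⟩, hPd⟩ := hx
  obtain ⟨P', ⟨-, D', hD', rfl⟩, hPd'⟩ := hy
  have hPP : P = P' := by
    funext i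
    have h := (hDisc K F k Fk A R g hR hF hFk C.t hC.mem_O hC.good (C.c i) (R.r (C.Q i))
      (hC.simple hC.mem_O i)).2 (ζ i) (hPd i).2.1
    exact h.unique ⟨(hPd i).1, (hPd i).2.2⟩ ⟨(hPd' i).1, (hPd' i).2.2⟩
  subst hPP
  have hDD : D = D' := Subtype.ext (hD.trans hD'.symm)
  rw [hDD]

/-- the coordinate map (zero where no coordinates exist) -/
noncomputable def kcCoord (C : R.Chart g) (x : Pic0 K F) : Fin g → K := by
  classical
  exact if h : ∃ ζ : Fin g → K, C.IsCoord x ζ then h.choose else 0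

theorem kcCoord_spec {C : R.Chart g} {x : Pic0 K F} (h : ∃ ζ : Fin g → K, C.IsCoord x ζ) :
    C.IsCoord x (kcCoord C x) := by
  classical
  unfold kcCoord
  rw [dif_pos h]
  exact h.choose_spec

theorem kcCoord_eq (hC1 : StmtC1) (hR : R.IsPR) (hF : IsNiceCurve K F g)
    (hFk : IsNiceCurve k Fk g) (hOrth : R.Orth) {C : R.Chart g} (hC : C.IsChart)
    {x : Pic0 K F} (hx : x ∈ R.J1) {ζ : Fin g → K} (hζ : C.IsCoord x ζ) :
    kcCoord C x = ζ :=
  isCoord_unique hC1 hR hF hFk hOrth hC hx (kcCoord_spec ⟨ζ, hζ⟩) hζ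

/-! ### Automorphisms -/

/-- a semilinear automorphism acting like an element of the decomposition group -/
theorem kc_smul_mem_J1 (γ : SemilinearAut K F) (σb : Place k Fk → Place k Fk)
    (h1 : ∀ P, R.r (γ • P) = σb (R.r P))
    (h2 : ∀ E ∈ Divisor.principal (K := k) (F := Fk),
      Finsupp.mapDomain σb E ∈ Divisor.principal (K := k) (F := Fk))
    {x : Pic0 K F} (hx : x ∈ R.J1) : γ • x ∈ R.J1 := by
  obtain ⟨D, rfl, hD⟩ := hx
  refine ⟨SemilinearAut.degZeroSMulHom γ D, (SemilinearAut.pic0_smul_mk γ D).symm, ?_⟩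
  rw [SemilinearAut.coe_degZeroSMulHom, SemilinearAut.divisor_smul_def,
    ← Finsupp.mapDomain_comp]
  have h3 : (R.r ∘ fun P => γ • P) = σb ∘ R.r := funext h1
  rw [h3, Finsupp.mapDomain_comp]
  exact h2 _ hD

/-- a semilinear automorphism acting like an element of the inertia group -/
structure InertiaLike (R : PRData K F k Fk A) (t : F) (S : Set A) (γ : SemilinearAut K F) :
    Prop where
  r_smul : ∀ P, R.r (γ • P) = R.r P
  t_fixed : γ • t = t
  base_fixed : ∀ s ∈ S, SemilinearAut.baseAut γ (s : K) = s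
  base_nonunits : ∀ a ∈ A.nonunits, SemilinearAut.baseAut γ a ∈ A.nonunits

/-- a place where `t` takes a value in `S` and `t̄` is unramified is fixed by inertia -/
theorem kc_smul_place_eq (hDisc : StmtDisc) (hR : R.IsPR) (hF : IsNiceCurve K F g)
    (hFk : IsNiceCurve k Fk g) {t : F} (ht : t ∈ R.O) (hgood : R.GoodFn t) {S : Set A}
    {γ : SemilinearAut K F} (hγ : InertiaLike R t S γ) (P : Place K F) {s : A} (hs : s ∈ S)
    (hv : HasValueAt P t (s : K))
    (hord : (R.r P).ord (R.red ⟨t, ht⟩ - algebraMap k Fk (R.res s)) = 1) : γ • P = P := by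
  have h := (hDisc K F k Fk A R g hR hF hFk t ht hgood s (R.r P) hord).2 0
    (ge_zero_mem_nonunits A)
  refine h.unique ⟨hγ.r_smul P, ?_⟩ ⟨rfl, by rw [add_zero]; exact hv⟩
  have h1 := kc_hasValueAt_smul γ P hv
  rw [hγ.t_fixed, hγ.base_fixed s hs] at h1
  rw [add_zero]
  exact h1

theorem kc_smul_div (C : R.Chart g) (γ : SemilinearAut K F) (hQ : ∀ i, γ • C.Q i = C.Q i)
    (P : Fin g → Place K F) : γ • C.div P = C.div fun i => γ • P i := by
  unfold PRData.Chart.div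
  rw [Finset.smul_sum]
  refine Finset.sum_congr rfl fun i _ => ?_
  rw [smul_sub, SemilinearAut.smul_single, SemilinearAut.smul_single, hQ i]

theorem isCoord_smul (hDisc : StmtDisc) (hR : R.IsPR) (hF : IsNiceCurve K F g)
    (hFk : IsNiceCurve k Fk g) {C : R.Chart g} (hC : C.IsChart) {S : Set A}
    (hcS : ∀ i, C.c i ∈ S) {γ : SemilinearAut K F} (hγ : InertiaLike R C.t S γ)
    {x : Pic0 K F} {ζ : Fin g → K} (hζ : C.IsCoord x ζ) :
    C.IsCoord (γ • x) fun i => SemilinearAut.baseAut γ (ζ i) := by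
  obtain ⟨P, ⟨hP1, D, hD, rfl⟩, hPd⟩ := hζ
  have hQ : ∀ i, γ • C.Q i = C.Q i := fun i =>
    kc_smul_place_eq hDisc hR hF hFk hC.mem_O hC.good hγ (C.Q i) (hcS i) (hC.value i)
      (hC.simple hC.mem_O i)
  refine ⟨fun i => γ • P i, ⟨fun i => by rw [hγ.r_smul, hP1 i],
    SemilinearAut.degZeroSMulHom γ D, ?_, (SemilinearAut.pic0_smul_mk γ D).symm⟩, fun i => ?_⟩
  · rw [SemilinearAut.coe_degZeroSMulHom, hD, kc_smul_div C γ hQ]
  · refine ⟨by rw [hγ.r_smul]; exact (hPd i).1, hγ.base_nonunits _ (hPd i).2.1, ?_⟩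
    have h1 := kc_hasValueAt_smul γ (P i) (hPd i).2.2
    rw [hγ.t_fixed, map_add, hγ.base_fixed _ (hcS i)] at h1
    exact h1

/-! ### Addition -/

theorem kc_add_approx (hAdd : StmtAddApprox) (hR : R.IsPR) (hF : IsNiceCurve K F g)
    (hFk : IsNiceCurve k Fk g) (hOrth : R.Orth) {C : R.Chart g} (hC : C.IsChart) (hRep : C.Rep)
    (n : ℕ) : ∃ Φ : Fin g → MvPolynomial (Fin g ⊕ Fin g) K,
      (∀ i m, (Φ i).coeff m ∈ A) ∧
      ∀ ϖ : K, ϖ ∈ A.nonunits → ϖ ≠ 0 →
      ∀ (x y : Pic0 K F) (z z' ζ : Fin g → K), C.IsCoord x z → C.IsCoord y z' →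
        C.IsCoord (x + y) ζ →
        (∀ i, ∃ a ∈ A, z i = ϖ * a) → (∀ i, ∃ a ∈ A, z' i = ϖ * a) →
        ∀ i, ∃ a ∈ A, ζ i - MvPolynomial.eval (Sum.elim z z') (Φ i) = ϖ ^ n * a := by
  obtain ⟨Φ, hΦ, h⟩ := hAdd K F k Fk A R g hR hF hFk hOrth C hC hRep n
  refine ⟨Φ, hΦ, fun ϖ hϖ hϖ0 x y z z' ζ hx hy hxy hz hz' => ?_⟩
  obtain ⟨P, ⟨-, D, hD, rfl⟩, hPd⟩ := hx
  obtain ⟨P', ⟨-, D', hD', rfl⟩, hPd'⟩ := hy
  obtain ⟨P'', ⟨-, D'', hD'', hmk⟩, hPd''⟩ := hxy
  refine h ϖ hϖ hϖ0 P P' P'' z z' ζ hPd hPd' hPd'' hz hz' ?_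
  have h1 : Pic0.mk (D + D' - D'') = 0 := by
    have : Pic0.mk (D + D' - D'') = Pic0.mk D + Pic0.mk D' - Pic0.mk D'' := rfl
    rw [this, hmk, sub_self]
  have h2 : D + D' - D'' ∈ (Divisor.principal (K := K) (F := F)).addSubgroupOf
      (Divisor.degZero (K := K) (F := F)) :=
    (QuotientAddGroup.eq_zero_iff _).mp h1
  rw [AddSubgroup.mem_addSubgroupOf] at h2
  rw [← hD, ← hD', ← hD'']
  exact h2

/-! ### Lifting -/

theorem kc_lift (hDisc : StmtDisc) (hLift : StmtLift) (hR : R.IsPR) (hF : IsNiceCurve K F g)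
    (hFk : IsNiceCurve k Fk g) {t : F} (ht : t ∈ R.O) (hgood : R.GoodFn t)
    (hram : {Q : Place k Fk | ¬ ∃ c : k, Q.ord (R.red ⟨t, ht⟩ - algebraMap k Fk c) = 1}.Finite)
    {S : Set A} (hS : ∀ c : k, ∃ s ∈ S, R.res s = c) (x : Pic0 K F) :
    ∃ b : Pic0 K F, x - b ∈ R.J1 ∧
      ∀ γ : SemilinearAut K F, InertiaLike R t S γ → γ • b = b := by
  obtain ⟨D, hD1, hD2⟩ := hLift K F k Fk A R g hR hF hFk t ht hgood hram S hS x
  refine ⟨Pic0.mk D, hD1, fun γ hγ => ?_⟩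
  rw [SemilinearAut.pic0_smul_mk]
  congr 1
  apply Subtype.ext
  rw [SemilinearAut.coe_degZeroSMulHom, SemilinearAut.divisor_smul_def]
  have h1 : Finsupp.mapDomain (fun P => γ • P) (D : Divisor K F)
      = Finsupp.mapDomain id (D : Divisor K F) := by
    refine Finsupp.mapDomain_congr fun P hP => ?_
    obtain ⟨s, hs, hv, hord⟩ := hD2 P (Finsupp.mem_support_iff.mp hP)
    exact kc_smul_place_eq hDisc hR hF hFk ht hgood hγ P hs hv hord
  rw [h1, Finsupp.mapDomain_id]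

end Fermat.Agent.W1
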