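import Mathlib
import Fermat.Agent.W1.PlanGeo2

/-!
# W1-geo, piece GEO-C1: the kernel of reduction in the coordinates of a chart

`stmtC1 : StmtC1` — every class of the kernel of reduction is `[Σ P i - Σ Q i]` for exactly one
tuple of places `P i` in the discs of the chart; `stmtC1Conv : StmtC1Conv` — the converse.

Proof of (C1).  `x = [D]`, `r_* D` principal.  Riemann: `L(D + D₀) ≠ 0`, `D₀ = Σ Q i`; so there
is `E ≥ 0`, `E = D + D₀ + div f`.  `r_* E ≥ 0` is linearly equivalent to `D̄₀ = Σ Q̄ i`, and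
`L̄(D̄₀) = k` (non-special chart), hence `r_* E = D̄₀`; as the `Q̄ i` are distinct, `E = Σ P i` with
`r (P i) = Q̄ i`.  Uniqueness: `dim L(E) ≤ dim L̄(r_* E) = 1` (orthonormal bases).
-/

set_option autoImplicit false

open AlgebraicCurve Module

namespace Fermat.Agent.W1

open Fermat.Agent.ES.R Fermat.Agent.S24

/-! ### Finitely supported functions -/

section Finsupp

variable {α β : Type*}

theorem c1_mapDomain_nonneg (r : α → β) {D : α →₀ ℤ} (hD : 0 ≤ D) :
    0 ≤ Finsupp.mapDomain r D := by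
  classical
  rw [Finsupp.mapDomain]
  refine Finsupp.sum_nonneg fun a _ => ?_
  rw [Finsupp.le_def]
  intro b
  have h0 : 0 ≤ D a := by simpa using Finsupp.le_def.mp hD a
  rw [Finsupp.single_apply]
  split_ifs <;> simp [h0]

theorem c1_le_mapDomain (r : α → β) {D : α →₀ ℤ} (hD : 0 ≤ D) (P : α) :
    D P ≤ Finsupp.mapDomain r D (r P) := by
  classical
  have h1 : 0 ≤ D - Finsupp.single P (D P) := by
    rw [Finsupp.le_def]
    intro v
    have h0 : 0 ≤ D v := by simpa using Finsupp.le_def.mp hD v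
    rw [Finsupp.sub_apply, Finsupp.single_apply]
    split_ifs with h
    · subst h; simp
    · simpa using h0
  have h2 := Finsupp.le_def.mp (c1_mapDomain_nonneg r h1) (r P)
  have h3 : Finsupp.mapDomain r (D - Finsupp.single P (D P))
      = Finsupp.mapDomain r D - Finsupp.single (r P) (D P) := by
    rw [← Finsupp.mapDomain_single, ← Finsupp.mapDomain.addMonoidHom_apply,
      ← Finsupp.mapDomain.addMonoidHom_apply, ← Finsupp.mapDomain.addMonoidHom_apply, map_sub]
  rw [h3, Finsupp.sub_apply, Finsupp.single_eq_same] at h2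
  simpa using h2

theorem c1_eq_zero_of_mapDomain_eq_zero (r : α → β) {D : α →₀ ℤ} (hD : 0 ≤ D)
    (h : Finsupp.mapDomain r D = 0) : D = 0 := by
  ext P
  have h1 := c1_le_mapDomain r hD P
  rw [h] at h1
  have h0 : 0 ≤ D P := by simpa using Finsupp.le_def.mp hD P
  simp only [Finsupp.coe_zero, Pi.zero_apply] at h1 ⊢
  omega

theorem c1_mapDomain_sub (r : α → β) (D E : α →₀ ℤ) :
    Finsupp.mapDomain r (D - E) = Finsupp.mapDomain r D - Finsupp.mapDomain r E := by
  rw [← Finsupp.mapDomain.addMonoidHom_apply, ← Finsupp.mapDomain.addMonoidHom_apply,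
    ← Finsupp.mapDomain.addMonoidHom_apply, map_sub]

theorem c1_mapDomain_sum_single {ι : Type*} (s : Finset ι) (r : α → β) (P : ι → α) :
    Finsupp.mapDomain r (∑ i ∈ s, Finsupp.single (P i) (1 : ℤ))
      = ∑ i ∈ s, Finsupp.single (r (P i)) (1 : ℤ) := by
  rw [Finsupp.mapDomain_finsetSum]
  simp only [Finsupp.mapDomain_single]

/-- value of `Σ_i [P i]` for an injective family -/
theorem c1_sum_single_apply {ι : Type*} [Fintype ι] {P : ι → α} (hP : Function.Injective P)
    (i : ι) : (∑ j, Finsupp.single (P j) (1 : ℤ)) (P i) = 1 := by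
  classical
  rw [Finsupp.finsetSum_apply]
  rw [Finset.sum_eq_single i]
  · simp
  · intro j _ hj
    rw [Finsupp.single_apply, if_neg]
    exact fun h => hj (hP h)
  · intro h; exact absurd (Finset.mem_univ i) h

theorem c1_sum_single_apply_of_not_mem {ι : Type*} [Fintype ι] {P : ι → α} {v : α}
    (hv : ∀ i, P i ≠ v) : (∑ j, Finsupp.single (P j) (1 : ℤ)) v = 0 := by
  classical
  rw [Finsupp.finsetSum_apply]
  refine Finset.sum_eq_zero fun j _ => ?_
  rw [Finsupp.single_apply, if_neg (hv j)]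

theorem c1_sum_single_nonneg {ι : Type*} [Fintype ι] (P : ι → α) :
    0 ≤ ∑ j, Finsupp.single (P j) (1 : ℤ) := by
  classical
  refine Finset.sum_nonneg fun j _ => ?_
  rw [Finsupp.le_def]
  intro b
  rw [Finsupp.single_apply]
  split_ifs <;> simp

/-- an effective divisor whose image is `Σ [Q̄ i]`, the `Q̄ i` distinct, is `Σ [P i]` with
`r (P i) = Q̄ i`. -/
theorem c1_exists_lift_sum {ι : Type*} [Fintype ι] (r : α → β) {E : α →₀ ℤ} (hE : 0 ≤ E)
    {Qb : ι → β} (hQ : Function.Injective Qb)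
    (h : Finsupp.mapDomain r E = ∑ i, Finsupp.single (Qb i) (1 : ℤ)) :
    ∃ P : ι → α, (∀ i, r (P i) = Qb i) ∧ E = ∑ i, Finsupp.single (P i) (1 : ℤ) := by
  classical
  have h1 : ∀ i, ∃ P : α, P ∈ E.support ∧ r P = Qb i := by
    intro i
    have hi : Qb i ∈ (Finsupp.mapDomain r E).support := by
      rw [Finsupp.mem_support_iff, h, c1_sum_single_apply hQ i]
      exact one_ne_zero
    have := Finsupp.mapDomain_support hi
    rw [Finset.mem_image] at this
    obtain ⟨P, hP, hPQ⟩ := this
    exact ⟨P, hP, hPQ⟩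
  choose P hPs hPr using h1
  have hPinj : Function.Injective P := by
    intro i j hij
    apply hQ
    rw [← hPr i, ← hPr j, hij]
  refine ⟨P, hPr, ?_⟩
  have hE' : 0 ≤ E - ∑ i, Finsupp.single (P i) (1 : ℤ) := by
    rw [Finsupp.le_def]
    intro v
    have h0 : 0 ≤ E v := by simpa using Finsupp.le_def.mp hE v
    rw [Finsupp.sub_apply]
    by_cases hv : ∃ i, P i = v
    · obtain ⟨i, rfl⟩ := hv
      rw [c1_sum_single_apply hPinj i]
      have hne : E (P i) ≠ 0 := Finsupp.mem_support_iff.mp (hPs i)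
      simp only [Finsupp.coe_zero, Pi.zero_apply]
      omega
    · simp only [not_exists] at hv
      rw [c1_sum_single_apply_of_not_mem hv]
      simpa using h0
  have hz : Finsupp.mapDomain r (E - ∑ i, Finsupp.single (P i) (1 : ℤ)) = 0 := by
    rw [c1_mapDomain_sub, h, c1_mapDomain_sum_single]
    simp only [hPr, sub_self]
  have := c1_eq_zero_of_mapDomain_eq_zero r hE' hz
  exact sub_eq_zero.mp this

end Finsupp

/-! ### Reduction of divisors -/

section Geo

variable {K F k Fk : Type} [Field K] [Field F] [Algebra K F] [Field k] [Field Fk] [Algebra k Fk]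
variable {A : ValuationSubring K}

theorem c1_degree_mapDomain
    (hres : ∀ v : Place K F, Function.Bijective (algebraMap K v.ResidueField))
    (hresk : ∀ v : Place k Fk, Function.Bijective (algebraMap k v.ResidueField))
    (r : Place K F → Place k Fk) (D : Divisor K F) :
    Divisor.degree (Finsupp.mapDomain r D) = Divisor.degree D := by
  have h : (Divisor.degree (K := k) (F := Fk)).comp (Finsupp.mapDomain.addMonoidHom r)
      = Divisor.degree (K := K) (F := F) := by
    refine Finsupp.addHom_ext fun P n => ?_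
    simp [Divisor.degree_single, place_deg_eq_one _ (hres P), place_deg_eq_one _ (hresk (r P))]
  exact DFunLike.congr_fun h D

theorem c1_degree_sum_single
    (hres : ∀ v : Place K F, Function.Bijective (algebraMap K v.ResidueField))
    {g : ℕ} (P : Fin g → Place K F) :
    Divisor.degree (∑ i, Finsupp.single (P i) (1 : ℤ)) = g := by
  rw [map_sum]
  simp [Divisor.degree_single, place_deg_eq_one _ (hres _)]

/-- the reduction of a principal divisor is principal -/
theorem c1_mapDomain_principal {R : PRData K F k Fk A} (hPR : R.IsPR) {D : Divisor K F}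
    (hD : D ∈ Divisor.principal (K := K) (F := F)) :
    Finsupp.mapDomain R.r D ∈ Divisor.principal (K := k) (F := Fk) := by
  obtain ⟨f, hf, hDf⟩ := hD
  obtain ⟨a, ha, h, hred⟩ := hPR.prim f hf
  have ha' : algebraMap K F a ≠ 0 := by simpa using ha
  have hu : ∀ P : Place K F, D P = P.ord ((⟨algebraMap K F a * f, h⟩ : R.O) : F) := by
    intro P
    show D P = P.ord (algebraMap K F a * f)
    rw [P.ord_mul ha' hf, PlaceAux.ord_algebraMap, zero_add, hDf P]
  exact ⟨R.red ⟨algebraMap K F a * f, h⟩, hred, hPR.r_div _ hred D hu⟩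

/-- semicontinuity from orthonormal bases -/
theorem c1_semicont {R : PRData K F k Fk A} {g : ℕ} (hFk : IsNiceCurve k Fk g)
    (hOrth : R.Orth) (D : Divisor K F) :
    finrank K ↥(riemannRochSpace D)
      ≤ finrank k ↥(riemannRochSpace (Finsupp.mapDomain R.r D)) := by
  obtain ⟨n, e, he, hspan, hli, hmem⟩ := hOrth D
  obtain ⟨v₀, -⟩ := hFk.infinite.nonempty
  have := hFk.hpd
  have := rr_finite v₀ hFk.hres (Finsupp.mapDomain R.r D)
  have h1 : finrank K ↥(riemannRochSpace D) ≤ n := by
    rw [← hspan]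
    have := finrank_range_le_card (R := K) e
    simpa [Set.finrank] using this
  have h2 : n ≤ finrank k ↥(riemannRochSpace (Finsupp.mapDomain R.r D)) := by
    have hli' : LinearIndependent k (fun i =>
        (⟨R.red ⟨e i, he i⟩, hmem i⟩ : ↥(riemannRochSpace (Finsupp.mapDomain R.r D)))) := by
      apply LinearIndependent.of_comp (Submodule.subtype _)
      exact hli
    have := hli'.fintype_card_le_finrank
    simpa using this
  exact h1.trans h2

/-- if `dim L(E) ≤ 1`, `E ≥ 0`, then `L(E)` consists of constants -/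
theorem c1_const_of_finrank_le_one [HasPrincipalDivisors K F]
    (hres : ∀ v : Place K F, Function.Bijective (algebraMap K v.ResidueField))
    (v₀ : Place K F) {E : Divisor K F} (hE : 0 ≤ E)
    (h1 : finrank K ↥(riemannRochSpace E) ≤ 1) {f : F} (hf : f ∈ riemannRochSpace E) :
    ∃ c : K, f = algebraMap K F c := by
  have := rr_finite v₀ hres E
  rw [finrank_le_one_iff] at h1
  obtain ⟨w, hw⟩ := h1
  obtain ⟨c₁, hc₁⟩ := hw ⟨1, gp_one_mem_rr hE⟩
  obtain ⟨c₂, hc₂⟩ := hw ⟨f, hf⟩
  have hc₁0 : c₁ ≠ 0 := by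
    rintro rfl
    rw [zero_smul] at hc₁
    exact one_ne_zero (congrArg Subtype.val hc₁).symm
  refine ⟨c₂ / c₁, ?_⟩
  have e1 : (1 : F) = c₁ • (w : F) := (congrArg Subtype.val hc₁).symm
  have e2 : f = c₂ • (w : F) := (congrArg Subtype.val hc₂).symm
  have e3 : (w : F) = c₁⁻¹ • (1 : F) := by
    rw [e1, smul_smul, inv_mul_cancel₀ hc₁0, one_smul]
  rw [e2, e3, smul_smul, Algebra.algebraMap_eq_smul_one, div_eq_mul_inv]

theorem c1_div_eq {R : PRData K F k Fk A} {g : ℕ} (C : R.Chart g) (P : Fin g → Place K F) :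
    C.div P = (∑ i, Finsupp.single (P i) (1 : ℤ)) - ∑ i, Finsupp.single (C.Q i) (1 : ℤ) := by
  rw [PRData.Chart.div, Finset.sum_sub_distrib]

/-- the reduction of a tuple in the discs is the reduced chart divisor -/
theorem c1_mapDomain_sum_disc {R : PRData K F k Fk A} {g : ℕ} (C : R.Chart g)
    {P : Fin g → Place K F} (hP : ∀ i, R.r (P i) = R.r (C.Q i)) :
    Finsupp.mapDomain R.r (∑ i, Finsupp.single (P i) (1 : ℤ))
      = ∑ i, Finsupp.single (R.r (C.Q i)) (1 : ℤ) := by
  rw [c1_mapDomain_sum_single]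
  simp only [hP]

/-- uniqueness in (C1) -/
theorem c1_unique {R : PRData K F k Fk A} {g : ℕ} (hF : IsNiceCurve K F g)
    (hFk : IsNiceCurve k Fk g) (hOrth : R.Orth) (C : R.Chart g) (hC : C.IsChart)
    {P P' : Fin g → Place K F} (hP : ∀ i, R.r (P i) = R.r (C.Q i))
    (hP' : ∀ i, R.r (P' i) = R.r (C.Q i))
    (h : C.div P' - C.div P ∈ Divisor.principal (K := K) (F := F)) : P' = P := by
  classical
  have := hF.hpd
  obtain ⟨v₀, -⟩ := hF.infinite.nonempty
  obtain ⟨f, hf, hfv⟩ := h
  set E₁ : Divisor K F := ∑ i, Finsupp.single (P i) (1 : ℤ) with hE₁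
  set E₂ : Divisor K F := ∑ i, Finsupp.single (P' i) (1 : ℤ) with hE₂
  have hsub : C.div P' - C.div P = E₂ - E₁ := by
    rw [c1_div_eq, c1_div_eq]; abel
  have hE₁0 : 0 ≤ E₁ := c1_sum_single_nonneg P
  have hE₂0 : 0 ≤ E₂ := c1_sum_single_nonneg P'
  have hford : ∀ v : Place K F, v.ord f = E₂ v - E₁ v := by
    intro v
    rw [← hfv v, hsub, Finsupp.sub_apply]
  have hfL : f ∈ riemannRochSpace E₁ := by
    rw [mem_riemannRochSpace_iff]
    intro v
    right
    rw [hford v]
    have : 0 ≤ E₂ v := by simpa using Finsupp.le_def.mp hE₂0 v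
    omega
  have hdim : finrank K ↥(riemannRochSpace E₁) ≤ 1 := by
    have := c1_semicont hFk hOrth E₁
    rw [hE₁, c1_mapDomain_sum_disc C hP, hC.nonspecial] at this
    exact this
  obtain ⟨c, hc⟩ := c1_const_of_finrank_le_one hF.hres v₀ hE₁0 hdim hfL
  have hEq : E₂ = E₁ := by
    ext v
    have := hford v
    rw [hc, PlaceAux.ord_algebraMap] at this
    omega
  have hPinj : Function.Injective P := by
    intro i j hij
    apply hC.inj
    show R.r (C.Q i) = R.r (C.Q j)
    rw [← hP i, ← hP j, hij]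
  have hP'inj : Function.Injective P' := by
    intro i j hij
    apply hC.inj
    show R.r (C.Q i) = R.r (C.Q j)
    rw [← hP' i, ← hP' j, hij]
  funext i
  have h1 : E₁ (P' i) = 1 := by
    rw [← hEq, hE₂]; exact c1_sum_single_apply hP'inj i
  have h2 : ∃ j, P j = P' i := by
    by_contra hne
    simp only [not_exists] at hne
    rw [hE₁, c1_sum_single_apply_of_not_mem hne] at h1
    exact zero_ne_one h1
  obtain ⟨j, hj⟩ := h2
  have hji : j = i := by
    apply hC.inj
    show R.r (C.Q j) = R.r (C.Q i)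
    rw [← hP j, ← hP' i, hj]
  rw [← hj, hji]

/-- **(C1)** -/
theorem stmtC1 : StmtC1 := by
  intro K F k Fk _ _ _ _ _ _ A R g hPR hF hFk hOrth C hC x hx
  classical
  have := hF.hpd
  have := hFk.hpd
  obtain ⟨v₀, -⟩ := hF.infinite.nonempty
  obtain ⟨w₀, -⟩ := hFk.infinite.nonempty
  obtain ⟨D, rfl, hDp⟩ := hx
  set D₀ : Divisor K F := ∑ i, Finsupp.single (C.Q i) (1 : ℤ) with hD₀
  set Db : Divisor k Fk := ∑ i, Finsupp.single (R.r (C.Q i)) (1 : ℤ) with hDb
  have hDb0 : 0 ≤ Db := c1_sum_single_nonneg _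
  have hrD₀ : Finsupp.mapDomain R.r D₀ = Db := c1_mapDomain_sum_single _ _ _
  have hdegD : Divisor.degree (D : Divisor K F) = 0 := D.2
  have hdegD₀ : Divisor.degree D₀ = g := c1_degree_sum_single hF.hres _
  -- Riemann
  have hR := hF.lower ((D : Divisor K F) + D₀)
  rw [map_add, hdegD, hdegD₀] at hR
  have := rr_finite v₀ hF.hres ((D : Divisor K F) + D₀)
  have hpos : 0 < finrank K ↥(riemannRochSpace ((D : Divisor K F) + D₀)) := by
    have : (1 : ℤ) ≤ (finrank K ↥(riemannRochSpace ((D : Divisor K F) + D₀)) : ℤ) := by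
      linarith
    exact_mod_cast this
  rw [Module.finrank_pos_iff_exists_ne_zero] at hpos
  obtain ⟨⟨f, hfL⟩, hf0⟩ := hpos
  have hf : f ≠ 0 := fun h => hf0 (Subtype.ext h)
  obtain ⟨Df, hDf, hdegDf⟩ := HasPrincipalDivisors.exists_divisor (K := K) f hf
  have hDfp : Df ∈ Divisor.principal (K := K) (F := F) := ⟨f, hf, hDf⟩
  set E : Divisor K F := (D : Divisor K F) + D₀ + Df with hE
  have hE0 : 0 ≤ E := by
    rw [Finsupp.le_def]
    intro v
    have := (mem_riemannRochSpace_iff.mp hfL v).resolve_left hf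
    rw [hE, Finsupp.add_apply, hDf v]
    simp only [Finsupp.coe_zero, Pi.zero_apply]
    linarith
  -- reduction of `E`
  have hrE : Finsupp.mapDomain R.r E = Db := by
    have h1 : Finsupp.mapDomain R.r E - Db ∈ Divisor.principal (K := k) (F := Fk) := by
      have : Finsupp.mapDomain R.r E - Db
          = Finsupp.mapDomain R.r (D : Divisor K F) + Finsupp.mapDomain R.r Df := by
        rw [hE, Finsupp.mapDomain_add, Finsupp.mapDomain_add, hrD₀]; abel
      rw [this]
      exact AddSubgroup.add_mem _ hDp (c1_mapDomain_principal hPR hDfp)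
    obtain ⟨h, hh0, hhv⟩ := h1
    have hrE0 : 0 ≤ Finsupp.mapDomain R.r E := c1_mapDomain_nonneg _ hE0
    have hhL : h ∈ riemannRochSpace Db := by
      rw [mem_riemannRochSpace_iff]
      intro v
      right
      rw [← hhv v, Finsupp.sub_apply]
      have : 0 ≤ Finsupp.mapDomain R.r E v := by simpa using Finsupp.le_def.mp hrE0 v
      linarith
    obtain ⟨c, hc⟩ := c1_const_of_finrank_le_one hFk.hres w₀ hDb0
      (le_of_eq hC.nonspecial) hhL
    ext v
    have := hhv v
    rw [hc, PlaceAux.ord_algebraMap, Finsupp.sub_apply] at this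
    linarith
  obtain ⟨P, hPr, hEP⟩ := c1_exists_lift_sum R.r hE0 hC.inj hrE
  have hdiv : C.div P = (D : Divisor K F) + Df := by
    rw [c1_div_eq, ← hEP, hE, ← hD₀]; abel
  have hdeg : C.div P ∈ Divisor.degZero (K := K) (F := F) := by
    rw [Divisor.mem_degZero, hdiv, map_add, hdegD, hdegDf, add_zero]
  have hmk : Pic0.mk ⟨C.div P, hdeg⟩ = Pic0.mk D := by
    rw [Pic0.mk, Pic0.mk, QuotientAddGroup.eq, AddSubgroup.mem_addSubgroupOf]
    have : ((-(⟨C.div P, hdeg⟩ : Divisor.degZero (K := K) (F := F)) + D :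
        Divisor.degZero (K := K) (F := F)) : Divisor K F) = -Df := by
      show -(C.div P) + (D : Divisor K F) = -Df
      rw [hdiv]; abel
    rw [this]
    exact AddSubgroup.neg_mem _ hDfp
  refine ⟨P, ⟨hPr, ⟨C.div P, hdeg⟩, rfl, hmk⟩, ?_⟩
  rintro P' ⟨hP'r, D', hD', hmk'⟩
  refine c1_unique hF hFk hOrth C hC hPr hP'r ?_
  have h1 : Pic0.mk D' = Pic0.mk ⟨C.div P, hdeg⟩ := by rw [hmk', hmk]
  rw [Pic0.mk, Pic0.mk, QuotientAddGroup.eq, AddSubgroup.mem_addSubgroupOf] at h1
  have h2 : ((-D' + (⟨C.div P, hdeg⟩ : Divisor.degZero (K := K) (F := F)) :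
      Divisor.degZero (K := K) (F := F)) : Divisor K F) = -(C.div P' - C.div P) := by
    show -(D' : Divisor K F) + C.div P = -(C.div P' - C.div P)
    rw [hD']; abel
  rw [h2] at h1
  simpa using AddSubgroup.neg_mem _ h1

/-- converse of (C1) -/
theorem stmtC1Conv : StmtC1Conv := by
  intro K F k Fk _ _ _ _ _ _ A R g hPR hF hFk C hC P hP D hD
  refine ⟨D, rfl, ?_⟩
  rw [hD, c1_div_eq, c1_mapDomain_sub, c1_mapDomain_sum_disc C hP, c1_mapDomain_sum_single,
    sub_self]
  exact AddSubgroup.zero_mem _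

end Geo

end Fermat.Agent.W1
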