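import Fermat.Agent.W1.GeoCmpAlg

/-!
# W1 GEO-CMP, the level argument (helper94)

Pure algebra over a local ring `𝒜` (in the application the valuation ring `A ⊂ ℚ̄`).

**`exists_addPoly_local`**: for a normalised family `b` over `𝒜` and `n ≥ 1` there are
polynomials `Φ x ∈ 𝒜[Z, Z']` such that for every `ϖ ∈ 𝔪` and all data
`z, z' ∈ ϖ 𝒜`, `ζ ∈ 𝔪`, `a₀`, `ω`, `W x ∈ 𝒜⟦T⟧`, `H x ∈ 𝒜((T))` with

* `W x * T = (a₀ + ∑ ω j • b j) * (T - z x) * (T - z' x) + ϖ ^ n * H x`  ("level equation"),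
* `∑_{m < N} (W x)_m ζ_x ^ m ∈ ζ_x ^ N 𝒜` for all `N`  ("`W x` vanishes at `ζ x`"),
* `a₀` and the `ω j` are not all in `𝔪`,

one has `ζ x ≡ Φ x (z, z') mod ϖ ^ n`.
-/

namespace Fermat.Agent.W1.RHF

open HahnSeries

universe u w

theorem exists_addPoly_local {𝒜 : Type u} [CommRing 𝒜] [IsLocalRing 𝒜] {ι : Type w} [Finite ι]
    (b : ι × ℕ → ι → LaurentSeries 𝒜)
    (hb : ∀ j, pol (fun _ => 1) (b j) = Finsupp.single j 1) (n : ℕ) (hn : 0 < n) :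
    ∃ Φ : ι → MvPolynomial (ι ⊕ ι) 𝒜,
      ∀ (ϖ : 𝒜), ϖ ∈ IsLocalRing.maximalIdeal 𝒜 →
      ∀ (z z' ζ : ι → 𝒜), (∀ i, ϖ ∣ z i) → (∀ i, ϖ ∣ z' i) →
        (∀ i, ζ i ∈ IsLocalRing.maximalIdeal 𝒜) →
      ∀ (a₀ : 𝒜) (ω : ι × ℕ →₀ 𝒜),
        (a₀ ∈ IsLocalRing.maximalIdeal 𝒜 → (∀ j, ω j ∈ IsLocalRing.maximalIdeal 𝒜) → False) →
      ∀ (W : ι → PowerSeries 𝒜) (H : ι → LaurentSeries 𝒜),
        (∀ i, HahnSeries.ofPowerSeries ℤ 𝒜 (W i) * tpow 𝒜 1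
            = (HahnSeries.C a₀ + beta b ω i) * (tpow 𝒜 1 - HahnSeries.C (z i))
                * (tpow 𝒜 1 - HahnSeries.C (z' i)) + HahnSeries.C (ϖ ^ n) * H i) →
        (∀ i (N : ℕ), ∃ y : 𝒜,
            ∑ m ∈ Finset.range N, PowerSeries.coeff m (W i) * ζ i ^ m + ζ i ^ N * y = 0) →
        ∀ i, ϖ ^ n ∣ ζ i - MvPolynomial.eval (Sum.elim z z') (Φ i) := by
  classical
  obtain ⟨Φ, hΦ⟩ := exists_addPoly.{u, u, w} b hb n
  refine ⟨Φ, ?_⟩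
  intro ϖ hϖ z z' ζ hz hz' hζ a₀ ω hunit W H heq htaylor i
  -- the level ring
  set I : Ideal 𝒜 := Ideal.span {ϖ ^ n} with hI
  set mk : 𝒜 →+* 𝒜 ⧸ I := Ideal.Quotient.mk I with hmk
  set 𝔞 : Ideal (𝒜 ⧸ I) := Ideal.map mk (Ideal.span {ϖ}) with h𝔞
  have hmk0 : ∀ x : 𝒜, mk x = 0 ↔ ϖ ^ n ∣ x := by
    intro x
    rw [hmk, Ideal.Quotient.eq_zero_iff_mem, hI, Ideal.mem_span_singleton]
  have h𝔞n : 𝔞 ^ n = ⊥ := by
    rw [h𝔞, ← Ideal.map_pow, Ideal.span_singleton_pow, ← hI, hmk, Ideal.map_quotient_self]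
  have h𝔞nil : IsNilpotent 𝔞 := ⟨n, by rw [h𝔞n]; rfl⟩
  have hmem𝔞 : ∀ x : 𝒜, mk x ∈ 𝔞 ↔ ϖ ∣ x := by
    intro x
    rw [h𝔞, hmk, Ideal.mem_quotient_iff_mem_sup, hI]
    have hsup : Ideal.span {ϖ} ⊔ Ideal.span {ϖ ^ n} = Ideal.span ({ϖ} : Set 𝒜) := by
      apply sup_eq_left.2
      rw [Ideal.span_singleton_le_span_singleton]
      exact dvd_pow_self ϖ (by omega)
    rw [hsup, Ideal.mem_span_singleton]
  have hspan_le : ∀ x : 𝒜, ϖ ∣ x → x ∈ IsLocalRing.maximalIdeal 𝒜 := by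
    rintro x ⟨c, rfl⟩
    exact Ideal.mul_mem_right _ _ hϖ
  set zb : ι → 𝒜 ⧸ I := fun i => mk (z i) with hzb
  set zb' : ι → 𝒜 ⧸ I := fun i => mk (z' i) with hzb'
  have hzbmem : ∀ i, zb i ∈ 𝔞 := fun i => (hmem𝔞 _).2 (hz i)
  have hzbmem' : ∀ i, zb' i ∈ 𝔞 := fun i => (hmem𝔞 _).2 (hz' i)
  set bb : ι × ℕ → ι → LaurentSeries (𝒜 ⧸ I) := fun j y => lmap mk (b j y) with hbb
  have hbbn := pol_lmap_single mk (fun _ : ι => 1) b hb
  set ωb : ι × ℕ →₀ 𝒜 ⧸ I := Finsupp.mapRange mk (map_zero mk) ω with hωb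
  set Wb : ι → PowerSeries (𝒜 ⧸ I) := fun x => PowerSeries.map mk (W x) with hWb
  have hVsub := Vadd_sub_mem 𝔞 zb zb' hzbmem hzbmem'
  -- the level equation over `Λ`
  have heqb : ∀ x, Vadd zb zb' x * (HahnSeries.C (mk a₀) + beta bb ωb x)
      = HahnSeries.ofPowerSeries ℤ (𝒜 ⧸ I) (Wb x) := by
    intro x
    have h1 := congrArg (lmap mk) (heq x)
    rw [map_mul, lmap_ofPowerSeries, lmap_tpow, map_add, map_mul, map_mul, map_add, lmap_C,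
      lmap_beta, map_sub, map_sub, lmap_tpow, lmap_C, lmap_C, map_mul, lmap_C,
      (hmk0 (ϖ ^ n)).2 dvd_rfl, map_zero, zero_mul, add_zero] at h1
    have h2 : tpow (𝒜 ⧸ I) 1 * tpow (𝒜 ⧸ I) (-1) = 1 := tpow_mul_tpow_neg 1
    have h3 : HahnSeries.ofPowerSeries ℤ (𝒜 ⧸ I) (Wb x)
        = HahnSeries.ofPowerSeries ℤ (𝒜 ⧸ I) (Wb x) * tpow (𝒜 ⧸ I) 1 * tpow (𝒜 ⧸ I) (-1) := by
      rw [mul_assoc, h2, mul_one]
    rw [h3, hWb]
    simp only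
    rw [h1, Vadd]
    ring
  -- the normalised solution
  obtain ⟨p, hp, -⟩ := exists_unique_rhfV 𝔞 (fun _ : ι => 1) bb h𝔞nil hbbn (Vadd zb zb') hVsub
  obtain ⟨hω, hW⟩ := rhfV_homog 𝔞 (fun _ : ι => 1) bb h𝔞nil hbbn (Vadd zb zb') hVsub
    (mk a₀) ωb Wb heqb p hp
  obtain ⟨hp1, hp2⟩ := rhfV_congr 𝔞 (fun _ : ι => 1) bb h𝔞nil hbbn (Vadd zb zb') hVsub p hp
  -- `a₀` is a unit
  have ha₀ : IsUnit a₀ := by
    by_contra hnu
    have ha₀m : a₀ ∈ IsLocalRing.maximalIdeal 𝒜 := (IsLocalRing.mem_maximalIdeal _).2 hnu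
    apply hunit ha₀m
    intro j
    have h1 : mk (ω j) = mk a₀ * p.1 j := by
      have := DFunLike.congr_fun hω j
      rw [hωb, Finsupp.mapRange_apply] at this
      rw [this, Finsupp.smul_apply, smul_eq_mul]
    obtain ⟨c, hc⟩ := Ideal.Quotient.mk_surjective (p.1 j)
    have h2 : mk (ω j - a₀ * c) = 0 := by
      rw [map_sub, map_mul, h1, ← hc, sub_self]
    have h3 := (hmk0 _).1 h2
    have h4 : ω j - a₀ * c ∈ IsLocalRing.maximalIdeal 𝒜 :=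
      hspan_le _ (dvd_trans (dvd_pow_self ϖ (by omega)) h3)
    have h5 : a₀ * c ∈ IsLocalRing.maximalIdeal 𝒜 := Ideal.mul_mem_right _ _ ha₀m
    have := Ideal.add_mem _ h4 h5
    simpa using this
  have ha₀b : IsUnit (mk a₀) := ha₀.map mk
  obtain ⟨u, hu⟩ := ha₀b
  -- coefficients of `W i`
  have hcoeffW : ∀ m : ℕ, mk (PowerSeries.coeff m (W i))
      = mk a₀ * PowerSeries.coeff m (p.2 i) := by
    intro m
    have := congrArg (PowerSeries.coeff m) (hW i)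
    rw [hWb] at this
    simp only [PowerSeries.coeff_map, PowerSeries.coeff_C_mul] at this
    exact this
  have hp2c : ∀ m : ℕ, PowerSeries.coeff m (p.2 i) - (if m = 1 then 1 else 0) ∈ 𝔞 := by
    intro m
    have := coeff_mem_of_mem_smul_top' 𝔞 (hp2 i) m
    rw [map_sub, pow_one, PowerSeries.coeff_X] at this
    exact this
  -- `W_0 ∈ ϖ 𝒜`
  have hW0 : ϖ ∣ PowerSeries.coeff 0 (W i) := by
    rw [← hmem𝔞, hcoeffW]
    have := hp2c 0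
    rw [if_neg (by norm_num), sub_zero] at this
    exact Ideal.mul_mem_left _ _ this
  -- `W_1` is a unit
  have hW1 : IsUnit (PowerSeries.coeff 1 (W i)) := by
    by_contra hnu
    have h1 : PowerSeries.coeff 1 (W i) ∈ IsLocalRing.maximalIdeal 𝒜 :=
      (IsLocalRing.mem_maximalIdeal _).2 hnu
    have h2 : mk (PowerSeries.coeff 1 (W i) - a₀) ∈ 𝔞 := by
      rw [map_sub, hcoeffW]
      have := hp2c 1
      rw [if_pos rfl] at this
      have e : mk a₀ * PowerSeries.coeff 1 (p.2 i) - mk a₀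
          = mk a₀ * (PowerSeries.coeff 1 (p.2 i) - 1) := by ring
      rw [e]
      exact Ideal.mul_mem_left _ _ this
    have h3 := hspan_le _ ((hmem𝔞 _).1 h2)
    have h4 : a₀ ∈ IsLocalRing.maximalIdeal 𝒜 := by
      have := Ideal.sub_mem _ h1 h3
      simpa using this
    exact (IsLocalRing.mem_maximalIdeal _).1 h4 ha₀
  -- `ζ i ∈ ϖ 𝒜`
  have hζϖ : ϖ ∣ ζ i := by
    obtain ⟨y, hy⟩ := htaylor i 2
    rw [Finset.sum_range_succ, Finset.sum_range_one, pow_zero, mul_one, pow_one] at hy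
    have hun : IsUnit (PowerSeries.coeff 1 (W i) + ζ i * y) := by
      by_contra hnu
      have h1 : PowerSeries.coeff 1 (W i) + ζ i * y ∈ IsLocalRing.maximalIdeal 𝒜 :=
        (IsLocalRing.mem_maximalIdeal _).2 hnu
      have h2 : ζ i * y ∈ IsLocalRing.maximalIdeal 𝒜 := Ideal.mul_mem_right _ _ (hζ i)
      have := Ideal.sub_mem _ h1 h2
      rw [add_sub_cancel_right] at this
      exact (IsLocalRing.mem_maximalIdeal _).1 this hW1
    obtain ⟨v, hv⟩ := hun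
    have h3 : ζ i * (v : 𝒜) = -PowerSeries.coeff 0 (W i) := by
      rw [hv]
      linear_combination hy
    have h4 : ζ i = -PowerSeries.coeff 0 (W i) * ((v⁻¹ : 𝒜ˣ) : 𝒜) := by
      rw [← h3, mul_assoc, Units.mul_inv, mul_one]
    rw [h4]
    exact Dvd.dvd.mul_right ((dvd_neg).2 hW0) _
  have hζ𝔞 : mk (ζ i) ∈ 𝔞 := (hmem𝔞 _).2 hζϖ
  have hζN : mk (ζ i) ^ n = 0 := by
    rw [← map_pow, hmk0]
    exact pow_dvd_pow_of_dvd hζϖ n
  -- the truncated evaluation vanishes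
  have hevW : evTrunc n (mk (ζ i)) (Wb i) = 0 := by
    obtain ⟨y, hy⟩ := htaylor i n
    have := congrArg mk hy
    rw [map_add, map_mul, map_pow, hζN, zero_mul, add_zero, map_sum, map_zero] at this
    rw [evTrunc_apply, ← this]
    refine Finset.sum_congr rfl fun m _ => ?_
    rw [hWb]
    simp only [PowerSeries.coeff_map, map_mul, map_pow]
  have hevp : evTrunc n (mk (ζ i)) (p.2 i) = 0 := by
    have h1 : Wb i = mk a₀ • p.2 i := by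
      rw [hW i]
      ext m
      simp [PowerSeries.coeff_C_mul]
    rw [h1, map_smul, smul_eq_mul, ← hu] at hevW
    exact (Units.mul_right_eq_zero u).1 hevW
  have hp2i : p.2 i - PowerSeries.X ∈ 𝔞 • (⊤ : Submodule (𝒜 ⧸ I) (PowerSeries (𝒜 ⧸ I))) := by
    have := hp2 i
    rwa [pow_one] at this
  obtain ⟨h, hh⟩ := exists_unit_factor_of_eval h𝔞nil n hn (p.2 i) hp2i (mk (ζ i)) hζ𝔞 hζN hevp
  have hfin := (hΦ (𝒜 ⧸ I) mk 𝔞 h𝔞n zb zb' hzbmem hzbmem' p.1 p.2 hp i).2 (mk (ζ i)) h hh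
  rw [← hmk0, map_sub, hfin, sub_eq_zero]
  have e1 : (Sum.elim zb zb' : ι ⊕ ι → 𝒜 ⧸ I) = mk ∘ (Sum.elim z z') := by
    funext s
    rcases s with s | s <;> rfl
  rw [e1]
  have := MvPolynomial.eval₂_comp_left mk (RingHom.id 𝒜) (Sum.elim z z') (Φ i)
  rw [RingHom.comp_id] at this
  rw [← this]
  rfl

end Fermat.Agent.W1.RHF
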