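import Fermat.Agent.W1.GeoCmpExp
import Fermat.Agent.W1.GeoCmpLevel

/-!
# W1 GEO-CMP: the addition law in the coordinates of the chart, modulo `ϖ ^ n` (helper94)

`stmtAddApprox_of : StmtExpand → StmtTaylorInt → StmtBFamily → StmtApprox → StmtAddApprox`.

The polynomials `Φ` are the truncated formal group law of `RHF.exists_addPoly` for the
normalised family `b` (expanded at the centres, coefficients in `A`).  Comparison: for
`[ΣP_i - ΣQ_i] + [ΣP'_i - ΣQ_i] = [ΣP''_i - ΣQ_i]` take `ψ ∈ O^×` with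
`div ψ = ΣP''_i + ΣQ_i - ΣP_i - ΣP'_i`; by `StmtApprox`, `ψ ≡ ψ' mod ϖ ^ n O` with
`ψ' = a₀ + Σ ω_j b_j`; `h_i = ψ (τ_i - z_i)(τ_i - z'_i) / τ_i` has no pole in the `i`-th disc and
vanishes at `P''_i`; its Taylor series `W_i` satisfies the level equation of
`RHF.exists_addPoly_local`.
-/

set_option autoImplicit false

open AlgebraicCurve Module

namespace Fermat.Agent.W1.Cmp

open Fermat.Agent.W1 Fermat.Agent.S24 Fermat.Agent.W1.RHF

variable {K F k Fk : Type} [Field K] [Field F] [Algebra K F] [Field k] [Field Fk] [Algebra k Fk]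
variable {A : ValuationSubring K} {R : PRData K F k Fk A} {g : ℕ} {C : R.Chart g}

/-! ### units and non-units of `O` -/

theorem inv_mem_O (hR : R.IsPR) {u : F} (hu : u ∈ R.O) (hred : R.red ⟨u, hu⟩ ≠ 0) :
    u⁻¹ ∈ R.O := by
  have h1 : u ∉ R.O.nonunits := fun h => hred ((hR.red_eq_zero_iff ⟨u, hu⟩).2 h)
  rw [ValuationSubring.mem_nonunits_iff_or, not_or, not_not] at h1
  exact h1.2

theorem red_inv_ne_zero {u : F} (hu : u ∈ R.O) (hred : R.red ⟨u, hu⟩ ≠ 0)
    (hinv : u⁻¹ ∈ R.O) : R.red ⟨u⁻¹, hinv⟩ ≠ 0 := by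
  intro h0
  have hu0 : u ≠ 0 := fun h => hred (by
    have : (⟨u, hu⟩ : R.O) = 0 := Subtype.ext h
    rw [this, map_zero])
  have h1 : (⟨u, hu⟩ : R.O) * ⟨u⁻¹, hinv⟩ = 1 := Subtype.ext (mul_inv_cancel₀ hu0)
  have h2 := congrArg R.red h1
  rw [map_mul, h0, mul_zero, map_one] at h2
  exact zero_ne_one h2

theorem algebraMap_mem_nonunits (hR : R.IsPR) {x : K} (hx : x ∈ A.nonunits) :
    algebraMap K F x ∈ R.O.nonunits := by
  have hxA : x ∈ A := ge_nonunits_mem hx
  have h1 := hR.red_algebraMap ⟨x, hxA⟩ (hR.algebraMap_mem ⟨x, hxA⟩)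
  rw [(hR.res_eq_zero_iff ⟨x, hxA⟩).2 hx, map_zero] at h1
  exact (hR.red_eq_zero_iff _).1 h1

theorem nonunits_add {B : ValuationSubring F} {x y : F} (hx : x ∈ B.nonunits)
    (hy : y ∈ B.nonunits) : x + y ∈ B.nonunits := by
  rw [ValuationSubring.mem_nonunits_iff_exists_mem_maximalIdeal] at hx hy ⊢
  obtain ⟨hx1, hx2⟩ := hx
  obtain ⟨hy1, hy2⟩ := hy
  exact ⟨add_mem hx1 hy1, (IsLocalRing.maximalIdeal B).add_mem hx2 hy2⟩

theorem pow_mem_nonunits {x : K} (hx : x ∈ A.nonunits) {n : ℕ} (hn : 0 < n) :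
    x ^ n ∈ A.nonunits := by
  obtain ⟨m, rfl⟩ : ∃ m, n = m + 1 := ⟨n - 1, by omega⟩
  rw [pow_succ]
  exact ge_nonunits_mul_mem (pow_mem (ge_nonunits_mem hx) m) hx

theorem red_tau_ne_zero (hR : R.IsPR) (hC : C.IsChart) (i : Fin g) (h : C.tau i ∈ R.O) :
    R.red ⟨C.tau i, h⟩ ≠ 0 := by
  have ht := t_mem_O C hC
  have e : (⟨C.tau i, h⟩ : R.O)
      = ⟨C.t, ht⟩ - ⟨algebraMap K F (C.c i : K), hR.algebraMap_mem (C.c i)⟩ := rfl
  rw [e, map_sub, hR.red_const]
  exact red_sub_ne_zero C hC ht i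

theorem hfun_mem_O (hR : R.IsPR) (hC : C.IsChart) (z z' : Fin g → K) (hz : ∀ i, z i ∈ A)
    (hz' : ∀ i, z' i ∈ A) {ψ : F} (hψ : ψ ∈ R.O) (i : Fin g) : hfun C z z' ψ i ∈ R.O := by
  unfold hfun
  exact mul_mem (mul_mem (mul_mem hψ (tau_sub_mem_O C hR hC i (hz i)))
    (tau_sub_mem_O C hR hC i (hz' i)))
    (inv_mem_O hR (tau_mem_O hR hC i) (red_tau_ne_zero hR hC i _))

/-! ### the main theorem -/

/-- **GEO-CMP**: the addition law of the kernel of reduction in the coordinates of the chart is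
given modulo `ϖ ^ n` by polynomials with coefficients in `A`. -/
theorem stmtAddApprox_of (hX : StmtExpand) (hT : StmtTaylorInt) (hB : StmtBFamily)
    (hAL : StmtApprox) : StmtAddApprox := by
  classical
  intro K F k Fk _ _ _ _ _ _ A R g hR hF hFk hOrth C hC hRep n
  rcases Nat.eq_zero_or_pos n with rfl | hn
  · refine ⟨fun _ => 0, fun i m => by simp [A.zero_mem], ?_⟩
    intro ϖ _ _ P P' P'' z z' ζ _ _ hP'' _ _ _ i
    exact ⟨ζ i, ge_nonunits_mem (hP'' i).2.1, by simp⟩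
  obtain ⟨ι, hι⟩ := exists_expData C hX hR hF hC
  obtain ⟨b, hb⟩ := exists_bFamily hB hR hF hFk hOrth hC hι
  obtain ⟨Φ, hΦ⟩ := exists_addPoly_local (bA hb) (pol_bA hb) n hn
  refine ⟨fun i => MvPolynomial.map A.subtype (Φ i), ?_, ?_⟩
  · intro i m
    rw [MvPolynomial.coeff_map]
    exact Subtype.mem _
  intro ϖ hϖ hϖ0 P P' P'' z z' ζ hP hP' hP'' hz hz' hprin i₀
  have hpd := hF.hpd
  -- the function `ψ`
  obtain ⟨f, hf0, hf⟩ := hprin
  obtain ⟨a, ha0, hu, hured⟩ := hR.prim f hf0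
  have haF : algebraMap K F a ≠ 0 := by simpa using ha0
  have hψO : (algebraMap K F a * f)⁻¹ ∈ R.O := inv_mem_O hR hu hured
  have hψred := red_inv_ne_zero hu hured hψO
  set ψ : F := (algebraMap K F a * f)⁻¹ with hψdef
  have hψ0 : ψ ≠ 0 := inv_ne_zero (mul_ne_zero haF hf0)
  have hψ : ∀ v : Place K F, v.ord ψ = C.div P'' v - C.div P v - C.div P' v := by
    intro v
    rw [hψdef, Place.ord_inv, Place.ord_mul _ haF hf0, PlaceAux.ord_algebraMap, zero_add,
      ← hf v, Finsupp.sub_apply, Finsupp.add_apply]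
    ring
  -- approximation by a function with poles at the centres
  obtain ⟨ψ', hψ'O, hψ'p, h, hhO, hdiff⟩ := hAL K F k Fk A R g hR hF hFk hOrth C hC hRep ϖ hϖ
    hϖ0 ψ hψO (psi_polesInDiscs C P P' P'' z z' hP hP' ψ hψ ϖ hz hz') n
  obtain ⟨a₀, ω, hdec⟩ := exists_decomp hT hR hF hFk hOrth hC hι hb hψ'O hψ'p
  -- the data over `A`
  have hzA : ∀ i, z i ∈ A := fun i => ge_nonunits_mem (hP i).2.1
  have hzA' : ∀ i, z' i ∈ A := fun i => ge_nonunits_mem (hP' i).2.1
  have hζA : ∀ i, ζ i ∈ A := fun i => ge_nonunits_mem (hP'' i).2.1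
  have hϖA : ϖ ∈ A := ge_nonunits_mem hϖ
  set zA : Fin g → ↥A := fun i => ⟨z i, hzA i⟩ with hzAdef
  set zA' : Fin g → ↥A := fun i => ⟨z' i, hzA' i⟩ with hzAdef'
  set ζA : Fin g → ↥A := fun i => ⟨ζ i, hζA i⟩ with hζAdef
  set ϖA : ↥A := ⟨ϖ, hϖA⟩ with hϖAdef
  have hmax : ∀ x : ↥A, (x : K) ∈ A.nonunits → x ∈ IsLocalRing.maximalIdeal ↥A := by
    intro x hx
    obtain ⟨_, h2⟩ := (ValuationSubring.mem_nonunits_iff_exists_mem_maximalIdeal).1 hx
    exact h2
  have hmax' : ∀ x : ↥A, x ∈ IsLocalRing.maximalIdeal ↥A → (x : K) ∈ A.nonunits := by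
    intro x hx
    exact (ValuationSubring.mem_nonunits_iff_exists_mem_maximalIdeal).2 ⟨x.2, hx⟩
  -- `a₀` and the `ω j` are not all in the maximal ideal
  have hunit : a₀ ∈ IsLocalRing.maximalIdeal ↥A →
      (∀ j, ω j ∈ IsLocalRing.maximalIdeal ↥A) → False := by
    intro h1 h2
    have hψ'n : ψ' ∈ R.O.nonunits := by
      rw [hdec]
      apply nonunits_add (algebraMap_mem_nonunits hR (hmax' _ h1))
      rw [Finsupp.sum]
      refine Finset.sum_induction _ (fun x => x ∈ R.O.nonunits) (fun _ _ => nonunits_add)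
        (ge_zero_mem_nonunits _) ?_
      intro j _
      rw [mul_comm]
      exact ge_nonunits_mul_mem (hb.memO j) (algebraMap_mem_nonunits hR (hmax' _ (h2 j)))
    have hψn : ψ ∈ R.O.nonunits := by
      have e : ψ = ψ' + algebraMap K F (ϖ ^ n) * h := by rw [← hdiff]; ring
      rw [e]
      apply nonunits_add hψ'n
      rw [mul_comm]
      exact ge_nonunits_mul_mem hhO (algebraMap_mem_nonunits hR (pow_mem_nonunits hϖ hn))
    exact hψred ((hR.red_eq_zero_iff ⟨ψ, hψO⟩).2 hψn)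
  -- the level equation and the Taylor relation at every centre
  have key : ∀ i, ∃ (W : PowerSeries ↥A) (H : LaurentSeries ↥A),
      (HahnSeries.ofPowerSeries ℤ ↥A W * tpow ↥A 1
          = (HahnSeries.C a₀ + beta (bA hb) ω i) * (tpow ↥A 1 - HahnSeries.C (zA i))
              * (tpow ↥A 1 - HahnSeries.C (zA' i)) + HahnSeries.C (ϖA ^ n) * H) ∧
      ∀ N : ℕ, ∃ y : ↥A,
        ∑ m ∈ Finset.range N, PowerSeries.coeff m W * ζA i ^ m + ζA i ^ N * y = 0 := by
    intro i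
    have hhfO := hfun_mem_O hR hC z z' hzA hzA' hψO i
    have hhfD := hfun_mem_discRing C hR hpd hC P P' P'' z z' ζ hP hP' hP'' ψ hψ0 hψ i
    obtain ⟨W, hW, hval⟩ := taylor_int hT hR hF hFk hC hι i hhfO hhfD
    -- the function `H`
    set Hf : F := h * ((C.tau i - algebraMap K F (z i)) * (C.tau i - algebraMap K F (z' i)))
      with hHf
    have hHfO : Hf ∈ R.O :=
      mul_mem hhO (mul_mem (tau_sub_mem_O C hR hC i (hzA i)) (tau_sub_mem_O C hR hC i (hzA' i)))
    have hid : hfun C z z' ψ i * C.tau i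
        = ψ' * ((C.tau i - algebraMap K F (z i)) * (C.tau i - algebraMap K F (z' i)))
          + algebraMap K F (ϖ ^ n) * Hf := by
      rw [hfun_mul_tau C hR hpd hC z z' ψ i, hHf]
      have e : ψ = ψ' + algebraMap K F (ϖ ^ n) * h := by rw [← hdiff]; ring
      rw [e]
      ring
    obtain ⟨m, hm⟩ := exists_pow_tau_mul_mem hR hpd hC i hψ'p
    have hϖn : ϖ ^ n ≠ 0 := pow_ne_zero n hϖ0
    have hHfD : C.tau i ^ m * Hf ∈ discRing R (R.r (C.Q i)) := by
      have e : C.tau i ^ m * Hf = algebraMap K F (ϖ ^ n)⁻¹ *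
          (C.tau i ^ m * hfun C z z' ψ i * C.tau i
            - (C.tau i ^ m * ψ') *
              ((C.tau i - algebraMap K F (z i)) * (C.tau i - algebraMap K F (z' i)))) := by
        have h1 : C.tau i ^ m * hfun C z z' ψ i * C.tau i
            - (C.tau i ^ m * ψ') *
              ((C.tau i - algebraMap K F (z i)) * (C.tau i - algebraMap K F (z' i)))
            = algebraMap K F (ϖ ^ n) * (C.tau i ^ m * Hf) := by
          rw [mul_assoc, hid]; ring
        have hc : algebraMap K F (ϖ ^ n) ≠ 0 := by simpa using hϖn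
        rw [h1, map_inv₀, inv_mul_cancel_left₀ hc]
      rw [e]
      refine Subalgebra.mul_mem _ (Subalgebra.algebraMap_mem _ _) (Subalgebra.sub_mem _ ?_ ?_)
      · exact Subalgebra.mul_mem _ (Subalgebra.mul_mem _
          (Subalgebra.pow_mem _ (tau_mem_discRing hC i) m) hhfD) (tau_mem_discRing hC i)
      · exact Subalgebra.mul_mem _ hm (Subalgebra.mul_mem _ (tau_sub_mem_discRing C hC i _)
          (tau_sub_mem_discRing C hC i _))
    obtain ⟨sH, hsH⟩ := exists_descend_of_pow hT hR hF hFk hC hι i hHfO m hHfD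
    refine ⟨W, sH, ?_, ?_⟩
    · apply lmap_subtype_injective A
      have h1 := congrArg (ι i) hid
      rw [map_add, map_mul, map_mul, map_mul, map_mul, map_sub, map_sub, hι.tau, hι.const,
        hι.const, hι.const, hdec, map_add, hι.const, iota_sum hι hb] at h1
      rw [map_add, map_mul, map_mul, map_mul, map_mul, map_add, map_sub, map_sub,
        lmap_ofPowerSeries, lmap_tpow, lmap_C, lmap_C, lmap_C, lmap_C, hsH]
      rw [← lmap_ofPowerSeries, hW]
      rw [h1]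
      simp only [map_pow, hϖAdef, hzAdef, hzAdef', ValuationSubring.subtype_apply]
      ring
    · intro N
      obtain ⟨y, hy⟩ := hval (P'' i) (ζ i) (hP'' i) N
      have h0 := hfun_hasValueAt_zero C hR hpd hC P P' P'' z z' ζ hP hP' hP'' ψ hψ0 hψ i
      have h1 := hasValueAt_unique (P'' i) hy h0
      refine ⟨y, ?_⟩
      apply Subtype.ext
      have h2 : ((∑ m ∈ Finset.range N, PowerSeries.coeff m W * ζA i ^ m + ζA i ^ N * y : ↥A) : K)
          = ∑ m ∈ Finset.range N, ((PowerSeries.coeff m W : ↥A) : K) * ζ i ^ m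
            + ζ i ^ N * (y : K) := by
        push_cast
        rfl
      rw [h2, h1]
      rfl
  choose W H hW1 hW2 using key
  have hdvd : ∀ i, ϖA ∣ zA i := by
    intro i
    obtain ⟨c, hc, hzc⟩ := hz i
    exact ⟨⟨c, hc⟩, Subtype.ext hzc⟩
  have hdvd' : ∀ i, ϖA ∣ zA' i := by
    intro i
    obtain ⟨c, hc, hzc⟩ := hz' i
    exact ⟨⟨c, hc⟩, Subtype.ext hzc⟩
  obtain ⟨c, hc⟩ := hΦ ϖA (hmax _ hϖ) zA zA' ζA hdvd hdvd' (fun i => hmax _ (hP'' i).2.1)
    a₀ ω hunit W H hW1 hW2 i₀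
  refine ⟨c, c.2, ?_⟩
  have h1 := congrArg (A.subtype) hc
  rw [map_sub, map_mul, map_pow] at h1
  have h2 : A.subtype (MvPolynomial.eval (Sum.elim zA zA') (Φ i₀))
      = MvPolynomial.eval (Sum.elim z z') (MvPolynomial.map A.subtype (Φ i₀)) := by
    rw [MvPolynomial.eval_map]
    have := MvPolynomial.eval₂_comp_left A.subtype (RingHom.id ↥A) (Sum.elim zA zA') (Φ i₀)
    rw [RingHom.comp_id] at this
    have e : (A.subtype ∘ Sum.elim zA zA' : Fin g ⊕ Fin g → K) = Sum.elim z z' := by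
      funext s
      rcases s with s | s <;> rfl
    rw [e] at this
    exact this
  rw [h2] at h1
  exact h1

end Fermat.Agent.W1.Cmp
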