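import Mathlib
import Fermat.Prelude.Def_AlgebraicCurve_Repartitions
import Fermat.Agent.S24.PlaceBasic

/-!
# W1 GEO-X, core: the expansion of a function field at a rational place

`P` a place of `F / K` with residue field `K`, `u` a uniformiser at `P`.
* `gx_exists_poly`   : every `f` regular at `P` is congruent modulo `u ^ N` to a polynomial in `u`;
* `gx_coeff_eq_zero` : a polynomial `p` with `p(u) ≡ 0` modulo `u ^ N` has no coefficients below `N`;
* `gxCo`, `gxPS`     : the coefficients and the power series of the expansion;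
* `gxO`              : the ring homomorphism `O_P → K⟦X⟧`;
* `gxIota`           : the ring homomorphism `F → K⸨X⸩`, with `gxIota_const`, `gxIota_unif`,
  `gxIota_order`.
-/

set_option autoImplicit false

noncomputable section

namespace Fermat.Agent.W1.GX

open AlgebraicCurve Polynomial WithZero Fermat.Agent.S24

variable {K F : Type*} [Field K] [Field F] [Algebra K F] (P : Place K F)

/-- the valuation of a nonzero constant is `1` -/
theorem gx_val_const {a : K} (ha : a ≠ 0) : P.adicValuation (algebraMap K F a) = 1 := by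
  have h0 : algebraMap K F a ≠ 0 := (_root_.map_ne_zero _).mpr ha
  rw [P.adicValuation_eq_exp_neg_ord h0, PlaceAux.ord_algebraMap, neg_zero, exp_zero]

/-- the valuation of a uniformiser -/
theorem gx_val_unif {u : F} (hu : P.ord u = 1) : P.adicValuation u = exp (-1 : ℤ) := by
  have h0 : u ≠ 0 := by
    rintro rfl
    rw [Place.ord_zero] at hu
    exact zero_ne_one hu
  rw [P.adicValuation_eq_exp_neg_ord h0, hu]

theorem gx_exp_neg_one_lt_one : (exp (-1 : ℤ) : ℤᵐ⁰) < 1 := by
  rw [← exp_zero, exp_lt_exp]
  norm_num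

theorem gx_val_unif_le_one {u : F} (hu : P.adicValuation u = exp (-1 : ℤ)) :
    P.adicValuation u ≤ 1 := by
  rw [hu]; exact gx_exp_neg_one_lt_one.le

/-- polynomials in `u` are regular at `P` -/
theorem gx_val_aeval_le {u : F} (hu : P.adicValuation u ≤ 1) (p : K[X]) :
    P.adicValuation (aeval u p) ≤ 1 := by
  induction p using Polynomial.induction_on' with
  | add p q hp hq =>
    rw [map_add]
    exact (Valuation.map_add _ _ _).trans (max_le hp hq)
  | monomial n a =>
    rw [aeval_monomial, map_mul, map_pow]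
    exact mul_le_one' (P.adicValuation_algebraMap_le_one a) (pow_le_one' hu n)

/-- the valuation of `x * u ^ N` -/
theorem gx_val_mul_pow {u : F} (hu : P.adicValuation u = exp (-1 : ℤ)) (x : F) (N : ℕ) :
    P.adicValuation (x * u ^ N) = P.adicValuation x * exp (-(N : ℤ)) := by
  rw [map_mul, map_pow, hu, ← exp_nsmul, nsmul_eq_mul, mul_neg, mul_one]

/-- cancellation of `exp` factors -/
theorem gx_le_of_mul_exp_le {x : ℤᵐ⁰} {a b : ℤ} (h : x * exp a ≤ exp (b + a)) : x ≤ exp b := by
  have h1 : x * exp a * exp (-a) ≤ exp (b + a) * exp (-a) := by gcongr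
  rwa [mul_assoc, ← exp_add, ← exp_add, add_neg_cancel, exp_zero, mul_one,
    add_neg_cancel_right] at h1

/-- **uniqueness**: a polynomial `p` with `p(u) ≡ 0` modulo `u ^ N` has no coefficient below `N` -/
theorem gx_coeff_eq_zero {u : F} (hu : P.adicValuation u = exp (-1 : ℤ)) :
    ∀ (N : ℕ) (p : K[X]), P.adicValuation (aeval u p) ≤ exp (-(N : ℤ)) →
      ∀ n < N, p.coeff n = 0
  | 0, _, _, n, hn => absurd hn (Nat.not_lt_zero n)
  | N + 1, p, hp, n, hn => by
    have hev : aeval u p = aeval u p.divX * u + algebraMap K F (p.coeff 0) := by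
      conv_lhs => rw [← Polynomial.divX_mul_X_add p]
      rw [map_add, map_mul, aeval_X, aeval_C]
    have h0 : p.coeff 0 = 0 := by
      by_contra hne
      have hc := gx_val_const P hne
      have h1 : P.adicValuation (aeval u p.divX * u) ≤ exp (-1 : ℤ) := by
        rw [map_mul, hu]
        exact mul_le_of_le_one_left' (gx_val_aeval_le P (gx_val_unif_le_one P hu) _)
      have h2 : algebraMap K F (p.coeff 0) = aeval u p - aeval u p.divX * u := by
        rw [hev]; ring
      have h3 : P.adicValuation (algebraMap K F (p.coeff 0)) ≤ exp (-1 : ℤ) := by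
        rw [h2]
        refine (Valuation.map_sub _ _ _).trans (max_le (hp.trans ?_) h1)
        rw [exp_le_exp]
        push_cast
        omega
      rw [hc] at h3
      exact absurd h3 (not_le.mpr gx_exp_neg_one_lt_one)
    rcases n with _ | n
    · exact h0
    · rw [← Polynomial.coeff_divX]
      refine gx_coeff_eq_zero hu N p.divX ?_ n (by omega)
      have h4 : aeval u p = aeval u p.divX * u ^ 1 := by
        rw [hev, h0, map_zero, add_zero, pow_one]
      rw [h4, gx_val_mul_pow P hu] at hp
      refine gx_le_of_mul_exp_le (a := -((1 : ℕ) : ℤ)) ?_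
      refine hp.trans (le_of_eq ?_)
      congr 1
      push_cast
      ring

/-- the constant term: an element regular at `P` is congruent to a constant modulo `u` -/
theorem gx_exists_const (hres : Function.Surjective (algebraMap K P.ResidueField)) {g : F}
    (hg : P.adicValuation g ≤ 1) :
    ∃ a : K, P.adicValuation (g - algebraMap K F a) ≤ exp (-1 : ℤ) := by
  have hmem : g ∈ P.toValuationSubring := (PlaceAux.mem_iff_adicValuation_le_one P g).2 hg
  obtain ⟨a, ha⟩ := hres (IsLocalRing.residue _ ⟨g, hmem⟩)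
  refine ⟨a, ?_⟩
  have h1 : IsLocalRing.residue P.toValuationSubring
      (⟨g, hmem⟩ - algebraMap K P.toValuationSubring a) = 0 := by
    rw [map_sub, ← ha, sub_eq_zero]
    rfl
  rw [IsLocalRing.residue_eq_zero_iff] at h1
  rcases eq_or_ne (g - algebraMap K F a) 0 with h | h
  · rw [h, map_zero]; exact zero_le
  · have h2 : g - algebraMap K F a ∈ P.toValuationSubring.nonunits := by
      rw [ValuationSubring.mem_nonunits_iff_exists_mem_maximalIdeal]
      exact ⟨(⟨g, hmem⟩ - algebraMap K P.toValuationSubring a : P.toValuationSubring).2, h1⟩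
    have h3 := (PlaceAux.ord_pos_iff_mem_nonunits P h).2 h2
    rw [P.adicValuation_eq_exp_neg_ord h, exp_le_exp]
    omega

/-- **existence**: an element regular at `P` is congruent modulo `u ^ N` to a polynomial in `u` -/
theorem gx_exists_poly (hres : Function.Surjective (algebraMap K P.ResidueField)) {u : F}
    (hu : P.adicValuation u = exp (-1 : ℤ)) {f : F} (hf : P.adicValuation f ≤ 1) :
    ∀ N : ℕ, ∃ p : K[X], P.adicValuation (f - aeval u p) ≤ exp (-(N : ℤ))
  | 0 => ⟨0, by simpa using hf⟩
  | N + 1 => by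
    obtain ⟨p, hp⟩ := gx_exists_poly hres hu hf N
    have hu0 : u ≠ 0 := by
      rintro rfl
      rw [map_zero] at hu
      exact (exp_ne_zero).symm hu
    set g : F := (f - aeval u p) / u ^ N with hg
    have hgu : f - aeval u p = g * u ^ N := by
      rw [hg, div_mul_cancel₀ _ (pow_ne_zero N hu0)]
    have hg1 : P.adicValuation g ≤ 1 := by
      rw [hgu, gx_val_mul_pow P hu] at hp
      have := gx_le_of_mul_exp_le (a := -(N : ℤ)) (b := 0) (by simpa using hp)
      simpa using this
    obtain ⟨a, ha⟩ := gx_exists_const P hres hg1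
    refine ⟨p + Polynomial.monomial N a, ?_⟩
    have h1 : f - aeval u (p + Polynomial.monomial N a) = (g - algebraMap K F a) * u ^ N := by
      rw [map_add, aeval_monomial, sub_mul, ← hgu]
      ring
    rw [h1, gx_val_mul_pow P hu]
    calc P.adicValuation (g - algebraMap K F a) * exp (-(N : ℤ))
        ≤ exp (-1 : ℤ) * exp (-(N : ℤ)) := by gcongr
      _ = exp (-((N + 1 : ℕ) : ℤ)) := by
        rw [← exp_add]; congr 1; push_cast; ring

/-- a polynomial without coefficients below `N` is divisible by `u ^ N` at `u` -/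
theorem gx_val_aeval_le_of_coeff {u : F} (hu : P.adicValuation u = exp (-1 : ℤ)) (N : ℕ)
    (p : K[X]) (hp : ∀ n < N, p.coeff n = 0) : P.adicValuation (aeval u p) ≤ exp (-(N : ℤ)) := by
  obtain ⟨q, rfl⟩ := (Polynomial.X_pow_dvd_iff).2 hp
  rw [map_mul, map_pow, aeval_X, mul_comm, gx_val_mul_pow P hu]
  exact mul_le_of_le_one_left' (gx_val_aeval_le P (gx_val_unif_le_one P hu) _)

/-! ### the coefficients of the expansion -/

open Classical in
/-- the `n`-th coefficient of the expansion of `f` in `u` -/
def gxCo (u f : F) (n : ℕ) : K :=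
  if h : ∃ p : K[X], P.adicValuation (f - aeval u p) ≤ exp (-((n + 1 : ℕ) : ℤ)) then
    (Classical.choose h).coeff n else 0

theorem gxCo_eq {u : F} (hu : P.adicValuation u = exp (-1 : ℤ)) {f : F} {N : ℕ} {p : K[X]}
    (hp : P.adicValuation (f - aeval u p) ≤ exp (-(N : ℤ))) {n : ℕ} (hn : n < N) :
    gxCo P u f n = p.coeff n := by
  have hle : (exp (-(N : ℤ)) : ℤᵐ⁰) ≤ exp (-((n + 1 : ℕ) : ℤ)) := by
    rw [exp_le_exp]; push_cast; omega
  have hex : ∃ p : K[X], P.adicValuation (f - aeval u p) ≤ exp (-((n + 1 : ℕ) : ℤ)) :=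
    ⟨p, hp.trans hle⟩
  rw [gxCo, dif_pos hex]
  have h0 := Classical.choose_spec hex
  have h1 : P.adicValuation (aeval u (Classical.choose hex - p)) ≤ exp (-((n + 1 : ℕ) : ℤ)) := by
    have : aeval u (Classical.choose hex - p)
        = (f - aeval u p) - (f - aeval u (Classical.choose hex)) := by
      rw [map_sub]; ring
    rw [this]
    exact (Valuation.map_sub _ _ _).trans (max_le (hp.trans hle) h0)
  have := gx_coeff_eq_zero P hu (n + 1) _ h1 n (Nat.lt_succ_self n)
  rwa [coeff_sub, sub_eq_zero] at this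

/-- the power series of the expansion of `f` in `u` -/
def gxPS (u f : F) : PowerSeries K := PowerSeries.mk (gxCo P u f)

theorem gxPS_coeff {u : F} (hu : P.adicValuation u = exp (-1 : ℤ)) {f : F} {N : ℕ} {p : K[X]}
    (hp : P.adicValuation (f - aeval u p) ≤ exp (-(N : ℤ))) {n : ℕ} (hn : n < N) :
    PowerSeries.coeff n (gxPS P u f) = p.coeff n := by
  rw [gxPS, PowerSeries.coeff_mk, gxCo_eq P hu hp hn]

/-- the expansion of a polynomial in `u` -/
theorem gxPS_aeval {u : F} (hu : P.adicValuation u = exp (-1 : ℤ)) (p : K[X]) :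
    gxPS P u (aeval u p) = (p : PowerSeries K) := by
  ext n
  have h : P.adicValuation (aeval u p - aeval u p) ≤ exp (-((n + 1 : ℕ) : ℤ)) := by
    rw [sub_self, map_zero]; exact zero_le
  rw [gxPS_coeff P hu h (Nat.lt_succ_self n), Polynomial.coeff_coe]

variable (hres : Function.Surjective (algebraMap K P.ResidueField))

include hres in
theorem gxPS_add {u : F} (hu : P.adicValuation u = exp (-1 : ℤ)) {f g : F}
    (hf : P.adicValuation f ≤ 1) (hg : P.adicValuation g ≤ 1) :
    gxPS P u (f + g) = gxPS P u f + gxPS P u g := by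
  ext n
  obtain ⟨p, hp⟩ := gx_exists_poly P hres hu hf (n + 1)
  obtain ⟨q, hq⟩ := gx_exists_poly P hres hu hg (n + 1)
  have h : P.adicValuation (f + g - aeval u (p + q)) ≤ exp (-((n + 1 : ℕ) : ℤ)) := by
    have : f + g - aeval u (p + q) = (f - aeval u p) + (g - aeval u q) := by
      rw [map_add]; ring
    rw [this]
    exact (Valuation.map_add _ _ _).trans (max_le hp hq)
  rw [map_add, gxPS_coeff P hu h (Nat.lt_succ_self n), gxPS_coeff P hu hp (Nat.lt_succ_self n),
    gxPS_coeff P hu hq (Nat.lt_succ_self n), coeff_add]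

include hres in
theorem gxPS_mul {u : F} (hu : P.adicValuation u = exp (-1 : ℤ)) {f g : F}
    (hf : P.adicValuation f ≤ 1) (hg : P.adicValuation g ≤ 1) :
    gxPS P u (f * g) = gxPS P u f * gxPS P u g := by
  ext n
  obtain ⟨p, hp⟩ := gx_exists_poly P hres hu hf (n + 1)
  obtain ⟨q, hq⟩ := gx_exists_poly P hres hu hg (n + 1)
  have h : P.adicValuation (f * g - aeval u (p * q)) ≤ exp (-((n + 1 : ℕ) : ℤ)) := by
    have : f * g - aeval u (p * q) = f * (g - aeval u q) + aeval u q * (f - aeval u p) := by
      rw [map_mul]; ring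
    rw [this]
    refine (Valuation.map_add _ _ _).trans (max_le ?_ ?_)
    · rw [map_mul]
      exact (mul_le_of_le_one_left' hf).trans hq
    · rw [map_mul]
      exact (mul_le_of_le_one_left' (gx_val_aeval_le P (gx_val_unif_le_one P hu) q)).trans hp
  rw [gxPS_coeff P hu h (Nat.lt_succ_self n), Polynomial.coeff_mul, PowerSeries.coeff_mul]
  refine Finset.sum_congr rfl fun x hx => ?_
  have hx' := Finset.HasAntidiagonal.mem_antidiagonal.1 hx
  rw [gxPS_coeff P hu hp (show x.1 < n + 1 by omega),
    gxPS_coeff P hu hq (show x.2 < n + 1 by omega)]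

/-- the ring homomorphism `O_P → K⟦X⟧` -/
def gxO {u : F} (hu : P.adicValuation u = exp (-1 : ℤ)) :
    P.toValuationSubring →+* PowerSeries K where
  toFun f := gxPS P u (f : F)
  map_one' := by
    have h := gxPS_aeval P hu (1 : K[X])
    rw [map_one, Polynomial.coe_one] at h
    exact h
  map_mul' f g := gxPS_mul P hres hu (P.adicValuation_le_one_of_mem f.2)
    (P.adicValuation_le_one_of_mem g.2)
  map_zero' := by
    have h := gxPS_aeval P hu (0 : K[X])
    rw [map_zero, Polynomial.coe_zero] at h
    exact h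
  map_add' f g := gxPS_add P hres hu (P.adicValuation_le_one_of_mem f.2)
    (P.adicValuation_le_one_of_mem g.2)

theorem gxO_apply {u : F} (hu : P.adicValuation u = exp (-1 : ℤ)) (f : P.toValuationSubring) :
    gxO P hres hu f = gxPS P u (f : F) := rfl

include hres in
/-- the expansion is injective -/
theorem gxPS_eq_zero {u : F} (hu : P.adicValuation u = exp (-1 : ℤ)) {f : F}
    (hf : P.adicValuation f ≤ 1) (h : gxPS P u f = 0) : f = 0 := by
  by_contra hne
  have hv := P.adicValuation_eq_exp_neg_ord hne
  have hord : 0 ≤ P.ord f := by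
    rw [hv, ← exp_zero, exp_le_exp] at hf
    omega
  obtain ⟨N, hN⟩ : ∃ N : ℕ, P.ord f < N := ⟨(P.ord f).toNat + 1, by push_cast; omega⟩
  obtain ⟨p, hp⟩ := gx_exists_poly P hres hu hf N
  have hp0 : ∀ n < N, p.coeff n = 0 := by
    intro n hn
    rw [← gxPS_coeff P hu hp hn, h, map_zero]
  have h1 := gx_val_aeval_le_of_coeff P hu N p hp0
  have h2 : P.adicValuation f ≤ exp (-(N : ℤ)) := by
    have : f = (f - aeval u p) + aeval u p := by ring
    rw [this]
    exact (Valuation.map_add _ _ _).trans (max_le hp h1)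
  rw [hv, exp_le_exp] at h2
  omega

include hres in
theorem gxO_injective {u : F} (hu : P.adicValuation u = exp (-1 : ℤ)) :
    Function.Injective (gxO P hres hu) := by
  rw [injective_iff_map_eq_zero]
  intro f hf
  exact Subtype.ext (gxPS_eq_zero P hres hu (P.adicValuation_le_one_of_mem f.2) hf)

include hres in
/-- the constant coefficient of the expansion of a unit is nonzero -/
theorem gxPS_coeff_zero_ne_zero {u : F} (hu : P.adicValuation u = exp (-1 : ℤ)) {f : F}
    (hf : P.adicValuation f = 1) : PowerSeries.coeff 0 (gxPS P u f) ≠ 0 := by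
  intro h0
  obtain ⟨p, hp⟩ := gx_exists_poly P hres hu hf.le 1
  have hp0 : ∀ n < 1, p.coeff n = 0 := by
    intro n hn
    obtain rfl : n = 0 := by omega
    rw [← gxPS_coeff P hu hp Nat.zero_lt_one, h0]
  have h1 := gx_val_aeval_le_of_coeff P hu 1 p hp0
  have h2 : P.adicValuation f ≤ exp (-((1 : ℕ) : ℤ)) := by
    have : f = (f - aeval u p) + aeval u p := by ring
    rw [this]
    exact (Valuation.map_add _ _ _).trans (max_le hp h1)
  rw [hf] at h2
  exact absurd h2 (not_le.mpr (by simpa using gx_exp_neg_one_lt_one))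

/-! ### the expansion as a ring homomorphism `F → K⸨X⸩` -/

/-- the ring homomorphism `F → K⸨X⸩` -/
def gxIota {u : F} (hu : P.adicValuation u = exp (-1 : ℤ)) : F →+* LaurentSeries K :=
  IsFractionRing.lift (A := P.toValuationSubring) (K := F)
    (g := (HahnSeries.ofPowerSeries ℤ K).comp (gxO P hres hu))
    (HahnSeries.ofPowerSeries_injective.comp (gxO_injective P hres hu))

theorem gxIota_of_le_one {u : F} (hu : P.adicValuation u = exp (-1 : ℤ)) {f : F}
    (hf : P.adicValuation f ≤ 1) :
    gxIota P hres hu f = HahnSeries.ofPowerSeries ℤ K (gxPS P u f) := by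
  have hmem : f ∈ P.toValuationSubring := (PlaceAux.mem_iff_adicValuation_le_one P f).2 hf
  exact IsFractionRing.lift_algebraMap
    (HahnSeries.ofPowerSeries_injective.comp (gxO_injective P hres hu))
    (⟨f, hmem⟩ : P.toValuationSubring)

theorem gxIota_aeval {u : F} (hu : P.adicValuation u = exp (-1 : ℤ)) (p : K[X]) :
    gxIota P hres hu (aeval u p) = HahnSeries.ofPowerSeries ℤ K (p : PowerSeries K) := by
  rw [gxIota_of_le_one P hres hu (gx_val_aeval_le P (gx_val_unif_le_one P hu) p),
    gxPS_aeval P hu]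

/-- constants -/
theorem gxIota_const {u : F} (hu : P.adicValuation u = exp (-1 : ℤ)) (a : K) :
    gxIota P hres hu (algebraMap K F a) = HahnSeries.C a := by
  have h := gxIota_aeval P hres hu (Polynomial.C a)
  rwa [aeval_C, Polynomial.coe_C, HahnSeries.ofPowerSeries_C] at h

/-- the uniformiser -/
theorem gxIota_unif {u : F} (hu : P.adicValuation u = exp (-1 : ℤ)) :
    gxIota P hres hu u = HahnSeries.single 1 1 := by
  have h := gxIota_aeval P hres hu Polynomial.X
  rwa [aeval_X, Polynomial.coe_X, HahnSeries.ofPowerSeries_X] at h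

/-- a power series with nonzero constant coefficient has order `0` as a Laurent series -/
theorem gx_order_ofPowerSeries {s : PowerSeries K} (hs : PowerSeries.coeff 0 s ≠ 0) :
    (HahnSeries.ofPowerSeries ℤ K s).order = 0 := by
  have h0 : (HahnSeries.ofPowerSeries ℤ K s).coeff 0 ≠ 0 := by
    have := HahnSeries.ofPowerSeries_apply_coeff (Γ := ℤ) s 0
    rw [Nat.cast_zero] at this
    rwa [this]
  apply le_antisymm (HahnSeries.order_le_of_coeff_ne_zero h0)
  by_contra hlt
  push Not at hlt
  have h1 : (HahnSeries.ofPowerSeries ℤ K s).coeff (HahnSeries.ofPowerSeries ℤ K s).order = 0 := by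
    have := PowerSeries.coeff_coe (f := s) (HahnSeries.ofPowerSeries ℤ K s).order
    rw [if_pos hlt] at this
    exact this
  rw [HahnSeries.coeff_order_eq_zero] at h1
  rw [h1] at h0
  exact h0 rfl

/-- **the order of the expansion is the order at the place** -/
theorem gxIota_order {u : F} (hu : P.adicValuation u = exp (-1 : ℤ)) {f : F} (hf : f ≠ 0) :
    (gxIota P hres hu f).order = P.ord f := by
  have hu0 : u ≠ 0 := by
    rintro rfl
    rw [map_zero] at hu
    exact (exp_ne_zero).symm hu
  set m : ℤ := P.ord f with hm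
  set w : F := f * u ^ (-m) with hw
  have hfw : f = w * u ^ m := by
    rw [hw, mul_assoc, ← zpow_add₀ hu0, neg_add_cancel, zpow_zero, mul_one]
  have hwv : P.adicValuation w = 1 := by
    rw [hw, map_mul, map_zpow₀, hu, P.adicValuation_eq_exp_neg_ord hf, ← exp_zsmul, ← exp_add,
      ← hm, smul_eq_mul]
    have : -m + -m * -1 = 0 := by ring
    rw [this, exp_zero]
  have hcoe := gxPS_coeff_zero_ne_zero P hres hu hwv
  have h1 : gxIota P hres hu f
      = HahnSeries.ofPowerSeries ℤ K (gxPS P u w) * HahnSeries.single m (1 : K) := by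
    conv_lhs => rw [hfw]
    rw [map_mul, map_zpow₀, gxIota_unif, gxIota_of_le_one P hres hu hwv.le, RatFunc.single_zpow m]
  have hne1 : HahnSeries.ofPowerSeries ℤ K (gxPS P u w) ≠ 0 := by
    intro h
    have := gx_order_ofPowerSeries hcoe
    have h0 : (HahnSeries.ofPowerSeries ℤ K (gxPS P u w)).coeff 0 ≠ 0 := by
      have h2 := HahnSeries.ofPowerSeries_apply_coeff (Γ := ℤ) (gxPS P u w) 0
      rw [Nat.cast_zero] at h2
      rwa [h2]
    rw [h] at h0
    exact h0 rfl
  have hne2 : HahnSeries.single m (1 : K) ≠ 0 := by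
    rw [Ne, HahnSeries.single_eq_zero_iff]
    exact one_ne_zero
  rw [h1, HahnSeries.order_mul hne1 hne2, gx_order_ofPowerSeries hcoe,
    HahnSeries.order_single one_ne_zero, zero_add]

end Fermat.Agent.W1.GX
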