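import Fermat.Agent.W1.PlanGeo2
import Fermat.Agent.W1.GeoExpandCore

/-!
# W1 GEO-X: expansions at a rational place exist, are unique and form a ring homomorphism

`stmtExpand : StmtExpand` (see `W1/PlanGeo2.lean`).  The ring homomorphism is
`GX.gxIota` of `W1/GeoExpandCore.lean`; here the truncations `truncAt` are computed and the
conditions `IsExpansion` are derived from `gxIota_order`.
-/

set_option autoImplicit false

noncomputable section

namespace Fermat.Agent.W1.GX

open AlgebraicCurve WithZero Fermat.Agent.W1

variable {K F : Type} [Field K] [Field F] [Algebra K F] (P : Place K F)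
  (hres : Function.Surjective (algebraMap K P.ResidueField))

/-- the truncation of a Laurent series below `n` -/
theorem gx_coeff_sum_single (s : LaurentSeries K) (n j : ℤ) :
    (∑ m ∈ Finset.Ico s.order n, HahnSeries.single m (s.coeff m) : LaurentSeries K).coeff j
      = if j < n then s.coeff j else 0 := by
  rw [HahnSeries.coeff_sum]
  by_cases hmem : j ∈ Finset.Ico s.order n
  · rw [Finset.sum_eq_single_of_mem j hmem
      (fun b _ hb => HahnSeries.coeff_single_of_ne (Ne.symm hb)),
      HahnSeries.coeff_single_same, if_pos (Finset.mem_Ico.1 hmem).2]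
  · rw [Finset.sum_eq_zero fun x hx =>
      HahnSeries.coeff_single_of_ne (by rintro rfl; exact hmem hx)]
    by_cases hj : j < n
    · rw [if_pos hj]
      have hj2 : j < s.order := by
        by_contra h
        exact hmem (Finset.mem_Ico.2 ⟨not_lt.mp h, hj⟩)
      exact (HahnSeries.coeff_eq_zero_of_lt_order hj2).symm
    · rw [if_neg hj]

/-- the expansion of a truncation -/
theorem gxIota_truncAt {u : F} (hu : P.adicValuation u = exp (-1 : ℤ)) (s : LaurentSeries K)
    (n : ℤ) :
    gxIota P hres hu (truncAt u s n)
      = ∑ m ∈ Finset.Ico s.order n, HahnSeries.single m (s.coeff m) := by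
  rw [truncAt, map_sum]
  refine Finset.sum_congr rfl fun m _ => ?_
  rw [map_mul, map_zpow₀, gxIota_const, gxIota_unif, ← RatFunc.single_zpow m,
    HahnSeries.C_apply, HahnSeries.single_mul_single, zero_add, mul_one]

/-- the coefficients of the expansion of `f - truncAt u s n` -/
theorem gxIota_sub_truncAt_coeff {u : F} (hu : P.adicValuation u = exp (-1 : ℤ)) (f : F)
    (s : LaurentSeries K) (n j : ℤ) :
    (gxIota P hres hu (f - truncAt u s n)).coeff j
      = (gxIota P hres hu f).coeff j - if j < n then s.coeff j else 0 := by
  rw [map_sub, HahnSeries.coeff_sub, gxIota_truncAt, gx_coeff_sum_single]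

/-- a nonzero Laurent series whose coefficients below `n` vanish has order `≥ n` -/
theorem gx_le_order {s : LaurentSeries K} (hs : s ≠ 0) (n : ℤ)
    (h : ∀ j < n, s.coeff j = 0) : n ≤ s.order := by
  by_contra hlt
  push Not at hlt
  exact hs (HahnSeries.coeff_order_eq_zero.1 (h _ hlt))

/-- **existence** -/
theorem gx_isExpansion {u : F} (hu : P.adicValuation u = exp (-1 : ℤ)) (f : F) :
    IsExpansion P u f (gxIota P hres hu f) := by
  intro n
  rcases eq_or_ne (f - truncAt u (gxIota P hres hu f) n) 0 with h | h
  · exact Or.inl (sub_eq_zero.1 h)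
  · right
    rw [← gxIota_order P hres hu h]
    refine gx_le_order ((_root_.map_ne_zero _).2 h) n fun j hj => ?_
    rw [gxIota_sub_truncAt_coeff, if_pos hj, sub_self]

/-- **uniqueness** -/
theorem gx_unique {u : F} (hu : P.adicValuation u = exp (-1 : ℤ)) (f : F) (s : LaurentSeries K)
    (hs : IsExpansion P u f s) : s = gxIota P hres hu f := by
  ext j
  have key : (gxIota P hres hu (f - truncAt u s (j + 1))).coeff j = 0 := by
    rcases eq_or_ne (f - truncAt u s (j + 1)) 0 with h | h
    · rw [h, map_zero]; rfl
    · have h1 : j + 1 ≤ P.ord (f - truncAt u s (j + 1)) := by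
        rcases hs (j + 1) with h2 | h2
        · exact absurd (sub_eq_zero.2 h2) h
        · exact h2
      rw [← gxIota_order P hres hu h] at h1
      exact HahnSeries.coeff_eq_zero_of_lt_order (by omega)
  rw [gxIota_sub_truncAt_coeff, if_pos (by omega), sub_eq_zero] at key
  exact key.symm

end Fermat.Agent.W1.GX

namespace Fermat.Agent.W1

open AlgebraicCurve

/-- **GEO-X**: expansions exist, are unique, and form a ring homomorphism `F → K((T))`. -/
theorem stmtExpand : StmtExpand := by
  intro K F _ _ _ P hres u hu
  have hu' := GX.gx_val_unif P hu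
  refine ⟨GX.gxIota P hres.2 hu', GX.gx_isExpansion P hres.2 hu', GX.gx_unique P hres.2 hu',
    GX.gxIota_const P hres.2 hu', GX.gxIota_unif P hres.2 hu', fun f hf => ?_⟩
  exact GX.gxIota_order P hres.2 hu' hf

end Fermat.Agent.W1
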