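import Mathlib
import Fermat.Agent.S05.Inertia
import Fermat.Agent.W1.PlanGeo4
import Fermat.Agent.W1.GeoKCAbs

/-!
# W1 GEO-KC: the kernel chart on `J₀(N)` from the abstract pieces and the modular package

`stmtKC : StmtKC` — from `StmtDisc`, `StmtC1`, `StmtLift`, `StmtAddApprox`, `StmtTeich` and the
package `HasModPR N A` we get `HasKernelChart N A` (the hypotheses `StmtEval`, `StmtOnto`,
`StmtC1Conv` of `StmtKC` are not needed).

`J1` is the kernel of reduction `R.J1`, the coordinate map is `kcCoord C` for a chart `C` whose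
centres take Teichmüller values.
-/

set_option autoImplicit false

open AlgebraicCurve Module ModularCurve

namespace Fermat.Agent.W1

/-- elements of the inertia group act on the modular function field like inertia -/
theorem kc_inertiaLike {N : ℕ} [NeZero N] {A : ValuationSubring (AlgebraicClosure ℚ)} {g : ℕ}
    {R : PRData (AlgebraicClosure ℚ) ↥(modularFunctionFieldBar N) (IsLocalRing.ResidueField A)
      ↥(modularFunctionFieldFullC (IsLocalRing.ResidueField A) N) A}
    {t : ↥(modularFunctionFieldBar N)} (hM : ModPR N A g R t) {S : Set A} (hS : IsTeich A S)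
    {σ : AlgebraicClosure ℚ ≃ₐ[ℚ] AlgebraicClosure ℚ} (hσ : σ ∈ A.inertiaSubgroupIn ℚ) :
    InertiaLike R t S (arithmeticGalois (modularFunctionFieldFull N) σ) where
  r_smul := hM.inertia σ hσ
  t_fixed := hM.t_fixed σ
  base_fixed := fun s hs => hS.fixed σ hσ s hs
  base_nonunits := fun a ha => (Fermat.Agent.S05.inertia_apply_mem_nonunits_iff hσ a).mpr ha

/-- **GEO-KC.** -/
theorem stmtKC : StmtKC := by
  intro _ _ hDisc hC1 _ hLift hAdd hTeich N _ p hp A hA hPR
  obtain ⟨g, R, t, hM⟩ := hPR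
  obtain ⟨S, hS⟩ := hTeich p hp A hA
  have hSsurj : ∀ c : IsLocalRing.ResidueField A, ∃ s ∈ S, R.res s = c := by
    rw [hM.res_eq]; exact hS.surj
  have hSinj : ∀ s ∈ S, ∀ s' ∈ S, R.res s = R.res s' → s = s' := by
    rw [hM.res_eq]; exact hS.inj
  have ht : t ∈ R.O := hM.good.1
  obtain ⟨C, hC, hRep, hCt, hcS⟩ := kc_exists_chart hDisc hM.isPR hM.nice hM.nice_k t ht hM.good
    (hM.ram ht) S hSsurj hSinj
  subst hCt
  have hspec : ∀ x : JZero N, x ∈ R.J1 → C.IsCoord x (kcCoord C x) := fun x hx =>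
    kcCoord_spec (isCoord_exists hDisc hC1 hM.isPR hM.nice hM.nice_k hM.orth hC hx)
  have hdecomp : ∀ σ ∈ A.decompositionSubgroup ℚ, ∀ x ∈ R.J1, σ • x ∈ R.J1 := by
    intro σ hσ x hx
    obtain ⟨σb, h1, h2⟩ := hM.decomp σ hσ
    exact kc_smul_mem_J1 (arithmeticGalois (modularFunctionFieldFull N) σ) σb h1 h2 hx
  refine ⟨R.J1, g, kcCoord C, ⟨hdecomp, ?_, ?_, ?_, ?_, ?_⟩⟩
  · -- mem_nonunits
    intro x hx i
    obtain ⟨P, -, hPd⟩ := hspec x hx
    exact (hPd i).2.1
  · -- injOn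
    intro x hx y hy hxy
    have h1 := hspec x hx
    have h2 := hspec y hy
    rw [← hxy] at h2
    exact isCoord_inj hDisc hM.isPR hM.nice hM.nice_k hC h1 h2
  · -- inertia_equivariant
    intro σ hσ x hx i
    have hσx : σ • x ∈ R.J1 :=
      hdecomp σ (Fermat.Agent.S05.mem_decomposition_of_mem_inertiaIn hσ) x hx
    have h1 := isCoord_smul hDisc hM.isPR hM.nice hM.nice_k hC hcS (kc_inertiaLike hM hS hσ)
      (hspec x hx)
    have h2 := kcCoord_eq hC1 hM.isPR hM.nice hM.nice_k hM.orth hC hσx h1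
    exact congrFun h2 i
  · -- add_approx
    intro ϖ hϖ hϖ0 n
    obtain ⟨Φ, hΦ, h⟩ := kc_add_approx hAdd hM.isPR hM.nice hM.nice_k hM.orth hC hRep n
    refine ⟨Φ, hΦ, fun x hx y hy hzx hzy => ?_⟩
    exact h ϖ hϖ hϖ0 x y _ _ _ (hspec x hx) (hspec y hy)
      (hspec (x + y) (R.J1.add_mem hx hy)) hzx hzy
  · -- lift
    intro x _
    obtain ⟨b, hb1, hb2⟩ := kc_lift hDisc hLift hM.isPR hM.nice hM.nice_k ht hM.good (hM.ram ht)
      hSsurj x
    exact ⟨b, fun σ hσ => hb2 _ (kc_inertiaLike hM hS hσ), hb1⟩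

end Fermat.Agent.W1
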