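import Mathlib
import Fermat.Agent.W1.GeoC1

/-!
# W1-geo, piece GEO-C1, second half: `stmtLift : StmtLift`

Every class of `Pic⁰(F)` is congruent modulo the kernel of reduction to the class of a divisor
supported on places `P` at which `t` takes a value in the given set `S` of representatives and
`t̄` is unramified at `r P`.

Proof.  `x = [D_x]`, `X̄₀ := r_* D_x`.  By general position on `F̄` (`gp_exists_moving`) there are a
chart `T̄` and an effective `Ē ∼ X̄₀ + ΣT̄`, both avoiding the finite set of places where `t̄` is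
not a local parameter up to a constant.  Every place `Q̄` outside that set lifts to a place `P`
with `t(P) = s ∈ S` (`c1_exists_place_over`: `r_*(div (t - s)) = div (t̄ - s̄)` has coefficient `1`
at `Q̄`, and no pole of `t` reduces to `Q̄`).  `D := lift_*(Ē - ΣT̄)`.
-/

set_option autoImplicit false

open AlgebraicCurve Module

namespace Fermat.Agent.W1

open Fermat.Agent.ES.R Fermat.Agent.S24

section Lift

variable {K F k Fk : Type} [Field K] [Field F] [Algebra K F] [Field k] [Field Fk] [Algebra k Fk]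
variable {A : ValuationSubring K}

/-- a pole of `f` is a pole of `f - c` -/
theorem c1_ord_sub_const_neg (Q : Place k Fk) {f : Fk} (hf : Q.ord f < 0) (c : k) :
    Q.ord (f - algebraMap k Fk c) < 0 := by
  have hf0 : f ≠ 0 := by
    rintro rfl
    rw [Place.ord_zero] at hf
    exact lt_irrefl _ hf
  rcases eq_or_ne c 0 with rfl | hc
  · rwa [map_zero, sub_zero]
  · have hc' : -algebraMap k Fk c ≠ 0 := by simpa using hc
    have h1 : Q.ord (-algebraMap k Fk c) = 0 := by
      rw [PlaceAux.ord_neg, PlaceAux.ord_algebraMap]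
    have := PlaceAux.ord_add_eq_of_lt Q hf0 hc' (by rw [h1]; exact hf)
    rw [sub_eq_add_neg, this]
    exact hf

/-- a simple zero of `t̄ - s̄` at `Q̄` lifts to a place over `Q̄` at which `t = s` -/
theorem c1_exists_place_over {R : PRData K F k Fk A} (hPR : R.IsPR) [HasPrincipalDivisors K F]
    {t : F} (ht : t ∈ R.O) (hgood : R.GoodFn t) (s : A) (Q : Place k Fk)
    (hQ : Q.ord (R.red ⟨t, ht⟩ - algebraMap k Fk (R.res s)) = 1) :
    ∃ P : Place K F, R.r P = Q ∧ HasValueAt P t (s : K) := by
  classical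
  have hsO : algebraMap K F (s : K) ∈ R.O := (hPR.algebraMap_mem_iff _).mpr s.2
  set u : R.O := ⟨t, ht⟩ - ⟨algebraMap K F (s : K), hsO⟩ with hu
  have hucoe : (u : F) = t - algebraMap K F (s : K) := rfl
  have hred : R.red u = R.red ⟨t, ht⟩ - algebraMap k Fk (R.res s) := by
    rw [hu, map_sub, hPR.red_algebraMap s hsO]
  have hred0 : R.red u ≠ 0 := by
    intro h0
    rw [← hred, h0, Place.ord_zero] at hQ
    exact zero_ne_one hQ
  have hu0 : (u : F) ≠ 0 := by
    intro h0
    apply hred0
    have : u = 0 := Subtype.ext h0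
    rw [this, map_zero]
  obtain ⟨Du, hDu, -⟩ := HasPrincipalDivisors.exists_divisor (K := K) (u : F) hu0
  have hr := hPR.r_div u hred0 Du hDu Q
  rw [hred, hQ] at hr
  by_contra hne
  simp only [not_exists, not_and] at hne
  have hzero : ∀ P : Place K F, R.r P = Q → Du P = 0 := by
    intro P hP
    rw [hDu P]
    have h1 : 0 ≤ P.ord (u : F) := by
      by_contra hneg
      rw [not_le] at hneg
      have hpole : P.ord t < 0 := by
        by_contra hnn
        rw [not_lt] at hnn
        have htP : t ∈ P.toValuationSubring := PlaceAux.mem_of_ord_nonneg P hnn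
        have hsP : algebraMap K F (s : K) ∈ P.toValuationSubring := P.algebraMap_mem' _
        have hmem : (u : F) ∈ P.toValuationSubring := by
          rw [hucoe]; exact sub_mem htP hsP
        have := (PlaceAux.ord_nonneg_iff P hu0).mpr hmem
        omega
      obtain ⟨ht', hg⟩ := hgood
      have h3 := hg P hpole
      rw [hP] at h3
      have h4 := c1_ord_sub_const_neg Q h3 (R.res s)
      rw [hQ] at h4
      omega
    have h2 : ¬ 0 < P.ord (u : F) := by
      intro hpos
      apply hne P hP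
      show t - algebraMap K F (s : K) ∈ P.toValuationSubring.nonunits
      rw [← hucoe]
      exact (PlaceAux.ord_pos_iff_mem_nonunits P hu0).mp hpos
    omega
  have hns : Q ∉ (Finsupp.mapDomain R.r Du).support := by
    intro hmem
    have := Finsupp.mapDomain_support hmem
    rw [Finset.mem_image] at this
    obtain ⟨P, hP, hPQ⟩ := this
    exact (Finsupp.mem_support_iff.mp hP) (hzero P hPQ)
  rw [Finsupp.notMem_support_iff] at hns
  rw [hns] at hr
  exact zero_ne_one hr

/-- **lift** -/
theorem stmtLift : StmtLift := by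
  intro K F k Fk _ _ _ _ _ _ A R g hPR hF hFk t ht hgood hfin S hS x
  classical
  have := hF.hpd
  have := hFk.hpd
  obtain ⟨Dx, rfl⟩ := Pic0.mk_surjective x
  set X₀ : Divisor k Fk := Finsupp.mapDomain R.r (Dx : Divisor K F) with hX₀
  have hdegX : Divisor.degree X₀ = 0 := by
    rw [hX₀, c1_degree_mapDomain hF.hres hFk.hres]; exact Dx.2
  set Sb : Finset (Place k Fk) := hfin.toFinset with hSb
  obtain ⟨T, hTcard, hTS, -, hT1, hTbot⟩ :=
    gp_exists_moving hFk.hres hFk.upper hFk.lower hFk.infinite X₀ hdegX Sb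
  obtain ⟨w₀, -⟩ := hFk.infinite.nonempty
  have hfd := rr_finite w₀ hFk.hres (X₀ + gpSum T)
  have hpos : 0 < finrank k ↥(riemannRochSpace (X₀ + gpSum T)) := by rw [hT1]; exact one_pos
  rw [Module.finrank_pos_iff_exists_ne_zero] at hpos
  obtain ⟨⟨h, hhL⟩, hh0⟩ := hpos
  have hh : h ≠ 0 := fun h0 => hh0 (Subtype.ext h0)
  obtain ⟨Z, hZ, hdegZ⟩ := HasPrincipalDivisors.exists_divisor (K := k) h hh
  obtain ⟨hE0, hEav⟩ := gp_effective_avoids hh hhL hZ
  set E : Divisor k Fk := X₀ + gpSum T + Z with hE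
  -- the good places and their lifts
  have hgoodpl : ∀ Q : Place k Fk, Q ∉ Sb →
      ∃ P : Place K F, R.r P = Q ∧ ∃ s ∈ S, HasValueAt P t (s : K) ∧
        (R.r P).ord (R.red ⟨t, ht⟩ - algebraMap k Fk (R.res s)) = 1 := by
    intro Q hQ
    rw [hSb, Set.Finite.mem_toFinset, Set.mem_ofPred_eq, not_not] at hQ
    obtain ⟨c, hc⟩ := hQ
    obtain ⟨s, hsS, hsc⟩ := hS c
    rw [← hsc] at hc
    obtain ⟨P, hPQ, hPv⟩ := c1_exists_place_over hPR ht hgood s Q hc
    exact ⟨P, hPQ, s, hsS, hPv, by rw [hPQ]; exact hc⟩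
  obtain ⟨P₀, -⟩ := hF.infinite.nonempty
  set lift : Place k Fk → Place K F := fun Q =>
    if hQ : Q ∉ Sb then (hgoodpl Q hQ).choose else P₀ with hlift
  have hlift_spec : ∀ Q : Place k Fk, Q ∉ Sb → R.r (lift Q) = Q ∧
      ∃ s ∈ S, HasValueAt (lift Q) t (s : K) ∧
        (R.r (lift Q)).ord (R.red ⟨t, ht⟩ - algebraMap k Fk (R.res s)) = 1 := by
    intro Q hQ
    have := (hgoodpl Q hQ).choose_spec
    simp only [hlift, dif_pos hQ]
    exact this
  -- the divisor `E - ΣT` avoids the bad set
  set E' : Divisor k Fk := E - gpSum T with hE'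
  have hE'supp : ∀ Q : Place k Fk, E' Q ≠ 0 → Q ∉ Sb := by
    intro Q hQ hQS
    apply hQ
    have h1 : E Q = 0 := hEav Q (hTbot Q hQS)
    have h2 : gpSum T Q = 0 :=
      gpSum_apply_of_not_mem (fun hQT => (Finset.disjoint_left.mp hTS) hQT hQS)
    rw [hE', Finsupp.sub_apply, h1, h2, sub_zero]
  have hdegE' : Divisor.degree E' = 0 := by
    rw [hE', hE, map_sub, map_add, map_add, hdegX, hdegZ]; ring
  set D : Divisor K F := Finsupp.mapDomain lift E' with hD
  have hdegD : Divisor.degree D = 0 := by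
    rw [hD, c1_degree_mapDomain hFk.hres hF.hres]; exact hdegE'
  have hrD : Finsupp.mapDomain R.r D = E' := by
    rw [hD, ← Finsupp.mapDomain_comp]
    have : Finsupp.mapDomain (R.r ∘ lift) E' = Finsupp.mapDomain id E' := by
      refine Finsupp.mapDomain_congr fun Q hQ => ?_
      exact (hlift_spec Q (hE'supp Q (Finsupp.mem_support_iff.mp hQ))).1
    rw [this, Finsupp.mapDomain_id]
  refine ⟨⟨D, hdegD⟩, ?_, ?_⟩
  · refine ⟨Dx - ⟨D, hdegD⟩, rfl, ?_⟩
    have h1 : ((Dx - ⟨D, hdegD⟩ : Divisor.degZero (K := K) (F := F)) : Divisor K F)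
        = (Dx : Divisor K F) - D := rfl
    rw [h1, c1_mapDomain_sub, hrD, ← hX₀]
    have h2 : X₀ - E' = -Z := by rw [hE', hE]; abel
    rw [h2]
    exact AddSubgroup.neg_mem _ ⟨h, hh, hZ⟩
  · intro P hP
    have hPs : P ∈ (Finsupp.mapDomain lift E').support := Finsupp.mem_support_iff.mpr hP
    have := Finsupp.mapDomain_support hPs
    rw [Finset.mem_image] at this
    obtain ⟨Q, hQ, rfl⟩ := this
    exact (hlift_spec Q (hE'supp Q (Finsupp.mem_support_iff.mp hQ))).2

end Lift

end Fermat.Agent.W1
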