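import Mathlib
import Fermat.Agent.W1.PlanGeo3

/-!
# W1-geo, GEO-AL split: the two independent halves of the approximation lemma `StmtApprox`

`StmtApprox` (`PlanGeo3.lean`) is proved in `GeoApprox.lean` from:

* `StmtSharp` (**GA-S**, explicit): for `f ∈ O` with poles only in the discs at points `P` with
  coordinates `z_P ∈ ϖ A`, the function `f♯ := f · ∏_P (1 - (z_P / τ_{i_P}) ^ n) ^ {m_P}`
  (`m_P = - ord_P f`) lies in `O`, is congruent to `f` modulo `ϖ ^ n O`, and has poles only at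
  zeros of the local parameters `τ i = t - c i`.
* `StmtOrthApprox` (**GA-O**, linear algebra over the valuation ring): orthonormal families
  `e₁` (of a subspace) and `e'`, and a `K`-subspace `P` of `F` containing the span of `e₁` such that
  reductions of elements of `P ∩ O` which lie in the span of the `ē'` lie in the span of the `ē₁`.
  If `x ∈ span e' ∩ O` is congruent modulo `c O` to some `f ∈ P`, then `x` is congruent modulo
  `c O` to some `y ∈ span e₁ ∩ O`.
  (Proof: extend `ē₁` to a basis of `span ē'` by some `ē'_j, j ∈ J` (Steinitz); the adapted family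
  is an orthonormal basis of `span e'`; `x = Σ α_i e₁_i + Σ_J β_j e'_j`, `α, β ∈ A`; if some
  `β_j ∉ c A` normalise by the `β_{j₀}` of largest valuation and reduce.)
-/

set_option autoImplicit false

open AlgebraicCurve Module

namespace Fermat.Agent.W1

/-- **GA-S**: moving the poles to the zeros of the `τ i`, modulo `ϖ ^ n`. -/
def StmtSharp : Prop :=
  ∀ (K F k Fk : Type) [Field K] [Field F] [Algebra K F] [Field k] [Field Fk] [Algebra k Fk]
    (A : ValuationSubring K) (R : PRData K F k Fk A) (g : ℕ),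
    R.IsPR → IsNiceCurve K F g → IsNiceCurve k Fk g →
    ∀ C : R.Chart g, C.IsChart →
    ∀ ϖ : K, ϖ ∈ A.nonunits → ϖ ≠ 0 → ∀ f : F, f ∈ R.O → C.PolesInDiscs ϖ f →
    ∀ n : ℕ, ∃ f₁ : F, f₁ ∈ R.O ∧
      (∀ P : Place K F, P.ord f₁ < 0 → ∃ i, HasValueAt P C.t (C.c i : K)) ∧
      ∃ h : F, h ∈ R.O ∧ f - f₁ = algebraMap K F (ϖ ^ n) * h

/-- **GA-O**: approximation in orthonormal coordinates. -/
def StmtOrthApprox : Prop :=
  ∀ (K F k Fk : Type) [Field K] [Field F] [Algebra K F] [Field k] [Field Fk] [Algebra k Fk]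
    (A : ValuationSubring K) (R : PRData K F k Fk A), R.IsPR →
    ∀ (n₁ m : ℕ) (e₁ : Fin n₁ → F) (e' : Fin m → F)
      (he₁ : ∀ i, e₁ i ∈ R.O) (he' : ∀ j, e' j ∈ R.O),
      LinearIndependent k (fun i => R.red ⟨e₁ i, he₁ i⟩) →
      LinearIndependent k (fun j => R.red ⟨e' j, he' j⟩) →
      Submodule.span K (Set.range e₁) ≤ Submodule.span K (Set.range e') →
    ∀ P : Submodule K F, Submodule.span K (Set.range e₁) ≤ P →
      (∀ (w : F) (hw : w ∈ R.O), w ∈ P →
        R.red ⟨w, hw⟩ ∈ Submodule.span k (Set.range fun j => R.red ⟨e' j, he' j⟩) →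
        R.red ⟨w, hw⟩ ∈ Submodule.span k (Set.range fun i => R.red ⟨e₁ i, he₁ i⟩)) →
    ∀ c : K, c ∈ A → c ≠ 0 → ∀ x f : F, x ∈ Submodule.span K (Set.range e') → x ∈ R.O →
      f ∈ P → (∃ h : F, h ∈ R.O ∧ f - x = algebraMap K F c * h) →
      ∃ y : F, y ∈ Submodule.span K (Set.range e₁) ∧ y ∈ R.O ∧
        ∃ h : F, h ∈ R.O ∧ x - y = algebraMap K F c * h

end Fermat.Agent.W1
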