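import Mathlib
import Fermat.Agent.W1.PlanApprox

/-!
# W1-geo, GA-O: approximation in orthonormal coordinates (`StmtOrthApprox`)

Pure linear algebra over the valuation ring `A ⊂ K` and the Gauss valuation ring `O ⊂ F`.
A finite family `u j ∈ O` is *orthonormal* if the reductions `red (u j)` are `k`-linearly
independent.  For such a family: `Σ a j • u j ∈ O ⇒ a j ∈ A` (`gao_coeff_mem`), the family is
`K`-linearly independent (`gao_linearIndependent`), and
`red (Σ a j • u j) = Σ res (a j) • red (u j)` (`gao_red_sum`).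

`stmtOrthApprox : StmtOrthApprox` follows the sketch of `PlanApprox.lean`: extend `ē₁` to a basis
of `span ē'` by some of the `ē'_j` (Steinitz, `exists_linearIndepOn_extension`), expand `x` in
the adapted orthonormal basis, and reduce.
-/

set_option autoImplicit false

open Module

namespace Fermat.Agent.W1

section gao

variable {K F k Fk : Type} [Field K] [Field F] [Algebra K F] [Field k] [Field Fk] [Algebra k Fk]
variable {A : ValuationSubring K} {R : PRData K F k Fk A}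

theorem gao_algebraMap_mem (hR : R.IsPR) {a : K} (ha : a ∈ A) : algebraMap K F a ∈ R.O :=
  (hR.algebraMap_mem_iff a).mpr ha

theorem gao_smul_mem (hR : R.IsPR) {a : K} (ha : a ∈ A) {u : F} (hu : u ∈ R.O) :
    a • u ∈ R.O := by
  rw [Algebra.smul_def]
  exact R.O.mul_mem _ _ (gao_algebraMap_mem hR ha) hu

theorem gao_red_smul (hR : R.IsPR) {a : K} (ha : a ∈ A) {u : F} (hu : u ∈ R.O)
    (h : a • u ∈ R.O) :
    R.red ⟨a • u, h⟩ = R.res ⟨a, ha⟩ • R.red ⟨u, hu⟩ := by
  have h1 : (⟨a • u, h⟩ : R.O) =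
      ⟨algebraMap K F a, gao_algebraMap_mem hR ha⟩ * ⟨u, hu⟩ := by
    apply Subtype.ext
    simp [Algebra.smul_def]
  rw [h1, map_mul, hR.red_algebraMap ⟨a, ha⟩, Algebra.smul_def]

theorem gao_red_smul_nonunit (hR : R.IsPR) {a : K} (ha : a ∈ A.nonunits) {u : F}
    (hu : u ∈ R.O) (h : a • u ∈ R.O) : R.red ⟨a • u, h⟩ = 0 := by
  have haA : a ∈ A := A.nonunits_subset ha
  rw [gao_red_smul hR haA hu]
  have h1 : R.res ⟨a, haA⟩ = 0 := (hR.res_eq_zero_iff ⟨a, haA⟩).mpr ha
  rw [h1, zero_smul]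

theorem gao_red_add (x y : F) (hx : x ∈ R.O) (hy : y ∈ R.O) (h : x + y ∈ R.O) :
    R.red ⟨x + y, h⟩ = R.red ⟨x, hx⟩ + R.red ⟨y, hy⟩ := by
  rw [← map_add]
  rfl

theorem gao_red_sum (hR : R.IsPR) {ι : Type*} [Fintype ι] (a : ι → K) (ha : ∀ j, a j ∈ A)
    (u : ι → F) (hu : ∀ j, u j ∈ R.O) (h : ∑ j, a j • u j ∈ R.O) :
    R.red ⟨∑ j, a j • u j, h⟩ = ∑ j, R.res ⟨a j, ha j⟩ • R.red ⟨u j, hu j⟩ := by
  have h1 : (⟨∑ j, a j • u j, h⟩ : R.O) =
      ∑ j, (⟨a j • u j, gao_smul_mem hR (ha j) (hu j)⟩ : R.O) := by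
    apply Subtype.ext
    rw [AddSubmonoidClass.coe_finsetSum]
  rw [h1, map_sum]
  exact Finset.sum_congr rfl fun j _ => gao_red_smul hR (ha j) (hu j) _

/-- If the reductions of the `u j` are linearly independent, `b j ∈ A` and `b j₀ = 1`, then
`Σ b j • u j` is a unit of `O`. -/
theorem gao_red_ne_zero (hR : R.IsPR) {ι : Type*} [Fintype ι] (u : ι → F)
    (hu : ∀ j, u j ∈ R.O) (hli : LinearIndependent k fun j => R.red ⟨u j, hu j⟩)
    (b : ι → K) (hb : ∀ j, b j ∈ A) (j₀ : ι) (hj₀ : b j₀ = 1) (h : ∑ j, b j • u j ∈ R.O) :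
    R.red ⟨∑ j, b j • u j, h⟩ ≠ 0 := by
  intro h0
  rw [gao_red_sum hR b hb u hu h] at h0
  have h1 := Fintype.linearIndependent_iff.mp hli _ h0 j₀
  have h2 : (⟨b j₀, hb j₀⟩ : A) = 1 := Subtype.ext hj₀
  rw [h2, map_one] at h1
  exact one_ne_zero h1

/-- Normalisation by a coefficient of largest valuation. -/
theorem gao_normalise {ι : Type*} [Fintype ι] (a : ι → K) (j₁ : ι) :
    ∃ j₀ : ι, A.valuation (a j₁) ≤ A.valuation (a j₀) ∧
      ∀ j, A.valuation (a j) ≤ A.valuation (a j₀) := by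
  classical
  obtain ⟨j₀, -, hmax⟩ := Finset.exists_max_image Finset.univ (fun j => A.valuation (a j))
    ⟨j₁, Finset.mem_univ _⟩
  exact ⟨j₀, hmax j₁ (Finset.mem_univ _), fun j => hmax j (Finset.mem_univ _)⟩

theorem gao_div_mem {a a₀ : K} (h : A.valuation a ≤ A.valuation a₀) : a / a₀ ∈ A := by
  rw [← A.valuation_le_one_iff, map_div₀]
  exact div_le_one_of_le₀ h zero_le

theorem gao_sum_div {ι : Type*} [Fintype ι] (a : ι → K) (a₀ : K) (u : ι → F) :
    ∑ j, (a j / a₀) • u j = a₀⁻¹ • ∑ j, a j • u j := by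
  rw [Finset.smul_sum]
  refine Finset.sum_congr rfl fun j _ => ?_
  rw [smul_smul, div_eq_inv_mul]

/-- The coefficients of an element of `O` with respect to an orthonormal family lie in `A`. -/
theorem gao_coeff_mem (hR : R.IsPR) {ι : Type*} [Fintype ι] (u : ι → F)
    (hu : ∀ j, u j ∈ R.O) (hli : LinearIndependent k fun j => R.red ⟨u j, hu j⟩)
    (a : ι → K) (h : ∑ j, a j • u j ∈ R.O) : ∀ j, a j ∈ A := by
  by_contra hne
  rw [not_forall] at hne
  obtain ⟨j₁, hj₁⟩ := hne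
  obtain ⟨j₀, h10, hmax⟩ := gao_normalise (A := A) a j₁
  have hj₀ : 1 < A.valuation (a j₀) :=
    lt_of_lt_of_le (by rwa [← not_le, A.valuation_le_one_iff]) h10
  have hpos : 0 < A.valuation (a j₀) := zero_lt_one.trans hj₀
  have ha0 : a j₀ ≠ 0 := (Valuation.ne_zero_iff _).mp hpos.ne'
  have hb : ∀ j, a j / a j₀ ∈ A := fun j => gao_div_mem (hmax j)
  have hsum := gao_sum_div a (a j₀) u
  have hinv : (a j₀)⁻¹ ∈ A.nonunits := by
    rw [A.mem_nonunits_iff, map_inv₀]; exact inv_lt_one_of_one_lt₀ hj₀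
  have hmem : ∑ j, (a j / a j₀) • u j ∈ R.O :=
    sum_mem fun j _ => gao_smul_mem hR (hb j) (hu j)
  refine gao_red_ne_zero hR u hu hli _ hb j₀ (div_self ha0) hmem ?_
  have h1 : (⟨∑ j, (a j / a j₀) • u j, hmem⟩ : R.O) =
      ⟨(a j₀)⁻¹ • ∑ j, a j • u j, hsum ▸ hmem⟩ := Subtype.ext hsum
  rw [h1]
  exact gao_red_smul_nonunit hR hinv h _

/-- An orthonormal family is linearly independent over `K`. -/
theorem gao_linearIndependent (hR : R.IsPR) {ι : Type*} [Fintype ι] (u : ι → F)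
    (hu : ∀ j, u j ∈ R.O) (hli : LinearIndependent k fun j => R.red ⟨u j, hu j⟩) :
    LinearIndependent K u := by
  rw [Fintype.linearIndependent_iff]
  intro a ha
  by_contra hne
  rw [not_forall] at hne
  obtain ⟨j₁, hj₁⟩ := hne
  obtain ⟨j₀, h10, hmax⟩ := gao_normalise (A := A) a j₁
  have hpos : 0 < A.valuation (a j₀) :=
    lt_of_lt_of_le (zero_lt_iff.mpr ((Valuation.ne_zero_iff _).mpr hj₁)) h10
  have ha0 : a j₀ ≠ 0 := (Valuation.ne_zero_iff _).mp hpos.ne'
  have hb : ∀ j, a j / a j₀ ∈ A := fun j => gao_div_mem (hmax j)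
  have hsum : ∑ j, (a j / a j₀) • u j = 0 := by
    rw [gao_sum_div, ha, smul_zero]
  have hmem : ∑ j, (a j / a j₀) • u j ∈ R.O := hsum ▸ R.O.zero_mem
  refine gao_red_ne_zero hR u hu hli _ hb j₀ (div_self ha0) hmem ?_
  have h1 : (⟨∑ j, (a j / a j₀) • u j, hmem⟩ : R.O) = 0 := Subtype.ext hsum
  rw [h1, map_zero]

end gao

/-- **GA-O**: approximation in orthonormal coordinates. -/
theorem stmtOrthApprox : StmtOrthApprox := by
  intro K F k Fk _ _ _ _ _ _ A R hR n₁ m e₁ e' he₁ he' hli₁ hli' hspan P hP hstar c hc hc0 x f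
    hx hxO hf hfx
  classical
  obtain ⟨h, hhO, hfxh⟩ := hfx
  -- the combined family
  set U : Fin n₁ ⊕ Fin m → F := Sum.elim e₁ e' with hUdef
  have hU : ∀ j, U j ∈ R.O := by
    rintro (i | j)
    · exact he₁ i
    · exact he' j
  set Ub : Fin n₁ ⊕ Fin m → Fk := fun j => R.red ⟨U j, hU j⟩ with hUb
  have hs : LinearIndepOn k Ub (Set.range Sum.inl) :=
    (linearIndepOn_range_iff Sum.inl_injective Ub).mpr hli₁
  obtain ⟨b, -, hsb, hspanb, hbli⟩ := exists_linearIndepOn_extension hs (Set.subset_univ _)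
  have hbli' : LinearIndependent k (fun β : ↥b => R.red ⟨U β.1, hU β.1⟩) := hbli
  -- `K`-linear independence
  have hKe' : LinearIndependent K e' := gao_linearIndependent hR e' he' hli'
  have hKu : LinearIndependent K (fun β : ↥b => U β.1) :=
    gao_linearIndependent hR (fun β : ↥b => U β.1) (fun β => hU β.1) hbli'
  -- Step A: `ē₁ i ∈ span ē'`
  have hA : ∀ i, R.red ⟨e₁ i, he₁ i⟩ ∈
      Submodule.span k (Set.range fun j => R.red ⟨e' j, he' j⟩) := by
    intro i
    have h1 : e₁ i ∈ Submodule.span K (Set.range e') := hspan (Submodule.subset_span ⟨i, rfl⟩)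
    obtain ⟨a, ha⟩ := (Submodule.mem_span_range_iff_exists_fun K).mp h1
    have hmem : ∑ j, a j • e' j ∈ R.O := ha ▸ he₁ i
    have haA := gao_coeff_mem hR e' he' hli' a hmem
    have h2 : (⟨e₁ i, he₁ i⟩ : R.O) = ⟨∑ j, a j • e' j, hmem⟩ := Subtype.ext ha.symm
    rw [h2, gao_red_sum hR a haA e' he' hmem]
    exact Submodule.sum_mem _ fun j _ =>
      Submodule.smul_mem _ _ (Submodule.subset_span ⟨j, rfl⟩)
  -- Step B: the spans over `k` agree
  have hB : Submodule.span k (Ub '' b) =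
      Submodule.span k (Set.range fun j => R.red ⟨e' j, he' j⟩) := by
    apply le_antisymm
    · rw [Submodule.span_le]
      rintro _ ⟨β, -, rfl⟩
      rcases β with i | j
      · exact hA i
      · exact Submodule.subset_span ⟨j, rfl⟩
    · rw [Submodule.span_le]
      rintro _ ⟨j, rfl⟩
      exact hspanb ⟨Sum.inr j, Set.mem_univ _, rfl⟩
  -- Step C: `card b = m`
  have hC : Fintype.card ↥b = m := by
    have h1 := finrank_span_eq_card hbli'
    have h2 := finrank_span_eq_card hli'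
    have h3 : Set.range (fun β : ↥b => R.red ⟨U β.1, hU β.1⟩) = Ub '' b := by
      rw [Set.image_eq_range]
    rw [h3, hB, h2, Fintype.card_fin] at h1
    exact h1.symm
  -- Step D: the spans over `K` agree
  have hD : Submodule.span K (Set.range fun β : ↥b => U β.1) =
      Submodule.span K (Set.range e') := by
    have hle : Submodule.span K (Set.range fun β : ↥b => U β.1) ≤
        Submodule.span K (Set.range e') := by
      rw [Submodule.span_le]
      rintro _ ⟨⟨β, hβ⟩, rfl⟩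
      rcases β with i | j
      · exact hspan (Submodule.subset_span ⟨i, rfl⟩)
      · exact Submodule.subset_span ⟨j, rfl⟩
    have : FiniteDimensional K ↥(Submodule.span K (Set.range e')) :=
      FiniteDimensional.span_of_finite K (Set.finite_range e')
    apply Submodule.eq_of_le_of_finrank_eq hle
    rw [finrank_span_eq_card hKu, finrank_span_eq_card hKe', hC, Fintype.card_fin]
  -- Step E: coordinates of `x`
  have hx' : x ∈ Submodule.span K (Set.range fun β : ↥b => U β.1) := hD ▸ hx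
  obtain ⟨a, ha⟩ := (Submodule.mem_span_range_iff_exists_fun K).mp hx'
  have haA : ∀ β, a β ∈ A :=
    gao_coeff_mem hR (fun β : ↥b => U β.1) (fun β => hU β.1) hbli' a (ha ▸ hxO)
  -- Step F: the two halves
  set a₁ : ↥b → K := fun β => if β.1.isLeft then a β else 0 with ha₁
  set a₂ : ↥b → K := fun β => if β.1.isLeft then 0 else a β with ha₂
  have ha₁A : ∀ β, a₁ β ∈ A := fun β => by
    by_cases hβ : β.1.isLeft
    · simp only [ha₁, hβ, if_true]; exact haA β
    · simp only [ha₁, hβ]; exact A.zero_mem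
  have ha₂A : ∀ β, a₂ β ∈ A := fun β => by
    by_cases hβ : β.1.isLeft
    · simp only [ha₂, hβ, if_true]; exact A.zero_mem
    · simp only [ha₂, hβ]; exact haA β
  have ha₂L : ∀ β : ↥b, β.1.isLeft → a₂ β = 0 := fun β hβ => by
    simp only [ha₂, hβ, if_true]
  have hsplit : x = ∑ β, a₁ β • U β.1 + ∑ β, a₂ β • U β.1 := by
    rw [← ha, ← Finset.sum_add_distrib]
    refine Finset.sum_congr rfl fun β _ => ?_
    rw [← add_smul]
    congr 1
    by_cases hβ : β.1.isLeft
    · simp only [ha₁, ha₂, hβ, if_true, add_zero]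
    · simp only [ha₁, ha₂, hβ]; simp
  set y : F := ∑ β, a₁ β • U β.1 with hy
  have hyspan : y ∈ Submodule.span K (Set.range e₁) := by
    refine Submodule.sum_mem _ fun β _ => ?_
    by_cases hβ : β.1.isLeft
    · obtain ⟨i, hi⟩ := Sum.isLeft_iff.mp hβ
      have h1 : U β.1 = e₁ i := by rw [hi]; rfl
      rw [h1]
      exact Submodule.smul_mem _ _ (Submodule.subset_span ⟨i, rfl⟩)
    · have h1 : a₁ β = 0 := by simp only [ha₁, hβ]; simp
      rw [h1, zero_smul]
      exact Submodule.zero_mem _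
  have hyO : y ∈ R.O := sum_mem fun β _ => gao_smul_mem hR (ha₁A β) (hU β.1)
  have hxy : x - y = ∑ β, a₂ β • U β.1 := by
    rw [hsplit]; ring
  -- Step G: all `a₂ β` are divisible by `c`
  have hcv : A.valuation c ≠ 0 := (Valuation.ne_zero_iff _).mpr hc0
  have hG : ∀ β, A.valuation (a₂ β) ≤ A.valuation c := by
    by_contra hne
    rw [not_forall] at hne
    obtain ⟨β₁, hβ₁⟩ := hne
    rw [not_le] at hβ₁
    obtain ⟨β₀, h10, hmax⟩ := gao_normalise (A := A) a₂ β₁
    have hcβ₀ : A.valuation c < A.valuation (a₂ β₀) := lt_of_lt_of_le hβ₁ h10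
    have hpos : 0 < A.valuation (a₂ β₀) := lt_of_le_of_lt zero_le hcβ₀
    have ha0 : a₂ β₀ ≠ 0 := (Valuation.ne_zero_iff _).mp hpos.ne'
    have hb : ∀ β, a₂ β / a₂ β₀ ∈ A := fun β => gao_div_mem (hmax β)
    have hd : c / a₂ β₀ ∈ A.nonunits := by
      rw [A.mem_nonunits_iff, map_div₀]
      exact (div_lt_one₀ hpos).mpr hcβ₀
    -- the element `w`
    have hsum : ∑ β, (a₂ β / a₂ β₀) • U β.1 ∈ R.O :=
      sum_mem fun β _ => gao_smul_mem hR (hb β) (hU β.1)
    have hdh : (c / a₂ β₀) • h ∈ R.O := gao_smul_mem hR (A.nonunits_subset hd) hhO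
    have hw : (a₂ β₀)⁻¹ • (f - y) =
        ∑ β, (a₂ β / a₂ β₀) • U β.1 + (c / a₂ β₀) • h := by
      have h1 : f - y = (f - x) + (x - y) := by ring
      rw [h1, hfxh, hxy, gao_sum_div, smul_add, ← Algebra.smul_def, smul_smul, add_comm,
        div_eq_inv_mul]
    have hwP : (a₂ β₀)⁻¹ • (f - y) ∈ P :=
      P.smul_mem _ (P.sub_mem hf (hP hyspan))
    have hwO : (a₂ β₀)⁻¹ • (f - y) ∈ R.O := by
      rw [hw]; exact R.O.add_mem _ _ hsum hdh
    have hred : R.red ⟨(a₂ β₀)⁻¹ • (f - y), hwO⟩ =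
        R.red ⟨∑ β, (a₂ β / a₂ β₀) • U β.1, hsum⟩ := by
      have h1 : (⟨(a₂ β₀)⁻¹ • (f - y), hwO⟩ : R.O) =
          ⟨∑ β, (a₂ β / a₂ β₀) • U β.1 + (c / a₂ β₀) • h, R.O.add_mem _ _ hsum hdh⟩ :=
        Subtype.ext hw
      rw [h1, gao_red_add _ _ hsum hdh, gao_red_smul_nonunit hR hd hhO, add_zero]
    have hredsum := gao_red_sum hR (fun β : ↥b => a₂ β / a₂ β₀) hb (fun β : ↥b => U β.1)
      (fun β => hU β.1) hsum
    -- the reduction lies in the span of the `ē'`
    have h1 : R.red ⟨(a₂ β₀)⁻¹ • (f - y), hwO⟩ ∈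
        Submodule.span k (Set.range fun j => R.red ⟨e' j, he' j⟩) := by
      rw [hred, hredsum, ← hB]
      exact Submodule.sum_mem _ fun β _ =>
        Submodule.smul_mem _ _ (Submodule.subset_span ⟨β.1, β.2, rfl⟩)
    have h2 := hstar _ hwO hwP h1
    -- disjointness
    have hdisj := hbli'.disjoint_span_image
      (disjoint_compl_right (a := {β : ↥b | β.1.isLeft = true}))
    have h3 : R.red ⟨(a₂ β₀)⁻¹ • (f - y), hwO⟩ ∈ Submodule.span k
        ((fun β : ↥b => R.red ⟨U β.1, hU β.1⟩) '' {β : ↥b | β.1.isLeft = true}) := by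
      refine Submodule.span_mono ?_ h2
      rintro _ ⟨i, rfl⟩
      exact ⟨⟨Sum.inl i, hsb ⟨i, rfl⟩⟩, rfl, rfl⟩
    have h4 : R.red ⟨(a₂ β₀)⁻¹ • (f - y), hwO⟩ ∈ Submodule.span k
        ((fun β : ↥b => R.red ⟨U β.1, hU β.1⟩) '' {β : ↥b | β.1.isLeft = true}ᶜ) := by
      rw [hred, hredsum]
      refine Submodule.sum_mem _ fun β _ => ?_
      by_cases hβ : β.1.isLeft
      · have h5 : (⟨a₂ β / a₂ β₀, hb β⟩ : A) = 0 := by
          apply Subtype.ext
          show a₂ β / a₂ β₀ = 0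
          rw [ha₂L β hβ, zero_div]
        rw [h5, map_zero, zero_smul]
        exact Submodule.zero_mem _
      · exact Submodule.smul_mem _ _ (Submodule.subset_span ⟨β, hβ, rfl⟩)
    have h5 := Submodule.disjoint_def.mp hdisj _ h3 h4
    rw [hred] at h5
    exact gao_red_ne_zero hR (fun β : ↥b => U β.1) (fun β => hU β.1) hbli' _ hb β₀
      (div_self ha0) hsum h5
  -- conclusion
  refine ⟨y, hyspan, hyO, ∑ β, (a₂ β / c) • U β.1,
    sum_mem fun β _ => gao_smul_mem hR (gao_div_mem (hG β)) (hU β.1), ?_⟩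
  rw [hxy, gao_sum_div, ← Algebra.smul_def, smul_smul, mul_inv_cancel₀ hc0, one_smul]

end Fermat.Agent.W1
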