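import Fermat.Agent.W1.PlanGeo2
import Fermat.Agent.W1.GeoEval
import Fermat.Agent.W1.GeoExpand

/-!
# W1 GEO-T: Taylor expansion on a disc, integrality

`stmtTaylorInt_of : StmtEval → StmtDisc → StmtExpand → StmtTaylorInt` and
`stmtTaylorInt : StmtTaylorInt`.

For `f ∈ O` without poles in the `i`-th disc of a chart, `f = a₀ + τ f₁` with `a₀ = f(Q i) ∈ A`
and `f₁ ∈ O` again without poles in the disc (`τ = t - c i` is a unit of `O` whose only zero in
the disc is `Q i`, simple: `gt_tau_ord`, `gt_tau_ord_le`).  Iterating (`gt_exists_seq`,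
`gt_decomp`) gives `f = Σ_{j<n} a_j τ^j + τ^n f_n`, from which the three conclusions follow:
coefficients of the expansion (`gt_coeff_of_decomp`), their reduction, values on the disc
(`gt_hv_*`).
-/

set_option autoImplicit false

noncomputable section

namespace Fermat.Agent.W1.GT

open AlgebraicCurve Module Fermat.Agent.S24 Fermat.Agent.W1

/-! ### calculus of values -/

section Values

variable {K F : Type} [Field K] [Field F] [Algebra K F]

theorem gt_nonunits_add {B : ValuationSubring F} {x y : F} (hx : x ∈ B.nonunits)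
    (hy : y ∈ B.nonunits) : x + y ∈ B.nonunits := by
  rw [ValuationSubring.mem_nonunits_iff_exists_mem_maximalIdeal] at hx hy ⊢
  obtain ⟨hx1, hx2⟩ := hx
  obtain ⟨hy1, hy2⟩ := hy
  exact ⟨add_mem hx1 hy1, (IsLocalRing.maximalIdeal B).add_mem hx2 hy2⟩

theorem gt_hv_const (P : Place K F) (a : K) : HasValueAt P (algebraMap K F a) a :=
  hasValueAt_of_eq P (sub_self _)

theorem gt_hv_add (P : Place K F) {f h : F} {a b : K} (hf : HasValueAt P f a)
    (hh : HasValueAt P h b) : HasValueAt P (f + h) (a + b) := by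
  unfold HasValueAt at *
  have : f + h - algebraMap K F (a + b) = (f - algebraMap K F a) + (h - algebraMap K F b) := by
    rw [map_add]; ring
  rw [this]
  exact gt_nonunits_add hf hh

theorem gt_hv_mul (P : Place K F) {f h : F} {a b : K} (hf : HasValueAt P f a)
    (hh : HasValueAt P h b) : HasValueAt P (f * h) (a * b) := by
  have hfm := hf.mem P
  unfold HasValueAt at *
  have : f * h - algebraMap K F (a * b)
      = f * (h - algebraMap K F b) + algebraMap K F b * (f - algebraMap K F a) := by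
    rw [map_mul]; ring
  rw [this]
  exact gt_nonunits_add (ge_nonunits_mul_mem hfm hh)
    (ge_nonunits_mul_mem (P.algebraMap_mem' b) hf)

theorem gt_hv_pow (P : Place K F) {f : F} {a : K} (hf : HasValueAt P f a) (n : ℕ) :
    HasValueAt P (f ^ n) (a ^ n) := by
  induction n with
  | zero =>
    have := gt_hv_const P (1 : K)
    rw [map_one] at this
    rw [pow_zero, pow_zero]
    exact this
  | succ n ih =>
    rw [pow_succ, pow_succ]
    exact gt_hv_mul P ih hf

theorem gt_hv_sum (P : Place K F) {ι : Type} (s : Finset ι) (f : ι → F) (a : ι → K)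
    (h : ∀ i ∈ s, HasValueAt P (f i) (a i)) :
    HasValueAt P (∑ i ∈ s, f i) (∑ i ∈ s, a i) := by
  classical
  induction s using Finset.induction_on with
  | empty =>
    have := gt_hv_const P (0 : K)
    rwa [map_zero] at this
  | insert i s hi ih =>
    rw [Finset.sum_insert hi, Finset.sum_insert hi]
    exact gt_hv_add P (h i (Finset.mem_insert_self i s))
      (ih fun j hj => h j (Finset.mem_insert_of_mem hj))

end Values

/-! ### coefficients of an expansion from a finite Taylor formula -/

section Expand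

variable {K F : Type} [Field K] [Field F] [Algebra K F]

theorem gt_coeff_of_decomp (P : Place K F) (u : F) (ι : F →+* LaurentSeries K)
    (hconst : ∀ a : K, ι (algebraMap K F a) = HahnSeries.C a)
    (hunif : ι u = HahnSeries.single 1 1)
    (hord : ∀ f, f ≠ 0 → (ι f).order = P.ord f)
    (n : ℕ) (b : ℕ → K) (h f : F) (hh : 0 ≤ P.ord h)
    (hf : f = ∑ j ∈ Finset.range n, algebraMap K F (b j) * u ^ j + u ^ n * h)
    (m : ℤ) (hm : m < n) :
    (ι f).coeff m = if 0 ≤ m then b m.toNat else 0 := by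
  have h1 : ι f = ∑ j ∈ Finset.range n, HahnSeries.single (j : ℤ) (b j)
      + HahnSeries.single (n : ℤ) 1 * ι h := by
    rw [hf, map_add, map_sum, map_mul, map_pow, hunif]
    congr 1
    · refine Finset.sum_congr rfl fun j _ => ?_
      rw [map_mul, map_pow, hconst, hunif, HahnSeries.single_pow, one_pow, HahnSeries.C_apply,
        HahnSeries.single_mul_single, zero_add, mul_one, nsmul_eq_mul, mul_one]
    · rw [HahnSeries.single_pow, one_pow, nsmul_eq_mul, mul_one]
  rw [h1, HahnSeries.coeff_add, HahnSeries.coeff_sum, HahnSeries.coeff_single_mul, one_mul]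
  have h2 : (ι h).coeff (m - n) = 0 := by
    rcases eq_or_ne h 0 with rfl | hne
    · rw [map_zero]; rfl
    · apply HahnSeries.coeff_eq_zero_of_lt_order
      rw [hord h hne]; omega
  rw [h2, add_zero]
  split_ifs with hm0
  · obtain ⟨m', rfl⟩ := Int.eq_ofNat_of_zero_le hm0
    have hm' : m' < n := by exact_mod_cast hm
    rw [Finset.sum_eq_single_of_mem m' (Finset.mem_range.2 hm')
      (fun j _ hj => HahnSeries.coeff_single_of_ne (by exact_mod_cast (Ne.symm hj))),
      HahnSeries.coeff_single_same, Int.toNat_natCast]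
  · exact Finset.sum_eq_zero fun j _ => HahnSeries.coeff_single_of_ne (by omega)

end Expand

/-! ### the local parameter of a chart -/

section Chart

variable {K F k Fk : Type} [Field K] [Field F] [Algebra K F] [Field k] [Field Fk] [Algebra k Fk]
variable {A : ValuationSubring K} {R : PRData K F k Fk A} {g : ℕ}

/-- `f` has no pole in the `i`-th disc -/
def NoPole (C : R.Chart g) (i : Fin g) (f : F) : Prop :=
  ∀ P : Place K F, P.ord f < 0 → R.r P ≠ R.r (C.Q i)

theorem NoPole.ord_nonneg {C : R.Chart g} {i : Fin g} {f : F} (hf : NoPole C i f)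
    {P : Place K F} (hP : R.r P = R.r (C.Q i)) : 0 ≤ P.ord f := by
  by_contra h
  exact hf P (not_le.mp h) hP

variable (hR : R.IsPR) (C : R.Chart g) (hC : C.IsChart) (i : Fin g)

include hR hC in
theorem gt_tau_mem : C.tau i ∈ R.O :=
  sub_mem hC.good.1 (hR.algebraMap_mem (C.c i))

/-- `τ` as an element of `O` -/
def tauO : R.O := ⟨C.tau i, gt_tau_mem hR C hC i⟩

/-- a constant of `A` as an element of `O` -/
def constO (a : A) : R.O := ⟨algebraMap K F (a : K), hR.algebraMap_mem a⟩

theorem gt_red_tauO :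
    R.red (tauO hR C hC i) = R.red ⟨C.t, hC.good.1⟩ - algebraMap k Fk (R.res (C.c i)) := by
  have h : tauO hR C hC i = ⟨C.t, hC.good.1⟩ - constO hR (C.c i) := rfl
  rw [h, map_sub, constO, hR.red_const]

theorem gt_red_tauO_ord : (R.r (C.Q i)).ord (R.red (tauO hR C hC i)) = 1 := by
  rw [gt_red_tauO]
  exact hC.simple hC.good.1 i

theorem gt_red_tauO_ne_zero : R.red (tauO hR C hC i) ≠ 0 := by
  intro h
  have := gt_red_tauO_ord hR C hC i
  rw [h, Place.ord_zero] at this
  exact zero_ne_one this

include hR hC in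
theorem gt_tau_ne_zero : C.tau i ≠ 0 :=
  ge_coe_ne_zero (gt_red_tauO_ne_zero hR C hC i)

include hR hC in
theorem gt_tau_inv_mem : (C.tau i)⁻¹ ∈ R.O := by
  have h1 : ¬ (C.tau i) ∈ R.O.nonunits := by
    intro h
    exact gt_red_tauO_ne_zero hR C hC i ((hR.red_eq_zero_iff (tauO hR C hC i)).2 h)
  rw [ValuationSubring.mem_nonunits_iff_or, not_or, not_not] at h1
  exact h1.2

include hR hC in
theorem gt_tau_noPole : NoPole C i (C.tau i) := by
  intro P hP hrP
  -- `t` has a pole at `P`
  have ht : P.ord C.t < 0 := by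
    by_contra hnn
    have h1 : C.t ∈ P.toValuationSubring := ge_mem_of_not_ord_neg P hnn
    have h2 : C.tau i ∈ P.toValuationSubring := sub_mem h1 (P.algebraMap_mem' _)
    exact absurd (ge_ord_nonneg_of_mem P h2) (not_le.mpr hP)
  obtain ⟨ht', hpoles⟩ := hC.good
  have h3 := hpoles P ht
  rw [hrP] at h3
  -- but `t̄` is regular at `Q̄ i`
  have h4 : 0 < (R.r (C.Q i)).ord (R.red (tauO hR C hC i)) := by
    rw [gt_red_tauO_ord]; exact one_pos
  rw [PlaceAux.ord_pos_iff_mem_nonunits _ (gt_red_tauO_ne_zero hR C hC i), gt_red_tauO] at h4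
  have h5 : HasValueAt (R.r (C.Q i)) (R.red ⟨C.t, hC.good.1⟩) (R.res (C.c i)) := h4
  exact absurd (ge_ord_nonneg_of_mem _ (h5.mem _)) (not_le.mpr h3)

variable (hK : IsNiceCurve K F g)

include hR hC in
theorem gt_tau_ord_pos : 0 < (C.Q i).ord (C.tau i) := by
  rw [PlaceAux.ord_pos_iff_mem_nonunits _ (gt_tau_ne_zero hR C hC i)]
  exact hC.value i

include hR hC hK in
/-- `τ` has a simple zero at the centre -/
theorem gt_tau_ord : (C.Q i).ord (C.tau i) = 1 := by
  have h1 := gt_tau_ord_pos hR C hC i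
  have h2 := ge_sum_ord_le hR hK.hpd (gt_red_tauO_ne_zero hR C hC i) (R.r (C.Q i))
    (gt_tau_noPole hR C hC i) {C.Q i} (by simp)
  rw [Finset.sum_singleton, gt_red_tauO_ord] at h2
  have h3 : ((tauO hR C hC i : R.O) : F) = C.tau i := rfl
  rw [h3] at h2
  omega

include hR hC hK in
/-- `τ` has no other zero in the disc -/
theorem gt_tau_ord_le {P : Place K F} (hP : R.r P = R.r (C.Q i)) (hne : P ≠ C.Q i) :
    P.ord (C.tau i) ≤ 0 := by
  classical
  have h1 := gt_tau_ord_pos hR C hC i
  have h2 := ge_sum_ord_le hR hK.hpd (gt_red_tauO_ne_zero hR C hC i) (R.r (C.Q i))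
    (gt_tau_noPole hR C hC i) {P, C.Q i} (by
      intro x hx
      rcases Finset.mem_insert.mp hx with rfl | hx
      · exact hP
      · rw [Finset.mem_singleton.mp hx])
  rw [Finset.sum_pair hne, gt_red_tauO_ord] at h2
  have h3 : ((tauO hR C hC i : R.O) : F) = C.tau i := rfl
  rw [h3] at h2
  omega

/-! ### the step `f = f(Q) + τ f₁` -/

include hK in
theorem gt_step (hEval : StmtEval) (hk : IsNiceCurve k Fk g) (f : R.O)
    (hf : NoPole C i (f : F)) :
    ∃ (a : A) (f₁ : R.O), NoPole C i (f₁ : F) ∧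
      f = constO hR a + tauO hR C hC i * f₁ := by
  obtain ⟨a, ha, -⟩ := hEval K F k Fk A R g hR hK hk f (C.Q i) hf
  have hτ0 := gt_tau_ne_zero hR C hC i
  set τinv : R.O := ⟨(C.tau i)⁻¹, gt_tau_inv_mem hR C hC i⟩ with hτinv
  refine ⟨a, (f - constO hR a) * τinv, ?_, ?_⟩
  · intro P hP hrP
    have hcoe : (((f - constO hR a) * τinv : R.O) : F)
        = ((f : F) - algebraMap K F (a : K)) * (C.tau i)⁻¹ := rfl
    rw [hcoe] at hP
    rcases eq_or_ne ((f : F) - algebraMap K F (a : K)) 0 with h0 | h0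
    · rw [h0, zero_mul, Place.ord_zero] at hP
      exact lt_irrefl _ hP
    · rw [P.ord_mul h0 (inv_ne_zero hτ0), P.ord_inv] at hP
      by_cases hPQ : P = C.Q i
      · subst hPQ
        have h1 : 0 < (C.Q i).ord ((f : F) - algebraMap K F (a : K)) :=
          (hasValueAt_iff_ord_pos _ h0).1 ha
        have h2 := gt_tau_ord hR C hC i hK
        omega
      · have h1 : 0 ≤ P.ord ((f : F) - algebraMap K F (a : K)) := by
          apply ge_ord_nonneg_of_mem
          exact sub_mem (PlaceAux.mem_of_ord_nonneg P (hf.ord_nonneg hrP)) (P.algebraMap_mem' _)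
        have h2 := gt_tau_ord_le hR C hC i hK hrP hPQ
        omega
  · apply Subtype.ext
    show (f : F) = algebraMap K F (a : K)
      + C.tau i * (((f : F) - algebraMap K F (a : K)) * (C.tau i)⁻¹)
    field_simp
    ring

include hK in
/-- the iteration -/
theorem gt_exists_seq (hEval : StmtEval) (hk : IsNiceCurve k Fk g) (f : R.O)
    (hf : NoPole C i (f : F)) :
    ∃ (a : ℕ → A) (G : ℕ → R.O), G 0 = f ∧ ∀ n, NoPole C i (G n : F) ∧
      G n = constO hR (a n) + tauO hR C hC i * G (n + 1) := by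
  choose stepA stepF hstep using
    fun x : {x : R.O // NoPole C i (x : F)} => gt_step hR C hC i hK hEval hk x.1 x.2
  let next : {x : R.O // NoPole C i (x : F)} → {x : R.O // NoPole C i (x : F)} :=
    fun x => ⟨stepF x, (hstep x).1⟩
  refine ⟨fun n => stepA (next^[n] ⟨f, hf⟩), fun n => (next^[n] ⟨f, hf⟩).1, rfl, fun n => ?_⟩
  refine ⟨(next^[n] ⟨f, hf⟩).2, ?_⟩
  show (next^[n] ⟨f, hf⟩).1 = constO hR (stepA (next^[n] ⟨f, hf⟩))
    + tauO hR C hC i * (next^[n + 1] ⟨f, hf⟩).1
  rw [Function.iterate_succ_apply']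
  exact (hstep _).2

/-- the finite Taylor formula in `O` -/
theorem gt_decomp (a : ℕ → A) (G : ℕ → R.O)
    (hG : ∀ n, G n = constO hR (a n) + tauO hR C hC i * G (n + 1)) (n : ℕ) :
    G 0 = ∑ j ∈ Finset.range n, constO hR (a j) * tauO hR C hC i ^ j
      + tauO hR C hC i ^ n * G n := by
  induction n with
  | zero => simp
  | succ n ih =>
    rw [Finset.sum_range_succ, ih]
    conv_lhs => rw [hG n]
    ring

end Chart

end Fermat.Agent.W1.GT

namespace Fermat.Agent.W1

open AlgebraicCurve Module Fermat.Agent.S24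

/-- **GEO-T** (Taylor, integrality) from evaluation and expansions. -/
theorem stmtTaylorInt_of (hEval : StmtEval) (_hDisc : StmtDisc) (hExp : StmtExpand) :
    StmtTaylorInt := by
  intro K F k Fk _ _ _ _ _ _ A R g hR hK hk C hC i f hf s hs
  have hfN : GT.NoPole C i (f : F) := hf
  obtain ⟨ι, -, huniq, hconst, hunif, hord⟩ :=
    hExp K F (C.Q i) (hK.hres _) (C.tau i) (GT.gt_tau_ord hR C hC i hK)
  have hsι : s = ι (f : F) := huniq _ _ hs
  obtain ⟨a, G, hG0, hG⟩ := GT.gt_exists_seq hR C hC i hK hEval hk f hfN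
  have hdec := fun n => GT.gt_decomp hR C hC i a G (fun n => (hG n).2) n
  -- the Taylor formula in `F`
  have hdecF : ∀ n : ℕ, (f : F) = ∑ j ∈ Finset.range n, algebraMap K F (a j : K) * C.tau i ^ j
      + C.tau i ^ n * (G n : F) := by
    intro n
    have h := congrArg R.O.subtype (hdec n)
    rw [hG0] at h
    rw [map_add, map_sum, map_mul, map_pow] at h
    simp only [map_mul, map_pow] at h
    exact h
  have hGord : ∀ n, 0 ≤ (C.Q i).ord (G n : F) := fun n => (hG n).1.ord_nonneg rfl
  have hcoef : ∀ (n : ℕ) (m : ℤ), m < n →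
      s.coeff m = if 0 ≤ m then ((a m.toNat : A) : K) else 0 := by
    intro n m hm
    rw [hsι]
    exact GT.gt_coeff_of_decomp (C.Q i) (C.tau i) ι hconst hunif hord n (fun j => (a j : K))
      (G n : F) (f : F) (hGord n) (hdecF n) m hm
  refine ⟨fun m hm => ?_, a, fun m => ?_, fun ht sk hsk m => ?_, fun P z hPz n => ?_⟩
  · have h := hcoef 0 m (by simpa using hm)
    rw [if_neg (not_le.mpr hm)] at h
    exact h
  · have h := hcoef (m + 1) m (by push_cast; omega)
    rw [if_pos (by omega), Int.toNat_natCast] at h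
    exact h
  · -- the reduction of the coefficients
    obtain ⟨ιk, -, huniqk, hconstk, hunifk, hordk⟩ :=
      hExp k Fk (R.r (C.Q i)) (hk.hres _)
        (R.red ⟨C.t, ht⟩ - algebraMap k Fk (R.res (C.c i))) (hC.simple ht i)
    have hskι : sk = ιk (R.red f) := huniqk _ _ hsk
    have hdeck : R.red f = ∑ j ∈ Finset.range (m + 1),
        algebraMap k Fk (R.res (a j)) *
          (R.red ⟨C.t, ht⟩ - algebraMap k Fk (R.res (C.c i))) ^ j
        + (R.red ⟨C.t, ht⟩ - algebraMap k Fk (R.res (C.c i))) ^ (m + 1) * R.red (G (m + 1)) := by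
      have h := congrArg R.red (hdec (m + 1))
      rw [hG0, map_add, map_sum, map_mul, map_pow, GT.gt_red_tauO] at h
      rw [h]
      congr 1
      refine Finset.sum_congr rfl fun j _ => ?_
      rw [map_mul, map_pow, GT.gt_red_tauO, GT.constO, hR.red_const]
    have hordk' : 0 ≤ (R.r (C.Q i)).ord (R.red (G (m + 1))) := by
      obtain ⟨a', -, ha'⟩ := hEval K F k Fk A R g hR hK hk (G (m + 1)) (C.Q i) (hG (m + 1)).1
      exact ge_ord_nonneg_of_mem _ (ha'.mem _)
    have h := GT.gt_coeff_of_decomp (R.r (C.Q i)) _ ιk hconstk hunifk hordk (m + 1)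
      (fun j => R.res (a j)) (R.red (G (m + 1))) (R.red f) hordk' hdeck m (by push_cast; omega)
    rw [if_pos (by omega), Int.toNat_natCast] at h
    rw [hskι]
    exact h
  · -- the values on the disc
    obtain ⟨hrP, -, hval⟩ := hPz
    obtain ⟨y, hy, -⟩ := hEval K F k Fk A R g hR hK hk (G n) P
      (fun P' hP' => by rw [hrP]; exact (hG n).1 P' hP')
    have hτ : HasValueAt P (C.tau i) z := by
      unfold HasValueAt PRData.Chart.tau
      unfold HasValueAt at hval
      have h1 : C.t - algebraMap K F (C.c i : K) - algebraMap K F z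
          = C.t - algebraMap K F ((C.c i : K) + z) := by
        rw [map_add]; ring
      rw [h1]
      exact hval
    refine ⟨y, ?_⟩
    rw [hdecF n]
    refine GT.gt_hv_add P ?_ (GT.gt_hv_mul P (GT.gt_hv_pow P hτ n) hy)
    exact GT.gt_hv_sum P _ _ _ fun j _ =>
      GT.gt_hv_mul P (GT.gt_hv_const P _) (GT.gt_hv_pow P hτ j)

/-- **GEO-T**, unconditional. -/
theorem stmtTaylorInt : StmtTaylorInt :=
  stmtTaylorInt_of stmtEval stmtDisc stmtExpand

end Fermat.Agent.W1
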