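import Fermat.Agent.W1.PlanApprox
import Fermat.Agent.W1.GeoTaylor

/-!
# W1 GA-S: moving the poles to the zeros of the local parameters, modulo `ϖ ^ n`

`stmtSharp : StmtSharp` (see `W1/PlanApprox.lean`).  For `f ∈ O` with poles only in the discs at
points `P` with coordinates `z_P ∈ ϖ A`, put

  `f♯ := f · ∏_P (1 - (z_P / τ_{i_P}) ^ n) ^ {m_P}`,  `m_P = - ord_P f`.

* every factor is `≡ 1` modulo `ϖ ^ n O` (`τ i` is a unit of `O`), so `f♯ ≡ f`;
* at a place which is not a zero of any `τ i` all factors are regular, and the factor of a pole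
  `P` of `f` vanishes at `P` (`(z_P / τ)(P) = 1`), so `f♯` is regular there.
-/

set_option autoImplicit false

noncomputable section

namespace Fermat.Agent.W1.GS

open AlgebraicCurve Module Fermat.Agent.S24 Fermat.Agent.W1

variable {K F k Fk : Type} [Field K] [Field F] [Algebra K F] [Field k] [Field Fk] [Algebra k Fk]
variable {A : ValuationSubring K} {R : PRData K F k Fk A} {g : ℕ}

/-- the elements `≡ 1` modulo `c O` -/
def oneMod (R : PRData K F k Fk A) (c : F) (hc : c ∈ R.O) : Submonoid F where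
  carrier := {x | ∃ h : F, h ∈ R.O ∧ x = 1 - c * h}
  one_mem' := ⟨0, zero_mem _, by rw [mul_zero, sub_zero]⟩
  mul_mem' := by
    rintro x y ⟨a, ha, rfl⟩ ⟨b, hb, rfl⟩
    exact ⟨a + b - c * (a * b), sub_mem (add_mem ha hb) (mul_mem hc (mul_mem ha hb)), by ring⟩

theorem mem_oneMod {c : F} {hc : c ∈ R.O} {x : F} :
    x ∈ oneMod R c hc ↔ ∃ h : F, h ∈ R.O ∧ x = 1 - c * h := Iff.rfl

theorem oneMod_mem_O {c : F} {hc : c ∈ R.O} {x : F} (hx : x ∈ oneMod R c hc) : x ∈ R.O := by
  obtain ⟨h, hh, rfl⟩ := hx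
  exact sub_mem (one_mem _) (mul_mem hc hh)

variable (hR : R.IsPR) (C : R.Chart g) (hC : C.IsChart)

/-- the value of `τ i` at a point of the `i`-th disc -/
theorem gs_tau_value {i : Fin g} {P : Place K F} {z : K} (h : C.InDisc i P z) :
    HasValueAt P (C.tau i) z := by
  obtain ⟨-, -, hval⟩ := h
  unfold HasValueAt PRData.Chart.tau
  unfold HasValueAt at hval
  have h1 : C.t - algebraMap K F (C.c i : K) - algebraMap K F z
      = C.t - algebraMap K F ((C.c i : K) + z) := by
    rw [map_add]; ring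
  rw [h1]
  exact hval

/-- the inverse of `τ i` is regular away from the zeros of `τ i` -/
theorem gs_tau_inv_mem {i : Fin g} {P : Place K F} (h : ¬ HasValueAt P C.t (C.c i : K)) :
    (C.tau i)⁻¹ ∈ P.toValuationSubring := by
  have h1 : ¬ (C.tau i) ∈ P.toValuationSubring.nonunits := h
  rw [ValuationSubring.mem_nonunits_iff_or, not_or, not_not] at h1
  exact h1.2

/-- the factor of a point `P` of a disc -/
def factor (i : Fin g) (z : K) (n : ℕ) : F := 1 - (algebraMap K F z * (C.tau i)⁻¹) ^ n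

include hR hC in
theorem factor_mem_oneMod {ϖ : K} (n : ℕ)
    (hc : algebraMap K F (ϖ ^ n) ∈ R.O) (i : Fin g) {z a : K} (ha : a ∈ A) (hz : z = ϖ * a) :
    factor C i z n ∈ oneMod R (algebraMap K F (ϖ ^ n)) hc := by
  refine ⟨(algebraMap K F a * (C.tau i)⁻¹) ^ n, ?_, ?_⟩
  · exact pow_mem (mul_mem (hR.algebraMap_mem ⟨a, ha⟩) (GT.gt_tau_inv_mem hR C hC i)) n
  · rw [factor, hz, map_mul, map_pow]
    ring

/-- the factor is regular away from the zeros of the `τ i` -/
theorem factor_mem_place (i : Fin g) (z : K) (n : ℕ) {P : Place K F}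
    (h : ¬ HasValueAt P C.t (C.c i : K)) : factor C i z n ∈ P.toValuationSubring :=
  sub_mem (one_mem _) (pow_mem (mul_mem (P.algebraMap_mem' z) (gs_tau_inv_mem C h)) n)

/-- the factor of `P` vanishes at `P` -/
theorem factor_mem_nonunits {i : Fin g} {z : K} (n : ℕ) {P : Place K F} (h : C.InDisc i P z)
    (hno : ¬ HasValueAt P C.t (C.c i : K)) : factor C i z n ∈ P.toValuationSubring.nonunits := by
  have hτ := gs_tau_value C h
  have hτinv := gs_tau_inv_mem C hno
  -- `z / τ` has value `1`
  have h1 : HasValueAt P (algebraMap K F z * (C.tau i)⁻¹) 1 := by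
    have hτ0 : C.tau i ≠ 0 := by
      intro h0
      apply hno
      have : C.tau i ∈ P.toValuationSubring.nonunits := by
        rw [h0]; exact ge_zero_mem_nonunits _
      exact this
    unfold HasValueAt at hτ ⊢
    have h2 : algebraMap K F z * (C.tau i)⁻¹ - algebraMap K F 1
        = -((C.tau i)⁻¹ * (C.tau i - algebraMap K F z)) := by
      rw [map_one]
      field_simp
      ring
    rw [h2]
    have h3 := ge_nonunits_mul_mem hτinv hτ
    have h4 := ge_nonunits_sub (ge_zero_mem_nonunits P.toValuationSubring) h3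
    rwa [zero_sub] at h4
  have h5 := GT.gt_hv_pow P h1 n
  rw [one_pow] at h5
  unfold HasValueAt at h5
  rw [map_one] at h5
  have h6 := ge_nonunits_sub (ge_zero_mem_nonunits P.toValuationSubring) h5
  rw [zero_sub, neg_sub] at h6
  exact h6

end Fermat.Agent.W1.GS

namespace Fermat.Agent.W1

open AlgebraicCurve Module Fermat.Agent.S24

/-- **GA-S**: moving the poles to the zeros of the `τ i`, modulo `ϖ ^ n`. -/
theorem stmtSharp : StmtSharp := by
  classical
  intro K F k Fk _ _ _ _ _ _ A R g hR hK hk C hC ϖ hϖ hϖ0 f hf hpoles n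
  rcases eq_or_ne f 0 with rfl | hf0
  · refine ⟨0, zero_mem _, fun P hP => ?_, 0, zero_mem _, by rw [sub_self, mul_zero]⟩
    rw [Place.ord_zero] at hP
    exact absurd hP (lt_irrefl _)
  have hϖA : ϖ ∈ A := ge_nonunits_mem hϖ
  have hc : algebraMap K F (ϖ ^ n) ∈ R.O := hR.algebraMap_mem ⟨ϖ ^ n, pow_mem hϖA n⟩
  obtain ⟨D, hD, -⟩ := hK.hpd.exists_divisor f hf0
  -- the factors
  have key : ∀ P : Place K F, ∃ γ : F,
      (P.ord f < 0 → ∃ (i : Fin g) (z a : K), C.InDisc i P z ∧ a ∈ A ∧ z = ϖ * a ∧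
        γ = GS.factor C i z n) ∧ (¬ P.ord f < 0 → γ = 1) := by
    intro P
    by_cases h : P.ord f < 0
    · obtain ⟨i, z, hin, a, ha, hz⟩ := hpoles P h
      exact ⟨GS.factor C i z n, fun _ => ⟨i, z, a, hin, ha, hz, rfl⟩, fun h' => absurd h h'⟩
    · exact ⟨1, fun h' => absurd h' h, fun _ => rfl⟩
  choose γ hγ1 hγ2 using key
  -- each factor is `≡ 1`
  have hγmod : ∀ P, γ P ∈ GS.oneMod R (algebraMap K F (ϖ ^ n)) hc := by
    intro P
    by_cases h : P.ord f < 0
    · obtain ⟨i, z, a, -, ha, hz, hγ⟩ := hγ1 P h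
      rw [hγ]
      exact GS.factor_mem_oneMod hR C hC n hc i ha hz
    · rw [hγ2 P h]
      exact one_mem _
  set Pr : F := ∏ P ∈ D.support, γ P ^ (-(P.ord f)).toNat with hPr
  have hPrmod : Pr ∈ GS.oneMod R (algebraMap K F (ϖ ^ n)) hc :=
    prod_mem fun P _ => pow_mem (hγmod P) _
  refine ⟨f * Pr, mul_mem hf (GS.oneMod_mem_O hPrmod), fun P' hP' => ?_, ?_⟩
  · -- poles of `f♯`
    by_contra hno
    push Not at hno
    -- all factors are regular at `P'`
    have hreg : ∀ P, γ P ∈ P'.toValuationSubring := by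
      intro P
      by_cases h : P.ord f < 0
      · obtain ⟨i, z, a, -, -, -, hγ⟩ := hγ1 P h
        rw [hγ]
        exact GS.factor_mem_place C i z n (hno i)
      · rw [hγ2 P h]
        exact one_mem _
    have hmem : f * Pr ∈ P'.toValuationSubring := by
      by_cases h : P'.ord f < 0
      · have hsupp : P' ∈ D.support := by
          rw [Finsupp.mem_support_iff, hD P']
          omega
        rw [hPr, ← Finset.mul_prod_erase _ _ hsupp, ← mul_assoc]
        refine mul_mem ?_ (prod_mem fun P _ => pow_mem (hreg P) _)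
        -- the pole of `f` at `P'` is killed
        obtain ⟨i, z, a, hin, -, -, hγ⟩ := hγ1 P' h
        have hvan : γ P' ∈ P'.toValuationSubring.nonunits := by
          rw [hγ]
          exact GS.factor_mem_nonunits C n hin (hno i)
        rcases eq_or_ne (γ P') 0 with h0 | h0
        · have hm : (-(P'.ord f)).toNat ≠ 0 := by omega
          rw [h0, zero_pow hm, mul_zero]
          exact zero_mem _
        · have hord : 0 < P'.ord (γ P') := (PlaceAux.ord_pos_iff_mem_nonunits P' h0).2 hvan
          apply PlaceAux.mem_of_ord_nonneg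
          rw [P'.ord_mul hf0 (pow_ne_zero _ h0)]
          have hpow : P'.ord (γ P' ^ (-(P'.ord f)).toNat)
              = ((-(P'.ord f)).toNat : ℤ) * P'.ord (γ P') := by
            have := P'.ord_zpow (γ P') ((-(P'.ord f)).toNat : ℤ)
            rwa [zpow_natCast] at this
          rw [hpow]
          have hm : ((-(P'.ord f)).toNat : ℤ) = -(P'.ord f) := Int.toNat_of_nonneg (by omega)
          rw [hm]
          nlinarith
      · exact mul_mem (ge_mem_of_not_ord_neg P' h)
          (prod_mem fun P _ => pow_mem (hreg P) _)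
    exact absurd (ge_ord_nonneg_of_mem P' hmem) (not_le.mpr hP')
  · -- `f - f♯ ∈ ϖ ^ n O`
    obtain ⟨h, hh, hPreq⟩ := hPrmod
    refine ⟨f * h, mul_mem hf hh, ?_⟩
    rw [hPreq]
    ring

end Fermat.Agent.W1
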