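import Fermat.Agent.W1.GeoApprox
import Fermat.Agent.W1.GeoSharp
import Fermat.Agent.W1.GeoOrthApprox
import Fermat.Agent.W1.GeoB
import Fermat.Agent.W1.GeoCmp
import Fermat.Agent.W1.GeoKC
import Fermat.Agent.W1.GeoExpand
import Fermat.Agent.W1.GeoTaylor
import Fermat.Agent.W1.GeoEval
import Fermat.Agent.W1.GeoC1
import Fermat.Agent.W1.GeoLift
import Fermat.Agent.W1.Teich

/-!
# W1-geo: the abstract geometric half, assembled (unconditional)

All the abstract pieces of `NOTES/W1-geo.md` are proved; this file wires them:

* `stmtApprox : StmtApprox` (GEO-AL) from `stmtSharp`, `stmtOrthApprox`, `stmtApprox_of`;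
* `stmtBFamily : StmtBFamily` (GEO-B);
* `stmtAddApprox : StmtAddApprox` (GEO-CMP);
* `hasKernelChart_of_hasModPR` : the concrete reduction package `HasModPR N A` of `X₀(N)` at a
  valuation ring `A` of `ℚ̄` over `p` gives a kernel chart on `JZero N` (GEO-KC).

So the only geometric input still needed for `S19` is `HasModPR N A` (GEO-PR) and the change of
level (GEO-LVL).
-/

set_option autoImplicit false

namespace Fermat.Agent.W1

/-- **GEO-AL**, unconditional. -/
theorem stmtApprox : StmtApprox := stmtApprox_of stmtSharp stmtOrthApprox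

/-- **GEO-B**, unconditional. -/
theorem stmtBFamily : StmtBFamily := stmtBFamily_of stmtExpand stmtTaylorInt

/-- **GEO-CMP**, unconditional. -/
theorem stmtAddApprox : StmtAddApprox :=
  Cmp.stmtAddApprox_of stmtExpand stmtTaylorInt stmtBFamily stmtApprox

/-- **GEO-KC**, unconditional: the reduction package gives the kernel chart. -/
theorem hasKernelChart_of_hasModPR (N : ℕ) [NeZero N] (p : ℕ) (hp : p.Prime)
    (A : ValuationSubring (AlgebraicClosure ℚ)) (hA : A.LiesOverPrime p) (h : HasModPR N A) :
    HasKernelChart N A :=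
  stmtKC stmtEval stmtOnto stmtDisc stmtC1 stmtC1Conv stmtLift stmtAddApprox stmtTeich N p hp A hA h

end Fermat.Agent.W1
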