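import Fermat.Agent.ES.RiemannGeneric

/-!
# W1-GP: general position from Riemann's theorem (no differentials, no duality)

`K` a field, `F/K` a field with the prelude's places, all residue fields equal to `K`,
principal divisors of degree `0`.  `L(D) := riemannRochSpace D`.

Hypotheses used (as explicit `Prop`s, to be supplied by the good-reduction package):

* `GPRiemannUpper K F g` : `∃ c, ∀ A, c ≤ deg A → dim L(A) ≤ deg A + 1 − g`;
* `GPRiemannLower K F g` : `∀ A, deg A + 1 − g ≤ dim L(A)`.

Results (`gpSum T := Σ_{Q ∈ T} Q` for a finite set `T` of places):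

* `gp_finite_bad` (GP1): `L(B) = 0`, `deg B ≤ g − 2` ⇒ `L(B + Q) = 0` for all but finitely many `Q`;
* `gp_exists_points` : the same for a finite family of divisors, `j` points at once, avoiding a
  finite set `S`;
* `gp_exists_chart` (GP2): there are `g` distinct places outside `S` with `dim L(ΣQ_i) = 1`
  (a NON-SPECIAL chart);
* `gp_exists_moving` (GP3): for `X₀` of degree `0` there is a non-special chart `T` outside `S`
  with `dim L(X₀ + ΣT) = 1` and `L(X₀ + ΣT − s) = 0` for all `s ∈ S`
  (so the effective divisor of the class avoids `S`: `gp_effective_avoids`);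
* `gp_finrank_chart_add` (GP4): `dim L(ΣT + A) = deg A + 1` for a non-special chart `T`, `A ≥ 0`
  (surjectivity onto principal parts).
-/

set_option autoImplicit false

open AlgebraicCurve Module

namespace Fermat.Agent.W1

open Fermat.Agent.ES.R Fermat.Agent.S24

variable {K F : Type*} [Field K] [Field F] [Algebra K F]

/-- The reduced effective divisor `Σ_{Q ∈ T} Q`. -/
noncomputable def gpSum (T : Finset (Place K F)) : Divisor K F :=
  ∑ Q ∈ T, Finsupp.single Q 1

@[simp] theorem gpSum_empty : gpSum (∅ : Finset (Place K F)) = 0 := by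
  simp [gpSum]

theorem gpSum_insert [DecidableEq (Place K F)] {T : Finset (Place K F)} {Q : Place K F}
    (hQ : Q ∉ T) : gpSum (insert Q T) = gpSum T + Finsupp.single Q 1 := by
  simp [gpSum, Finset.sum_insert hQ, add_comm]

theorem gpSum_apply_of_not_mem {T : Finset (Place K F)} {v : Place K F} (hv : v ∉ T) :
    gpSum T v = 0 := by
  classical
  induction T using Finset.induction_on with
  | empty => simp
  | insert Q T hQ ih =>
    rw [Finset.mem_insert, not_or] at hv
    rw [gpSum_insert hQ, Finsupp.add_apply, ih hv.2, Finsupp.single_eq_of_ne hv.1, add_zero]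

theorem gpSum_apply_of_mem {T : Finset (Place K F)} {v : Place K F} (hv : v ∈ T) :
    gpSum T v = 1 := by
  classical
  induction T using Finset.induction_on with
  | empty => simp at hv
  | insert Q T hQ ih =>
    rw [gpSum_insert hQ, Finsupp.add_apply]
    rcases Finset.mem_insert.mp hv with rfl | hvT
    · rw [gpSum_apply_of_not_mem hQ, Finsupp.single_eq_same, zero_add]
    · have hne : v ≠ Q := fun h => hQ (h ▸ hvT)
      rw [ih hvT, Finsupp.single_eq_of_ne hne, add_zero]

theorem gpSum_nonneg (T : Finset (Place K F)) : 0 ≤ gpSum T := by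
  classical
  rw [Finsupp.le_def]
  intro v
  by_cases hv : v ∈ T
  · rw [gpSum_apply_of_mem hv]; simp
  · rw [gpSum_apply_of_not_mem hv]; simp

theorem degree_gpSum (hres : ∀ v : Place K F, Function.Bijective (algebraMap K v.ResidueField))
    (T : Finset (Place K F)) : Divisor.degree (gpSum T) = T.card := by
  rw [gpSum, map_sum]
  simp only [Divisor.degree_single, place_deg_eq_one _ (hres _)]
  simp

variable (K F) in
/-- Riemann's theorem, upper half: `dim L(A) ≤ deg A + 1 − g` for divisors of large degree. -/
def GPRiemannUpper (g : ℕ) : Prop :=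
  ∃ c : ℤ, ∀ A : Divisor K F, c ≤ Divisor.degree A →
    (finrank K ↥(riemannRochSpace A) : ℤ) ≤ Divisor.degree A + 1 - g

variable (K F) in
/-- Riemann's inequality: `deg A + 1 − g ≤ dim L(A)` for every divisor. -/
def GPRiemannLower (g : ℕ) : Prop :=
  ∀ A : Divisor K F, Divisor.degree A + 1 - g ≤ (finrank K ↥(riemannRochSpace A) : ℤ)

/-! ### Elementary facts on `L(D)` -/

theorem gp_one_mem_rr {D : Divisor K F} (hD : 0 ≤ D) : (1 : F) ∈ riemannRochSpace D := by
  rw [mem_riemannRochSpace_iff]
  intro v
  right
  rw [Place.ord_one]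
  have := Finsupp.le_def.mp hD v
  simp only [Finsupp.coe_zero, Pi.zero_apply] at this
  linarith

theorem gp_rr_inf_le {A B C : Divisor K F} (h : ∀ v, C v = A v ∨ C v = B v) :
    riemannRochSpace A ⊓ riemannRochSpace B ≤ riemannRochSpace C := by
  rintro f ⟨hA, hB⟩
  have hA' := mem_riemannRochSpace_iff.mp hA
  have hB' := mem_riemannRochSpace_iff.mp hB
  rw [mem_riemannRochSpace_iff]
  intro v
  rcases h v with hv | hv
  · rw [hv]; exact hA' v
  · rw [hv]; exact hB' v

theorem gp_one_le_finrank_rr [HasPrincipalDivisors K F]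
    (hres : ∀ v : Place K F, Function.Bijective (algebraMap K v.ResidueField))
    (v₀ : Place K F) {D : Divisor K F} (hD : 0 ≤ D) :
    1 ≤ finrank K ↥(riemannRochSpace D) := by
  have := rr_finite v₀ hres D
  rw [Nat.succ_le_iff, Module.finrank_pos_iff_exists_ne_zero]
  exact ⟨⟨1, gp_one_mem_rr hD⟩, fun h => one_ne_zero (congrArg Subtype.val h)⟩

theorem gp_rr_eq_bot_iff_finrank [HasPrincipalDivisors K F]
    (hres : ∀ v : Place K F, Function.Bijective (algebraMap K v.ResidueField))
    (v₀ : Place K F) (D : Divisor K F) :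
    riemannRochSpace D = ⊥ ↔ finrank K ↥(riemannRochSpace D) = 0 := by
  have := rr_finite v₀ hres D
  exact (Submodule.finrank_eq_zero (R := K) (S := riemannRochSpace D)).symm

/-! ### GP1 -/

/-- Counting step: `#T ≤ dim L(B + ΣT)` if `L(B) = 0` and `L(B + Q) ≠ 0` for all `Q ∈ T`. -/
theorem gp_card_le [HasPrincipalDivisors K F]
    (hres : ∀ v : Place K F, Function.Bijective (algebraMap K v.ResidueField))
    {B : Divisor K F} (hB : riemannRochSpace B = ⊥) (T : Finset (Place K F))
    (hT : ∀ Q ∈ T, riemannRochSpace (B + Finsupp.single Q 1) ≠ ⊥) :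
    T.card ≤ finrank K ↥(riemannRochSpace (B + gpSum T)) := by
  classical
  induction T using Finset.induction_on with
  | empty => simp
  | insert Q T hQ ih =>
    have ih' := ih fun Q' hQ' => hT Q' (Finset.mem_insert_of_mem hQ')
    rw [Finset.card_insert_of_notMem hQ]
    have hfin := rr_finite Q hres (B + gpSum (insert Q T))
    have hle : B + gpSum T ≤ B + gpSum (insert Q T) := by
      rw [gpSum_insert hQ, ← add_assoc]
      exact le_add_of_nonneg_right (by
        rw [Finsupp.le_def]; intro v
        by_cases hv : v = Q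
        · subst hv; simp
        · simp [Finsupp.single_eq_of_ne (Ne.symm (Ne.symm hv))])
    obtain ⟨f, hf, hf0⟩ := (Submodule.ne_bot_iff _).mp (hT Q (Finset.mem_insert_self Q T))
    have hf1 : f ∈ riemannRochSpace (B + gpSum (insert Q T)) := by
      refine rr_mono ?_ hf
      rw [gpSum_insert hQ, add_comm (gpSum T), ← add_assoc]
      exact le_add_of_nonneg_right (gpSum_nonneg T)
    have hf2 : f ∉ riemannRochSpace (B + gpSum T) := by
      intro hmem
      have hinf : f ∈ riemannRochSpace B := by
        refine gp_rr_inf_le (A := B + gpSum T) (B := B + Finsupp.single Q 1) (C := B) ?_ ⟨hmem, hf⟩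
        intro v
        by_cases hv : v = Q
        · left; subst hv; simp [gpSum_apply_of_not_mem hQ]
        · right; simp [Finsupp.single_eq_of_ne (Ne.symm (Ne.symm hv))]
      rw [hB] at hinf
      exact hf0 ((Submodule.mem_bot K).mp hinf)
    have hlt : riemannRochSpace (B + gpSum T) < riemannRochSpace (B + gpSum (insert Q T)) :=
      lt_of_le_of_ne (rr_mono hle) fun h => hf2 (h ▸ hf1)
    have := Submodule.finrank_lt_finrank_of_lt hlt
    omega

/-- **GP1.** If `L(B) = 0` and `deg B ≤ g − 2`, then `L(B + Q) = 0` for all but finitely many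
places `Q`. -/
theorem gp_finite_bad [HasPrincipalDivisors K F]
    (hres : ∀ v : Place K F, Function.Bijective (algebraMap K v.ResidueField))
    {g : ℕ} (hR : GPRiemannUpper K F g) {B : Divisor K F} (hB : riemannRochSpace B = ⊥)
    (hdeg : Divisor.degree B ≤ (g : ℤ) - 2) :
    {Q : Place K F | riemannRochSpace (B + Finsupp.single Q 1) ≠ ⊥}.Finite := by
  by_contra hinf
  obtain ⟨c, hc⟩ := hR
  set m : ℕ := (c - Divisor.degree B).toNat with hm
  obtain ⟨T, hTsub, hTcard⟩ := Set.Infinite.exists_subset_card_eq hinf m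
  have h1 := gp_card_le hres hB T fun Q hQ => hTsub hQ
  have hdegT : Divisor.degree (B + gpSum T) = Divisor.degree B + m := by
    rw [map_add, degree_gpSum hres, hTcard]
  have h2 := hc (B + gpSum T) (by
    rw [hdegT, hm]
    have := Int.self_le_toNat (c - Divisor.degree B)
    linarith)
  rw [hdegT] at h2
  have h3 : (T.card : ℤ) ≤ finrank K ↥(riemannRochSpace (B + gpSum T)) := by exact_mod_cast h1
  rw [hTcard] at h3
  linarith

/-! ### Several points, several divisors -/

/-- `j` points in general position for a finite family of divisors, avoiding a finite set. -/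
theorem gp_exists_points [HasPrincipalDivisors K F]
    (hres : ∀ v : Place K F, Function.Bijective (algebraMap K v.ResidueField))
    {g : ℕ} (hR : GPRiemannUpper K F g) (hinf : (Set.univ : Set (Place K F)).Infinite)
    (𝓑 : Finset (Divisor K F)) (S : Finset (Place K F)) :
    ∀ j : ℕ, (∀ B ∈ 𝓑, riemannRochSpace B = ⊥ ∧ Divisor.degree B + j ≤ (g : ℤ) - 1) →
      ∃ T : Finset (Place K F), T.card = j ∧ Disjoint T S ∧
        ∀ B ∈ 𝓑, riemannRochSpace (B + gpSum T) = ⊥ := by
  classical
  intro j
  induction j with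
  | zero =>
    intro h
    exact ⟨∅, rfl, Finset.disjoint_empty_left S, fun B hB => by simpa using (h B hB).1⟩
  | succ j ih =>
    intro h
    obtain ⟨T, hTcard, hTS, hT⟩ := ih fun B hB =>
      ⟨(h B hB).1, by have := (h B hB).2; push_cast at this; linarith⟩
    have hbad : ∀ B ∈ 𝓑,
        {Q : Place K F | riemannRochSpace (B + gpSum T + Finsupp.single Q 1) ≠ ⊥}.Finite := by
      intro B hB
      refine gp_finite_bad hres hR (hT B hB) ?_
      rw [map_add, degree_gpSum hres, hTcard]
      have := (h B hB).2
      push_cast at this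
      linarith
    have hfin : ((⋃ B ∈ 𝓑,
        {Q : Place K F | riemannRochSpace (B + gpSum T + Finsupp.single Q 1) ≠ ⊥}) ∪
        (↑S ∪ ↑T) : Set (Place K F)).Finite :=
      (Set.Finite.biUnion 𝓑.finite_toSet hbad).union
        (S.finite_toSet.union T.finite_toSet)
    obtain ⟨Q, -, hQ⟩ := (hinf.sdiff hfin).nonempty
    simp only [Set.mem_union, Set.mem_iUnion, Set.mem_ofPred_eq, Finset.mem_coe, not_or,
      not_exists, not_not, exists_prop, not_and] at hQ
    obtain ⟨hQbad, hQS, hQT⟩ := hQ
    refine ⟨insert Q T, by rw [Finset.card_insert_of_notMem hQT, hTcard], ?_, ?_⟩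
    · rw [Finset.disjoint_insert_left]
      exact ⟨hQS, hTS⟩
    · intro B hB
      rw [gpSum_insert hQT, ← add_assoc]
      exact hQbad B hB

/-! ### GP2: the non-special chart -/

/-- **GP2.** There are `g` distinct places outside a given finite set `S` with
`dim L(Q₁ + … + Q_g) = 1`. -/
theorem gp_exists_chart [HasPrincipalDivisors K F]
    (hres : ∀ v : Place K F, Function.Bijective (algebraMap K v.ResidueField))
    {g : ℕ} (hR : GPRiemannUpper K F g) (hinf : (Set.univ : Set (Place K F)).Infinite)
    (S : Finset (Place K F)) :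
    ∃ T : Finset (Place K F), T.card = g ∧ Disjoint T S ∧
      finrank K ↥(riemannRochSpace (gpSum T)) = 1 := by
  classical
  obtain ⟨P, -⟩ := hinf.nonempty
  have hP : riemannRochSpace (-Finsupp.single P 1 : Divisor K F) = ⊥ :=
    rr_eq_bot_of_degree_neg (by
      rw [map_neg, Divisor.degree_single, place_deg_eq_one P (hres P)]; simp)
  obtain ⟨T, hTcard, hTS, hT⟩ := gp_exists_points hres hR hinf {-Finsupp.single P 1}
    (insert P S) g (by
      intro B hB
      rw [Finset.mem_singleton] at hB
      subst hB
      refine ⟨hP, ?_⟩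
      rw [map_neg, Divisor.degree_single, place_deg_eq_one P (hres P)]
      simp)
  have hT' := hT _ (Finset.mem_singleton_self _)
  refine ⟨T, hTcard, Finset.disjoint_of_subset_right (Finset.subset_insert P S) hTS, ?_⟩
  have h1 := rr_finrank_add_single_le hres (-Finsupp.single P 1 + gpSum T) P
  have h2 : -Finsupp.single P 1 + gpSum T + Finsupp.single P 1 = gpSum T := by abel
  rw [h2, (gp_rr_eq_bot_iff_finrank hres P _).mp hT'] at h1
  have h3 := gp_one_le_finrank_rr hres P (gpSum_nonneg T)
  omega

/-! ### GP3: the moving lemma -/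

/-- **GP3.** For a divisor `X₀` of degree `0` and a finite set `S` there is a non-special chart
`T` outside `S` such that `dim L(X₀ + ΣT) = 1` and `L(X₀ + ΣT − s) = 0` for every `s ∈ S`. -/
theorem gp_exists_moving [HasPrincipalDivisors K F]
    (hres : ∀ v : Place K F, Function.Bijective (algebraMap K v.ResidueField))
    {g : ℕ} (hR : GPRiemannUpper K F g) (hL : GPRiemannLower K F g)
    (hinf : (Set.univ : Set (Place K F)).Infinite)
    (X₀ : Divisor K F) (hX : Divisor.degree X₀ = 0) (S : Finset (Place K F)) :
    ∃ T : Finset (Place K F), T.card = g ∧ Disjoint T S ∧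
      finrank K ↥(riemannRochSpace (gpSum T)) = 1 ∧
      finrank K ↥(riemannRochSpace (X₀ + gpSum T)) = 1 ∧
      ∀ s ∈ S, riemannRochSpace (X₀ + gpSum T - Finsupp.single s 1) = ⊥ := by
  classical
  obtain ⟨P, -⟩ := hinf.nonempty
  have hdegneg : ∀ (Y : Divisor K F) (s : Place K F), Divisor.degree Y = 0 →
      Divisor.degree (Y - Finsupp.single s 1) = -1 := by
    intro Y s hY
    rw [map_sub, Divisor.degree_single, place_deg_eq_one s (hres s), hY]; simp
  set 𝓑 : Finset (Divisor K F) :=
    insert (0 - Finsupp.single P 1) ((insert P S).image fun s => X₀ - Finsupp.single s 1) with h𝓑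
  have h𝓑deg : ∀ B ∈ 𝓑, Divisor.degree B = -1 := by
    intro B hB
    rw [h𝓑, Finset.mem_insert, Finset.mem_image] at hB
    rcases hB with rfl | ⟨s, -, rfl⟩
    · exact hdegneg 0 P (map_zero _)
    · exact hdegneg X₀ s hX
  obtain ⟨T, hTcard, hTS, hT⟩ := gp_exists_points hres hR hinf 𝓑 (insert P S) g (by
    intro B hB
    refine ⟨rr_eq_bot_of_degree_neg (by rw [h𝓑deg B hB]; norm_num), ?_⟩
    rw [h𝓑deg B hB]; linarith)
  have hT0 : riemannRochSpace (0 - Finsupp.single P 1 + gpSum T) = ⊥ :=
    hT _ (by rw [h𝓑]; exact Finset.mem_insert_self _ _)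
  have hTs : ∀ s ∈ insert P S, riemannRochSpace (X₀ - Finsupp.single s 1 + gpSum T) = ⊥ :=
    fun s hs => hT _ (by
      rw [h𝓑]; exact Finset.mem_insert_of_mem (Finset.mem_image_of_mem _ hs))
  refine ⟨T, hTcard, Finset.disjoint_of_subset_right (Finset.subset_insert P S) hTS, ?_, ?_, ?_⟩
  · have h1 := rr_finrank_add_single_le hres (0 - Finsupp.single P 1 + gpSum T) P
    have h2 : 0 - Finsupp.single P 1 + gpSum T + Finsupp.single P 1 = gpSum T := by abel
    rw [h2, (gp_rr_eq_bot_iff_finrank hres P _).mp hT0] at h1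
    have h3 := gp_one_le_finrank_rr hres P (gpSum_nonneg T)
    omega
  · have h1 := rr_finrank_add_single_le hres (X₀ - Finsupp.single P 1 + gpSum T) P
    have h2 : X₀ - Finsupp.single P 1 + gpSum T + Finsupp.single P 1 = X₀ + gpSum T := by abel
    rw [h2, (gp_rr_eq_bot_iff_finrank hres P _).mp (hTs P (Finset.mem_insert_self P S))] at h1
    have h3 := hL (X₀ + gpSum T)
    rw [map_add, degree_gpSum hres, hTcard, hX] at h3
    have h4 : (1 : ℤ) ≤ finrank K ↥(riemannRochSpace (X₀ + gpSum T)) := by linarith
    have h5 : 1 ≤ finrank K ↥(riemannRochSpace (X₀ + gpSum T)) := by exact_mod_cast h4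
    omega
  · intro s hs
    have h2 : X₀ + gpSum T - Finsupp.single s 1 = X₀ - Finsupp.single s 1 + gpSum T := by abel
    rw [h2]
    exact hTs s (Finset.mem_insert_of_mem hs)

/-- The effective divisor `D + div f` of a nonzero `f ∈ L(D)`; it avoids every place `s` with
`L(D − s) = 0`. -/
theorem gp_effective_avoids {D Z : Divisor K F} {f : F} (hf0 : f ≠ 0)
    (hf : f ∈ riemannRochSpace D) (hZ : ∀ v : Place K F, Z v = v.ord f) :
    0 ≤ D + Z ∧ ∀ s : Place K F, riemannRochSpace (D - Finsupp.single s 1) = ⊥ →
      (D + Z) s = 0 := by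
  have hf' := mem_riemannRochSpace_iff.mp hf
  have hnn : ∀ v : Place K F, 0 ≤ (D + Z) v := by
    intro v
    have := (hf' v).resolve_left hf0
    simp only [Finsupp.coe_add, Pi.add_apply, hZ v]
    linarith
  refine ⟨Finsupp.le_def.mpr fun v => by simpa using hnn v, fun s hs => ?_⟩
  by_contra hne
  have hpos : 1 ≤ (D + Z) s := by
    have := hnn s
    omega
  have hmem : f ∈ riemannRochSpace (D - Finsupp.single s 1) := by
    rw [mem_riemannRochSpace_iff]
    intro v
    right
    by_cases hv : v = s
    · subst hv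
      simp only [Finsupp.coe_add, Pi.add_apply, hZ v] at hpos
      simp only [Finsupp.coe_sub, Pi.sub_apply, Finsupp.single_eq_same]
      linarith
    · have := (hf' v).resolve_left hf0
      simp only [Finsupp.coe_sub, Pi.sub_apply,
        Finsupp.single_eq_of_ne (Ne.symm (Ne.symm hv)), sub_zero]
      exact this
  rw [hs] at hmem
  exact hf0 ((Submodule.mem_bot K).mp hmem)

/-! ### GP4: principal parts -/

/-- **GP4.** For a non-special chart `T` (`#T = g`, `dim L(ΣT) = 1`) and `A ≥ 0`:
`dim L(ΣT + A) = deg A + 1`. -/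
theorem gp_finrank_chart_add [HasPrincipalDivisors K F]
    (hres : ∀ v : Place K F, Function.Bijective (algebraMap K v.ResidueField))
    {g : ℕ} (hL : GPRiemannLower K F g) {T : Finset (Place K F)} (hTcard : T.card = g)
    (hT : finrank K ↥(riemannRochSpace (gpSum T)) = 1) {A : Divisor K F} (hA : 0 ≤ A) :
    (finrank K ↥(riemannRochSpace (gpSum T + A)) : ℤ) = Divisor.degree A + 1 := by
  have h1 := rr_finrank_le hres (A := gpSum T) (B := gpSum T + A) (le_add_of_nonneg_right hA)
  have h2 := hL (gpSum T + A)
  rw [map_add, degree_gpSum hres, hTcard] at h1 h2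
  rw [hT] at h1
  push_cast at h1
  linarith

end Fermat.Agent.W1
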