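import Mathlib
import Fermat.Agent.ES.GaloisCorr
import Fermat.Agent.ES.KummerBridge

/-!
# W1 GEO-LVL, generic part: pull-back of divisor classes along a finite map of function fields

`F`, `F'` function fields over `K`, `φ : F →ₐ[K] F'` integral with the fundamental identity.

* `lvlPic0 φ hφ hFI : Pic0 K F →+ Pic0 K F'` — the pull-back `φ^*` on `Pic⁰`;
* `lvlPic0_smul` — equivariance for semilinear automorphisms intertwined by `φ`;
* `lvl_eq_zero_of_root` — the Kummer criterion of injectivity: if `p • x = 0`, `φ^* x = 0`, the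
  functions of `F'` without zeros and poles are `p`-th powers, and the `p`-th roots in `F'` of the
  Kummer functions of `F` lie in `φ(F)`, then `x = 0`;
* `lvl_eq_zero_of_torsion` — the same for `p`-power torsion.
-/

set_option autoImplicit false
set_option linter.style.haveILetI false
set_option linter.unusedSectionVars false

noncomputable section

namespace Fermat.Agent.W1

open AlgebraicCurve AlgebraicCurve.SemilinearAut Fermat.Agent.ES

section Generic

variable {K F F' : Type*} [Field K] [Field F] [Field F'] [Algebra K F] [Algebra K F']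
  [HasPrincipalDivisors K F'] (φ : F →ₐ[K] F') (hφ : φ.toRingHom.IsIntegral)
  (hFI : FundamentalIdentityAlong K φ hφ)

/-- pull-back on divisors of degree `0` -/
def lvlDegZero :
    Divisor.degZero (K := K) (F := F) →+ Divisor.degZero (K := K) (F := F') :=
  ((Divisor.pullbackAlong φ hφ).domRestrict
    (Divisor.degZero (K := K) (F := F))).codRestrict _
    (fun D => Divisor.pullbackAlong_mem_degZero φ hφ hFI D.2)

@[simp]
theorem coe_lvlDegZero (D : Divisor.degZero (K := K) (F := F)) :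
    (lvlDegZero φ hφ hFI D : Divisor K F') = Divisor.pullbackAlong φ hφ (D : Divisor K F) :=
  rfl

/-- **the pull-back `φ^*` on `Pic⁰`** -/
def lvlPic0 : Pic0 K F →+ Pic0 K F' :=
  QuotientAddGroup.map _ _ (lvlDegZero φ hφ hFI) (by
    rintro ⟨D, hD0⟩ hD
    simp only [AddSubgroup.mem_addSubgroupOf] at hD ⊢
    exact Divisor.isPrincipal_pullbackAlong φ hφ hD)

theorem lvlPic0_mk (D : Divisor.degZero (K := K) (F := F)) :
    lvlPic0 φ hφ hFI (Pic0.mk D) = Pic0.mk (lvlDegZero φ hφ hFI D) :=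
  rfl

/-- the pull-back is equivariant for semilinear automorphisms intertwined by `φ` -/
theorem lvlPic0_smul {g : SemilinearAut K F} {g' : SemilinearAut K F'}
    (h : IntertwinesAlong (φ : F →+* F') g g') (x : Pic0 K F) :
    lvlPic0 φ hφ hFI (g • x) = g' • lvlPic0 φ hφ hFI x := by
  obtain ⟨D, rfl⟩ := Pic0.mk_surjective x
  rw [SemilinearAut.pic0_smul_mk, lvlPic0_mk, lvlPic0_mk, SemilinearAut.pic0_smul_mk]
  refine congrArg Pic0.mk (Subtype.ext ?_)
  rw [coe_lvlDegZero, SemilinearAut.coe_degZeroSMulHom, SemilinearAut.coe_degZeroSMulHom,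
    coe_lvlDegZero]
  exact pullbackAlong_smul φ hφ h (D : Divisor K F)

/-- the order of `φ u` at a place of `F'` when `n • D = div u` -/
theorem lvl_ord_map_eq {n : ℕ} {D : Divisor K F} {u : F}
    (hD : ∀ v : Place K F, (n : ℤ) * D v = v.ord u) (w : Place K F') :
    w.ord (φ u) = (n : ℤ) * Divisor.pullbackAlong φ hφ D w := by
  letI := algebraAlong φ
  haveI := isScalarTower_along φ
  haveI := isIntegral_along φ hφ
  have h1 : Divisor.pullback F' ((n : ℤ) • D) w = w.ord (algebraMap F F' u) :=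
    Divisor.pullback_apply_eq_ord (D := (n : ℤ) • D) (f := u) (fun v => by
      rw [Finsupp.smul_apply, smul_eq_mul]; exact hD v) w
  have h2 : Divisor.pullback F' ((n : ℤ) • D) w = (n : ℤ) * Divisor.pullback F' D w := by
    rw [map_zsmul, Finsupp.smul_apply, smul_eq_mul]
  show w.ord (algebraMap F F' u) = (n : ℤ) * Divisor.pullback F' D w
  rw [← h1, h2]

/-- **Kummer criterion.**  Let `p • x = 0` and `φ^* x = 0`.  If the functions of `F'` without
zeros and poles are `p`-th powers and every `p`-th root in `F'` of a Kummer function `φ u`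
(all orders of `u` divisible by `p`) lies in `φ(F)`, then `x = 0`. -/
theorem lvl_eq_zero_of_root {p : ℕ} (hp : p ≠ 0)
    (hconst : ∀ c : F', c ≠ 0 → (∀ w : Place K F', w.ord c = 0) → ∃ d : F', d ^ p = c)
    (hroot : ∀ (u : F) (g : F'), u ≠ 0 → (∀ v : Place K F, (p : ℤ) ∣ v.ord u) →
      g ^ p = φ u → ∃ h : F, φ h = g)
    {x : Pic0 K F} (hx : p • x = 0) (hφx : lvlPic0 φ hφ hFI x = 0) : x = 0 := by
  obtain ⟨u, hK⟩ := exists_kummerRel hx
  obtain ⟨D, rfl, hu, hD⟩ := hK
  rw [lvlPic0_mk, pic0_mk_eq_zero_iff] at hφx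
  obtain ⟨f, hf, hfD⟩ := hφx
  have hφu : φ u ≠ 0 := (map_ne_zero φ).mpr hu
  have hfp : f ^ p ≠ 0 := pow_ne_zero p hf
  -- `φ u / f ^ p` has no zeros and no poles
  have hc : ∀ w : Place K F', w.ord (φ u / f ^ p) = 0 := by
    intro w
    have h1 := lvl_ord_map_eq φ hφ hD w
    have h2 : w.ord (f ^ p) = (p : ℤ) * w.ord f := by
      have := w.ord_zpow f (p : ℤ)
      rwa [zpow_natCast] at this
    have h3 : w.ord (φ u / f ^ p) = w.ord (φ u) - w.ord (f ^ p) := by
      rw [div_eq_mul_inv, w.ord_mul hφu (inv_ne_zero hfp), w.ord_inv]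
      ring
    rw [h3, h1, h2, ← hfD w, coe_lvlDegZero]
    ring
  obtain ⟨d, hd⟩ := hconst (φ u / f ^ p) (div_ne_zero hφu hfp) hc
  have hg : (d * f) ^ p = φ u := by
    rw [mul_pow, hd, div_mul_cancel₀ _ hfp]
  obtain ⟨h, hh⟩ := hroot u (d * f) hu (fun v => ⟨_, (hD v).symm⟩) hg
  have huh : u = h ^ p := by
    apply φ.toRingHom.injective
    show φ u = φ (h ^ p)
    rw [map_pow, hh, hg]
  have hK' : KummerRel p (Pic0.mk D) ((1 : F) * h ^ p) := by
    rw [one_mul, ← huh]
    exact ⟨D, rfl, hu, hD⟩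
  exact hK'.eq_zero_of_pow hp (fun v => v.ord_one)

/-- the same for `p`-power torsion -/
theorem lvl_eq_zero_of_torsion {p : ℕ} (hp : p ≠ 0)
    (hconst : ∀ c : F', c ≠ 0 → (∀ w : Place K F', w.ord c = 0) → ∃ d : F', d ^ p = c)
    (hroot : ∀ (u : F) (g : F'), u ≠ 0 → (∀ v : Place K F, (p : ℤ) ∣ v.ord u) →
      g ^ p = φ u → ∃ h : F, φ h = g)
    (x : Pic0 K F) (hx : ∃ n : ℕ, (p ^ n) • x = 0) (hφx : lvlPic0 φ hφ hFI x = 0) : x = 0 := by
  obtain ⟨n, hn⟩ := hx
  induction n generalizing x with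
  | zero => simpa using hn
  | succ n ih =>
    have h1 : p • ((p ^ n) • x) = 0 := by
      rw [← mul_smul, ← pow_succ']
      exact hn
    have h2 : lvlPic0 φ hφ hFI ((p ^ n) • x) = 0 := by
      rw [map_nsmul, hφx, smul_zero]
    exact ih x hφx (lvl_eq_zero_of_root φ hφ hFI hp hconst hroot h1 h2)

end Generic

end Fermat.Agent.W1
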