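import Mathlib
import Fermat.Agent.ES.GaloisHecke
import Fermat.Agent.ES.M.FrickeAut
import Fermat.Agent.ES.M.CuspInfty

/-!
# W1 GEO-LVL: the degeneracy maps `α`, `β` and the Fricke involutions

`w_{Nr} ∘ α = β ∘ w_N` (`lvl_fricke_alpha`), and `1 / j` has `q`-order `1`.
-/

set_option autoImplicit false
set_option linter.style.haveILetI false
set_option linter.unusedSectionVars false

noncomputable section

namespace Fermat.Agent.W1

open AlgebraicCurve ModularCurve HahnSeries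
open Fermat.Agent.S24 Fermat.Agent.ES Fermat.Agent.ES.M Fermat.Agent.ES.G2

variable (N r : ℕ) [NeZero N] [NeZero r]

theorem lvl_alpha_jdF (d : ℕ) (hd : d ∣ N) :
    heckeAlphaBar Kb N r (jdF N d hd) = jdF (N * r) d (Dvd.dvd.mul_right hd r) :=
  Subtype.ext rfl

theorem lvl_beta_jdF (d : ℕ) (hd : d ∣ N) :
    heckeBetaBar Kb N r (jdF N d hd) = jdF (N * r) (r * d) (by
      rw [Nat.mul_comm N r]; exact Nat.mul_dvd_mul_left r hd) := by
  haveI : NeZero d := ⟨fun h => NeZero.ne N (by subst h; simpa using hd)⟩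
  apply Subtype.ext
  show qExpand Kb r (coeffEmb Kb (qExpand ℚ d jq)) = coeffEmb Kb (qExpand ℚ (r * d) jq)
  rw [← qExpand_qExpand]
  exact (coeffMap_qExpand_comm (algebraMap ℚ Kb) r (qExpand ℚ d jq)).symm

/-- the Fricke involutions carry the inclusion `α` to `β` -/
theorem lvl_fricke_comp :
    ((frickeAut (N * r) : FF (N * r) →ₐ[Kb] FF (N * r)).comp (heckeAlphaBar Kb N r)) =
      (heckeBetaBar Kb N r).comp (frickeAut N : FF N →ₐ[Kb] FF N) := by
  apply FF_algHom_ext
  intro d hd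
  have hd0 : d ≠ 0 := fun h => NeZero.ne N (by subst h; simpa using hd)
  show frickeAut (N * r) (heckeAlphaBar Kb N r (jdF N d hd)) =
    heckeBetaBar Kb N r (frickeAut N (jdF N d hd))
  rw [lvl_alpha_jdF, frickeAut_jdF, frickeAut_jdF, lvl_beta_jdF]
  congr 1
  rw [Nat.mul_comm N r]
  exact Nat.mul_div_assoc r hd

theorem lvl_fricke_alpha (c : FF N) :
    frickeAut (N * r) (heckeAlphaBar Kb N r c) = heckeBetaBar Kb N r (frickeAut N c) :=
  congrArg (fun f : FF N →ₐ[Kb] FF (N * r) => f c) (lvl_fricke_comp N r)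

variable {N r}

theorem lvl_order_inv {k : Type*} [Field k] {x : LaurentSeries k} (hx : x ≠ 0) :
    (x⁻¹).order = -x.order := by
  have h := HahnSeries.order_mul hx (inv_ne_zero hx)
  rw [mul_inv_cancel₀ hx, HahnSeries.order_one] at h
  linarith

theorem lvl_order_inv_jF (M : ℕ) [NeZero M] :
    (((jF M)⁻¹ : FF M) : LaurentSeries Kb).order = 1 := by
  have h : (((jF M)⁻¹ : FF M) : LaurentSeries Kb) = (jBar : LaurentSeries Kb)⁻¹ := rfl
  rw [h, lvl_order_inv jBar_ne_zero, order_jBar]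
  rfl

theorem lvl_inv_jF_ne_zero (M : ℕ) [NeZero M] :
    (((jF M)⁻¹ : FF M) : LaurentSeries Kb) ≠ 0 := by
  have h : (((jF M)⁻¹ : FF M) : LaurentSeries Kb) = (jBar : LaurentSeries Kb)⁻¹ := rfl
  rw [h]
  exact inv_ne_zero jBar_ne_zero

end Fermat.Agent.W1
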