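import Mathlib
import Fermat.Agent.ES.LaurentRoot
import Fermat.Agent.S28.LaurentRank
import Fermat.Prelude.Def_ModularCurve_X0ModL

/-!
# W1 GEO-LVL, formal part: `p`-th roots of series in `q^r`

`k` algebraically closed of characteristic `0`, `σ = qExpand k r` (`q ↦ q^r`).

* `lvl_const_of_pow_eq_one` : a root of unity of `k((q))` is a constant;
* `lvl_exists_root` : if `g ^ p = σ u` and `p ∣ ord u`, then `g = σ h` with `h ^ p = u`;
* `lvl_sum_eq_zero` : `Σ_{a < p, i < r} σ(c a i) · σ(h)^a · y^i = 0` with `ord y` prime to `r`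
  forces `Σ_a c a i · h^a = 0` for every `i < r`.
-/

set_option autoImplicit false

namespace Fermat.Agent.W1

open ModularCurve HahnSeries Polynomial

section Formal

variable {k : Type*} [Field k]

/-- a root of unity of `k((q))` is a constant (`k` algebraically closed) -/
theorem lvl_const_of_pow_eq_one [IsAlgClosed k] {z : LaurentSeries k} {p : ℕ} (hp : 0 < p)
    (hz : z ^ p = 1) : ∃ c : k, algebraMap k (LaurentSeries k) c = z := by
  have hint : IsIntegral k z := by
    refine ⟨X ^ p - 1, monic_X_pow_sub_C (1 : k) hp.ne', ?_⟩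
    rw [eval₂_sub, eval₂_pow, eval₂_X, eval₂_one, hz, sub_self]
  have h1 : (minpoly k z).degree = 1 :=
    IsAlgClosed.degree_eq_one_of_irreducible k (minpoly.irreducible hint)
  exact minpoly.mem_range_of_degree_eq_one k z h1

theorem lvl_qExpand_algebraMap (r : ℕ) [NeZero r] (c : k) :
    qExpand k r (algebraMap k (LaurentSeries k) c) = algebraMap k (LaurentSeries k) c :=
  (qExpandAlgHomC k r).commutes c

/-- **roots descend along `q ↦ q^r`**: if `g ^ p = σ u` with `p ∣ ord u`, then `g = σ h` for some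
`h` with `h ^ p = u`. -/
theorem lvl_exists_root [CharZero k] [IsAlgClosed k] {p r : ℕ} [NeZero r] (hp : 0 < p)
    {u g : LaurentSeries k} (hu : u ≠ 0) (hdvd : (p : ℤ) ∣ u.order)
    (hg : g ^ p = qExpand k r u) : ∃ h : LaurentSeries k, h ^ p = u ∧ qExpand k r h = g := by
  obtain ⟨h0, hh0⟩ := Fermat.Agent.ES.LaurentRoot.exists_pow_eq_laurentSeries hp u hu hdvd
  have hh0ne : h0 ≠ 0 := by
    rintro rfl
    rw [zero_pow hp.ne'] at hh0
    exact hu hh0.symm
  have hw : qExpand k r h0 ≠ 0 := Fermat.Agent.S28.qExpand_ne_zero hh0ne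
  have hz : (g / qExpand k r h0) ^ p = 1 := by
    rw [div_pow, hg, ← hh0, map_pow]
    exact div_self (pow_ne_zero p hw)
  obtain ⟨c, hc⟩ := lvl_const_of_pow_eq_one hp hz
  have hcp : (algebraMap k (LaurentSeries k) c) ^ p = 1 := by rw [hc, hz]
  refine ⟨algebraMap k (LaurentSeries k) c * h0, ?_, ?_⟩
  · rw [mul_pow, hcp, one_mul, hh0]
  · rw [map_mul, lvl_qExpand_algebraMap, hc, div_mul_cancel₀ _ hw]

/-- the families `σ(h)^a` (`a < p`) and `y^i` (`i < r`) are jointly independent over `σ(k((q)))`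
as soon as `ord y` is prime to `r`. -/
theorem lvl_sum_eq_zero {p r : ℕ} [NeZero r] {h y : LaurentSeries k} (hy : y ≠ 0)
    (hcop : IsCoprime y.order (r : ℤ)) (c : Fin p → Fin r → LaurentSeries k)
    (hsum : ∑ i : Fin r, ∑ a : Fin p,
      qExpand k r (c a i) * (qExpand k r h) ^ (a : ℕ) * y ^ (i : ℕ) = 0) :
    ∀ i : Fin r, ∑ a : Fin p, c a i * h ^ (a : ℕ) = 0 := by
  classical
  let A : ℕ → LaurentSeries k := fun i =>
    if hi : i < r then ∑ a : Fin p, c a ⟨i, hi⟩ * h ^ (a : ℕ) else 0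
  have hA : ∀ i : Fin r, A i = ∑ a : Fin p, c a i * h ^ (a : ℕ) := by
    intro i
    simp only [A, dif_pos i.2, Fin.eta]
  have h1 : ∑ i ∈ Finset.range r, qExpand k r (A i) * y ^ i = 0 := by
    rw [← Fin.sum_univ_eq_sum_range (fun i => qExpand k r (A i) * y ^ i) r, ← hsum]
    refine Finset.sum_congr rfl fun i _ => ?_
    rw [hA i, map_sum, Finset.sum_mul]
    refine Finset.sum_congr rfl fun a _ => ?_
    rw [map_mul, map_pow]
  intro i
  rw [← hA i]
  exact Fermat.Agent.S28.eq_zero_of_sum_qExpand_mul_pow_eq_zero hy hcop A h1 i i.2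

end Formal

end Fermat.Agent.W1
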