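import Mathlib
import Fermat.Agent.W1.LevelUpRoot
import Fermat.Agent.W1.LevelUpFricke

/-!
# W1 GEO-LVL: linear independence over `β (F_N)`

If `h ∈ ℚ̄((q))`, `h ^ p ∈ F_N`, `h ∉ F_N`, then `1, h, …, h^(p-1)` are linearly independent
over `F_N` (`lvl_pow_indep`) and the `p r` elements `h(q^r)^a · j^(-i)` are linearly independent
over `β (F_N)` (`lvl_beta_indep`).
-/

set_option autoImplicit false
set_option linter.style.haveILetI false
set_option linter.unusedSectionVars false

noncomputable section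

namespace Fermat.Agent.W1

open AlgebraicCurve ModularCurve
open Fermat.Agent.S24 Fermat.Agent.ES Fermat.Agent.ES.M Fermat.Agent.ES.G2

variable {N : ℕ} [NeZero N]

/-- if `h ^ p = u` with `h ∉ F_N`, then `u` is not a `p`-th power in `F_N` -/
theorem lvl_not_pow {p : ℕ} (hp : 0 < p) {u : FF N} (hu : u ≠ 0) {h : LaurentSeries Kb}
    (hhp : h ^ p = (u : LaurentSeries Kb)) (hmem : h ∉ modularFunctionFieldBar N)
    (b : FF N) : b ^ p ≠ u := by
  intro hb
  have hu' : (u : LaurentSeries Kb) ≠ 0 := fun h0 => hu (Subtype.ext h0)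
  have hb' : (b : LaurentSeries Kb) ^ p = (u : LaurentSeries Kb) := by
    rw [← hb]
    rfl
  have hb0 : (b : LaurentSeries Kb) ≠ 0 := by
    intro h0
    rw [h0, zero_pow hp.ne'] at hb'
    exact hu' hb'.symm
  have hz : (h / (b : LaurentSeries Kb)) ^ p = 1 := by
    rw [div_pow, hhp, hb']
    exact div_self hu'
  obtain ⟨c, hc⟩ := lvl_const_of_pow_eq_one hp hz
  apply hmem
  have : h = algebraMap Kb (LaurentSeries Kb) c * (b : LaurentSeries Kb) := by
    rw [hc, div_mul_cancel₀ _ hb0]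
  rw [this]
  exact mul_mem (IntermediateField.algebraMap_mem _ c) b.2

/-- if `h ^ p = u` with `h ∉ F_N` (`p` prime), then `1, h, …, h^(p-1)` are linearly independent
over `F_N` -/
theorem lvl_pow_indep {p : ℕ} (hp : p.Prime) {u : FF N} (hu : u ≠ 0) {h : LaurentSeries Kb}
    (hhp : h ^ p = (u : LaurentSeries Kb)) (hmem : h ∉ modularFunctionFieldBar N)
    (c : Fin p → FF N)
    (hc : ∑ a : Fin p, (c a : LaurentSeries Kb) * h ^ (a : ℕ) = 0) : ∀ a, c a = 0 := by
  classical
  have hirr : Irreducible (Polynomial.X ^ p - Polynomial.C u : Polynomial (FF N)) :=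
    X_pow_sub_C_irreducible_of_prime hp (lvl_not_pow hp.pos hu hhp hmem)
  have hroot : Polynomial.aeval h (Polynomial.X ^ p - Polynomial.C u : Polynomial (FF N)) = 0 := by
    rw [map_sub, map_pow, Polynomial.aeval_X, Polynomial.aeval_C, hhp]
    exact sub_self _
  have hmin : minpoly (FF N) h = Polynomial.X ^ p - Polynomial.C u :=
    (minpoly.eq_of_irreducible_of_monic hirr hroot
      (Polynomial.monic_X_pow_sub_C u hp.ne_zero)).symm
  have hdeg : (minpoly (FF N) h).natDegree = p := by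
    rw [hmin, Polynomial.natDegree_X_pow_sub_C]
  have hlin := linearIndependent_pow (K := FF N) h
  rw [Fintype.linearIndependent_iff] at hlin
  intro a
  have h1 := hlin (fun i => c (Fin.cast hdeg i)) (by
    rw [← hc]
    rw [← Equiv.sum_comp (finCongr hdeg)
      (fun a : Fin p => (c a : LaurentSeries Kb) * h ^ (a : ℕ))]
    refine Finset.sum_congr rfl fun i _ => ?_
    rw [Algebra.smul_def]
    rfl) (Fin.cast hdeg.symm a)
  simpa using h1


variable {r : ℕ} [NeZero r]

/-- the `p r` elements `g ^ a * y ^ i` of `F_{Nr}` (`g = h(q^r)`, `y = 1 / j`) are linearly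
independent over `β (F_N)` when `h ∉ F_N` -/
theorem lvl_beta_indep {p : ℕ} (hp : p.Prime) {u : FF N} (hu : u ≠ 0) {h : LaurentSeries Kb}
    (hhp : h ^ p = (u : LaurentSeries Kb)) (hmem : h ∉ modularFunctionFieldBar N)
    {g : FF (N * r)} (hhg : qExpand Kb r h = (g : LaurentSeries Kb))
    (c : Fin p × Fin r → FF N)
    (hc : ∑ ai : Fin p × Fin r,
      heckeBetaBar Kb N r (c ai) * (g ^ (ai.1 : ℕ) * (jF (N * r))⁻¹ ^ (ai.2 : ℕ)) = 0) :
    ∀ ai, c ai = 0 := by
  classical
  have h3 : ∑ i : Fin r, ∑ a : Fin p,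
      qExpand Kb r ((c (a, i) : FF N) : LaurentSeries Kb) *
        (qExpand Kb r h) ^ (a : ℕ) *
          (((jF (N * r))⁻¹ : FF (N * r)) : LaurentSeries Kb) ^ (i : ℕ) = 0 := by
    have h4 : ((∑ ai : Fin p × Fin r,
        heckeBetaBar Kb N r (c ai) * (g ^ (ai.1 : ℕ) * (jF (N * r))⁻¹ ^ (ai.2 : ℕ)) :
          FF (N * r)) : LaurentSeries Kb) = 0 := by
      rw [hc]; rfl
    rw [← h4, Fintype.sum_prod_type_right, AddSubmonoidClass.coe_finsetSum]
    refine Finset.sum_congr rfl fun i _ => ?_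
    rw [AddSubmonoidClass.coe_finsetSum]
    refine Finset.sum_congr rfl fun a _ => ?_
    rw [hhg, mul_assoc]
    rfl
  intro ai
  have h5 := lvl_sum_eq_zero (lvl_inv_jF_ne_zero (N * r))
    (by rw [lvl_order_inv_jF]; exact isCoprime_one_left)
    (fun a i => ((c (a, i) : FF N) : LaurentSeries Kb)) h3 ai.2
  exact lvl_pow_indep hp hu hhp hmem (fun a => c (a, ai.2)) h5 ai.1

end Fermat.Agent.W1
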