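import Mathlib
import Fermat.Agent.W1.S19Final
import Fermat.Agent.W1.LevelUpGen
import Fermat.Agent.W1.LevelUpIndep
import Fermat.Agent.ES.G2.HeckeDeg
import Fermat.Agent.ES.HInputs
import Fermat.Agent.ES.MuUnique

/-!
# W1 GEO-LVL: level raising `J₀(N) → J₀(N r)` is injective on torsion

For a prime `r ∤ N` the pull-back `β^* : J₀(N) → J₀(N r)` along `β : f(q) ↦ f(q^r)` is
Galois-equivariant and injective on the `p`-power torsion, for EVERY prime `p`
(`stmtLevelUp`, `stmtLevelUpS19`).  Note that `p` may divide the degree `r + 1`, so this is not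
the norm argument.

Proof.  Let `p • x = 0`, `β^* x = 0`, `u` a Kummer function of `x`.  Then `β u = g ^ p` with
`g ∈ F_{Nr}` (constants are `p`-th powers), hence `g = h(q^r)` with `h ∈ ℚ̄((q))`, `h ^ p = u`
(`lvl_exists_root`; `p ∣ ord_q u` by the cusp `∞`).  If `h ∉ F_N` then `1, h, …, h^(p-1)` are
linearly independent over `F_N`, and with `y = 1 / j` (of `q`-order `1`) the `p r` elements
`g^a y^i` of `F_{Nr}` are linearly independent over `β(F_N)`.  The Fricke involutions carry `β`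
to the inclusion `α`, of degree `r + 1 < p r`: contradiction.  So `u = h ^ p` in `F_N`, `x = 0`.
-/

set_option autoImplicit false
set_option linter.style.haveILetI false
set_option linter.unusedSectionVars false

noncomputable section

namespace Fermat.Agent.W1

open AlgebraicCurve ModularCurve
open Fermat.Agent.S24 Fermat.Agent.ES Fermat.Agent.ES.M Fermat.Agent.ES.G2

variable {N r : ℕ} [NeZero N] [NeZero r]

/-- the Fricke transforms of `g ^ a * y ^ i` are linearly independent over `F_N` for the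
inclusion `α : F_N → F_{Nr}` -/
theorem lvl_alpha_indep {p : ℕ} (hp : p.Prime) {u : FF N} (hu : u ≠ 0) {h : LaurentSeries Kb}
    (hhp : h ^ p = (u : LaurentSeries Kb)) (hmem : h ∉ modularFunctionFieldBar N)
    {g : FF (N * r)} (hhg : qExpand Kb r h = (g : LaurentSeries Kb)) :
    letI := (heckeAlphaBar Kb N r).toRingHom.toAlgebra
    LinearIndependent (FF N) (fun ai : Fin p × Fin r =>
      frickeAut (N * r) (g ^ (ai.1 : ℕ) * (jF (N * r))⁻¹ ^ (ai.2 : ℕ))) := by
  classical
  letI := (heckeAlphaBar Kb N r).toRingHom.toAlgebra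
  rw [Fintype.linearIndependent_iff]
  intro c hc ai
  have h1 : ∑ ai : Fin p × Fin r, heckeBetaBar Kb N r (frickeAut N (c ai)) *
      (g ^ (ai.1 : ℕ) * (jF (N * r))⁻¹ ^ (ai.2 : ℕ)) = 0 := by
    have h2 := congrArg (frickeAut (N * r)) hc
    rw [map_zero, map_sum] at h2
    rw [← h2]
    refine Finset.sum_congr rfl fun ai _ => ?_
    rw [Algebra.smul_def, map_mul, frickeAut_frickeAut]
    congr 1
    exact (lvl_fricke_alpha N r (c ai)).symm
  have h6 := lvl_beta_indep hp hu hhp hmem hhg (fun ai => frickeAut N (c ai)) h1 ai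
  exact (map_eq_zero (frickeAut N)).mp h6

/-- **Roots descend.**  If `g ∈ F_{Nr}` is a `p`-th root of `β u`, `u ∈ F_N` with `p ∣ ord_q u`,
then `g ∈ β (F_N)`. -/
theorem lvl_root_mem (hr : r.Prime) (hrN : ¬ r ∣ N) {p : ℕ} (hp : p.Prime)
    (u : FF N) (g : FF (N * r)) (hu : u ≠ 0)
    (hdvd : (p : ℤ) ∣ (u : LaurentSeries Kb).order)
    (hg : g ^ p = heckeBetaBar Kb N r u) : ∃ h : FF N, heckeBetaBar Kb N r h = g := by
  classical
  have hu' : (u : LaurentSeries Kb) ≠ 0 := fun h => hu (Subtype.ext h)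
  have hg' : (g : LaurentSeries Kb) ^ p = qExpand Kb r (u : LaurentSeries Kb) := by
    have h1 : ((g ^ p : FF (N * r)) : LaurentSeries Kb) =
        ((heckeBetaBar Kb N r u : FF (N * r)) : LaurentSeries Kb) := by rw [hg]
    exact h1
  obtain ⟨h, hhp, hhg⟩ := lvl_exists_root hp.pos hu' hdvd hg'
  by_cases hmem : h ∈ modularFunctionFieldBar N
  · exact ⟨⟨h, hmem⟩, Subtype.ext hhg⟩
  exfalso
  have hv := lvl_alpha_indep hp hu hhp hmem hhg
  letI := (heckeAlphaBar Kb N r).toRingHom.toAlgebra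
  haveI : FiniteDimensional (FF N) (FF (N * r)) := hdeg_finiteDimensional N r hr hrN
  have hfr : Module.finrank (FF N) (FF (N * r)) = r + 1 := hdeg_finrank N r hr hrN
  have hcard := hv.fintype_card_le_finrank
  rw [hfr, Fintype.card_prod, Fintype.card_fin, Fintype.card_fin] at hcard
  have hp2 := hp.two_le
  have hr2 := hr.two_le
  nlinarith


/-! ### the statement -/

/-- functions of `F_M` without zeros and poles are `p`-th powers -/
theorem lvl_const_pow (M : ℕ) [NeZero M] {p : ℕ} (hp : 0 < p) (c : FF M) (_hc0 : c ≠ 0)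
    (hc : ∀ w : Place Kb (FF M), w.ord c = 0) : ∃ d : FF M, d ^ p = c := by
  obtain ⟨c₀, hc₀⟩ := mu_exists_const_of_ord_eq_zero c hc
  obtain ⟨d₀, hd₀⟩ := IsAlgClosed.exists_pow_nat_eq c₀ hp
  refine ⟨algebraMap Kb (FF M) d₀, ?_⟩
  rw [← map_pow, hd₀, hc₀]

/-- **GEO-LVL.**  For a prime `r ∤ N` and every prime `p` there is a Galois-equivariant
homomorphism `J₀(N) → J₀(N r)` which is injective on the `p`-power torsion. -/
theorem stmtLevelUp (N r p : ℕ) [NeZero N] [NeZero (N * r)] (hr : r.Prime) (hrN : ¬ r ∣ N)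
    (hp : p.Prime) : StmtLevelUp N (N * r) p := by
  haveI : NeZero r := ⟨hr.ne_zero⟩
  haveI := Fermat.Agent.ES.H.hasPrincipalDivisors_FF (N * r)
  have hβ := Fermat.Agent.ES.H.heckeBetaBarIntegral N r
  have hFI := Fermat.Agent.ES.H.fundamentalIdentityAlong_heckeBetaBar N r
  refine ⟨lvlPic0 (heckeBetaBar Kb N r) hβ hFI, ?_, ?_⟩
  · intro σ x
    rw [galois_smul_pic0_def, galois_smul_pic0_def]
    exact lvlPic0_smul (heckeBetaBar Kb N r) hβ hFI (intertwines_heckeBetaBar N r σ) x
  · intro x hx hφx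
    refine lvl_eq_zero_of_torsion (heckeBetaBar Kb N r) hβ hFI hp.ne_zero
      (lvl_const_pow (N * r) hp.pos) ?_ x hx hφx
    intro u g hu hdvd hg
    obtain ⟨P, hP, -⟩ := exists_isCuspInfty N
    have h1 := hdvd P
    rw [hP u hu] at h1
    exact lvl_root_mem hr hrN hp u g hu h1 hg

/-- **GEO-LVL** in the form consumed by `W1/S19Final.lean`. -/
theorem stmtLevelUpS19 : StmtLevelUpS19 :=
  fun N r ℓ _ _ hr hrN hℓ _ _ _ _ => stmtLevelUp N r ℓ hr hrN hℓ

end Fermat.Agent.W1
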