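import Mathlib
import Fermat.Prelude.Def_ModularCurve_ArithmeticGalois
import Fermat.Prelude.Def_GaloisRep_Flat
import Fermat.Agent.W1.PlanAlg
import Fermat.Agent.W1.HopfOfLattice
import Fermat.Agent.W1.RatLocPID

/-!
# W1-19: the glue — S19 from the pieces of WALL 1

* `S19Conclusion N ℓ k` : the conclusion of the frozen statement S19 (level `N`, prime `ℓ`).
* `s19Conclusion_of_hasFiniteFlatModel` : a finite flat model of `J₀(N)[ℓ^k]` in the sense of
  `PlanGL.lean` gives `S19Conclusion`.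
* `s19Conclusion_of_kernelChart` : ALG-A + ALG-B + a kernel chart on `J₀(N)` + finiteness and
  continuity of `J₀(N)[ℓ^k]` give `S19Conclusion`.
-/

set_option autoImplicit false

open ModularCurve

namespace Fermat.Agent.W1

/-- The conclusion of the frozen statement S19. -/
def S19Conclusion (N : ℕ) [NeZero N] (ℓ : ℕ) [Fact ℓ.Prime] (k : ℕ) : Prop :=
  ∃ (H : Type) (_ : CommRing H) (_ : HopfAlgebra (GaloisRep.ratLocalizedAt ℓ) H),
    Module.Finite (GaloisRep.ratLocalizedAt ℓ) H ∧ Module.Flat (GaloisRep.ratLocalizedAt ℓ) H ∧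
    Coalgebra.IsCocomm (GaloisRep.ratLocalizedAt ℓ) H ∧
    ∃ e : WithConv (H →ₐ[GaloisRep.ratLocalizedAt ℓ] AlgebraicClosure ℚ) ≃
        ↥(Submodule.torsionBy ℤ (JZero N) ((ℓ : ℤ) ^ k)),
      (∀ f g, e (f * g) = e f + e g) ∧
      ∀ (σ : AlgebraicClosure ℚ ≃ₐ[ℚ] AlgebraicClosure ℚ)
        (f g : WithConv (H →ₐ[GaloisRep.ratLocalizedAt ℓ] AlgebraicClosure ℚ)),
        (∀ h : H, g h = σ (f h)) → ((e g : JZero N)) = σ • (e f : JZero N)

/-- A finite flat model of `J₀(N)[ℓ^k]` (in the sense of `PlanGL.lean`) is what S19 asks for. -/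
theorem s19Conclusion_of_hasFiniteFlatModel (N : ℕ) [NeZero N] (ℓ : ℕ) [Fact ℓ.Prime] (k : ℕ)
    (h : HasFiniteFlatModel (GaloisRep.ratLocalizedAt ℓ)
      (Submodule.torsionBy ℤ (JZero N) ((ℓ : ℤ) ^ k)) (torsAct (JZero N) ((ℓ : ℤ) ^ k))) :
    S19Conclusion N ℓ k := by
  obtain ⟨H, i1, i2, h1, h2, h3, e, he1, he2⟩ := h
  refine ⟨H, i1, i2, h1, h2, h3, e, he1, fun σ f g hfg => ?_⟩
  rw [he2 σ f g hfg]
  rfl

/-- **W1-19 (glue).**  ALG-A (`LocalToGlobalStatement`), ALG-B (`ChartToLocalStatement`), a kernel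
chart on `J₀(N)` at a place over `ℓ`, and finiteness + continuity of the Galois module
`J₀(N)[ℓ^k]` give the conclusion of S19. -/
theorem s19Conclusion_of_kernelChart (hA : LocalToGlobalStatement) (hB : ChartToLocalStatement)
    (N : ℕ) [NeZero N] (ℓ : ℕ) [Fact ℓ.Prime] (k : ℕ)
    (A : ValuationSubring (AlgebraicClosure ℚ)) (hAℓ : A.LiesOverPrime ℓ)
    (J1 : AddSubgroup (JZero N)) (g : ℕ) (z : JZero N → Fin g → AlgebraicClosure ℚ)
    (hKC : KernelChart A (JZero N) J1 g z)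
    (hfin : Finite (Submodule.torsionBy ℤ (JZero N) ((ℓ : ℤ) ^ k)))
    (hcont : IsContAction (torsAct (JZero N) ((ℓ : ℤ) ^ k))) :
    S19Conclusion N ℓ k := by
  have hℓ : ℓ.Prime := Fact.out
  have hcast : (((ℓ ^ k : ℕ) : ℤ)) = (ℓ : ℤ) ^ k := by push_cast; rfl
  have hpos : 0 < ℓ ^ k := pow_pos hℓ.pos k
  have hfin' : Finite (Submodule.torsionBy ℤ (JZero N) ((ℓ ^ k : ℕ) : ℤ)) := by
    rw [hcast]; exact hfin
  have hcont' : IsContAction (torsAct (JZero N) ((ℓ ^ k : ℕ) : ℤ)) := by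
    rw [hcast]; exact hcont
  obtain ⟨Ht, hHt⟩ := hB ℓ hℓ A hAℓ (JZero N) inferInstance inferInstance J1 g z hKC
    (ℓ ^ k) hpos hfin' hcont'
  obtain ⟨H, hH⟩ := hA ℓ hℓ A hAℓ _ inferInstance hfin' _ hcont' Ht hHt
  have hmodel : HasFiniteFlatModel (GaloisRep.ratLocalizedAt ℓ)
      (Submodule.torsionBy ℤ (JZero N) ((ℓ ^ k : ℕ) : ℤ))
      (torsAct (JZero N) ((ℓ ^ k : ℕ) : ℤ)) :=
    hasFiniteFlatModel_of_isHopfLattice hH
  rw [hcast] at hmodel
  exact s19Conclusion_of_hasFiniteFlatModel N ℓ k hmodel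

end Fermat.Agent.W1
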