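import Fermat.Agent.W1.DescentBasic

/-!
# W1 ALG-A, brick P1: Lagrange interpolation

`descLagrange : DescLagrangeStatement`: a separating `A`-subalgebra `Ht ⊂ Map(M, ℚ̄)` of
`A`-valued functions contains `p^N · Map(M, A)` for some `N`.
-/

set_option autoImplicit false

namespace Fermat.Agent.W1

local notation "Qb" => AlgebraicClosure ℚ

/-- constant functions with value in `A` lie in every `A`-subalgebra -/
theorem desc_const_mem {A : ValuationSubring Qb} {M : Type} (Ht : Subalgebra A (M → Qb))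
    {a : Qb} (ha : a ∈ A) : (fun _ : M => a) ∈ Ht := by
  have := Ht.algebraMap_mem ⟨a, ha⟩
  exact this

/-- scalar multiples by elements of `A` -/
theorem desc_mul_mem {A : ValuationSubring Qb} {M : Type} (Ht : Subalgebra A (M → Qb))
    {a : Qb} (ha : a ∈ A) {f : M → Qb} (hf : f ∈ Ht) : (fun P => a * f P) ∈ Ht := by
  have := Ht.smul_mem hf (⟨a, ha⟩ : A)
  exact this

theorem descLagrange : DescLagrangeStatement := by
  intro p hp A hA M _ Ht hint hsep
  classical
  haveI := Fintype.ofFinite M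
  have hex : ∀ P Q : M, P ≠ Q → ∃ h ∈ Ht, h P ≠ h Q := by
    intro P Q hPQ
    by_contra hcon
    push Not at hcon
    exact hPQ (hsep P Q hcon)
  choose! sepf hsepf_mem hsepf_ne using hex
  -- the interpolation functions
  set e : M → (M → Qb) := fun P =>
    ∏ Q ∈ Finset.univ.erase P, (sepf P Q - fun _ => sepf P Q Q) with he
  have he_mem : ∀ P, e P ∈ Ht := by
    intro P
    refine Subalgebra.prod_mem _ fun Q hQ => ?_
    have hQP : P ≠ Q := (Finset.ne_of_mem_erase hQ).symm
    exact Ht.sub_mem (hsepf_mem P Q hQP)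
      (desc_const_mem Ht (hint _ (hsepf_mem P Q hQP) Q))
  have he_apply : ∀ P Q', e P Q' = ∏ Q ∈ Finset.univ.erase P, (sepf P Q Q' - sepf P Q Q) := by
    intro P Q'
    simp only [he, Finset.prod_apply, Pi.sub_apply]
  have he_off : ∀ P Q', Q' ≠ P → e P Q' = 0 := by
    intro P Q' hne
    rw [he_apply]
    exact Finset.prod_eq_zero (Finset.mem_erase.mpr ⟨hne, Finset.mem_univ _⟩) (sub_self _)
  have he_diag : ∀ P, e P P ≠ 0 := by
    intro P
    rw [he_apply, Finset.prod_ne_zero_iff]
    intro Q hQ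
    have hQP : P ≠ Q := (Finset.ne_of_mem_erase hQ).symm
    exact sub_ne_zero.mpr (hsepf_ne P Q hQP)
  have he_int : ∀ P, e P P ∈ A := fun P => hint _ (he_mem P) P
  set d : Qb := ∏ P : M, e P P with hd
  have hd0 : d ≠ 0 := Finset.prod_ne_zero_iff.mpr fun P _ => he_diag P
  obtain ⟨N, a, ha, hNa⟩ := desc_arch hp A hA hd0
  refine ⟨N, fun F hF => ?_⟩
  -- the coefficients
  set c : M → Qb := fun P => a * F P * ∏ P' ∈ Finset.univ.erase P, e P' P' with hc
  have hc_mem : ∀ P, c P ∈ A := fun P =>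
    A.mul_mem _ _ (A.mul_mem _ _ ha (hF P)) (Subring.prod_mem A.toSubring fun P' _ => he_int P')
  have hsum : (fun P => (p : Qb) ^ N * F P) = ∑ P : M, fun Q => c P * e P Q := by
    funext Q
    rw [Finset.sum_apply, Finset.sum_eq_single Q]
    · rw [hNa, hd, ← Finset.mul_prod_erase Finset.univ (fun P => e P P) (Finset.mem_univ Q)]
      simp only [hc]
      ring
    · intro P _ hPQ
      rw [he_off P Q (Ne.symm hPQ), mul_zero]
    · intro h
      exact absurd (Finset.mem_univ Q) h
  rw [hsum]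
  exact Subalgebra.sum_mem _ fun P _ => desc_mul_mem Ht (hc_mem P) (he_mem P)

end Fermat.Agent.W1
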