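import Fermat.Agent.W1.GenPos

/-!
# W1-GP, addendum: Riemann's theorem from ONE equality

Generic `K`, `F` as in `GenPos.lean`.

* `gp_riemannUpper_of_lower` : if Riemann's inequality `deg A + 1 − g ≤ dim L(A)` holds for all `A`
  and ONE divisor `A₀` has `dim L(A₀) ≤ deg A₀ + 1 − g`, then `dim L(A) ≤ deg A + 1 − g` for every
  `A` with `deg A ≥ deg A₀ + g`  (Stichtenoth 1.4.17 (b)).
* `gp_riemannLower_of_seq` : `GPRiemannLower` from divisors of arbitrarily large degree
  (restatement of `ES.R.riemann_transfer`).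
* `gp_riemann_of_seq` : both halves from a sequence of divisors `B` of arbitrarily large degree
  with `dim L(B) = deg B + 1 − g`.
-/

set_option autoImplicit false

open AlgebraicCurve Module

namespace Fermat.Agent.W1

open Fermat.Agent.ES.R Fermat.Agent.S24

variable {K F : Type*} [Field K] [Field F] [Algebra K F]

theorem gp_riemannUpper_of_lower [HasPrincipalDivisors K F]
    (hres : ∀ v : Place K F, Function.Bijective (algebraMap K v.ResidueField))
    {g : ℕ} (hL : GPRiemannLower K F g) (A₀ : Divisor K F)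
    (hA₀ : (finrank K ↥(riemannRochSpace A₀) : ℤ) ≤ Divisor.degree A₀ + 1 - g) :
    GPRiemannUpper K F g := by
  refine ⟨Divisor.degree A₀ + g, fun A hA => ?_⟩
  -- a nonzero function in `L(A − A₀)`
  have h1 := hL (A - A₀)
  rw [map_sub] at h1
  have hpos : 0 < finrank K ↥(riemannRochSpace (A - A₀)) := by
    have : (0 : ℤ) < finrank K ↥(riemannRochSpace (A - A₀)) := by linarith
    exact_mod_cast this
  have := Module.nontrivial_of_finrank_pos hpos
  obtain ⟨⟨z, hzmem⟩, hz0'⟩ := exists_ne (0 : ↥(riemannRochSpace (A - A₀)))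
  have hz0 : z ≠ 0 := fun h => hz0' (Subtype.ext h)
  obtain ⟨Z, hZ, hZdeg⟩ := HasPrincipalDivisors.exists_divisor (K := K) z hz0
  -- `A' = A + div z ≥ A₀`
  set A' : Divisor K F := A + Z with hA'
  have hle : A₀ ≤ A' := by
    rw [Finsupp.le_def]
    intro v
    rw [mem_riemannRochSpace_iff] at hzmem
    have := (hzmem v).resolve_left hz0
    simp only [hA', Finsupp.coe_sub, Finsupp.coe_add, Pi.sub_apply, Pi.add_apply, hZ v] at this ⊢
    linarith
  have hdeg : Divisor.degree A' = Divisor.degree A := by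
    rw [hA', map_add, hZdeg, add_zero]
  have hdim : finrank K ↥(riemannRochSpace A') = finrank K ↥(riemannRochSpace A) :=
    rr_finrank_eq_of_principal (z := z⁻¹) (inv_ne_zero hz0) (fun v => by
      simp [hA', hZ v, Place.ord_inv])
  have h3 := rr_finrank_le hres hle
  rw [hdim, hdeg] at h3
  linarith

theorem gp_riemannLower_of_seq [HasPrincipalDivisors K F]
    (hres : ∀ v : Place K F, Function.Bijective (algebraMap K v.ResidueField)) {g : ℕ}
    (hB : ∀ m : ℤ, ∃ B : Divisor K F, m ≤ Divisor.degree B ∧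
      Divisor.degree B + 1 - g ≤ (finrank K ↥(riemannRochSpace B) : ℤ)) :
    GPRiemannLower K F g :=
  fun A => riemann_transfer hres g hB A

theorem gp_riemann_of_seq [HasPrincipalDivisors K F]
    (hres : ∀ v : Place K F, Function.Bijective (algebraMap K v.ResidueField)) {g : ℕ}
    (hB : ∀ m : ℤ, ∃ B : Divisor K F, m ≤ Divisor.degree B ∧
      (finrank K ↥(riemannRochSpace B) : ℤ) = Divisor.degree B + 1 - g) :
    GPRiemannLower K F g ∧ GPRiemannUpper K F g := by
  have hL : GPRiemannLower K F g := gp_riemannLower_of_seq hres fun m => by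
    obtain ⟨B, h1, h2⟩ := hB m
    exact ⟨B, h1, h2.ge⟩
  obtain ⟨B, -, h2⟩ := hB 0
  exact ⟨hL, gp_riemannUpper_of_lower hres hL B h2.le⟩

end Fermat.Agent.W1
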