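import Fermat.Agent.W1.PlanApprox
import Fermat.Agent.W1.GeoB

/-!
# W1 GA-G: geometry and assembly of the approximation lemma `StmtApprox`  (helper51)

`stmtApprox_of : StmtSharp → StmtOrthApprox → StmtApprox` (`PlanGeo3.lean`, `PlanApprox.lean`).

Proof (brief of helper73).  `StmtSharp` moves the poles of `f` to zeros of the `τ i` modulo
`ϖ ^ n`: `f₁`.  A zero of `τ i` which reduces to a reduced centre `Q̄ i'` is the centre `Q i'`
(`ga_eq_centre`, from `stmtEval`, `stmtDisc` and `Rep`).  With `D₁ := M • Σ Q i`,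
`D' := D₁ + M • Σ_{P ∈ Z} P` (`Z` the poles of `f₁` which are not centres) the reductions of an
orthonormal basis of `L(D₁)` span `L̄(r_* D₁)` (`ga_span_eq`: Riemann on both sides), and
`StmtOrthApprox` moves `f₁` into `L(D₁)` modulo `ϖ ^ n`.
-/

set_option autoImplicit false

open AlgebraicCurve Module

namespace Fermat.Agent.W1

open Fermat.Agent.S24 Fermat.Agent.ES.R

section Chart

variable {K F k Fk : Type} [Field K] [Field F] [Algebra K F] [Field k] [Field Fk] [Algebra k Fk]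
variable {A : ValuationSubring K} {R : PRData K F k Fk A} {g : ℕ} {C : R.Chart g}

/-- the value of `t̄` at a reduced centre -/
theorem ga_value_red (hR : R.IsPR) (hC : C.IsChart) (i : Fin g) :
    HasValueAt (R.r (C.Q i)) (R.red ⟨C.t, geoB_t_mem hC⟩) (R.res (C.c i)) := by
  have h3 := geoB_ord_red_tau hR hC i
  have h4 := geoB_red_tau_ne_zero hR hC i
  rw [geoB_red_tau hR hC i] at h3 h4
  rw [hasValueAt_iff_ord_pos _ h4, h3]
  exact one_pos

/-- **Lemma E**: a zero of `τ i` which reduces to the reduced centre `Q̄ i'` is `Q i'`. -/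
theorem ga_eq_centre (hR : R.IsPR) (hF : IsNiceCurve K F g) (hFk : IsNiceCurve k Fk g)
    (hC : C.IsChart) (hRep : C.Rep) {P : Place K F} {i i' : Fin g}
    (hv : HasValueAt P C.t (C.c i : K)) (hr : R.r P = R.r (C.Q i')) : P = C.Q i' := by
  have ht := geoB_t_mem hC
  obtain ⟨a, ha1, ha2⟩ := stmtEval K F k Fk A R g hR hF hFk ⟨C.t, ht⟩ P
    (fun P' hP' => by rw [hr]; exact geoB_noPole hR hC i' P' hP')
  have hac : a = C.c i := Subtype.ext (hasValueAt_unique P ha1 hv)
  rw [hr, hac] at ha2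
  have h3 : R.res (C.c i) = R.res (C.c i') := hasValueAt_unique _ ha2 (ga_value_red hR hC i')
  have h4 : C.c i = C.c i' := hRep i i' h3
  obtain ⟨-, huniq⟩ := stmtDisc K F k Fk A R g hR hF hFk C.t ht hC.good (C.c i')
    (R.r (C.Q i')) (hC.simple ht i')
  obtain ⟨P₀, -, hP₀⟩ := huniq 0 (ge_zero_mem_nonunits A)
  have e1 : P = P₀ := hP₀ P ⟨hr, by rw [add_zero, ← h4]; exact hv⟩
  have e2 : C.Q i' = P₀ := hP₀ (C.Q i') ⟨rfl, by rw [add_zero]; exact hC.value i'⟩
  rw [e1, e2]

/-! ### Divisors -/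

theorem ga_gpSum_support {T : Finset (Place K F)} {P : Place K F}
    (hP : P ∈ (gpSum T).support) : P ∈ T := by
  by_contra h
  exact (Finsupp.mem_support_iff.mp hP) (gpSum_apply_of_not_mem h)

theorem ga_mapDomain_gpSum_T (hC : C.IsChart) :
    Finsupp.mapDomain R.r (gpSum (geoBT C)) = gpSum (geoBTb C) := by
  rw [geoB_gpSum_T hC, geoB_gpSum_Tb hC, Finsupp.mapDomain_finsetSum]
  simp only [Finsupp.mapDomain_single]

/-- the push-forward of a divisor supported on places which do not reduce to `Q` vanishes at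
`Q` -/
theorem ga_mapDomain_apply_eq_zero (D : Divisor K F) (Q : Place k Fk)
    (h : ∀ P ∈ D.support, R.r P ≠ Q) : Finsupp.mapDomain R.r D Q = 0 := by
  classical
  rw [ge_mapDomain_apply]
  exact Finset.sum_eq_zero fun P hP => if_neg (h P hP)

/-- **Lemma F**: the reductions of an orthonormal basis of `L(M • ΣQ i)` span
`L̄(M • ΣQ̄ i)`, `M ≥ 1`. -/
theorem ga_span_eq (hF : IsNiceCurve K F g) (hFk : IsNiceCurve k Fk g) (hC : C.IsChart)
    (M' : ℕ) {n₁ : ℕ} (e₁ : Fin n₁ → F) (he₁ : ∀ i, e₁ i ∈ R.O)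
    (hspan : Submodule.span K (Set.range e₁)
      = riemannRochSpace ((M' + 1) • gpSum (geoBT C)))
    (hli : LinearIndependent k (fun i => R.red ⟨e₁ i, he₁ i⟩))
    (hmem : ∀ i, R.red ⟨e₁ i, he₁ i⟩ ∈ riemannRochSpace ((M' + 1) • gpSum (geoBTb C))) :
    Submodule.span k (Set.range fun i => R.red ⟨e₁ i, he₁ i⟩)
      = riemannRochSpace ((M' + 1) • gpSum (geoBTb C)) := by
  classical
  have hpdF := hF.hpd
  have hpdFk := hFk.hpd
  set V : Submodule k Fk := riemannRochSpace ((M' + 1) • gpSum (geoBTb C)) with hV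
  -- `dim V = g M' + 1`
  have h3 : (finrank k ↥V : ℤ) = (g : ℤ) * M' + 1 := by
    have hns : finrank k ↥(riemannRochSpace (gpSum (geoBTb C))) = 1 := by
      rw [geoB_gpSum_Tb hC]; exact hC.nonspecial
    have h := gp_finrank_chart_add hFk.hres hFk.lower (geoB_card_Tb hC) hns
      (A := M' • gpSum (geoBTb C)) (nsmul_nonneg (gpSum_nonneg _) M')
    rw [map_nsmul, degree_gpSum hFk.hres, geoB_card_Tb hC] at h
    have e : (M' + 1) • gpSum (geoBTb C) = gpSum (geoBTb C) + M' • gpSum (geoBTb C) := by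
      rw [succ_nsmul']
    rw [hV, e, h]
    simp only [nsmul_eq_mul]
    ring
  -- `g M' + 1 ≤ dim L(D₁) ≤ n₁`
  have h1 : ((g : ℤ) * M' + 1) ≤ (finrank K ↥(riemannRochSpace
      ((M' + 1) • gpSum (geoBT C) : Divisor K F)) : ℤ) := by
    have h := hF.lower ((M' + 1) • gpSum (geoBT C))
    rw [map_nsmul, degree_gpSum hF.hres, geoB_card_T hC] at h
    simp only [nsmul_eq_mul] at h
    push_cast at h
    linarith
  have h2 : finrank K ↥(riemannRochSpace ((M' + 1) • gpSum (geoBT C) : Divisor K F)) ≤ n₁ := by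
    rw [← hspan]
    have := finrank_range_le_card (R := K) e₁
    rwa [Fintype.card_fin] at this
  have hfin : Module.Finite k ↥V := by
    rcases Nat.eq_zero_or_pos g with hg | hg
    · -- no centres: any place will do
      obtain ⟨v₀, -⟩ := hFk.infinite.nonempty
      exact rr_finite v₀ hFk.hres _
    · exact rr_finite (R.r (C.Q ⟨0, hg⟩)) hFk.hres _
  have hli' : LinearIndependent k (fun j => (⟨R.red ⟨e₁ j, he₁ j⟩, hmem j⟩ : V)) :=
    LinearIndependent.of_comp V.subtype hli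
  have h5 := hli'.fintype_card_le_finrank
  rw [Fintype.card_fin] at h5
  have hcard : Fintype.card (Fin n₁) = finrank k ↥V := by
    rw [Fintype.card_fin]
    have h6 : (n₁ : ℤ) ≤ (finrank k ↥V : ℤ) := by exact_mod_cast h5
    have h7 : (finrank K ↥(riemannRochSpace ((M' + 1) • gpSum (geoBT C) : Divisor K F)) : ℤ)
        ≤ n₁ := by exact_mod_cast h2
    have h8 : (n₁ : ℤ) = (finrank k ↥V : ℤ) := by linarith
    exact_mod_cast h8
  have htop := hli'.span_eq_top_of_card_eq_finrank' hcard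
  have hrange : (Set.range fun i => R.red ⟨e₁ i, he₁ i⟩)
      = V.subtype '' (Set.range fun j => (⟨R.red ⟨e₁ j, he₁ j⟩, hmem j⟩ : V)) := by
    rw [← Set.range_comp]
    rfl
  rw [hrange, ← Submodule.map_span, htop, Submodule.map_subtype_top]

/-- a pole of a function of `L(M • ΣT)` lies in `T` -/
theorem ga_pole_mem {T : Finset (Place K F)} (M : ℕ) {w : F}
    (hw : w ∈ riemannRochSpace (M • gpSum T)) {P : Place K F} (hP : P.ord w < 0) : P ∈ T := by
  by_contra hPT
  have hw0 : w ≠ 0 := by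
    rintro rfl
    rw [Place.ord_zero] at hP
    exact lt_irrefl _ hP
  have h := ((mem_riemannRochSpace_iff.mp hw) P).resolve_left hw0
  rw [Finsupp.smul_apply, gpSum_apply_of_not_mem hPT, smul_zero, neg_zero] at h
  exact absurd h (not_le.mpr hP)

theorem ga_smul_gpSum_apply_of_mem {T : Finset (Place K F)} (M : ℕ) {P : Place K F}
    (hP : P ∈ T) : (M • gpSum T) P = (M : ℤ) := by
  rw [Finsupp.smul_apply, gpSum_apply_of_mem hP, nsmul_eq_mul, mul_one]

theorem ga_smul_gpSum_nonneg (T : Finset (Place K F)) (M : ℕ) (P : Place K F) :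
    0 ≤ (M • gpSum T) P := by
  have h := Finsupp.le_def.mp (nsmul_nonneg (gpSum_nonneg T) M) P
  simpa using h

/-- the `K`-subspace of the functions all of whose poles reduce to reduced centres -/
def gaP (C : R.Chart g) : Submodule K F where
  carrier := {w | ∀ P : Place K F, P.ord w < 0 → ∃ i, R.r P = R.r (C.Q i)}
  zero_mem' := fun P hP => by
    rw [Place.ord_zero] at hP
    exact absurd hP (lt_irrefl _)
  add_mem' := by
    intro a b ha hb P hP
    by_contra hno
    have ha' : a ∈ P.toValuationSubring := ge_mem_of_not_ord_neg P fun h => hno (ha P h)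
    have hb' : b ∈ P.toValuationSubring := ge_mem_of_not_ord_neg P fun h => hno (hb P h)
    exact absurd (ge_ord_nonneg_of_mem P (add_mem ha' hb')) (not_le.mpr hP)
  smul_mem' := by
    intro c a ha P hP
    by_contra hno
    have ha' : a ∈ P.toValuationSubring := ge_mem_of_not_ord_neg P fun h => hno (ha P h)
    have hca : c • a ∈ P.toValuationSubring := by
      rw [Algebra.smul_def]
      exact mul_mem (P.algebraMap_mem' c) ha'
    exact absurd (ge_ord_nonneg_of_mem P hca) (not_le.mpr hP)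

theorem mem_gaP {C : R.Chart g} {w : F} :
    w ∈ gaP C ↔ ∀ P : Place K F, P.ord w < 0 → ∃ i, R.r P = R.r (C.Q i) := Iff.rfl

end Chart

/-! ### GEO-AL -/

/-- **GEO-AL** from its two halves. -/
theorem stmtApprox_of (hS : StmtSharp) (hOA : StmtOrthApprox) : StmtApprox := by
  classical
  intro K F k Fk _ _ _ _ _ _ A R g hR hF hFk hO C hC hRep ϖ hϖ hϖ0 f hf hpol n
  obtain ⟨f₁, hf₁O, hf₁pol, h₁, hh₁O, hh₁⟩ :=
    hS K F k Fk A R g hR hF hFk C hC ϖ hϖ hϖ0 f hf hpol n
  by_cases hf₁0 : f₁ = 0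
  · refine ⟨0, R.O.zero_mem, fun P hP => ?_, h₁, hh₁O, ?_⟩
    · rw [Place.ord_zero] at hP
      exact absurd hP (lt_irrefl _)
    · rw [hf₁0] at hh₁
      exact hh₁
  have hpdF := hF.hpd
  obtain ⟨Df, hDf, -⟩ := hpdF.exists_divisor f₁ hf₁0
  -- a bound for the pole orders
  set M' : ℕ := ∑ P ∈ Df.support, (Df P).natAbs with hM'
  have hbound : ∀ P : Place K F, -(P.ord f₁) ≤ (M' : ℤ) := by
    intro P
    by_cases hP : P ∈ Df.support
    · have h1 : (Df P).natAbs ≤ M' :=
        Finset.single_le_sum (f := fun P => (Df P).natAbs) (fun _ _ => Nat.zero_le _) hP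
      rw [← hDf P]
      omega
    · rw [Finsupp.notMem_support_iff] at hP
      rw [← hDf P, hP, neg_zero]
      exact Int.natCast_nonneg _
  -- the poles which are not centres
  set Z : Finset (Place K F) := Df.support.filter (fun P => Df P < 0 ∧ ∀ i, P ≠ C.Q i) with hZ
  have hZred : ∀ P ∈ Z, ∀ i, R.r P ≠ R.r (C.Q i) := by
    intro P hP i hr
    rw [hZ, Finset.mem_filter] at hP
    obtain ⟨-, hneg, hne⟩ := hP
    obtain ⟨i₀, hi₀⟩ := hf₁pol P (by rw [← hDf P]; exact hneg)
    exact hne i (ga_eq_centre hR hF hFk hC hRep hi₀ hr)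
  set D1 : Divisor K F := (M' + 1) • gpSum (geoBT C) with hD1
  set D' : Divisor K F := D1 + (M' + 1) • gpSum Z with hD'
  have hD1D' : D1 ≤ D' := le_add_of_nonneg_right (nsmul_nonneg (gpSum_nonneg _) _)
  -- `f₁ ∈ L(D')`
  have hf₁D' : f₁ ∈ riemannRochSpace D' := by
    rw [mem_riemannRochSpace_iff]
    intro P
    right
    have hb := hbound P
    have hn1 := ga_smul_gpSum_nonneg (geoBT C) (M' + 1) P
    have hn2 := ga_smul_gpSum_nonneg Z (M' + 1) P
    rw [hD', Finsupp.add_apply, hD1]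
    by_cases hneg : P.ord f₁ < 0
    · by_cases hc : ∃ i, P = C.Q i
      · rw [ga_smul_gpSum_apply_of_mem (M' + 1) ((geoB_mem_T P).mpr hc), Nat.cast_add,
          Nat.cast_one]
        linarith
      · have hPZ : P ∈ Z := by
          rw [hZ, Finset.mem_filter]
          refine ⟨?_, ?_, fun i hi => hc ⟨i, hi⟩⟩
          · rw [Finsupp.mem_support_iff, hDf P]
            omega
          · rw [hDf P]
            exact hneg
        rw [ga_smul_gpSum_apply_of_mem (M' + 1) hPZ, Nat.cast_add, Nat.cast_one]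
        linarith
    · linarith [not_lt.mp hneg]
  -- orthonormal bases
  obtain ⟨n₁, e₁, he₁, hspan₁, hli₁, hmem₁⟩ := hO D1
  obtain ⟨m, e', he', hspan', hli', hmem'⟩ := hO D'
  have hρD1 : Finsupp.mapDomain R.r D1 = (M' + 1) • gpSum (geoBTb C) := by
    rw [hD1, Finsupp.mapDomain_smul, ga_mapDomain_gpSum_T hC]
  have hρD' : ∀ i, Finsupp.mapDomain R.r D' (R.r (C.Q i))
      = ((M' + 1) • gpSum (geoBTb C)) (R.r (C.Q i)) := by
    intro i
    rw [hD', Finsupp.mapDomain_add, Finsupp.add_apply, hρD1,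
      ga_mapDomain_apply_eq_zero _ _ (fun P hP => hZred P ?_ i), add_zero]
    by_contra hPZ
    apply Finsupp.mem_support_iff.mp hP
    rw [Finsupp.smul_apply, gpSum_apply_of_not_mem hPZ, smul_zero]
  rw [hρD1] at hmem₁
  have hspanb := ga_span_eq hF hFk hC M' e₁ he₁ hspan₁ hli₁ hmem₁
  -- the two hypotheses on `P = gaP C`
  have hP1 : Submodule.span K (Set.range e₁) ≤ gaP C := by
    rw [hspan₁]
    intro w hw P hP
    obtain ⟨i, hi⟩ := (geoB_mem_T P).mp (ga_pole_mem (M' + 1) hw hP)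
    exact ⟨i, by rw [hi]⟩
  have hP2 : ∀ (w : F) (hw : w ∈ R.O), w ∈ gaP C →
      R.red ⟨w, hw⟩ ∈ Submodule.span k (Set.range fun j => R.red ⟨e' j, he' j⟩) →
      R.red ⟨w, hw⟩ ∈ Submodule.span k (Set.range fun i => R.red ⟨e₁ i, he₁ i⟩) := by
    intro w hw hwP hwe'
    rw [hspanb]
    have hwD' : R.red ⟨w, hw⟩ ∈ riemannRochSpace (Finsupp.mapDomain R.r D') := by
      refine (Submodule.span_le.mpr ?_) hwe'
      rintro _ ⟨j, rfl⟩
      exact hmem' j
    rw [mem_riemannRochSpace_iff] at hwD' ⊢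
    intro Q
    by_cases hred : R.red ⟨w, hw⟩ = 0
    · exact Or.inl hred
    right
    by_cases hQ : ∃ i, Q = R.r (C.Q i)
    · obtain ⟨i, rfl⟩ := hQ
      rw [← hρD' i]
      exact (hwD' _).resolve_left hred
    · rw [Finsupp.smul_apply, gpSum_apply_of_not_mem (fun h => hQ ((geoB_mem_Tb Q).mp h)),
        smul_zero, neg_zero]
      have hle := ge_sum_ord_le hR hpdF (u := ⟨w, hw⟩) hred Q
        (fun P' hP' hrP' => by
          obtain ⟨i, hi⟩ := hwP P' hP'
          exact hQ ⟨i, by rw [← hrP', hi]⟩) ∅ (by simp)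
      rw [Finset.sum_empty] at hle
      exact hle
  have hfP : f ∈ gaP C := by
    intro P hP
    obtain ⟨i, z, hz, -⟩ := hpol P hP
    exact ⟨i, hz.1⟩
  -- approximation in orthonormal coordinates
  obtain ⟨y, hy, hyO, h₂, hh₂O, hh₂⟩ := hOA K F k Fk A R hR n₁ m e₁ e' he₁ he' hli₁ hli'
    (by rw [hspan₁, hspan']; exact rr_mono hD1D') (gaP C) hP1 hP2 (ϖ ^ n)
    (pow_mem (ge_nonunits_mem hϖ) n) (pow_ne_zero n hϖ0) f₁ f
    (by rw [hspan']; exact hf₁D') hf₁O hfP ⟨h₁, hh₁O, hh₁⟩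
  rw [hspan₁] at hy
  refine ⟨y, hyO, fun P hP => ?_, h₁ + h₂, add_mem hh₁O hh₂O, ?_⟩
  · obtain ⟨i, hi⟩ := (geoB_mem_T P).mp (ga_pole_mem (M' + 1) hy hP)
    exact ⟨i, hi⟩
  · have e : f - y = (f - f₁) + (f₁ - y) := by ring
    rw [e, hh₁, hh₂, mul_add]

end Fermat.Agent.W1
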