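import Fermat.Agent.W1.RHFAdd

/-!
# W1 GEO-CMP, algebraic part (helper94)

* `rhfV_homog` : a solution `(a, ω, W)` of the homogeneous equation `V * (C a + β ω) = W` is
  `a` times the normalised solution.
* `exists_unit_factor_of_eval` (root criterion): `W ≡ X mod 𝔞`, `𝔞 ^ N = 0`, `ζ ∈ 𝔞`,
  `∑_{m < N} W_m ζ ^ m = 0` ⇒ `W = (X - C ζ) * unit`.
* `descend`: Laurent series over a field with coefficients in a subring.
-/

namespace Fermat.Agent.W1.RHF

open HahnSeries

section homog

variable {A : Type*} [CommRing A] {ι : Type*} [Finite ι] (𝔞 : Ideal A) (n : ι → ℕ)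
  (b : ι × ℕ → ι → LaurentSeries A)

/-- uniqueness for the homogeneous equation without constant term -/
theorem rhfV_homog_zero (h𝔞 : IsNilpotent 𝔞)
    (hb : ∀ j, pol n (b j) = Finsupp.single j 1) (V : ι → LaurentSeries A)
    (hV : ∀ x, V x - tpow A (n x) ∈ 𝔞 • (⊤ : Submodule A (LaurentSeries A)))
    (ω : ι × ℕ →₀ A) (W : ι → PowerSeries A)
    (h : ∀ x, V x * beta b ω x = HahnSeries.ofPowerSeries ℤ A (W x)) :
    ω = 0 ∧ W = 0 := by
  obtain ⟨p, hp, huniq⟩ := exists_unique_rhfV 𝔞 n b h𝔞 hb V hV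
  have h1 : ∀ x, V x * (1 + beta b (p.1 + ω, p.2 + W).1 x)
      = HahnSeries.ofPowerSeries ℤ A ((p.1 + ω, p.2 + W).2 x) := by
    intro x
    simp only [map_add, Pi.add_apply]
    rw [← hp x, ← h x]
    ring
  have h2 := huniq _ h1
  have h3 : p.1 + ω = p.1 := congrArg Prod.fst h2
  have h4 : p.2 + W = p.2 := congrArg Prod.snd h2
  exact ⟨by simpa using h3, by simpa using h4⟩

/-- a solution of the homogeneous equation is a multiple of the normalised solution -/
theorem rhfV_homog (h𝔞 : IsNilpotent 𝔞)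
    (hb : ∀ j, pol n (b j) = Finsupp.single j 1) (V : ι → LaurentSeries A)
    (hV : ∀ x, V x - tpow A (n x) ∈ 𝔞 • (⊤ : Submodule A (LaurentSeries A)))
    (a : A) (ω : ι × ℕ →₀ A) (W : ι → PowerSeries A)
    (h : ∀ x, V x * (HahnSeries.C a + beta b ω x) = HahnSeries.ofPowerSeries ℤ A (W x))
    (p : (ι × ℕ →₀ A) × (ι → PowerSeries A))
    (hp : ∀ x, V x * (1 + beta b p.1 x) = HahnSeries.ofPowerSeries ℤ A (p.2 x)) :
    ω = a • p.1 ∧ ∀ x, W x = PowerSeries.C a * p.2 x := by
  have hC : ∀ w : PowerSeries A, HahnSeries.ofPowerSeries ℤ A (PowerSeries.C a * w)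
      = HahnSeries.C a * HahnSeries.ofPowerSeries ℤ A w := by
    intro w
    rw [map_mul, HahnSeries.ofPowerSeries_C]
  have h1 : ∀ x, V x * beta b (ω - a • p.1) x
      = HahnSeries.ofPowerSeries ℤ A ((fun y => W y - PowerSeries.C a * p.2 y) x) := by
    intro x
    simp only [map_sub, Pi.sub_apply, map_smul, Pi.smul_apply]
    rw [hC, ← h x, ← hp x, ← HahnSeries.C_mul_eq_smul]
    ring
  obtain ⟨h2, h3⟩ := rhfV_homog_zero 𝔞 n b h𝔞 hb V hV _ _ h1
  refine ⟨sub_eq_zero.1 h2, fun x => ?_⟩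
  have := congrFun h3 x
  exact sub_eq_zero.1 this

end homog

section root

variable {A : Type*} [CommRing A]

/-- evaluation of the first `N` terms at `ζ`, as a linear map -/
noncomputable def evTrunc (N : ℕ) (ζ : A) : PowerSeries A →ₗ[A] A where
  toFun W := ∑ m ∈ Finset.range N, PowerSeries.coeff m W * ζ ^ m
  map_add' W W' := by
    simp only [map_add, add_mul, Finset.sum_add_distrib]
  map_smul' a W := by
    simp only [map_smul, smul_eq_mul, RingHom.id_apply, Finset.mul_sum, mul_assoc]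

theorem evTrunc_apply (N : ℕ) (ζ : A) (W : PowerSeries A) :
    evTrunc N ζ W = ∑ m ∈ Finset.range N, PowerSeries.coeff m W * ζ ^ m := rfl

theorem evTrunc_C (N : ℕ) (hN : 0 < N) (ζ a : A) : evTrunc N ζ (PowerSeries.C a) = a := by
  rw [evTrunc_apply]
  obtain ⟨N, rfl⟩ : ∃ M, N = M + 1 := ⟨N - 1, by omega⟩
  rw [Finset.sum_range_succ']
  simp only [PowerSeries.coeff_C, pow_zero, mul_one, if_true]
  rw [Finset.sum_eq_zero, zero_add]
  intro m _
  simp

/-- `evTrunc` kills the multiples of `X - ζ` when `ζ ^ N = 0` -/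
theorem evTrunc_X_sub_C_mul (N : ℕ) (ζ : A) (hζ : ζ ^ N = 0) (q : PowerSeries A) :
    evTrunc N ζ ((PowerSeries.X - PowerSeries.C ζ) * q) = 0 := by
  rw [evTrunc_apply]
  have hc : ∀ m : ℕ, PowerSeries.coeff m ((PowerSeries.X - PowerSeries.C ζ) * q) * ζ ^ m
      = (if m = 0 then 0 else PowerSeries.coeff (m - 1) q * ζ ^ m)
        - PowerSeries.coeff m q * ζ ^ (m + 1) := by
    intro m
    rw [sub_mul, map_sub, PowerSeries.coeff_C_mul]
    rcases m with _ | m
    · simp only [PowerSeries.coeff_zero_eq_constantCoeff, map_mul,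
        PowerSeries.constantCoeff_X, zero_mul, if_true]
      ring
    · rw [PowerSeries.coeff_succ_X_mul]
      simp only [Nat.succ_ne_zero, if_false, Nat.add_sub_cancel]
      ring
  rw [Finset.sum_congr rfl fun m _ => hc m, Finset.sum_sub_distrib]
  rcases N with _ | N
  · simp
  · rw [Finset.sum_range_succ', Finset.sum_range_succ _ N]
    simp only [if_true, Nat.succ_ne_zero, if_false, Nat.add_sub_cancel, add_zero]
    rw [hζ]
    simp

/-- **Root criterion.** -/
theorem exists_unit_factor_of_eval {𝔞 : Ideal A} (h𝔞 : IsNilpotent 𝔞) (N : ℕ) (hN : 0 < N)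
    (W : PowerSeries A) (hW : W - PowerSeries.X ∈ 𝔞 • (⊤ : Submodule A (PowerSeries A)))
    (ζ : A) (hζ𝔞 : ζ ∈ 𝔞) (hζN : ζ ^ N = 0) (hev : evTrunc N ζ W = 0) :
    ∃ h : (PowerSeries A)ˣ, W = (PowerSeries.X - PowerSeries.C ζ) * (h : PowerSeries A) := by
  -- divide `W` by `w := X - C ζ`
  have hw : (PowerSeries.X - PowerSeries.C ζ : PowerSeries A) - PowerSeries.X ^ 1
      ∈ 𝔞 • (⊤ : Submodule A (PowerSeries A)) := by
    have e : (PowerSeries.X - PowerSeries.C ζ : PowerSeries A) - PowerSeries.X ^ 1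
        = (-ζ) • (1 : PowerSeries A) := by
      rw [pow_one, sub_sub_cancel_left]
      ext m
      simp [PowerSeries.coeff_C, PowerSeries.coeff_one]
    rw [e]
    exact Submodule.smul_mem_smul (𝔞.neg_mem hζ𝔞) Submodule.mem_top
  obtain ⟨⟨q, r⟩, ⟨hdeg, heq⟩, -⟩ := weierstrass_division h𝔞 1 _ hw W
  simp only at hdeg heq
  have hr : r = Polynomial.C (r.coeff 0) := by
    apply Polynomial.eq_C_of_degree_le_zero
    by_cases h0 : r = 0
    · simp [h0]
    · exact Polynomial.degree_le_of_natDegree_le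
        (Nat.le_of_lt_succ ((Polynomial.natDegree_lt_iff_degree_lt h0).2 (by simpa using hdeg)))
  have hrc : (r : PowerSeries A) = PowerSeries.C (r.coeff 0) := by
    conv_lhs => rw [hr]
    simp
  -- the remainder vanishes
  have hr0 : r.coeff 0 = 0 := by
    have h1 := congrArg (evTrunc N ζ) heq
    rw [hev, map_add, evTrunc_X_sub_C_mul N ζ hζN, hrc, evTrunc_C N hN, zero_add] at h1
    exact h1.symm
  rw [hrc, hr0, map_zero, add_zero] at heq
  -- the quotient is a unit
  obtain ⟨hq, -⟩ := weierstrass_division_congr 1 _ hw W q r hdeg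
    (by rw [hrc, hr0, map_zero, add_zero]; exact heq)
  have hq1 : q - 1 ∈ 𝔞 • (⊤ : Submodule A (PowerSeries A)) := by
    have h2 : hi 1 W - 1 ∈ 𝔞 • (⊤ : Submodule A (PowerSeries A)) := by
      have := map_mem_smul_top 𝔞 (hi 1) hW
      rwa [map_sub, hi_one_X] at this
    have : q - 1 = (q - hi 1 W) + (hi 1 W - 1) := by ring
    rw [this]
    exact Submodule.add_mem _ hq h2
  have hqu : IsUnit q := isUnit_of_sub_one_mem h𝔞 hq1
  exact ⟨hqu.unit, by rw [heq]; rfl⟩

end root

section descend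

variable {K : Type*} [Field K] (A : ValuationSubring K)

/-- a Laurent series over `K` with coefficients in `A`, as a Laurent series over `A` -/
noncomputable def descend (s : LaurentSeries K) (hs : ∀ m, s.coeff m ∈ A) : LaurentSeries A where
  coeff m := ⟨s.coeff m, hs m⟩
  isPWO_support' := by
    refine s.isPWO_support.mono ?_
    intro m hm
    simp only [Function.mem_support, ne_eq] at hm ⊢
    intro h
    apply hm
    exact Subtype.ext h

@[simp]
theorem coeff_descend (s : LaurentSeries K) (hs : ∀ m, s.coeff m ∈ A) (m : ℤ) :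
    ((descend A s hs).coeff m : K) = s.coeff m := rfl

theorem lmap_descend (s : LaurentSeries K) (hs : ∀ m, s.coeff m ∈ A) :
    lmap A.subtype (descend A s hs) = s := by
  ext m
  rw [coeff_lmap]
  rfl

theorem lmap_subtype_injective : Function.Injective (lmap A.subtype) := by
  intro s s' h
  ext m
  have := congrArg (fun l => l.coeff m) h
  simpa using this

end descend

end Fermat.Agent.W1.RHF
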