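import Fermat.Agent.W1.GeoCmpOrd
import Fermat.Agent.W1.GeoCmpAlg

/-!
# W1 GEO-CMP, expansions at the centres (helper94)

* `IsExpData C ι` : the expansion maps `ι i : F →+* K((T))` at the centres (from `StmtExpand`).
* `taylor_int` : `StmtTaylorInt` in the form used here.
* `exists_descend_of_pow` : a function of `O` with bounded poles in the disc has an expansion
  with coefficients in `A`.
* `exists_decomp` : a function of `O` with poles only at the centres is
  `a₀ + Σ ω_j b_j`, `a₀, ω_j ∈ A`.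
-/

set_option autoImplicit false

open AlgebraicCurve Module

namespace Fermat.Agent.W1.Cmp

open Fermat.Agent.W1 Fermat.Agent.S24 Fermat.Agent.W1.RHF

variable {K F k Fk : Type} [Field K] [Field F] [Algebra K F] [Field k] [Field Fk] [Algebra k Fk]
variable {A : ValuationSubring K} {R : PRData K F k Fk A} {g : ℕ} (C : R.Chart g)

theorem place_ord_pow (v : Place K F) (f : F) (m : ℕ) : v.ord (f ^ m) = m * v.ord f := by
  have := v.ord_zpow f (m : ℤ)
  rwa [zpow_natCast] at this

/-- expansion data at the centres of a chart -/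
structure IsExpData (ι : Fin g → (F →+* LaurentSeries K)) : Prop where
  expansion : ∀ i f, IsExpansion (C.Q i) (C.tau i) f (ι i f)
  const : ∀ i a, ι i (algebraMap K F a) = HahnSeries.C a
  tau : ∀ i, ι i (C.tau i) = HahnSeries.single 1 1
  order : ∀ i f, f ≠ 0 → (ι i f).order = (C.Q i).ord f

theorem exists_expData (hX : StmtExpand) (hR : R.IsPR) (hF : IsNiceCurve K F g)
    (hC : C.IsChart) : ∃ ι : Fin g → (F →+* LaurentSeries K), IsExpData C ι := by
  have h : ∀ i : Fin g, ∃ ι : F →+* LaurentSeries K,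
      (∀ f, IsExpansion (C.Q i) (C.tau i) f (ι f)) ∧
      (∀ f s, IsExpansion (C.Q i) (C.tau i) f s → s = ι f) ∧
      (∀ a : K, ι (algebraMap K F a) = HahnSeries.C a) ∧
      ι (C.tau i) = HahnSeries.single 1 1 ∧
      ∀ f, f ≠ 0 → (ι f).order = (C.Q i).ord f := fun i =>
    hX K F (C.Q i) (hF.hres (C.Q i)) (C.tau i) (ord_tau_centre C hR hF.hpd hC i)
  choose ι h1 _ h3 h4 h5 using h
  exact ⟨ι, ⟨h1, h3, h4, h5⟩⟩

variable {C} {ι : Fin g → (F →+* LaurentSeries K)}

theorem tpow_one_pow (B : Type*) [CommRing B] (m : ℕ) : tpow B 1 ^ m = tpow B (m : ℤ) := by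
  rw [tpow, HahnSeries.single_pow, one_pow]
  simp

theorem IsExpData.tau_pow (hι : IsExpData C ι) (i : Fin g) (m : ℕ) :
    ι i (C.tau i ^ m) = tpow K (m : ℤ) := by
  rw [map_pow, hι.tau, ← tpow_one_pow]

/-- `StmtTaylorInt`, in the form used here -/
theorem taylor_int (hT : StmtTaylorInt) (hR : R.IsPR) (hF : IsNiceCurve K F g)
    (hFk : IsNiceCurve k Fk g) (hC : C.IsChart) (hι : IsExpData C ι) (i : Fin g) {f : F}
    (hfO : f ∈ R.O) (hf : f ∈ discRing R (R.r (C.Q i))) :
    ∃ W : PowerSeries ↥A,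
      lmap A.subtype (HahnSeries.ofPowerSeries ℤ ↥A W) = ι i f ∧
      ∀ (P : Place K F) (z : K), C.InDisc i P z → ∀ n : ℕ, ∃ y : A,
        HasValueAt P f
          ((∑ m ∈ Finset.range n, ((PowerSeries.coeff m W : A) : K) * z ^ m) + z ^ n * (y : K)) := by
  obtain ⟨hneg, a, ha, -, hval⟩ := hT K F k Fk A R g hR hF hFk C hC i ⟨f, hfO⟩
    (no_pole_of_mem_discRing hf) (ι i f) (hι.expansion i f)
  refine ⟨PowerSeries.mk a, ?_, ?_⟩
  · ext e
    rw [coeff_lmap, PowerSeries.coeff_coe]
    split_ifs with he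
    · rw [map_zero, hneg e he]
    · rw [PowerSeries.coeff_mk]
      have : (e.natAbs : ℤ) = e := Int.natAbs_of_nonneg (by omega)
      have h2 := ha e.natAbs
      rw [this] at h2
      rw [h2]
      rfl
  · intro P z hP n
    obtain ⟨y, hy⟩ := hval P z hP n
    refine ⟨y, ?_⟩
    simpa only [PowerSeries.coeff_mk] using hy

theorem tau_mem_O (hR : R.IsPR) (hC : C.IsChart) (i : Fin g) : C.tau i ∈ R.O := by
  unfold PRData.Chart.tau
  exact sub_mem (t_mem_O C hC) (hR.algebraMap_mem (C.c i))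

theorem tau_mem_discRing (hC : C.IsChart) (i : Fin g) : C.tau i ∈ discRing R (R.r (C.Q i)) := by
  have := tau_sub_mem_discRing C hC i 0
  simpa using this

/-- a function of `O` with bounded poles in the `i`-th disc has an integral expansion -/
theorem exists_descend_of_pow (hT : StmtTaylorInt) (hR : R.IsPR) (hF : IsNiceCurve K F g)
    (hFk : IsNiceCurve k Fk g) (hC : C.IsChart) (hι : IsExpData C ι) (i : Fin g) {f : F}
    (hfO : f ∈ R.O) (m : ℕ) (hf : C.tau i ^ m * f ∈ discRing R (R.r (C.Q i))) :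
    ∃ s : LaurentSeries ↥A, lmap A.subtype s = ι i f := by
  have hO : C.tau i ^ m * f ∈ R.O := mul_mem (pow_mem (tau_mem_O hR hC i) m) hfO
  obtain ⟨W, hW, -⟩ := taylor_int hT hR hF hFk hC hι i hO hf
  refine ⟨tpow ↥A (-(m : ℤ)) * HahnSeries.ofPowerSeries ℤ ↥A W, ?_⟩
  rw [map_mul, hW, lmap_tpow, map_mul, hι.tau_pow, ← mul_assoc, tpow_neg_mul_tpow, one_mul]

/-- a function with poles only at the centres has bounded poles in each disc -/
theorem exists_pow_tau_mul_mem (hR : R.IsPR) (hpd : HasPrincipalDivisors K F) (hC : C.IsChart)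
    (i : Fin g) {f : F} (hf : C.PolesAtCentres f) :
    ∃ m : ℕ, C.tau i ^ m * f ∈ discRing R (R.r (C.Q i)) := by
  classical
  rcases eq_or_ne f 0 with rfl | hf0
  · exact ⟨0, by simp⟩
  refine ⟨(-(C.Q i).ord f).toNat, ?_⟩
  apply mem_discRing_of_ord
  intro P₀ h₀
  have hτ0 := tau_ne_zero C hR hpd hC i
  rw [Place.ord_mul _ (pow_ne_zero _ hτ0) hf0, place_ord_pow]
  have hτ := disc_ord_eq C hR hpd hC i 0 (C.Q i) (inDisc_centre C hC i) P₀ h₀
  rw [map_zero, sub_zero] at hτ
  rw [hτ]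
  split_ifs with h
  · rw [← h]
    have := Int.self_le_toNat (-(C.Q i).ord f)
    omega
  · have : 0 ≤ P₀.ord f := by
      by_contra hneg
      obtain ⟨i', hi'⟩ := hf P₀ (not_le.1 hneg)
      have : i' = i := hC.inj (by show R.r (C.Q i') = R.r (C.Q i); rw [← hi', h₀])
      exact h (by rw [hi', this])
    omega

/-! ### the normalised family -/

/-- the normalised family, in terms of the expansion maps -/
structure IsBFamily (C : R.Chart g) (ι : Fin g → (F →+* LaurentSeries K))
    (b : Fin g × ℕ → F) : Prop where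
  memO : ∀ j, b j ∈ R.O
  poles : ∀ j, C.PolesAtCentres (b j)
  int : ∀ j i m, (ι i (b j)).coeff m ∈ A
  norm : ∀ j i (k : ℕ), (ι i (b j)).coeff (-((k : ℤ) + 2)) = if j = (i, k) then 1 else 0

theorem exists_bFamily (hB : StmtBFamily) (hR : R.IsPR) (hF : IsNiceCurve K F g)
    (hFk : IsNiceCurve k Fk g) (hOrth : R.Orth) (hC : C.IsChart) (hι : IsExpData C ι) :
    ∃ b : Fin g × ℕ → F, IsBFamily C ι b := by
  obtain ⟨b, h1, h2, h3⟩ := hB K F k Fk A R g hR hF hFk hOrth C hC
  exact ⟨b, ⟨h1, h2, fun j i m => (h3 j i _ (hι.expansion i (b j))).1 m,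
    fun j i k => (h3 j i _ (hι.expansion i (b j))).2 k⟩⟩

variable {b : Fin g × ℕ → F}

/-- the normalised family as Laurent series over `A` -/
noncomputable def bA (hb : IsBFamily C ι b) : Fin g × ℕ → Fin g → LaurentSeries ↥A :=
  fun j i => descend A (ι i (b j)) (hb.int j i)

theorem lmap_bA (hb : IsBFamily C ι b) (j : Fin g × ℕ) (i : Fin g) :
    lmap A.subtype (bA hb j i) = ι i (b j) :=
  lmap_descend A _ _

theorem pol_bA (hb : IsBFamily C ι b) (j : Fin g × ℕ) :
    pol (fun _ => 1) (bA hb j) = Finsupp.single j 1 := by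
  classical
  refine Finsupp.ext fun ⟨x, k⟩ => ?_
  rw [pol_apply, Finsupp.single_apply]
  apply Subtype.ext
  have h1 : (-(((1 : ℕ) : ℤ) + (k : ℤ) + 1)) = -((k : ℤ) + 2) := by push_cast; ring
  rw [h1]
  show (ι x (b j)).coeff (-((k : ℤ) + 2)) = _
  rw [hb.norm j x k]
  split_ifs <;> rfl

theorem iota_sum (hι : IsExpData C ι) (hb : IsBFamily C ι b) (ω : Fin g × ℕ →₀ A)
    (i : Fin g) :
    ι i (ω.sum fun j c => algebraMap K F (c : K) * b j)
      = lmap A.subtype (beta (bA hb) ω i) := by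
  classical
  induction ω using Finsupp.induction_linear with
  | zero => simp
  | add f f' hf hf' =>
    rw [Finsupp.sum_add_index' (by intro j; simp) (by intro j c c'; simp [add_mul]), map_add,
      hf, hf', map_add, Pi.add_apply, map_add]
  | single j c =>
    rw [Finsupp.sum_single_index (by simp), map_mul, hι.const, beta,
      Finsupp.linearCombination_single, Pi.smul_apply, lmap_smul, lmap_bA,
      HahnSeries.C_mul_eq_smul]
    rfl

theorem sum_mem_O (hR : R.IsPR) (hb : IsBFamily C ι b) (ω : Fin g × ℕ →₀ A) :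
    (ω.sum fun j c => algebraMap K F (c : K) * b j) ∈ R.O := by
  rw [Finsupp.sum]
  exact sum_mem fun j _ => mul_mem (hR.algebraMap_mem _) (hb.memO j)

theorem sum_mem_place (hb : IsBFamily C ι b) (ω : Fin g × ℕ →₀ A) (v : Place K F)
    (hv : ∀ i, v ≠ C.Q i) :
    (ω.sum fun j c => algebraMap K F (c : K) * b j) ∈ v.toValuationSubring := by
  rw [Finsupp.sum]
  refine sum_mem fun j _ => mul_mem (v.algebraMap_mem' _) ?_
  apply ge_mem_of_not_ord_neg
  intro h
  obtain ⟨i, hi⟩ := hb.poles j v h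
  exact hv i hi

/-- a function of `O` with poles only at the centres is `a₀ + Σ ω_j b_j` with `a₀, ω_j ∈ A` -/
theorem exists_decomp (hT : StmtTaylorInt) (hR : R.IsPR) (hF : IsNiceCurve K F g)
    (hFk : IsNiceCurve k Fk g) (hOrth : R.Orth) (hC : C.IsChart) (hι : IsExpData C ι)
    (hb : IsBFamily C ι b) {f : F} (hfO : f ∈ R.O) (hf : C.PolesAtCentres f) :
    ∃ (a₀ : A) (ω : Fin g × ℕ →₀ A),
      f = algebraMap K F (a₀ : K) + ω.sum fun j c => algebraMap K F (c : K) * b j := by
  classical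
  have hs : ∀ i, ∃ s : LaurentSeries ↥A, lmap A.subtype s = ι i f := by
    intro i
    obtain ⟨m, hm⟩ := exists_pow_tau_mul_mem hR hF.hpd hC i hf
    exact exists_descend_of_pow hT hR hF hFk hC hι i hfO m hm
  choose s hs using hs
  set ω : Fin g × ℕ →₀ A := pol (fun _ => 1) s with hω
  set f₀ : F := f - ω.sum (fun j c => algebraMap K F (c : K) * b j) with hf₀
  have hf₀O : f₀ ∈ R.O := sub_mem hfO (sum_mem_O hR hb ω)
  have hf₀p : C.PolesAtCentres f₀ := by
    intro v hv
    by_contra hcon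
    rw [not_exists] at hcon
    have h1 : f ∈ v.toValuationSubring := by
      apply ge_mem_of_not_ord_neg
      intro h
      obtain ⟨i, hi⟩ := hf v h
      exact hcon i hi
    have h2 := sum_mem_place hb ω v hcon
    have := ge_ord_nonneg_of_mem v (sub_mem h1 h2)
    rw [← hf₀] at this
    omega
  have hιf₀ : ∀ i, ι i f₀ = lmap A.subtype ((s - beta (bA hb) ω) i) := by
    intro i
    rw [hf₀, map_sub, iota_sum hι hb, Pi.sub_apply, map_sub, hs]
  have hpol : pol (fun _ => 1) (s - beta (bA hb) ω) = 0 := by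
    rw [map_sub, pol_beta _ _ (pol_bA hb), ← hω, sub_self]
  have hcoeff : ∀ i (k : ℕ), (ι i f₀).coeff (-((k : ℤ) + 2)) = 0 := by
    intro i k
    rw [hιf₀, coeff_lmap]
    have := DFunLike.congr_fun hpol (i, k)
    rw [pol_apply] at this
    have h1 : (-(((1 : ℕ) : ℤ) + (k : ℤ) + 1)) = -((k : ℤ) + 2) := by push_cast; ring
    rw [h1] at this
    rw [this]
    simp
  have hord : ∀ i, -1 ≤ (C.Q i).ord f₀ := by
    intro i
    rcases eq_or_ne f₀ 0 with h0 | h0
    · rw [h0, Place.ord_zero]; norm_num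
    · rw [← hι.order i f₀ h0]
      by_contra hlt
      have hne : ι i f₀ ≠ 0 := fun h => h0 ((map_eq_zero (ι i)).1 h)
      have h2 : (ι i f₀).coeff (ι i f₀).order ≠ 0 := fun h =>
        hne (HahnSeries.coeff_order_eq_zero.1 h)
      set e := (ι i f₀).order with he
      have h3 : e = -(((-e - 2).toNat : ℤ) + 2) := by
        have : 0 ≤ -e - 2 := by omega
        rw [Int.toNat_of_nonneg this]; ring
      rw [h3] at h2
      exact h2 (hcoeff i _)
  obtain ⟨a, ha⟩ := rr_chart_eq_const C hOrth hC (mem_rr_chartDiv C hf₀p hord)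
  have haA : a ∈ A := by
    rw [← hR.algebraMap_mem_iff, ← ha]
    exact hf₀O
  refine ⟨⟨a, haA⟩, ω, ?_⟩
  show f = algebraMap K F a + _
  rw [← ha, hf₀]
  ring

end Fermat.Agent.W1.Cmp
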