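import Fermat.Agent.W1.PlanGL

/-!
# W1-GL(a'): antipode and counit of a Hopf lattice are automatic

`IsHopfLattice.of_core`: for a finite group `M`, an `R`-subalgebra `H ⊂ Map(M, ℚ̄)` which is
finitely generated as a module, Galois equivariant (for a map `act` fixing `0`), separates points
and is closed under the comultiplication is a Hopf lattice: closure under the antipode
(`h (-P) = h ((n-1) • P)`, iterate the comultiplication) and integrality of `h 0`
(`h 0` is rational and integral over the integrally closed ring `R`) follow.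
-/

set_option autoImplicit false
set_option linter.unusedSectionVars false

namespace Fermat.Agent.W1

section Core

variable {R : Subring ℚ} {M : Type} [AddCommGroup M]
  {act : (AlgebraicClosure ℚ ≃ₐ[ℚ] AlgebraicClosure ℚ) → M → M}
  {H : Subalgebra R (M → AlgebraicClosure ℚ)}

/-- If `H` is stable under pull-back along `p`, it is stable under `h ↦ (P ↦ h (p P + P))`. -/
theorem core_shift_mem
    (hcomul : ∀ h ∈ H, (fun PQ : M × M => h (PQ.1 + PQ.2)) ∈
      Submodule.span R {F : M × M → AlgebraicClosure ℚ |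
        ∃ a ∈ H, ∃ b ∈ H, F = fun PQ => a PQ.1 * b PQ.2})
    (p : M → M) (hp : ∀ a ∈ H, (fun P => a (p P)) ∈ H) :
    ∀ h ∈ H, (fun P => h (p P + P)) ∈ H := by
  intro h hh
  -- the linear map `F ↦ (P ↦ F (p P, P))`
  let L : (M × M → AlgebraicClosure ℚ) →ₗ[R] (M → AlgebraicClosure ℚ) :=
    { toFun := fun F P => F (p P, P)
      map_add' := fun F G => rfl
      map_smul' := fun r F => rfl }
  have h1 : Submodule.span R {F : M × M → AlgebraicClosure ℚ |
      ∃ a ∈ H, ∃ b ∈ H, F = fun PQ => a PQ.1 * b PQ.2} ≤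
      (Subalgebra.toSubmodule H).comap L := by
    rw [Submodule.span_le]
    rintro F ⟨a, ha, b, hb, rfl⟩
    show (fun P => a (p P) * b P) ∈ H
    exact H.mul_mem (hp a ha) hb
  exact h1 (hcomul h hh)

/-- `H` is stable under pull-back along multiplication by `k + 1`. -/
theorem core_nsmul_mem
    (hcomul : ∀ h ∈ H, (fun PQ : M × M => h (PQ.1 + PQ.2)) ∈
      Submodule.span R {F : M × M → AlgebraicClosure ℚ |
        ∃ a ∈ H, ∃ b ∈ H, F = fun PQ => a PQ.1 * b PQ.2})
    (k : ℕ) : ∀ h ∈ H, (fun P : M => h ((k + 1) • P)) ∈ H := by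
  induction k with
  | zero => intro h hh; simpa using hh
  | succ k ih =>
    intro h hh
    have := core_shift_mem hcomul (fun P => (k + 1) • P) ih h hh
    convert this using 2 with P
    rw [add_smul (k + 1) 1 P, one_smul]

/-- Closure under the antipode is automatic for a finite group. -/
theorem core_antipode_mem [Finite M]
    (hcomul : ∀ h ∈ H, (fun PQ : M × M => h (PQ.1 + PQ.2)) ∈
      Submodule.span R {F : M × M → AlgebraicClosure ℚ |
        ∃ a ∈ H, ∃ b ∈ H, F = fun PQ => a PQ.1 * b PQ.2}) :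
    ∀ h ∈ H, (fun P : M => h (-P)) ∈ H := by
  intro h hh
  have hcard : 0 < Nat.card M := Nat.card_pos
  obtain ⟨k, hk⟩ : ∃ k, Nat.card M = k + 1 := ⟨Nat.card M - 1, by omega⟩
  rcases Nat.eq_zero_or_pos k with rfl | hkpos
  · -- `M` is trivial
    have hsub : Subsingleton M := (Nat.card_eq_one_iff_unique.1 (by simpa using hk)).1
    convert hh using 2 with P
    exact congrArg _ (Subsingleton.elim _ _)
  · obtain ⟨j, rfl⟩ : ∃ j, k = j + 1 := ⟨k - 1, by omega⟩
    have := core_nsmul_mem hcomul j h hh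
    convert this using 2 with P
    have h1 : (Nat.card M) • P = 0 := card_nsmul_eq_zero' (G := M) (x := P)
    rw [hk, add_smul, one_smul] at h1
    exact congrArg h (neg_eq_of_add_eq_zero_left h1)

variable [IsPrincipalIdealRing R] [IsFractionRing R ℚ]

/-- Integrality of the values at `0` is automatic. -/
theorem core_counit_mem (hfg : (Subalgebra.toSubmodule H).FG)
    (hequiv : ∀ h ∈ H, ∀ (σ : AlgebraicClosure ℚ ≃ₐ[ℚ] AlgebraicClosure ℚ) (P : M),
      h (act σ P) = σ (h P))
    (hact0 : ∀ σ, act σ 0 = 0) :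
    ∀ h ∈ H, ∃ r : R, h 0 = algebraMap R (AlgebraicClosure ℚ) r := by
  intro h hh
  have : Module.Finite R H := Module.Finite.iff_fg.2 hfg
  -- `h 0` is rational
  have hGal : IsGalois ℚ (AlgebraicClosure ℚ) := by
    have h1 : @IsGalois ℚ _ (AlgebraicClosure ℚ) _ (AlgebraicClosure.instAlgebra ℚ) :=
      inferInstance
    convert h1
    exact Subsingleton.elim _ _
  obtain ⟨q, hq⟩ : ∃ q : ℚ, algebraMap ℚ (AlgebraicClosure ℚ) q = h 0 :=
    (InfiniteGalois.mem_range_algebraMap_iff_fixed (h 0)).2 fun σ => by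
      rw [← hequiv h hh σ 0, hact0]
  -- `h 0` is integral over `R`
  have hint : IsIntegral R (⟨h, hh⟩ : H) := Algebra.IsIntegral.isIntegral _
  have hint0 : IsIntegral R (h 0) :=
    hint.map ((Pi.evalAlgHom R (fun _ : M => AlgebraicClosure ℚ) 0).comp H.val)
  rw [← hq] at hint0
  have hintq : IsIntegral R q :=
    (isIntegral_algHom_iff (IsScalarTower.toAlgHom R ℚ (AlgebraicClosure ℚ))
      (algebraMap ℚ (AlgebraicClosure ℚ)).injective).1 hint0
  obtain ⟨r, hr⟩ := IsIntegrallyClosed.isIntegral_iff.1 hintq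
  refine ⟨r, ?_⟩
  rw [← hq, ← hr, ← IsScalarTower.algebraMap_apply]

/-- **W1-GL(a')**: a finitely generated, equivariant, separating subalgebra closed under the
comultiplication is a Hopf lattice. -/
theorem IsHopfLattice.of_core [Finite M]
    (hfg : (Subalgebra.toSubmodule H).FG)
    (hequiv : ∀ h ∈ H, ∀ (σ : AlgebraicClosure ℚ ≃ₐ[ℚ] AlgebraicClosure ℚ) (P : M),
      h (act σ P) = σ (h P))
    (hsep : ∀ P Q : M, (∀ h ∈ H, h P = h Q) → P = Q)
    (hcomul : ∀ h ∈ H, (fun PQ : M × M => h (PQ.1 + PQ.2)) ∈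
      Submodule.span R {F : M × M → AlgebraicClosure ℚ |
        ∃ a ∈ H, ∃ b ∈ H, F = fun PQ => a PQ.1 * b PQ.2})
    (hact0 : ∀ σ, act σ 0 = 0) : IsHopfLattice R act H where
  fg := hfg
  equivariant := hequiv
  separates := hsep
  comul_mem := hcomul
  antipode_mem := core_antipode_mem hcomul
  counit_mem := core_counit_mem hfg hequiv hact0

end Core

end Fermat.Agent.W1
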