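import Fermat.Agent.W1.DescentLagrange
import Fermat.Agent.W1.HopfCore
import Fermat.Agent.W1.HopfOfLattice
import Fermat.Agent.W1.HopfLinAlg
import Fermat.Agent.W1.RatLocPID

/-!
# W1 ALG-A: assembly of the Galois descent

`descAssembly_of_pid`: from the three bricks P1 (Lagrange), P2 (`I → D`), P3 (`D → G`) of
`PlanDescent.lean` (and `ℤ_(p)` principal), a local Hopf lattice `Ht` over `A` gives the Hopf
lattice `H := Ht ∩ Map_G(M, ℚ̄)` over `ℤ_(p)`.

Steps (`𝓜_k := p^k · Map(M, A)`, `SH :=` the `A`-span of `H`):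
1. `p^N₀ · Map(M, A) ⊂ Ht` (P1);
2. `Ht ⊂ SH + 𝓜_k` for every `k` (inertia_span, P2, P3);
3. `𝓜_{N₀} ⊂ SH` (Nakayama), hence `Ht = SH`;
4. `H` is finitely generated over `ℤ_(p)` (a `ℚ̄`-basis of functions inside `H`, bounded
   denominators, rational coefficients), separates points;
5. `comul`: coefficients in an `ℤ_(p)`-basis of `H` are in `A ∩ ℚ = ℤ_(p)`.
-/

set_option autoImplicit false

namespace Fermat.Agent.W1

local notation "Qb" => AlgebraicClosure ℚ
local notation "GQ" => (AlgebraicClosure ℚ ≃ₐ[ℚ] AlgebraicClosure ℚ)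

section Defs

variable (A : ValuationSubring Qb) {M : Type}

theorem ltg_smul_apply (a : A) (F : M → Qb) (P : M) : (a • F) P = (a : Qb) * F P := rfl

/-- The `A`-module `p^k · Map(M, A)`. -/
def ltgBall (M : Type) (p k : ℕ) : Submodule A (M → Qb) where
  carrier := {F | ∀ P, ∃ a ∈ A, F P = (p : Qb) ^ k * a}
  zero_mem' := fun P => ⟨0, A.zero_mem, by simp⟩
  add_mem' := by
    intro F G hF hG P
    obtain ⟨a, ha, hFa⟩ := hF P
    obtain ⟨b, hb, hGb⟩ := hG P
    exact ⟨a + b, A.add_mem _ _ ha hb, by rw [Pi.add_apply, hFa, hGb]; ring⟩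
  smul_mem' := by
    intro c F hF P
    obtain ⟨a, ha, hFa⟩ := hF P
    exact ⟨c * a, A.mul_mem _ _ c.2 ha, by rw [ltg_smul_apply, hFa]; ring⟩

theorem mem_ltgBall {p k : ℕ} {F : M → Qb} :
    F ∈ ltgBall A M p k ↔ ∀ P, ∃ a ∈ A, F P = (p : Qb) ^ k * a := Iff.rfl

theorem mem_ltgBall_zero {p : ℕ} {F : M → Qb} :
    F ∈ ltgBall A M p 0 ↔ ∀ P, F P ∈ A := by
  rw [mem_ltgBall]
  refine forall_congr' fun P => ?_
  constructor
  · rintro ⟨a, ha, h⟩
    rw [h, pow_zero, one_mul]; exact ha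
  · intro h
    exact ⟨F P, h, by rw [pow_zero, one_mul]⟩

theorem ltgBall_fg [Finite M] (p : ℕ) : (ltgBall A M p 0).FG := by
  classical
  haveI := Fintype.ofFinite M
  refine ⟨Finset.univ.image fun P : M => (Pi.single P (1 : Qb) : M → Qb), ?_⟩
  apply le_antisymm
  · rw [Submodule.span_le]
    intro F hF
    simp only [Finset.coe_image, Finset.coe_univ, Set.image_univ, Set.mem_range] at hF
    obtain ⟨P, rfl⟩ := hF
    rw [SetLike.mem_coe, mem_ltgBall_zero]
    intro Q
    by_cases h : Q = P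
    · subst h; simp [A.one_mem]
    · simp [Pi.single_eq_of_ne h, A.zero_mem]
  · intro F hF
    rw [mem_ltgBall_zero] at hF
    have hsum : F = ∑ P : M, (⟨F P, hF P⟩ : A) • (Pi.single P (1 : Qb) : M → Qb) := by
      funext Q
      rw [Finset.sum_apply, Finset.sum_eq_single Q]
      · rw [ltg_smul_apply]; simp
      · intro P _ hPQ
        rw [ltg_smul_apply, Pi.single_eq_of_ne (Ne.symm hPQ), mul_zero]
      · intro h; exact absurd (Finset.mem_univ Q) h
    rw [hsum]
    refine Submodule.sum_mem _ fun P _ => Submodule.smul_mem _ _ (Submodule.subset_span ?_)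
    simp

end Defs

section Global

variable {p : ℕ} (A : ValuationSubring Qb) {M : Type}
  (act : GQ → M → M)

theorem ltg_algebraMap_apply (r : GaloisRep.ratLocalizedAt p) (P : M) :
    algebraMap (GaloisRep.ratLocalizedAt p) (M → Qb) r P = algebraMap ℚ Qb (r : ℚ) := rfl

/-- The global lattice `H = Ht ∩ Map_G(M, ℚ̄)`. -/
def ltgH (hp : p.Prime) (hA : A.LiesOverPrime p) (Ht : Subalgebra A (M → Qb)) :
    Subalgebra (GaloisRep.ratLocalizedAt p) (M → Qb) where
  carrier := {h | h ∈ Ht ∧ ∀ (σ : GQ) (P : M), h (act σ P) = σ (h P)}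
  mul_mem' := by
    rintro f g ⟨hf, hf'⟩ ⟨hg, hg'⟩
    exact ⟨Ht.mul_mem hf hg, fun σ P => by simp [hf' σ P, hg' σ P]⟩
  add_mem' := by
    rintro f g ⟨hf, hf'⟩ ⟨hg, hg'⟩
    exact ⟨Ht.add_mem hf hg, fun σ P => by simp [hf' σ P, hg' σ P]⟩
  algebraMap_mem' := by
    intro r
    refine ⟨?_, fun σ P => ?_⟩
    · exact desc_const_mem Ht ((desc_rat_mem_iff hp A hA (r : ℚ)).mpr r.2)
    · rw [ltg_algebraMap_apply, ltg_algebraMap_apply]
      exact (σ.commutes _).symm

theorem mem_ltgH (hp : p.Prime) (hA : A.LiesOverPrime p) (Ht : Subalgebra A (M → Qb))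
    {h : M → Qb} : h ∈ ltgH A act hp hA Ht ↔
      h ∈ Ht ∧ ∀ (σ : GQ) (P : M), h (act σ P) = σ (h P) := Iff.rfl

end Global

section Steps

variable {p : ℕ} {A : ValuationSubring Qb} {M : Type}

theorem ltgBall_anti (M : Type) (p : ℕ) {k k' : ℕ} (h : k ≤ k') :
    ltgBall A M p k' ≤ ltgBall A M p k := by
  intro F hF P
  obtain ⟨a, ha, hFa⟩ := hF P
  refine ⟨(p : Qb) ^ (k' - k) * a, A.mul_mem _ _ (desc_p_pow_mem A _) ha, ?_⟩
  rw [hFa, ← mul_assoc, ← pow_add, Nat.add_sub_cancel' h]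

/-- Step 1 in submodule form. -/
theorem ltgBall_le_of_lagrange {Ht : Subalgebra A (M → Qb)} {N₀ : ℕ}
    (hN₀ : ∀ F : M → Qb, (∀ P, F P ∈ A) → (fun P => (p : Qb) ^ N₀ * F P) ∈ Ht)
    {k : ℕ} (hk : N₀ ≤ k) : ltgBall A M p k ≤ Subalgebra.toSubmodule Ht := by
  intro F hF
  have hF' := ltgBall_anti (A := A) M p hk hF
  choose a ha hFa using hF'
  have := hN₀ a ha
  have heq : (fun P => (p : Qb) ^ N₀ * a P) = F := by
    funext P; exact (hFa P).symm
  rw [heq] at this
  exact this

variable [AddCommGroup M] [Finite M] {act : GQ → M → M}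

/-- Step 2: `Ht ⊂ A·H + p^k · Map(M, A)`. -/
theorem ltg_step2 (hp : p.Prime) (hA : A.LiesOverPrime p) (hact : IsContAction act)
    {Ht : Subalgebra A (M → Qb)} (hloc : IsLocalHopfLattice A act Ht)
    (hP1 : DescLagrangeStatement) (hP2 : DescInertiaStatement) (hP3 : DescApproxStatement)
    (k : ℕ) :
    Subalgebra.toSubmodule Ht ≤
      Submodule.span A (ltgH A act hp hA Ht : Set (M → Qb)) ⊔ ltgBall A M p k := by
  obtain ⟨N₀, hN₀⟩ := hP1 p hp A hA M inferInstance Ht hloc.integral hloc.separates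
  intro h hh
  refine Submodule.span_le.mpr ?_ (hloc.inertia_span h hh)
  rintro f ⟨hf, hfI⟩
  have h2 := hP2 p hp A hA M inferInstance inferInstance act hact Ht hloc.decomp_stable f hf hfI
  refine Submodule.span_le.mpr ?_ h2
  rintro g ⟨hg, hgD⟩
  obtain ⟨h', hh'G, hh'⟩ := hP3 p hp A hA M inferInstance inferInstance act hact g
    (hloc.integral g hg) hgD (max k N₀)
  have hdiff : h' - g ∈ ltgBall A M p (max k N₀) := fun P => by
    obtain ⟨a, ha, hPa⟩ := hh' P
    exact ⟨a, ha, by rw [Pi.sub_apply, hPa]⟩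
  have hh'Ht : h' ∈ Ht := by
    have h1 : h' - g ∈ Subalgebra.toSubmodule Ht :=
      ltgBall_le_of_lagrange hN₀ (le_max_right k N₀) hdiff
    have h3 : h' = g + (h' - g) := by abel
    rw [h3]
    exact Ht.add_mem hg h1
  have hh'H : h' ∈ ltgH A act hp hA Ht := ⟨hh'Ht, hh'G⟩
  have h4 : g = h' - (h' - g) := by abel
  rw [SetLike.mem_coe, h4]
  exact Submodule.sub_mem _ (Submodule.mem_sup_left (Submodule.subset_span hh'H))
    (Submodule.mem_sup_right (ltgBall_anti M p (le_max_left k N₀) hdiff))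

/-- `p` as an element of `A`. -/
noncomputable def ltgP (A : ValuationSubring Qb) (p : ℕ) : A := ⟨(p : Qb), desc_natCast_mem A p⟩

theorem ltgP_mem_jacobson (hA : A.LiesOverPrime p) :
    Ideal.span {ltgP A p} ≤ Ideal.jacobson (⊥ : Ideal A) := by
  rw [IsLocalRing.jacobson_eq_maximalIdeal ⊥ bot_ne_top, Ideal.span_le,
    Set.singleton_subset_iff, SetLike.mem_coe]
  obtain ⟨h1, h2⟩ := (ValuationSubring.mem_nonunits_iff_exists_mem_maximalIdeal).mp hA
  exact h2

/-- Step 3 (Nakayama): `p^N₀ · Map(M, A) ⊂ A·H`. -/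
theorem ltg_step3 (hp : p.Prime) (hA : A.LiesOverPrime p) (hact : IsContAction act)
    {Ht : Subalgebra A (M → Qb)} (hloc : IsLocalHopfLattice A act Ht)
    (hP1 : DescLagrangeStatement) (hP2 : DescInertiaStatement) (hP3 : DescApproxStatement) :
    ∃ N₀ : ℕ, ltgBall A M p N₀ ≤ Submodule.span A (ltgH A act hp hA Ht : Set (M → Qb)) := by
  obtain ⟨N₀, hN₀⟩ := hP1 p hp A hA M inferInstance Ht hloc.integral hloc.separates
  refine ⟨N₀, ?_⟩
  set SH := Submodule.span A (ltgH A act hp hA Ht : Set (M → Qb)) with hSH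
  set c : A := ltgP A p ^ N₀ with hc
  have hcF : ∀ (F : M → Qb) (P : M), (c • F) P = (p : Qb) ^ N₀ * F P := fun F P => by
    rw [ltg_smul_apply, hc]; rfl
  -- the submodule `𝓝 = {F | p^N₀ F ∈ SH}`
  set 𝓝 : Submodule A (M → Qb) := SH.comap (c • (LinearMap.id : (M → Qb) →ₗ[A] (M → Qb)))
    with h𝓝
  have hmem𝓝 : ∀ F, F ∈ 𝓝 ↔ c • F ∈ SH := fun F => Iff.rfl
  have key : ltgBall A M p 0 ≤ 𝓝 ⊔ Ideal.span {ltgP A p} • ltgBall A M p 0 := by
    intro F hF
    have hF0 := (mem_ltgBall_zero A).mp hF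
    have h1 : c • F ∈ Subalgebra.toSubmodule Ht := hN₀ F hF0
    have h2 := ltg_step2 hp hA hact hloc hP1 hP2 hP3 (N₀ + 1) h1
    obtain ⟨x, hx, y, hy, hxy⟩ := Submodule.mem_sup.mp h2
    choose a ha hya using hy
    -- `y = c • (p • a)`
    have ha0 : a ∈ ltgBall A M p 0 := (mem_ltgBall_zero A).mpr ha
    have hF' : F - ltgP A p • a ∈ 𝓝 := by
      rw [hmem𝓝]
      have : c • (F - ltgP A p • a) = x := by
        funext P
        have h3 := congrFun hxy P
        rw [Pi.add_apply, hcF, hya P] at h3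
        rw [hcF, Pi.sub_apply, ltg_smul_apply]
        have h4 : ((ltgP A p : A) : Qb) = (p : Qb) := rfl
        rw [h4]
        have h5 : x P = (p : Qb) ^ N₀ * F P - (p : Qb) ^ (N₀ + 1) * a P := by
          rw [← h3]; ring
        rw [h5]; ring
      rw [this]; exact hx
    have h6 : F = (F - ltgP A p • a) + ltgP A p • a := by abel
    rw [h6]
    exact Submodule.add_mem _ (Submodule.mem_sup_left hF')
      (Submodule.mem_sup_right
        (Submodule.smul_mem_smul (Ideal.subset_span (Set.mem_singleton _)) ha0))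
  have hle : ltgBall A M p 0 ≤ 𝓝 :=
    Submodule.le_of_le_smul_of_le_jacobson_bot (ltgBall_fg A p) (ltgP_mem_jacobson hA) key
  intro F hF
  choose a ha hFa using hF
  have ha0 : a ∈ 𝓝 := hle ((mem_ltgBall_zero A).mpr ha)
  rw [hmem𝓝] at ha0
  have : c • a = F := by
    funext P
    rw [hcF, hFa P]
  rw [← this]
  exact ha0

/-- Step 4: `Ht` is the `A`-span of `H`. -/
theorem ltg_step4 (hp : p.Prime) (hA : A.LiesOverPrime p) (hact : IsContAction act)
    {Ht : Subalgebra A (M → Qb)} (hloc : IsLocalHopfLattice A act Ht)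
    (hP1 : DescLagrangeStatement) (hP2 : DescInertiaStatement) (hP3 : DescApproxStatement) :
    Submodule.span A (ltgH A act hp hA Ht : Set (M → Qb)) = Subalgebra.toSubmodule Ht := by
  apply le_antisymm
  · rw [Submodule.span_le]
    intro h hh
    exact hh.1
  · obtain ⟨N₀, hN₀⟩ := ltg_step3 hp hA hact hloc hP1 hP2 hP3
    exact (ltg_step2 hp hA hact hloc hP1 hP2 hP3 N₀).trans (sup_le le_rfl hN₀)

theorem ltg_act_inv (hact : IsContAction act) (σ : GQ) (P : M) :
    act σ (act σ⁻¹ P) = P := by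
  rw [← hact.mul, mul_inv_cancel, hact.one]

theorem ltg_act_zero (hact : IsContAction act) (σ : GQ) : act σ 0 = 0 := by
  have h := hact.add σ 0 0
  rw [add_zero] at h
  exact left_eq_add.mp h

/-- Step 5: `H` separates the points. -/
theorem ltg_separates (hp : p.Prime) (hA : A.LiesOverPrime p) (hact : IsContAction act)
    {Ht : Subalgebra A (M → Qb)} (hloc : IsLocalHopfLattice A act Ht)
    (hP1 : DescLagrangeStatement) (hP2 : DescInertiaStatement) (hP3 : DescApproxStatement)
    (P Q : M) (h : ∀ f ∈ ltgH A act hp hA Ht, f P = f Q) : P = Q := by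
  refine hloc.separates P Q fun f hf => ?_
  have hf' : f ∈ Submodule.span A (ltgH A act hp hA Ht : Set (M → Qb)) := by
    rw [ltg_step4 hp hA hact hloc hP1 hP2 hP3]; exact hf
  let L : (M → Qb) →ₗ[A] Qb :=
    (LinearMap.proj P : (M → Qb) →ₗ[A] Qb) - (LinearMap.proj Q : (M → Qb) →ₗ[A] Qb)
  have hker : Submodule.span A (ltgH A act hp hA Ht : Set (M → Qb)) ≤ LinearMap.ker L := by
    rw [Submodule.span_le]
    intro g hg
    rw [SetLike.mem_coe, LinearMap.mem_ker]
    show g P - g Q = 0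
    rw [h g hg, sub_self]
  have := hker hf'
  rw [LinearMap.mem_ker] at this
  exact sub_eq_zero.mp this

/-- Rationality of the coefficients of an equivariant function in an equivariant family which is
linearly independent over `ℚ̄`. -/
theorem ltg_coeff_rat {X κ : Type} [Fintype κ] (actX : GQ → X → X)
    (hinv : ∀ σ x, actX σ (actX σ⁻¹ x) = x) (e : κ → X → Qb)
    (he : ∀ k σ x, e k (actX σ x) = σ (e k x)) (hli : LinearIndependent Qb e)
    (c : κ → Qb) (F : X → Qb) (hF : ∀ σ x, F (actX σ x) = σ (F x))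
    (hsum : F = ∑ k, c k • e k) (k : κ) : ∃ q : ℚ, algebraMap ℚ Qb q = c k := by
  apply w1_exists_rat_of_fixed
  intro σ
  have hFx : ∀ x, F x = ∑ k, c k * e k x := fun x => by
    rw [hsum]; simp [Finset.sum_apply]
  have h1 : ∑ k, (σ (c k) - c k) • e k = 0 := by
    funext x
    have hx : F x = ∑ k, σ (c k) * e k x := by
      calc F x = F (actX σ (actX σ⁻¹ x)) := by rw [hinv]
        _ = σ (F (actX σ⁻¹ x)) := hF _ _
        _ = ∑ k, σ (c k) * σ (e k (actX σ⁻¹ x)) := by rw [hFx]; simp [map_sum]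
        _ = ∑ k, σ (c k) * e k x := by
            refine Finset.sum_congr rfl fun k _ => ?_
            rw [← he, hinv]
    simp only [Finset.sum_apply, Pi.smul_apply, smul_eq_mul, sub_mul, Finset.sum_sub_distrib,
      Pi.zero_apply]
    rw [← hx, ← hFx, sub_self]
  have := Fintype.linearIndependent_iff.mp hli _ h1 k
  exact sub_eq_zero.mp this

/-- Bounded denominators for a finite family. -/
theorem ltg_arch_family (hp : p.Prime) (hA : A.LiesOverPrime p) {ι : Type} [Finite ι]
    (c : ι → Qb) : ∃ N : ℕ, ∀ i, (p : Qb) ^ N * c i ∈ A := by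
  classical
  haveI := Fintype.ofFinite ι
  have h1 : ∀ i, ∃ N : ℕ, (p : Qb) ^ N * c i ∈ A := by
    intro i
    by_cases hc : c i = 0
    · exact ⟨0, by rw [hc, mul_zero]; exact A.zero_mem⟩
    · obtain ⟨N, a, ha, hNa⟩ := desc_arch hp A hA (inv_ne_zero hc)
      refine ⟨N, ?_⟩
      rw [hNa, mul_assoc, mul_comm a, ← mul_assoc, inv_mul_cancel₀ hc, one_mul]
      exact ha
  choose Nf hNf using h1
  refine ⟨Finset.univ.sup Nf, fun i => ?_⟩
  have hle : Nf i ≤ Finset.univ.sup Nf := Finset.le_sup (Finset.mem_univ i)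
  have : (p : Qb) ^ Finset.univ.sup Nf * c i =
      (p : Qb) ^ (Finset.univ.sup Nf - Nf i) * ((p : Qb) ^ Nf i * c i) := by
    rw [← mul_assoc, ← pow_add, Nat.sub_add_cancel hle]
  rw [this]
  exact A.mul_mem _ _ (desc_p_pow_mem A _) (hNf i)

/-- The `ℚ̄`-span of `H` is everything. -/
theorem ltg_span_top (hp : p.Prime) (hA : A.LiesOverPrime p) (hact : IsContAction act)
    {Ht : Subalgebra A (M → Qb)} (hloc : IsLocalHopfLattice A act Ht)
    (hP1 : DescLagrangeStatement) (hP2 : DescInertiaStatement) (hP3 : DescApproxStatement) :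
    Submodule.span Qb (ltgH A act hp hA Ht : Set (M → Qb)) = ⊤ := by
  classical
  haveI := Fintype.ofFinite M
  obtain ⟨N₀, hN₀⟩ := ltg_step3 hp hA hact hloc hP1 hP2 hP3
  rw [eq_top_iff]
  intro F _
  have hp0 : (p : Qb) ^ N₀ ≠ 0 := pow_ne_zero _ (Nat.cast_ne_zero.mpr hp.ne_zero)
  have hδ : ∀ P : M, (fun Q => (p : Qb) ^ N₀ * (Pi.single P (1 : Qb) : M → Qb) Q) ∈
      Submodule.span Qb (ltgH A act hp hA Ht : Set (M → Qb)) := by
    intro P
    have h1 : (fun Q => (p : Qb) ^ N₀ * (Pi.single P (1 : Qb) : M → Qb) Q) ∈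
        ltgBall A M p N₀ := fun Q => ⟨(Pi.single P (1 : Qb) : M → Qb) Q, by
          by_cases h : Q = P
          · subst h; simp [A.one_mem]
          · simp [Pi.single_eq_of_ne h, A.zero_mem], rfl⟩
    exact Submodule.span_le_restrictScalars A Qb _ (hN₀ h1)
  have hF : F = ∑ P : M, (F P / (p : Qb) ^ N₀) •
      (fun Q => (p : Qb) ^ N₀ * (Pi.single P (1 : Qb) : M → Qb) Q) := by
    funext Q
    rw [Finset.sum_apply, Finset.sum_eq_single Q]
    · simp only [Pi.smul_apply, Pi.single_eq_same, mul_one, smul_eq_mul]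
      field_simp
    · intro P _ hPQ
      simp [Pi.single_eq_of_ne (Ne.symm hPQ)]
    · intro h; exact absurd (Finset.mem_univ Q) h
  rw [hF]
  exact Submodule.sum_mem _ fun P _ => Submodule.smul_mem _ _ (hδ P)

theorem ltg_R_smul_apply (r : GaloisRep.ratLocalizedAt p) (F : M → Qb) (P : M) :
    (r • F) P = algebraMap ℚ Qb (r : ℚ) * F P := by
  rw [Pi.smul_apply, Algebra.smul_def]
  rfl

/-- Step 6: `H` is a finitely generated `ℤ_(p)`-module. -/
theorem ltg_fg (hp : p.Prime) (hA : A.LiesOverPrime p) (hact : IsContAction act)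
    [IsNoetherianRing (GaloisRep.ratLocalizedAt p)]
    {Ht : Subalgebra A (M → Qb)} (hloc : IsLocalHopfLattice A act Ht)
    (hP1 : DescLagrangeStatement) (hP2 : DescInertiaStatement) (hP3 : DescApproxStatement) :
    (Subalgebra.toSubmodule (ltgH A act hp hA Ht)).FG := by
  classical
  haveI := Fintype.ofFinite M
  have hspan := ltg_span_top hp hA hact hloc hP1 hP2 hP3
  obtain ⟨b, hbH, hbspan, hbli⟩ :=
    exists_linearIndependent Qb (ltgH A act hp hA Ht : Set (M → Qb))
  haveI : Finite b := hbli.finite_of_isNoetherian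
  haveI := Fintype.ofFinite b
  let B : Module.Basis b Qb (M → Qb) :=
    Module.Basis.mk hbli (by rw [Subtype.range_coe, hbspan, hspan])
  have hB : ∀ i : b, B i = (i : M → Qb) := fun i => by simp [B]
  -- bounded denominators
  obtain ⟨N₁, hN₁⟩ := ltg_arch_family (A := A) hp hA
    (fun x : M × b => B.repr (Pi.single x.1 (1 : Qb)) x.2)
  have hp0 : (p : Qb) ^ N₁ ≠ 0 := pow_ne_zero _ (Nat.cast_ne_zero.mpr hp.ne_zero)
  refine Submodule.FG.of_le (Submodule.fg_span
    (Set.finite_range fun i : b => (((p : Qb) ^ N₁)⁻¹ • (i : M → Qb)))) ?_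
  intro h hh
  have hhH : h ∈ ltgH A act hp hA Ht := hh
  have hsum : h = ∑ i, B.repr h i • (i : M → Qb) := by
    have := B.sum_repr h
    simp only [hB] at this
    exact this.symm
  have hrat : ∀ i, ∃ q : ℚ, algebraMap ℚ Qb q = B.repr h i :=
    ltg_coeff_rat act (ltg_act_inv hact) (fun i : b => (i : M → Qb))
      (fun i σ x => (hbH i.2).2 σ x) hbli _ h hhH.2 hsum
  have hint : ∀ i, (p : Qb) ^ N₁ * B.repr h i ∈ A := by
    intro i
    have hh' : h = ∑ P : M, h P • (Pi.single P (1 : Qb) : M → Qb) := by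
      funext Q
      rw [Finset.sum_apply, Finset.sum_eq_single Q]
      · simp
      · intro P _ hPQ
        simp [Pi.single_eq_of_ne (Ne.symm hPQ)]
      · intro h'; exact absurd (Finset.mem_univ Q) h'
    have h1 : B.repr h i = ∑ P : M, h P * B.repr (Pi.single P (1 : Qb)) i := by
      conv_lhs => rw [hh']
      rw [map_sum, Finsupp.coe_finset_sum, Finset.sum_apply]
      refine Finset.sum_congr rfl fun P _ => ?_
      rw [map_smul, Finsupp.smul_apply, smul_eq_mul]
    rw [h1, Finset.mul_sum]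
    refine Subring.sum_mem A.toSubring fun P _ => ?_
    have h2 : (p : Qb) ^ N₁ * (h P * B.repr (Pi.single P (1 : Qb)) i) =
        h P * ((p : Qb) ^ N₁ * B.repr (Pi.single P (1 : Qb)) i) := by ring
    rw [h2]
    exact A.mul_mem _ _ (hloc.integral h hhH.1 P) (hN₁ (P, i))
  -- the coefficients in `ℤ_(p)`
  have hR : ∀ i, ∃ r : GaloisRep.ratLocalizedAt p,
      algebraMap ℚ Qb (r : ℚ) = (p : Qb) ^ N₁ * B.repr h i := by
    intro i
    obtain ⟨q, hq⟩ := hrat i
    have hmem : algebraMap ℚ Qb ((p : ℚ) ^ N₁ * q) ∈ A := by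
      rw [map_mul, map_pow, map_natCast, hq]; exact hint i
    exact ⟨⟨(p : ℚ) ^ N₁ * q, (desc_rat_mem_iff hp A hA _).mp hmem⟩, by
      rw [map_mul, map_pow, map_natCast, hq]⟩
  choose r hr using hR
  have hfinal : h = ∑ i, r i • (((p : Qb) ^ N₁)⁻¹ • (i : M → Qb)) := by
    conv_lhs => rw [hsum]
    refine Finset.sum_congr rfl fun i _ => ?_
    funext P
    rw [ltg_R_smul_apply, hr i]
    simp only [Pi.smul_apply, smul_eq_mul]
    field_simp
  rw [hfinal]
  exact Submodule.sum_mem _ fun i _ =>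
    Submodule.smul_mem _ _ (Submodule.subset_span (Set.mem_range_self i))

theorem ltg_R_smul_apply' {X : Type} (r : GaloisRep.ratLocalizedAt p) (F : X → Qb) (x : X) :
    (r • F) x = algebraMap ℚ Qb (r : ℚ) * F x := by
  rw [Pi.smul_apply, Algebra.smul_def]
  rfl

theorem ltg_A_smul_apply' {X : Type} (a : A) (F : X → Qb) (x : X) :
    (a • F) x = (a : Qb) * F x := rfl

/-- Step 7: `H` is closed under the comultiplication, with coefficients in `ℤ_(p)`. -/
theorem ltg_comul (hp : p.Prime) (hA : A.LiesOverPrime p) (hact : IsContAction act)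
    [IsPrincipalIdealRing (GaloisRep.ratLocalizedAt p)]
    [IsFractionRing (GaloisRep.ratLocalizedAt p) ℚ]
    {Ht : Subalgebra A (M → Qb)} (hloc : IsLocalHopfLattice A act Ht)
    (hP1 : DescLagrangeStatement) (hP2 : DescInertiaStatement) (hP3 : DescApproxStatement)
    (h : M → Qb) (hh : h ∈ ltgH A act hp hA Ht) :
    (fun PQ : M × M => h (PQ.1 + PQ.2)) ∈
      Submodule.span (GaloisRep.ratLocalizedAt p) {F : M × M → Qb |
        ∃ a ∈ ltgH A act hp hA Ht, ∃ b ∈ ltgH A act hp hA Ht,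
          F = fun PQ => a PQ.1 * b PQ.2} := by
  classical
  set R := GaloisRep.ratLocalizedAt p with hRdef
  set H := ltgH A act hp hA Ht with hHdef
  have hfg := ltg_fg hp hA hact hloc hP1 hP2 hP3
  haveI : Module.Finite R H := Module.Finite.iff_fg.2 hfg
  haveI : Module.IsTorsionFree R H := isTorsionFree_lattice H
  haveI : Module.Free R H := Module.free_of_finite_type_torsion_free'
  set β := Module.finBasis R H with hβ
  set n := Module.finrank R H with hn
  set βf : Fin n → M → Qb := fun i => ((β i : H) : M → Qb) with hβf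
  have hβH : ∀ i, βf i ∈ H := fun i => (β i).2
  have hliR : LinearIndependent R βf := by
    have := β.linearIndependent.map' (Subalgebra.toSubmodule H).subtype
      (Submodule.ker_subtype _)
    exact this
  have hliQ : LinearIndependent ℚ βf := (LinearIndependent.iff_fractionRing R ℚ).1 hliR
  have hli : LinearIndependent Qb βf :=
    linearIndependent_qbar_of_rat act _ (fun i σ x => (hβH i).2 σ x) hliQ
  -- `Ht` is the `A`-span of the `βf i`
  have hspanR : Submodule.span R (Set.range βf) = Subalgebra.toSubmodule H := by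
    have h1 := β.span_eq
    have h2 := congrArg (Submodule.map (Subalgebra.toSubmodule H).subtype) h1
    rw [Submodule.map_span, Submodule.map_top, Submodule.range_subtype, ← Set.range_comp] at h2
    exact h2
  have hHt : ∀ a ∈ Ht, ∃ c : Fin n → A, a = ∑ i, c i • βf i := by
    intro a ha
    have h1 : a ∈ Submodule.span A (H : Set (M → Qb)) := by
      rw [ltg_step4 hp hA hact hloc hP1 hP2 hP3]; exact ha
    have h2 : Submodule.span A (H : Set (M → Qb)) ≤ Submodule.span A (Set.range βf) := by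
      rw [Submodule.span_le]
      intro f hf
      have hf' : f ∈ Submodule.span R (Set.range βf) := by rw [hspanR]; exact hf
      obtain ⟨c, hc⟩ := (Submodule.mem_span_range_iff_exists_fun R).mp hf'
      rw [SetLike.mem_coe, ← hc]
      refine Submodule.sum_mem _ fun i _ => ?_
      have hci : algebraMap ℚ Qb ((c i : R) : ℚ) ∈ A :=
        (desc_rat_mem_iff hp A hA _).mpr (c i).2
      have : c i • βf i = (⟨_, hci⟩ : A) • βf i := by
        funext P
        rw [ltg_R_smul_apply', ltg_A_smul_apply']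
      rw [this]
      exact Submodule.smul_mem _ _ (Submodule.subset_span (Set.mem_range_self i))
    obtain ⟨c, hc⟩ := (Submodule.mem_span_range_iff_exists_fun A).mp (h2 h1)
    exact ⟨c, hc.symm⟩
  -- the products
  set e : Fin n × Fin n → M × M → Qb := fun ij PQ => βf ij.1 PQ.1 * βf ij.2 PQ.2 with he
  have heli : LinearIndependent Qb e := linearIndependent_prod_fun βf βf hli hli
  have hΔ : (fun PQ : M × M => h (PQ.1 + PQ.2)) ∈ Submodule.span A (Set.range e) := by
    refine Submodule.span_le.mpr ?_ (hloc.comul_mem h hh.1)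
    rintro F ⟨a, ha, b, hb, rfl⟩
    obtain ⟨ca, hca⟩ := hHt a ha
    obtain ⟨cb, hcb⟩ := hHt b hb
    have : (fun PQ : M × M => a PQ.1 * b PQ.2) =
        ∑ ij : Fin n × Fin n, (ca ij.1 * cb ij.2) • e ij := by
      funext PQ
      rw [hca, hcb, Finset.sum_apply, Finset.sum_apply, Finset.sum_mul_sum,
        Finset.sum_apply, ← Finset.sum_product']
      refine Finset.sum_congr rfl fun ij _ => ?_
      simp only [ltg_A_smul_apply', he]
      push_cast
      ring
    rw [SetLike.mem_coe, this]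
    exact Submodule.sum_mem _ fun ij _ =>
      Submodule.smul_mem _ _ (Submodule.subset_span (Set.mem_range_self ij))
  obtain ⟨c, hc⟩ := (Submodule.mem_span_range_iff_exists_fun A).mp hΔ
  -- rationality
  have hsum : (fun PQ : M × M => h (PQ.1 + PQ.2)) = ∑ ij, ((c ij : A) : Qb) • e ij := by
    rw [← hc]
    refine Finset.sum_congr rfl fun ij _ => ?_
    funext PQ
    rw [ltg_A_smul_apply']
    rfl
  have hrat : ∀ ij, ∃ q : ℚ, algebraMap ℚ Qb q = ((c ij : A) : Qb) :=
    ltg_coeff_rat (fun σ (PQ : M × M) => (act σ PQ.1, act σ PQ.2))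
      (fun σ PQ => by
        show (act σ (act σ⁻¹ PQ.1), act σ (act σ⁻¹ PQ.2)) = PQ
        rw [ltg_act_inv hact, ltg_act_inv hact])
      e (fun ij σ PQ => by
        show βf ij.1 (act σ PQ.1) * βf ij.2 (act σ PQ.2) = σ (βf ij.1 PQ.1 * βf ij.2 PQ.2)
        rw [(hβH ij.1).2, (hβH ij.2).2, map_mul])
      heli _ _ (fun σ PQ => by
        show h (act σ PQ.1 + act σ PQ.2) = σ (h (PQ.1 + PQ.2))
        rw [← hact.add, hh.2]) hsum
  have hR : ∀ ij, ∃ r : R, algebraMap ℚ Qb (r : ℚ) = ((c ij : A) : Qb) := by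
    intro ij
    obtain ⟨q, hq⟩ := hrat ij
    exact ⟨⟨q, (desc_rat_mem_iff hp A hA q).mp (by rw [hq]; exact (c ij).2)⟩, hq⟩
  choose r hr using hR
  have hfinal : (fun PQ : M × M => h (PQ.1 + PQ.2)) = ∑ ij, r ij • e ij := by
    rw [hsum]
    refine Finset.sum_congr rfl fun ij _ => ?_
    funext PQ
    rw [ltg_R_smul_apply', hr ij]
    rfl
  rw [hfinal]
  exact Submodule.sum_mem _ fun ij _ => Submodule.smul_mem _ _
    (Submodule.subset_span ⟨βf ij.1, hβH ij.1, βf ij.2, hβH ij.2, rfl⟩)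

end Steps

/-- **ALG-A, assembly**: P1 + P2 + P3 ⇒ `LocalToGlobalStatement`. -/
theorem descAssembly : DescAssemblyStatement := by
  intro hP1 hP2 hP3 p hp A hA M _ _ act hact Ht hloc
  haveI : Fact p.Prime := ⟨hp⟩
  exact ⟨ltgH A act hp hA Ht, IsHopfLattice.of_core
    (ltg_fg hp hA hact hloc hP1 hP2 hP3) (fun h hh => hh.2)
    (ltg_separates hp hA hact hloc hP1 hP2 hP3)
    (ltg_comul hp hA hact hloc hP1 hP2 hP3) (ltg_act_zero hact)⟩

end Fermat.Agent.W1
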