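import Mathlib

/-!
# W1-RHF, abstract core (helper94)

"A linear map which is congruent to a linear equivalence modulo a nilpotent ideal is bijective",
and its consequence: the abstract Riemann–Hilbert factorisation.

Everything is stated for the `𝔞`-adic filtration `𝔞 ^ k • ⊤` of a module.
-/

namespace Fermat.Agent.W1.RHF

open Submodule

variable {A : Type*} [CommRing A] {M L : Type*} [AddCommGroup M] [Module A M]
  [AddCommGroup L] [Module A L]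

/-- A linear map sends `𝔟 • ⊤` into `𝔟 • ⊤`. -/
theorem map_mem_smul_top (𝔟 : Ideal A) (f : M →ₗ[A] L) {m : M}
    (hm : m ∈ 𝔟 • (⊤ : Submodule A M)) : f m ∈ 𝔟 • (⊤ : Submodule A L) := by
  have h1 : f m ∈ Submodule.map f (𝔟 • (⊤ : Submodule A M)) := Submodule.mem_map_of_mem hm
  rw [Submodule.map_smul''] at h1
  exact Submodule.smul_mono le_rfl le_top h1

/-- A linear map with image in `𝔞 • ⊤` sends `𝔟 • ⊤` into `(𝔟 * 𝔞) • ⊤`. -/
theorem map_mem_mul_smul_top (𝔞 𝔟 : Ideal A) (f : M →ₗ[A] L)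
    (hf : ∀ m, f m ∈ 𝔞 • (⊤ : Submodule A L)) {m : M}
    (hm : m ∈ 𝔟 • (⊤ : Submodule A M)) : f m ∈ (𝔟 * 𝔞) • (⊤ : Submodule A L) := by
  have h1 : f m ∈ Submodule.map f (𝔟 • (⊤ : Submodule A M)) := Submodule.mem_map_of_mem hm
  rw [Submodule.map_smul''] at h1
  have h2 : Submodule.map f (⊤ : Submodule A M) ≤ 𝔞 • (⊤ : Submodule A L) := by
    rintro _ ⟨x, -, rfl⟩
    exact hf x
  have h3 := Submodule.smul_mono (le_refl 𝔟) h2 h1
  rwa [← Submodule.mul_smul] at h3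

/-- An endomorphism with image in `𝔞 • ⊤` has `k`-th power with image in `𝔞 ^ k • ⊤`. -/
theorem pow_apply_mem_pow_smul_top (𝔞 : Ideal A) (N : Module.End A M)
    (hN : ∀ m, N m ∈ 𝔞 • (⊤ : Submodule A M)) (k : ℕ) (m : M) :
    (N ^ k) m ∈ 𝔞 ^ k • (⊤ : Submodule A M) := by
  induction k generalizing m with
  | zero => simp
  | succ k ih =>
    have h1 : (N ^ (k + 1)) m = N ((N ^ k) m) := by
      rw [pow_succ', Module.End.mul_apply]
    rw [h1, pow_succ]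
    exact map_mem_mul_smul_top 𝔞 (𝔞 ^ k) N hN (ih m)

/-- An endomorphism with image in `𝔞 • ⊤`, `𝔞` nilpotent, is nilpotent. -/
theorem isNilpotent_of_forall_mem (𝔞 : Ideal A) (h𝔞 : IsNilpotent 𝔞) (N : Module.End A M)
    (hN : ∀ m, N m ∈ 𝔞 • (⊤ : Submodule A M)) : IsNilpotent N := by
  obtain ⟨s, hs⟩ := h𝔞
  refine ⟨s, ?_⟩
  ext m
  have := pow_apply_mem_pow_smul_top 𝔞 N hN s m
  rw [hs] at this
  simpa using this

/-- **Perturbation lemma.** A linear map congruent to a linear equivalence modulo a nilpotent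
ideal is bijective. -/
theorem bijective_of_sub_mem (𝔞 : Ideal A) (h𝔞 : IsNilpotent 𝔞) (Ψ₀ : M ≃ₗ[A] L)
    (Ψ : M →ₗ[A] L) (h : ∀ m, Ψ m - Ψ₀ m ∈ 𝔞 • (⊤ : Submodule A L)) :
    Function.Bijective Ψ := by
  set N : Module.End A M := Ψ₀.symm.toLinearMap ∘ₗ (Ψ - Ψ₀.toLinearMap) with hNdef
  have hN : ∀ m, N m ∈ 𝔞 • (⊤ : Submodule A M) := by
    intro m
    have : (Ψ - Ψ₀.toLinearMap) m ∈ 𝔞 • (⊤ : Submodule A L) := by
      simpa using h m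
    exact map_mem_smul_top 𝔞 Ψ₀.symm.toLinearMap this
  have hnil : IsNilpotent N := isNilpotent_of_forall_mem 𝔞 h𝔞 N hN
  have hunit : IsUnit (1 + N) := hnil.isUnit_one_add
  have hbij : Function.Bijective ⇑(1 + N) := (Module.End.isUnit_iff _).1 hunit
  have hΨ : (Ψ : M → L) = ⇑Ψ₀ ∘ ⇑(1 + N) := by
    funext m
    simp [hNdef]
  rw [hΨ]
  exact Ψ₀.bijective.comp hbij

/-- In the situation of `bijective_of_sub_mem`, preimages are congruent modulo `𝔞`. -/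
theorem preimage_sub_mem (𝔞 : Ideal A) (Ψ₀ : M ≃ₗ[A] L)
    (Ψ : M →ₗ[A] L) (h : ∀ m, Ψ m - Ψ₀ m ∈ 𝔞 • (⊤ : Submodule A L)) (m : M) :
    m - Ψ₀.symm (Ψ m) ∈ 𝔞 • (⊤ : Submodule A M) := by
  have h1 : Ψ₀.symm.toLinearMap (Ψ m - Ψ₀ m) ∈ 𝔞 • (⊤ : Submodule A M) :=
    map_mem_smul_top 𝔞 Ψ₀.symm.toLinearMap (h m)
  have h2 : Ψ₀.symm.toLinearMap (Ψ m - Ψ₀ m) = Ψ₀.symm (Ψ m) - m := by simp
  rw [h2] at h1
  have := Submodule.neg_mem _ h1
  simpa using this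

/-- More generally: if `Ψ m - Ψ₀ m' ∈ 𝔟 • ⊤` hmm -/
theorem sub_mem_of_apply_sub_mem (𝔞 𝔟 : Ideal A) (h𝔞 : IsNilpotent 𝔞) (Ψ₀ : M ≃ₗ[A] L)
    (Ψ : M →ₗ[A] L) (h : ∀ m, Ψ m - Ψ₀ m ∈ 𝔞 • (⊤ : Submodule A L)) (m : M)
    (hm : Ψ m ∈ 𝔟 • (⊤ : Submodule A L)) : m ∈ 𝔟 • (⊤ : Submodule A M) := by
  -- `m = (1 + N)⁻¹ (Ψ₀⁻¹ (Ψ m))` and `(1+N)⁻¹` is a polynomial in `N`
  set N : Module.End A M := Ψ₀.symm.toLinearMap ∘ₗ (Ψ - Ψ₀.toLinearMap) with hNdef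
  have hN : ∀ m, N m ∈ 𝔞 • (⊤ : Submodule A M) := by
    intro m
    have : (Ψ - Ψ₀.toLinearMap) m ∈ 𝔞 • (⊤ : Submodule A L) := by
      simpa using h m
    exact map_mem_smul_top 𝔞 Ψ₀.symm.toLinearMap this
  have hnil : IsNilpotent N := isNilpotent_of_forall_mem 𝔞 h𝔞 N hN
  obtain ⟨s, hs⟩ := hnil
  -- y := Ψ₀⁻¹ (Ψ m) = (1 + N) m ∈ 𝔟 • ⊤
  have hy : (1 + N) m ∈ 𝔟 • (⊤ : Submodule A M) := by
    have h1 : Ψ₀.symm.toLinearMap (Ψ m) ∈ 𝔟 • (⊤ : Submodule A M) :=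
      map_mem_smul_top 𝔟 Ψ₀.symm.toLinearMap hm
    have h2 : Ψ₀.symm.toLinearMap (Ψ m) = (1 + N) m := by simp [hNdef]
    rwa [h2] at h1
  -- inverse of 1 + N
  have hinv : (∑ i ∈ Finset.range s, (-N) ^ i) * (1 + N) = 1 := by
    have := Commute.geom_sum₂_mul (Commute.one_right (-N)) s  -- (∑ (-N)^i * 1^(s-1-i)) * (-N - 1) = (-N)^s - 1^s
    have hs' : (-N) ^ s = 0 := by
      rw [neg_pow, hs, mul_zero]
    simp only [one_pow, mul_one, hs', zero_sub] at this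
    have h3 : (∑ i ∈ Finset.range s, (-N) ^ i) * (1 + N)
        = -((∑ i ∈ Finset.range s, (-N) ^ i) * (-N - 1)) := by
      rw [← mul_neg]; congr 1; abel
    rw [h3, this, neg_neg]
  have hm' : m = (∑ i ∈ Finset.range s, (-N) ^ i) ((1 + N) m) := by
    rw [← Module.End.mul_apply, hinv, Module.End.one_apply]
  rw [hm']
  exact map_mem_smul_top 𝔟 _ hy

end Fermat.Agent.W1.RHF
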