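import Fermat.Agent.W1.RHFBaseChange

/-!
# W1-RHF: the `V`-form and the truncated formal group law (helper94)

`V`-form of the factorisation (no inverses): `V x ≡ t ^ n x mod 𝔞`; there is a unique pair
`(ω, w)` with `V x * (1 + ∑ ω j • b j) = w x` (`w x` a power series).

Addition: `Vadd z z' x = (t - z x) * (t - z' x) * t⁻¹`, `n = 1`.

**`exists_addPoly`**: for a normalised family `b` over a ring `R` and every `m` there are
polynomials `F x ∈ R[Z, Z']` such that at EVERY level `(A, 𝔞)` with `𝔞 ^ m = 0` and all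
`z, z' ∈ 𝔞` the root of the solution `w x` of the addition problem is `F x (z, z')`.
-/

namespace Fermat.Agent.W1.RHF

open HahnSeries

section vform

variable {A : Type*} [CommRing A] {ι : Type*} [Finite ι] (𝔞 : Ideal A) (n : ι → ℕ)
  (b : ι × ℕ → ι → LaurentSeries A)

/-- a tuple `V ≡ t ^ n mod 𝔞` has an inverse tuple `U` with `U * t ^ n ≡ 1 mod 𝔞` -/
theorem exists_inv_of_sub_tpow_mem (h𝔞 : IsNilpotent 𝔞) (V : ι → LaurentSeries A)
    (hV : ∀ x, V x - tpow A (n x) ∈ 𝔞 • (⊤ : Submodule A (LaurentSeries A))) :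
    ∃ U : ι → LaurentSeries A, (∀ x, V x * U x = 1) ∧
      cTuple n U - 1 ∈ 𝔞 • (⊤ : Submodule A (ι → LaurentSeries A)) := by
  have h1 : ∀ x, V x * tpow A (-(n x : ℤ)) - 1
      ∈ 𝔞 • (⊤ : Submodule A (LaurentSeries A)) := by
    intro x
    have : V x * tpow A (-(n x : ℤ)) - 1 = (V x - tpow A (n x)) * tpow A (-(n x : ℤ)) := by
      rw [sub_mul, tpow_mul_tpow_neg]
    rw [this]
    exact mul_mem_smul_top1 𝔞 (hV x) _
  have h2 : ∀ x, ∃ y : LaurentSeries A, V x * tpow A (-(n x : ℤ)) * y = 1 := by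
    intro x
    obtain ⟨u, hu⟩ := isUnit_of_sub_one_mem_smul_top h𝔞 (h1 x)
    refine ⟨((u⁻¹ : (LaurentSeries A)ˣ) : LaurentSeries A), ?_⟩
    rw [← hu]
    exact u.mul_inv
  choose y hy using h2
  refine ⟨fun x => tpow A (-(n x : ℤ)) * y x, fun x => ?_, ?_⟩
  · rw [← mul_assoc]; exact hy x
  · apply pi_mem_smul_top_of_forall
    intro x
    have e : (cTuple n (fun x => tpow A (-(n x : ℤ)) * y x) - 1) x = y x - 1 := by
      simp only [Pi.sub_apply, Pi.one_apply, cTuple]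
      rw [mul_comm (tpow A (-(n x : ℤ))) (y x), mul_assoc, tpow_neg_mul_tpow, mul_one]
    rw [e]
    exact inv_sub_one_mem_smul_top (h1 x) (hy x)

/-- **Riemann–Hilbert factorisation, `V`-form.** -/
theorem exists_unique_rhfV (h𝔞 : IsNilpotent 𝔞)
    (hb : ∀ j, pol n (b j) = Finsupp.single j 1) (V : ι → LaurentSeries A)
    (hV : ∀ x, V x - tpow A (n x) ∈ 𝔞 • (⊤ : Submodule A (LaurentSeries A))) :
    ∃! p : (ι × ℕ →₀ A) × (ι → PowerSeries A),
      ∀ x, V x * (1 + beta b p.1 x) = HahnSeries.ofPowerSeries ℤ A (p.2 x) := by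
  obtain ⟨U, hVU, hU⟩ := exists_inv_of_sub_tpow_mem 𝔞 n h𝔞 V hV
  obtain ⟨p, hp, huniq⟩ := exists_unique_rhf 𝔞 n b U h𝔞 hb hU
  have key : ∀ q : (ι × ℕ →₀ A) × (ι → PowerSeries A),
      (∀ x, V x * (1 + beta b q.1 x) = HahnSeries.ofPowerSeries ℤ A (q.2 x)) ↔
      (∀ x, 1 + beta b q.1 x = U x * HahnSeries.ofPowerSeries ℤ A (q.2 x)) := by
    intro q
    constructor
    · intro h x
      rw [← h x, ← mul_assoc, mul_comm (U x), hVU x, one_mul]
    · intro h x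
      rw [h x, ← mul_assoc, hVU x, one_mul]
  exact ⟨p, (key p).2 hp, fun q hq => huniq q ((key q).1 hq)⟩

/-- congruences for the solution in `V`-form -/
theorem rhfV_congr (h𝔞 : IsNilpotent 𝔞)
    (hb : ∀ j, pol n (b j) = Finsupp.single j 1) (V : ι → LaurentSeries A)
    (hV : ∀ x, V x - tpow A (n x) ∈ 𝔞 • (⊤ : Submodule A (LaurentSeries A)))
    (p : (ι × ℕ →₀ A) × (ι → PowerSeries A))
    (hp : ∀ x, V x * (1 + beta b p.1 x) = HahnSeries.ofPowerSeries ℤ A (p.2 x)) :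
    (∀ j, p.1 j ∈ 𝔞) ∧
      ∀ x, p.2 x - PowerSeries.X ^ n x ∈ 𝔞 • (⊤ : Submodule A (PowerSeries A)) := by
  obtain ⟨U, hVU, hU⟩ := exists_inv_of_sub_tpow_mem 𝔞 n h𝔞 V hV
  have hp' : ∀ x, 1 + beta b p.1 x = U x * HahnSeries.ofPowerSeries ℤ A (p.2 x) := by
    intro x
    rw [← hp x, ← mul_assoc, mul_comm (U x), hVU x, one_mul]
  exact ⟨(rhf_congr 𝔞 n b U hb hU p hp').1, rhf_congr_smul_top 𝔞 n b U hb hU p hp'⟩

end vform

section vmap

variable {A A' : Type*} [CommRing A] [CommRing A'] (φ : A →+* A') {ι : Type*}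

/-- base change in `V`-form: the image of a solution is a solution -/
theorem rhfV_map (b : ι × ℕ → ι → LaurentSeries A) (V : ι → LaurentSeries A)
    (p : (ι × ℕ →₀ A) × (ι → PowerSeries A))
    (hp : ∀ x, V x * (1 + beta b p.1 x) = HahnSeries.ofPowerSeries ℤ A (p.2 x)) (x : ι) :
    lmap φ (V x) *
        (1 + beta (fun j y => lmap φ (b j y)) (Finsupp.mapRange φ (map_zero φ) p.1) x)
      = HahnSeries.ofPowerSeries ℤ A' (PowerSeries.map φ (p.2 x)) := by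
  have := congrArg (lmap φ) (hp x)
  rw [map_mul, map_add, map_one, lmap_beta, lmap_ofPowerSeries] at this
  exact this

theorem lmap_sub_tpow_mem (𝔞 : Ideal A) (𝔞' : Ideal A') (h : ∀ a ∈ 𝔞, φ a ∈ 𝔞')
    (l : LaurentSeries A) (hl : l ∈ 𝔞 • (⊤ : Submodule A (LaurentSeries A))) :
    lmap φ l ∈ 𝔞' • (⊤ : Submodule A' (LaurentSeries A')) := by
  refine Submodule.smul_induction_on hl ?_ ?_
  · intro a ha y _
    rw [lmap_smul]
    exact Submodule.smul_mem_smul (h a ha) Submodule.mem_top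
  · intro y y' hy hy'
    rw [map_add]
    exact Submodule.add_mem _ hy hy'

/-- base change + uniqueness in `V`-form -/
theorem rhfV_map_unique [Finite ι] (𝔞' : Ideal A') (h𝔞' : IsNilpotent 𝔞') (n : ι → ℕ)
    (b : ι × ℕ → ι → LaurentSeries A) (V : ι → LaurentSeries A)
    (hb : ∀ j, pol n (b j) = Finsupp.single j 1)
    (hV' : ∀ x, lmap φ (V x) - tpow A' (n x) ∈ 𝔞' • (⊤ : Submodule A' (LaurentSeries A')))
    (p : (ι × ℕ →₀ A) × (ι → PowerSeries A))
    (hp : ∀ x, V x * (1 + beta b p.1 x) = HahnSeries.ofPowerSeries ℤ A (p.2 x))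
    (p' : (ι × ℕ →₀ A') × (ι → PowerSeries A'))
    (hp' : ∀ x, lmap φ (V x) * (1 + beta (fun j y => lmap φ (b j y)) p'.1 x)
      = HahnSeries.ofPowerSeries ℤ A' (p'.2 x)) :
    p'.1 = Finsupp.mapRange φ (map_zero φ) p.1 ∧ ∀ x, p'.2 x = PowerSeries.map φ (p.2 x) := by
  obtain ⟨q, -, hq⟩ := exists_unique_rhfV 𝔞' n (fun j y => lmap φ (b j y)) h𝔞'
    (pol_lmap_single φ n b hb) (fun x => lmap φ (V x)) hV'
  have h1 := hq p' hp'
  have h2 := hq (Finsupp.mapRange φ (map_zero φ) p.1, fun x => PowerSeries.map φ (p.2 x))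
    (rhfV_map φ b V p hp)
  have h3 : p' = (Finsupp.mapRange φ (map_zero φ) p.1, fun x => PowerSeries.map φ (p.2 x)) :=
    h1.trans h2.symm
  constructor
  · rw [h3]
  · intro x; rw [h3]

end vmap

section add

variable {A A' : Type*} [CommRing A] [CommRing A'] {ι : Type*}

/-- the denominators of the addition problem: `(t - z x) * (t - z' x) * t⁻¹` -/
noncomputable def Vadd (z z' : ι → A) (x : ι) : LaurentSeries A :=
  (tpow A 1 - HahnSeries.C (z x)) * (tpow A 1 - HahnSeries.C (z' x)) * tpow A (-1)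

theorem Vadd_sub_mem (𝔞 : Ideal A) (z z' : ι → A) (hz : ∀ x, z x ∈ 𝔞) (hz' : ∀ x, z' x ∈ 𝔞)
    (x : ι) :
    Vadd z z' x - tpow A ((1 : ℕ) : ℤ) ∈ 𝔞 • (⊤ : Submodule A (LaurentSeries A)) := by
  have e : Vadd z z' x - tpow A ((1 : ℕ) : ℤ)
      = HahnSeries.C (z x) * (-1 + HahnSeries.C (z' x) * tpow A (-1))
        + HahnSeries.C (z' x) * (-1) := by
    have h1 : tpow A 1 * tpow A (-1) = 1 := tpow_mul_tpow_neg 1
    have h2 : tpow A ((1 : ℕ) : ℤ) = tpow A 1 := by norm_num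
    rw [h2, Vadd]
    linear_combination (tpow A 1 - HahnSeries.C (z x) - HahnSeries.C (z' x)) * h1
  rw [e]
  exact Submodule.add_mem _ (C_mul_mem_smul_top 𝔞 (hz x) _) (C_mul_mem_smul_top 𝔞 (hz' x) _)

theorem lmap_Vadd (φ : A →+* A') (z z' : ι → A) (x : ι) :
    lmap φ (Vadd z z' x) = Vadd (fun i => φ (z i)) (fun i => φ (z' i)) x := by
  rw [Vadd, Vadd, map_mul, map_mul, map_sub, map_sub, lmap_tpow, lmap_C, lmap_C, lmap_tpow]

end add

section universal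

universe u v w

variable {R : Type u} [CommRing R] {ι : Type w} [Finite ι]

/-- the ideal of the variables -/
noncomputable def varIdeal (R : Type u) [CommRing R] (σ : Type w) : Ideal (MvPolynomial σ R) :=
  Ideal.span (Set.range MvPolynomial.X)

theorem eval₂Hom_mem_of_mem_varIdeal_pow {σ : Type w} {A : Type v} [CommRing A] (φ : R →+* A)
    (𝔞 : Ideal A) (f : σ → A) (hf : ∀ s, f s ∈ 𝔞) (m : ℕ) (a : MvPolynomial σ R)
    (ha : a ∈ varIdeal R σ ^ m) : MvPolynomial.eval₂Hom φ f a ∈ 𝔞 ^ m := by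
  have h1 : Ideal.map (MvPolynomial.eval₂Hom φ f) (varIdeal R σ) ≤ 𝔞 := by
    rw [varIdeal, Ideal.map_span, Ideal.span_le]
    rintro _ ⟨_, ⟨s, rfl⟩, rfl⟩
    simpa using hf s
  have h2 : Ideal.map (MvPolynomial.eval₂Hom φ f) (varIdeal R σ ^ m) ≤ 𝔞 ^ m := by
    rw [Ideal.map_pow]
    exact Ideal.pow_right_mono h1 m
  exact h2 (Ideal.mem_map_of_mem _ ha)

/-- **The truncated formal group law.**  For a normalised family `b` over `R` (`n = 1`) and
`m : ℕ` there are polynomials `F x ∈ R[Z, Z']` such that, at every level `(A, 𝔞)` with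
`𝔞 ^ m = 0` and all `z, z' ∈ 𝔞`, every solution `(ω, w)` of the addition problem
`(t - z x)(t - z' x) t⁻¹ * (1 + ∑ ω j • b j) = w x` has `w x = (X - F x (z, z')) * unit`, and
`F x (z, z')` is the only root of `w x`. -/
theorem exists_addPoly (b : ι × ℕ → ι → LaurentSeries R)
    (hb : ∀ j, pol (fun _ => 1) (b j) = Finsupp.single j 1) (m : ℕ) :
    ∃ F : ι → MvPolynomial (ι ⊕ ι) R,
      ∀ (A : Type v) [CommRing A] (φ : R →+* A) (𝔞 : Ideal A), 𝔞 ^ m = ⊥ →
        ∀ (z z' : ι → A), (∀ i, z i ∈ 𝔞) → (∀ i, z' i ∈ 𝔞) →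
        ∀ (ω : ι × ℕ →₀ A) (w : ι → PowerSeries A),
          (∀ x, Vadd z z' x * (1 + beta (fun j y => lmap φ (b j y)) ω x)
              = HahnSeries.ofPowerSeries ℤ A (w x)) →
          ∀ x, (∃ h : (PowerSeries A)ˣ, w x = (PowerSeries.X
              - PowerSeries.C (MvPolynomial.eval₂ φ (Sum.elim z z') (F x)))
                * (h : PowerSeries A)) ∧
            ∀ (ζ : A) (h : (PowerSeries A)ˣ),
              w x = (PowerSeries.X - PowerSeries.C ζ) * (h : PowerSeries A) →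
              ζ = MvPolynomial.eval₂ φ (Sum.elim z z') (F x) := by
  classical
  -- the universal level
  set P := MvPolynomial (ι ⊕ ι) R with hP
  set I : Ideal P := varIdeal R (ι ⊕ ι) ^ m with hI
  set mk : P →+* P ⧸ I := Ideal.Quotient.mk I with hmk
  set 𝔞S : Ideal (P ⧸ I) := Ideal.map mk (varIdeal R (ι ⊕ ι)) with h𝔞S
  have h𝔞Snil : IsNilpotent 𝔞S := by
    refine ⟨m, ?_⟩
    rw [h𝔞S, ← Ideal.map_pow, ← hI, hmk, Ideal.map_quotient_self]
    rfl
  set φS : R →+* P ⧸ I := mk.comp MvPolynomial.C with hφS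
  set zS : ι → P ⧸ I := fun i => mk (MvPolynomial.X (Sum.inl i)) with hzS
  set zS' : ι → P ⧸ I := fun i => mk (MvPolynomial.X (Sum.inr i)) with hzS'
  have hzSmem : ∀ i, zS i ∈ 𝔞S := fun i =>
    Ideal.mem_map_of_mem _ (Ideal.subset_span ⟨_, rfl⟩)
  have hzSmem' : ∀ i, zS' i ∈ 𝔞S := fun i =>
    Ideal.mem_map_of_mem _ (Ideal.subset_span ⟨_, rfl⟩)
  have hbS := pol_lmap_single φS (fun _ : ι => 1) b hb
  have hVS := Vadd_sub_mem 𝔞S zS zS' hzSmem hzSmem'
  obtain ⟨pS, hpS, -⟩ := exists_unique_rhfV 𝔞S (fun _ : ι => 1)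
    (fun j y => lmap φS (b j y)) h𝔞Snil hbS (Vadd zS zS') hVS
  have hcong := (rhfV_congr 𝔞S (fun _ : ι => 1) (fun j y => lmap φS (b j y)) h𝔞Snil hbS
    (Vadd zS zS') hVS pS hpS).2
  have hroot : ∀ x, ∃ ζ : P ⧸ I, ∃ h : (PowerSeries (P ⧸ I))ˣ,
      pS.2 x = (PowerSeries.X - PowerSeries.C ζ) * (h : PowerSeries (P ⧸ I)) := by
    intro x
    have := hcong x
    rw [pow_one] at this
    obtain ⟨ζ, hζ, -⟩ := exists_unique_root h𝔞Snil (pS.2 x) this
    exact ⟨ζ, hζ⟩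
  choose ζS hS hζS using hroot
  have hlift : ∀ x, ∃ F : P, mk F = ζS x := fun x => Ideal.Quotient.mk_surjective (ζS x)
  choose F hF using hlift
  refine ⟨F, ?_⟩
  intro A _ φ 𝔞 h𝔞m z z' hz hz' ω w hsol x
  have h𝔞nil : IsNilpotent 𝔞 := ⟨m, by rw [h𝔞m]; rfl⟩
  -- the specialisation map
  set ψ : P →+* A := MvPolynomial.eval₂Hom φ (Sum.elim z z') with hψ
  have hker : ∀ a ∈ I, ψ a = 0 := by
    intro a ha
    have := eval₂Hom_mem_of_mem_varIdeal_pow φ 𝔞 (Sum.elim z z')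
      (by rintro (i | i) <;> simp [hz, hz']) m a ha
    rw [h𝔞m] at this
    exact (Ideal.mem_bot.1 this)
  set ψb : P ⧸ I →+* A := Ideal.Quotient.lift I ψ hker with hψb
  have hψbmk : ∀ a : P, ψb (mk a) = ψ a := fun a => Ideal.Quotient.lift_mk I ψ hker
  have hcomp : ψb.comp φS = φ := by
    ext r
    simp only [RingHom.comp_apply, hφS, hψbmk, hψ]
    exact MvPolynomial.eval₂Hom_C _ _ _
  have hzmap : (fun i => ψb (zS i)) = z := by
    funext i
    simp only [hzS, hψbmk, hψ]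
    exact MvPolynomial.eval₂Hom_X' _ _ _
  have hzmap' : (fun i => ψb (zS' i)) = z' := by
    funext i
    simp only [hzS', hψbmk, hψ]
    exact MvPolynomial.eval₂Hom_X' _ _ _
  have hVmap : ∀ y, lmap ψb (Vadd zS zS' y) = Vadd z z' y := by
    intro y
    rw [lmap_Vadd, hzmap, hzmap']
  have hbmap : (fun j y => lmap ψb (lmap φS (b j y))) = fun j y => lmap φ (b j y) := by
    funext j y
    rw [lmap_comp, hcomp]
  have hV' : ∀ y, lmap ψb (Vadd zS zS' y) - tpow A (((fun _ : ι => 1) y : ℕ) : ℤ)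
      ∈ 𝔞 • (⊤ : Submodule A (LaurentSeries A)) := by
    intro y
    rw [hVmap]
    exact Vadd_sub_mem 𝔞 z z' hz hz' y
  have hsol' : ∀ y, lmap ψb (Vadd zS zS' y)
      * (1 + beta (fun j y => lmap ψb (lmap φS (b j y))) (ω, w).1 y)
      = HahnSeries.ofPowerSeries ℤ A ((ω, w).2 y) := by
    intro y
    rw [hVmap, hbmap]
    exact hsol y
  have huniq := rhfV_map_unique ψb 𝔞 h𝔞nil (fun _ : ι => 1) (fun j y => lmap φS (b j y))
    (Vadd zS zS') hbS hV' pS hpS (ω, w) hsol'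
  have hw : w x = PowerSeries.map ψb (pS.2 x) := huniq.2 x
  have hζeq : ψb (ζS x) = MvPolynomial.eval₂ φ (Sum.elim z z') (F x) := by
    rw [← hF x, hψbmk, hψ, MvPolynomial.coe_eval₂Hom]
  have hfac := root_map ψb (pS.2 x) (ζS x) (hS x) (hζS x)
  rw [← hw, hζeq] at hfac
  refine ⟨⟨_, hfac⟩, ?_⟩
  intro ζ h hζ
  have hwc := (rhfV_congr 𝔞 (fun _ : ι => 1) (fun j y => lmap φ (b j y)) h𝔞nil
    (pol_lmap_single φ (fun _ : ι => 1) b hb) (Vadd z z')
    (Vadd_sub_mem 𝔞 z z' hz hz') (ω, w) hsol).2 x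
  simp only [pow_one] at hwc
  obtain ⟨ζ₀, -, hζ₀⟩ := exists_unique_root h𝔞nil (w x) hwc
  exact (hζ₀ ζ ⟨h, hζ⟩).trans (hζ₀ _ ⟨_, hfac⟩).symm

end universal

end Fermat.Agent.W1.RHF
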