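import Fermat.Agent.W1.RHFAbstract

/-!
# W1-RHF: Weierstrass division and the root `ζ`, modulo a nilpotent ideal (helper94)

`A` a commutative ring, `𝔞` a nilpotent ideal, `w ∈ A⟦X⟧` with `w ≡ X ^ d mod 𝔞`.
* `weierstrass_division`: every `f` is uniquely `w * q + r`, `deg r < d`.
* `exists_unique_root` (`d = 1`): `w = (X - C ζ) * unit` for a unique `ζ`, and `ζ ∈ 𝔞`.
* `isUnit_of_sub_one_mem` (`d = 0`): `w` is a unit.
-/

namespace Fermat.Agent.W1.RHF

open PowerSeries

variable {A : Type*} [CommRing A]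

theorem isNilpotent_of_mem_of_isNilpotent {𝔞 : Ideal A} (h𝔞 : IsNilpotent 𝔞) {a : A}
    (ha : a ∈ 𝔞) : IsNilpotent a := by
  obtain ⟨s, hs⟩ := h𝔞
  refine ⟨s, ?_⟩
  have := Ideal.pow_mem_pow ha s
  rw [hs] at this
  simpa using this

theorem isUnit_of_sub_one_mem_of_isNilpotent {𝔞 : Ideal A} (h𝔞 : IsNilpotent 𝔞) {a : A}
    (ha : a - 1 ∈ 𝔞) : IsUnit a := by
  have := (isNilpotent_of_mem_of_isNilpotent h𝔞 ha).isUnit_add_one
  simpa using this

/-- coefficients of an element of `𝔞 • ⊤ ⊆ A⟦X⟧` lie in `𝔞` -/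
theorem coeff_mem_of_mem_smul_top' (𝔞 : Ideal A) {w : PowerSeries A}
    (hw : w ∈ 𝔞 • (⊤ : Submodule A (PowerSeries A))) (i : ℕ) : coeff i w ∈ 𝔞 := by
  have := map_mem_smul_top 𝔞 (PowerSeries.coeff (R := A) i) hw
  simpa using this

/-- `d = 0`: a power series `≡ 1 mod 𝔞` is a unit. -/
theorem isUnit_of_sub_one_mem {𝔞 : Ideal A} (h𝔞 : IsNilpotent 𝔞) {w : PowerSeries A}
    (hw : w - 1 ∈ 𝔞 • (⊤ : Submodule A (PowerSeries A))) : IsUnit w := by
  rw [PowerSeries.isUnit_iff_constantCoeff]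
  apply isUnit_of_sub_one_mem_of_isNilpotent h𝔞
  have := coeff_mem_of_mem_smul_top' 𝔞 hw 0
  simpa using this

/-- the shift operator `f ↦ (f - trunc d f) / X ^ d` -/
noncomputable def hi (d : ℕ) : PowerSeries A →ₗ[A] PowerSeries A where
  toFun f := PowerSeries.mk fun i => coeff (i + d) f
  map_add' f g := by ext i; simp
  map_smul' a f := by ext i; simp

/-- the truncation `f ↦ trunc d f`, as a power series -/
noncomputable def lo (d : ℕ) : PowerSeries A →ₗ[A] PowerSeries A where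
  toFun f := ((trunc d f : Polynomial A) : PowerSeries A)
  map_add' f g := by simp
  map_smul' a f := by
    ext i
    simp [Polynomial.coeff_coe, coeff_trunc]

theorem hi_apply (d : ℕ) (f : PowerSeries A) :
    hi d f = PowerSeries.mk fun i => coeff (i + d) f := rfl

theorem lo_apply (d : ℕ) (f : PowerSeries A) :
    lo d f = ((trunc d f : Polynomial A) : PowerSeries A) := rfl

theorem lo_add_hi (d : ℕ) (f : PowerSeries A) : lo d f + X ^ d * hi d f = f := by
  rw [add_comm]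
  exact (eq_X_pow_mul_shift_add_trunc d f).symm

theorem hi_X_pow_mul_add (d : ℕ) (q : PowerSeries A) (r : Polynomial A)
    (hr : r.degree < d) : hi d (X ^ d * q + (r : PowerSeries A)) = q := by
  ext i
  rw [hi_apply, coeff_mk, map_add, Polynomial.coeff_coe, coeff_X_pow_mul',
    if_pos (Nat.le_add_left d i), Nat.add_sub_cancel]
  have : r.coeff (i + d) = 0 := by
    apply Polynomial.coeff_eq_zero_of_degree_lt
    exact lt_of_lt_of_le hr (by exact_mod_cast Nat.le_add_left d i)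
  rw [this, add_zero]

theorem trunc_X_pow_mul_add (d : ℕ) (q : PowerSeries A) (r : Polynomial A)
    (hr : r.degree < d) : trunc d (X ^ d * q + (r : PowerSeries A)) = r := by
  ext i
  rw [coeff_trunc]
  split_ifs with h
  · rw [map_add, Polynomial.coeff_coe, coeff_X_pow_mul', if_neg (not_le.2 h), zero_add]
  · symm
    apply Polynomial.coeff_eq_zero_of_degree_lt
    exact lt_of_lt_of_le hr (by exact_mod_cast not_lt.1 h)

/-- the perturbed map `f ↦ lo f + w * hi f` -/
noncomputable def PsiW (d : ℕ) (w : PowerSeries A) : PowerSeries A →ₗ[A] PowerSeries A :=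
  LinearMap.id + (LinearMap.mulLeft A (w - X ^ d)) ∘ₗ (hi d)

theorem PsiW_apply (d : ℕ) (w f : PowerSeries A) :
    PsiW d w f = lo d f + w * hi d f := by
  have h := lo_add_hi d f
  simp only [PsiW, LinearMap.add_apply, LinearMap.id_coe, id_eq, LinearMap.coe_comp,
    Function.comp_apply, LinearMap.mulLeft_apply]
  nth_rewrite 1 [← h]
  ring

theorem PsiW_sub_mem (𝔞 : Ideal A) (d : ℕ) (w : PowerSeries A)
    (hw : w - X ^ d ∈ 𝔞 • (⊤ : Submodule A (PowerSeries A))) (f : PowerSeries A) :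
    PsiW d w f - (LinearEquiv.refl A (PowerSeries A)) f
      ∈ 𝔞 • (⊤ : Submodule A (PowerSeries A)) := by
  have : PsiW d w f - (LinearEquiv.refl A (PowerSeries A)) f = (w - X ^ d) * hi d f := by
    simp [PsiW]
  rw [this]
  have h2 := map_mem_smul_top 𝔞 (LinearMap.mulRight A (hi d f)) hw
  simpa using h2

theorem PsiW_bijective {𝔞 : Ideal A} (h𝔞 : IsNilpotent 𝔞) (d : ℕ) (w : PowerSeries A)
    (hw : w - X ^ d ∈ 𝔞 • (⊤ : Submodule A (PowerSeries A))) :
    Function.Bijective (PsiW d w) :=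
  bijective_of_sub_mem 𝔞 h𝔞 (LinearEquiv.refl A _) (PsiW d w) (PsiW_sub_mem 𝔞 d w hw)

/-- **Weierstrass division modulo a nilpotent ideal.** -/
theorem weierstrass_division {𝔞 : Ideal A} (h𝔞 : IsNilpotent 𝔞) (d : ℕ) (w : PowerSeries A)
    (hw : w - X ^ d ∈ 𝔞 • (⊤ : Submodule A (PowerSeries A))) (f : PowerSeries A) :
    ∃! qr : PowerSeries A × Polynomial A,
      qr.2.degree < d ∧ f = w * qr.1 + (qr.2 : PowerSeries A) := by
  obtain ⟨g, hg⟩ := (PsiW_bijective h𝔞 d w hw).2 f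
  refine ⟨(hi d g, trunc d g), ⟨degree_trunc_lt g d, ?_⟩, ?_⟩
  · rw [← hg, PsiW_apply, lo_apply]; ring
  · rintro ⟨q, r⟩ ⟨hdeg, heq⟩
    simp only at hdeg heq
    have h1 : PsiW d w (X ^ d * q + (r : PowerSeries A)) = f := by
      rw [PsiW_apply, lo_apply, hi_X_pow_mul_add d q r hdeg, trunc_X_pow_mul_add d q r hdeg, heq]
      ring
    have h2 : X ^ d * q + (r : PowerSeries A) = g :=
      (PsiW_bijective h𝔞 d w hw).1 (h1.trans hg.symm)
    rw [← h2, hi_X_pow_mul_add d q r hdeg, trunc_X_pow_mul_add d q r hdeg]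

/-- In the Weierstrass division of `f` by `w`, `q ≡ hi f` and `r ≡ lo f` modulo `𝔞`. -/
theorem weierstrass_division_congr {𝔞 : Ideal A} (d : ℕ) (w : PowerSeries A)
    (hw : w - X ^ d ∈ 𝔞 • (⊤ : Submodule A (PowerSeries A))) (f q : PowerSeries A)
    (r : Polynomial A) (hdeg : r.degree < d) (heq : f = w * q + (r : PowerSeries A)) :
    q - hi d f ∈ 𝔞 • (⊤ : Submodule A (PowerSeries A)) ∧
      (r : PowerSeries A) - lo d f ∈ 𝔞 • (⊤ : Submodule A (PowerSeries A)) := by
  set g := X ^ d * q + (r : PowerSeries A) with hgdef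
  have h1 : PsiW d w g = f := by
    rw [PsiW_apply, lo_apply, hgdef, hi_X_pow_mul_add d q r hdeg,
      trunc_X_pow_mul_add d q r hdeg, heq]
    ring
  have h2 : g - f ∈ 𝔞 • (⊤ : Submodule A (PowerSeries A)) := by
    have := preimage_sub_mem 𝔞 (LinearEquiv.refl A _) (PsiW d w) (PsiW_sub_mem 𝔞 d w hw) g
    rw [h1] at this
    simpa using this
  constructor
  · have := map_mem_smul_top 𝔞 (hi d) h2
    rwa [map_sub, hgdef, hi_X_pow_mul_add d q r hdeg] at this
  · have := map_mem_smul_top 𝔞 (lo d) h2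
    rwa [map_sub, lo_apply, hgdef, trunc_X_pow_mul_add d q r hdeg] at this

theorem hi_one_X : hi 1 (X : PowerSeries A) = 1 := by
  ext i
  rw [hi_apply, coeff_mk, coeff_X, coeff_one]
  simp

theorem lo_one_X : lo 1 (X : PowerSeries A) = 0 := by
  rw [lo_apply, trunc_one_X]; simp

/-- **The root.** If `w ≡ X mod 𝔞` (`𝔞` nilpotent) then `w = (X - C ζ) * unit` for a unique `ζ`;
moreover `ζ ∈ 𝔞`. -/
theorem exists_unique_root {𝔞 : Ideal A} (h𝔞 : IsNilpotent 𝔞) (w : PowerSeries A)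
    (hw : w - X ∈ 𝔞 • (⊤ : Submodule A (PowerSeries A))) :
    ∃! ζ : A, ∃ h : (PowerSeries A)ˣ, w = (X - C ζ) * (h : PowerSeries A) := by
  have hw' : w - X ^ 1 ∈ 𝔞 • (⊤ : Submodule A (PowerSeries A)) := by simpa using hw
  obtain ⟨⟨q, r⟩, ⟨hdeg, heq⟩, huniq⟩ := weierstrass_division h𝔞 1 w hw' X
  simp only at hdeg heq
  -- r is a constant
  have hr : r = Polynomial.C (r.coeff 0) := by
    apply Polynomial.eq_C_of_degree_le_zero
    have : r.degree < ((0 : ℕ) + 1 : ℕ) := by simpa using hdeg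
    exact Polynomial.degree_le_of_natDegree_le
      (by
        by_cases h0 : r = 0
        · simp [h0]
        · have := (Polynomial.degree_lt_iff_coeff_zero r 1).1 (by simpa using hdeg)
          exact Nat.le_of_lt_succ ((Polynomial.natDegree_lt_iff_degree_lt h0).2 (by simpa using hdeg)))
  obtain ⟨hq, -⟩ := weierstrass_division_congr 1 w hw' X q r hdeg heq
  rw [hi_one_X] at hq
  have hqu : IsUnit q := isUnit_of_sub_one_mem h𝔞 hq
  have hrc : (r : PowerSeries A) = C (r.coeff 0) := by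
    conv_lhs => rw [hr]
    simp
  refine ⟨r.coeff 0, ⟨hqu.unit⁻¹, ?_⟩, ?_⟩
  · have h1 : w * q = X - C (r.coeff 0) := by
      rw [← hrc]; rw [eq_sub_iff_add_eq]; exact heq.symm
    rw [← h1, mul_assoc]
    have : q * ((hqu.unit⁻¹ : (PowerSeries A)ˣ) : PowerSeries A) = 1 := by
      have := hqu.unit.mul_inv
      simpa using congrArg Units.val this
    rw [this, mul_one]
  · rintro ζ ⟨h, hζ⟩
    have h3 : X = w * ((h⁻¹ : (PowerSeries A)ˣ) : PowerSeries A)
        + ((Polynomial.C ζ : Polynomial A) : PowerSeries A) := by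
      rw [hζ, mul_assoc]
      have : (h : PowerSeries A) * ((h⁻¹ : (PowerSeries A)ˣ) : PowerSeries A) = 1 := by
        simpa using congrArg Units.val h.mul_inv
      rw [this, mul_one]
      simp
    have h4 := huniq (((h⁻¹ : (PowerSeries A)ˣ) : PowerSeries A), Polynomial.C ζ)
      ⟨by
        simp only
        exact lt_of_le_of_lt Polynomial.degree_C_le (by norm_num), h3⟩
    have h5 := congrArg (fun qr : PowerSeries A × Polynomial A => qr.2.coeff 0) h4
    simpa using h5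

/-- the root lies in `𝔞` -/
theorem root_mem {𝔞 : Ideal A} (w : PowerSeries A)
    (hw : w - X ∈ 𝔞 • (⊤ : Submodule A (PowerSeries A))) (ζ : A) (h : (PowerSeries A)ˣ)
    (hζ : w = (X - C ζ) * (h : PowerSeries A)) : ζ ∈ 𝔞 := by
  have hw' : w - X ^ 1 ∈ 𝔞 • (⊤ : Submodule A (PowerSeries A)) := by simpa using hw
  have h3 : X = w * ((h⁻¹ : (PowerSeries A)ˣ) : PowerSeries A)
      + ((Polynomial.C ζ : Polynomial A) : PowerSeries A) := by
    rw [hζ, mul_assoc]
    have : (h : PowerSeries A) * ((h⁻¹ : (PowerSeries A)ˣ) : PowerSeries A) = 1 := by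
      simpa using congrArg Units.val h.mul_inv
    rw [this, mul_one]
    simp
  obtain ⟨-, hr⟩ := weierstrass_division_congr 1 w hw' X _ (Polynomial.C ζ)
    (lt_of_le_of_lt Polynomial.degree_C_le (by norm_num)) h3
  rw [lo_one_X, sub_zero] at hr
  have := coeff_mem_of_mem_smul_top' 𝔞 hr 0
  simpa using this

end Fermat.Agent.W1.RHF
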