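import Fermat.Agent.W1.RHFLaurent
import Fermat.Agent.W1.RHFRoot

/-!
# W1-RHF: `𝔞`-adic congruence, `V`-form and base change (helper94)

* `psPart`, `rhf_congr_smul_top`: the solution `w` of `exists_unique_rhf` satisfies
  `w x - X ^ n x ∈ 𝔞 • ⊤` (the hypothesis of `exists_unique_root`).
* `lmap φ : LaurentSeries A →+* LaurentSeries A'` (coefficientwise), compatibility with `pol`,
  `beta`, `ofPowerSeries`, `tpow`, `C`.
* `rhf_map`: the image of a solution is a solution; `rhf_map_unique`: hence THE solution.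
* `root_map`: the image of the root is the root.
-/

namespace Fermat.Agent.W1.RHF

open HahnSeries

section adic

variable {A : Type*} [CommRing A] {ι : Type*}

/-- the power series part of a Laurent series, as a linear map -/
noncomputable def psPart : LaurentSeries A →ₗ[A] PowerSeries A where
  toFun l := PowerSeries.mk fun i => l.coeff (i : ℤ)
  map_add' l l' := by ext i; simp
  map_smul' a l := by ext i; simp

@[simp]
theorem coeff_psPart (l : LaurentSeries A) (i : ℕ) :
    PowerSeries.coeff i (psPart l) = l.coeff (i : ℤ) := by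
  simp [psPart]

theorem psPart_coe (w : PowerSeries A) : psPart (HahnSeries.ofPowerSeries ℤ A w) = w := by
  ext i
  rw [coeff_psPart, PowerSeries.coeff_coe, if_neg (by omega), Int.natAbs_natCast]

theorem psPart_tpow (n : ℕ) : psPart (tpow A (n : ℤ)) = PowerSeries.X ^ n := by
  ext i
  rw [coeff_psPart, PowerSeries.coeff_X_pow, tpow, HahnSeries.coeff_single]
  by_cases h : i = n
  · subst h; simp
  · have : ¬ ((i : ℤ) = (n : ℤ)) := by exact_mod_cast h
    simp [h, this]

/-- multiplication by a Laurent series, as an `A`-linear map -/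
noncomputable def mulL1 (c : LaurentSeries A) : LaurentSeries A →ₗ[A] LaurentSeries A where
  toFun l := c * l
  map_add' := mul_add c
  map_smul' a l := by
    simp only [RingHom.id_apply]
    rw [← HahnSeries.C_mul_eq_smul, ← HahnSeries.C_mul_eq_smul]
    ring

@[simp]
theorem mulL1_apply (c l : LaurentSeries A) : mulL1 c l = c * l := rfl

/-- `𝔞 • ⊤` is an ideal of `LaurentSeries A`. -/
theorem mul_mem_smul_top1 (𝔞 : Ideal A) {x : LaurentSeries A}
    (hx : x ∈ 𝔞 • (⊤ : Submodule A (LaurentSeries A))) (y : LaurentSeries A) :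
    x * y ∈ 𝔞 • (⊤ : Submodule A (LaurentSeries A)) := by
  have := map_mem_smul_top 𝔞 (mulL1 y) hx
  rwa [mulL1_apply, mul_comm] at this

/-- `C a * y ∈ 𝔞 • ⊤` for `a ∈ 𝔞`. -/
theorem C_mul_mem_smul_top (𝔞 : Ideal A) {a : A} (ha : a ∈ 𝔞) (y : LaurentSeries A) :
    HahnSeries.C a * y ∈ 𝔞 • (⊤ : Submodule A (LaurentSeries A)) := by
  rw [HahnSeries.C_mul_eq_smul]
  exact Submodule.smul_mem_smul ha Submodule.mem_top

/-- `C a ∈ 𝔞 • ⊤` for `a ∈ 𝔞`. -/
theorem C_mem_smul_top (𝔞 : Ideal A) {a : A} (ha : a ∈ 𝔞) :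
    (HahnSeries.C a : LaurentSeries A) ∈ 𝔞 • (⊤ : Submodule A (LaurentSeries A)) := by
  have := C_mul_mem_smul_top 𝔞 ha (1 : LaurentSeries A)
  rwa [mul_one] at this

/-- an element `≡ 1 mod 𝔞` of `LaurentSeries A` is a unit (`𝔞` nilpotent) -/
theorem isUnit_of_sub_one_mem_smul_top {𝔞 : Ideal A} (h𝔞 : IsNilpotent 𝔞) {x : LaurentSeries A}
    (hx : x - 1 ∈ 𝔞 • (⊤ : Submodule A (LaurentSeries A))) : IsUnit x := by
  have hN : IsNilpotent (mulL1 (x - 1)) := by
    apply isNilpotent_of_forall_mem 𝔞 h𝔞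
    intro l
    rw [mulL1_apply]
    exact mul_mem_smul_top1 𝔞 hx l
  obtain ⟨s, hs⟩ := hN
  have hpow : ∀ k : ℕ, ∀ l : LaurentSeries A, ((mulL1 (x - 1)) ^ k) l = (x - 1) ^ k * l := by
    intro k
    induction k with
    | zero => intro l; simp
    | succ k ih =>
      intro l
      rw [pow_succ, Module.End.mul_apply, ih, mulL1_apply, pow_succ]
      ring
  have hnil : IsNilpotent (x - 1) := by
    refine ⟨s, ?_⟩
    have := hpow s 1
    rw [hs, mul_one] at this
    simpa using this.symm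
  have := hnil.isUnit_add_one
  simpa using this

/-- the inverse of an element `≡ 1 mod 𝔞` is `≡ 1 mod 𝔞` -/
theorem inv_sub_one_mem_smul_top {𝔞 : Ideal A} {x y : LaurentSeries A}
    (hx : x - 1 ∈ 𝔞 • (⊤ : Submodule A (LaurentSeries A))) (hxy : x * y = 1) :
    y - 1 ∈ 𝔞 • (⊤ : Submodule A (LaurentSeries A)) := by
  have h : y - 1 = (x - 1) * (-y) := by
    have : (x - 1) * (-y) = -(x * y) + y := by ring
    rw [this, hxy]; ring
  rw [h]
  exact mul_mem_smul_top1 𝔞 hx _

variable [Finite ι] (𝔞 : Ideal A) (n : ι → ℕ) (b : ι × ℕ → ι → LaurentSeries A)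
  (U : ι → LaurentSeries A)

/-- the solution satisfies `t ^ (-n) * w ≡ 1 mod 𝔞` -/
theorem rhf_congr_laurent
    (hb : ∀ j, pol n (b j) = Finsupp.single j 1)
    (hU : cTuple n U - 1 ∈ 𝔞 • (⊤ : Submodule A (ι → LaurentSeries A)))
    (p : (ι × ℕ →₀ A) × (ι → PowerSeries A))
    (hp : ∀ x, 1 + beta b p.1 x = U x * HahnSeries.ofPowerSeries ℤ A (p.2 x)) (x : ι) :
    tpow A (-(n x : ℤ)) * HahnSeries.ofPowerSeries ℤ A (p.2 x) - 1
      ∈ 𝔞 • (⊤ : Submodule A (LaurentSeries A)) := by
  set l := ofPair n b p with hldef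
  have hΨ : Psi n b U l = 1 := by
    rw [hldef, Psi_ofPair n b U hb]
    funext x
    have := hp x
    simp only [Pi.sub_apply, Pi.one_apply]
    rw [← this]; ring
  have hl1 : l - 1 ∈ 𝔞 • (⊤ : Submodule A (ι → LaurentSeries A)) := by
    have := preimage_sub_mem 𝔞 (LinearEquiv.refl A _) (Psi n b U) (Psi_sub_mem 𝔞 n b U hU) l
    rw [hΨ] at this
    simpa using this
  have h1 : rem n b (l - 1) ∈ 𝔞 • (⊤ : Submodule A (ι → LaurentSeries A)) :=
    map_mem_smul_top 𝔞 (rem n b) hl1
  have h2 : rem n b (1 : ι → LaurentSeries A) = 1 := by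
    simp [rem, pol_one]
  rw [map_sub, h2, hldef, rem_ofPair n b hb] at h1
  have h3 := pi_apply_mem_of_mem_smul_top 𝔞 h1 x
  simpa only [Pi.sub_apply, Pi.one_apply] using h3

/-- **`𝔞`-adic form of the congruence**: `w x - X ^ n x ∈ 𝔞 • ⊤`. -/
theorem rhf_congr_smul_top
    (hb : ∀ j, pol n (b j) = Finsupp.single j 1)
    (hU : cTuple n U - 1 ∈ 𝔞 • (⊤ : Submodule A (ι → LaurentSeries A)))
    (p : (ι × ℕ →₀ A) × (ι → PowerSeries A))
    (hp : ∀ x, 1 + beta b p.1 x = U x * HahnSeries.ofPowerSeries ℤ A (p.2 x)) (x : ι) :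
    p.2 x - PowerSeries.X ^ n x ∈ 𝔞 • (⊤ : Submodule A (PowerSeries A)) := by
  have h := rhf_congr_laurent 𝔞 n b U hb hU p hp x
  have h' := map_mem_smul_top 𝔞 (psPart ∘ₗ mulL1 (tpow A (n x : ℤ))) h
  have e : (psPart ∘ₗ mulL1 (tpow A (n x : ℤ)))
      (tpow A (-(n x : ℤ)) * HahnSeries.ofPowerSeries ℤ A (p.2 x) - 1)
      = p.2 x - PowerSeries.X ^ n x := by
    rw [LinearMap.comp_apply, mulL1_apply, mul_sub, ← mul_assoc, tpow_mul_tpow_neg, one_mul,
      mul_one, map_sub, psPart_coe, psPart_tpow]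
  rwa [e] at h'

end adic

section lmap

variable {A A' A'' : Type*} [CommRing A] [CommRing A'] [CommRing A''] (φ : A →+* A')
  {ι : Type*}

/-- coefficientwise map of Laurent series, as a ring homomorphism -/
noncomputable def lmap : LaurentSeries A →+* LaurentSeries A' where
  toFun l := l.map φ
  map_one' := by
    ext g
    simp only [HahnSeries.map_coeff, HahnSeries.coeff_one]
    split_ifs <;> simp
  map_mul' x y := by
    have h := HahnSeries.map_mul (φ.toNonUnitalRingHom) (x := x) (y := y)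
    exact h
  map_zero' := by ext g; simp
  map_add' x y := by ext g; simp

@[simp]
theorem coeff_lmap (l : LaurentSeries A) (g : ℤ) : (lmap φ l).coeff g = φ (l.coeff g) := rfl

@[simp]
theorem lmap_tpow (m : ℤ) : lmap φ (tpow A m) = tpow A' m := by
  ext g
  rw [coeff_lmap, tpow, tpow, HahnSeries.coeff_single, HahnSeries.coeff_single]
  split_ifs <;> simp

@[simp]
theorem lmap_C (a : A) : lmap φ (HahnSeries.C a) = HahnSeries.C (φ a) := by
  ext g
  rw [coeff_lmap, HahnSeries.C_apply, HahnSeries.C_apply, HahnSeries.coeff_single,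
    HahnSeries.coeff_single]
  split_ifs <;> simp

theorem lmap_smul (a : A) (l : LaurentSeries A) : lmap φ (a • l) = φ a • lmap φ l := by
  ext g; simp

@[simp]
theorem lmap_ofPowerSeries (w : PowerSeries A) :
    lmap φ (HahnSeries.ofPowerSeries ℤ A w)
      = HahnSeries.ofPowerSeries ℤ A' (PowerSeries.map φ w) := by
  ext g
  rw [coeff_lmap, PowerSeries.coeff_coe, PowerSeries.coeff_coe]
  split_ifs <;> simp

theorem lmap_comp (ψ : A' →+* A'') (l : LaurentSeries A) :
    lmap ψ (lmap φ l) = lmap (ψ.comp φ) l := by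
  ext g; simp

theorem lmap_id (l : LaurentSeries A) : lmap (RingHom.id A) l = l := by
  ext g; simp

theorem pol_lmap [Finite ι] (n : ι → ℕ) (l : ι → LaurentSeries A) :
    pol n (fun x => lmap φ (l x)) = Finsupp.mapRange φ (map_zero φ) (pol n l) := by
  ext ⟨x, k⟩
  simp [pol_apply]

theorem pol_lmap_single [Finite ι] (n : ι → ℕ) (b : ι × ℕ → ι → LaurentSeries A)
    (hb : ∀ j, pol n (b j) = Finsupp.single j 1) (j : ι × ℕ) :
    pol n (fun y => lmap φ (b j y)) = Finsupp.single j 1 := by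
  rw [pol_lmap, hb j, Finsupp.mapRange_single, map_one]

theorem lmap_beta (b : ι × ℕ → ι → LaurentSeries A) (ω : ι × ℕ →₀ A) (x : ι) :
    lmap φ (beta b ω x)
      = beta (fun j y => lmap φ (b j y)) (Finsupp.mapRange φ (map_zero φ) ω) x := by
  induction ω using Finsupp.induction_linear with
  | zero => simp
  | add f g hf hg =>
    rw [map_add, Pi.add_apply, map_add, hf, hg, Finsupp.mapRange_add (map_add φ), map_add,
      Pi.add_apply]
  | single j a =>
    rw [Finsupp.mapRange_single, beta, beta, Finsupp.linearCombination_single,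
      Finsupp.linearCombination_single, Pi.smul_apply, Pi.smul_apply, lmap_smul]

/-- **Base change**: the image of a solution is a solution. -/
theorem rhf_map (b : ι × ℕ → ι → LaurentSeries A) (U : ι → LaurentSeries A)
    (p : (ι × ℕ →₀ A) × (ι → PowerSeries A))
    (hp : ∀ x, 1 + beta b p.1 x = U x * HahnSeries.ofPowerSeries ℤ A (p.2 x)) (x : ι) :
    1 + beta (fun j y => lmap φ (b j y)) (Finsupp.mapRange φ (map_zero φ) p.1) x
      = lmap φ (U x) * HahnSeries.ofPowerSeries ℤ A' (PowerSeries.map φ (p.2 x)) := by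
  have := congrArg (lmap φ) (hp x)
  rw [map_add, map_one, lmap_beta, map_mul, lmap_ofPowerSeries] at this
  exact this

/-- **Base change + uniqueness**: any solution of the mapped problem is the image of the
solution. -/
theorem rhf_map_unique [Finite ι] (𝔞' : Ideal A') (h𝔞' : IsNilpotent 𝔞') (n : ι → ℕ)
    (b : ι × ℕ → ι → LaurentSeries A) (U : ι → LaurentSeries A)
    (hb : ∀ j, pol n (b j) = Finsupp.single j 1)
    (hU' : cTuple n (fun x => lmap φ (U x)) - 1
      ∈ 𝔞' • (⊤ : Submodule A' (ι → LaurentSeries A')))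
    (p : (ι × ℕ →₀ A) × (ι → PowerSeries A))
    (hp : ∀ x, 1 + beta b p.1 x = U x * HahnSeries.ofPowerSeries ℤ A (p.2 x))
    (p' : (ι × ℕ →₀ A') × (ι → PowerSeries A'))
    (hp' : ∀ x, 1 + beta (fun j y => lmap φ (b j y)) p'.1 x
      = lmap φ (U x) * HahnSeries.ofPowerSeries ℤ A' (p'.2 x)) :
    p'.1 = Finsupp.mapRange φ (map_zero φ) p.1 ∧ ∀ x, p'.2 x = PowerSeries.map φ (p.2 x) := by
  obtain ⟨q, -, hq⟩ := exists_unique_rhf 𝔞' n (fun j y => lmap φ (b j y))
    (fun x => lmap φ (U x)) h𝔞' (pol_lmap_single φ n b hb) hU'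
  have h1 := hq p' hp'
  have h2 := hq (Finsupp.mapRange φ (map_zero φ) p.1, fun x => PowerSeries.map φ (p.2 x))
    (rhf_map φ b U p hp)
  have h3 : p' = (Finsupp.mapRange φ (map_zero φ) p.1, fun x => PowerSeries.map φ (p.2 x)) :=
    h1.trans h2.symm
  constructor
  · rw [h3]
  · intro x; rw [h3]

/-- the image of a root is a root -/
theorem root_map (w : PowerSeries A) (ζ : A) (h : (PowerSeries A)ˣ)
    (hζ : w = (PowerSeries.X - PowerSeries.C ζ) * (h : PowerSeries A)) :
    PowerSeries.map φ w = (PowerSeries.X - PowerSeries.C (φ ζ))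
      * ((Units.map (PowerSeries.map φ : PowerSeries A →* PowerSeries A') h :
          (PowerSeries A')ˣ) : PowerSeries A') := by
  rw [hζ, map_mul, map_sub, PowerSeries.map_X, PowerSeries.map_C]
  rfl

end lmap

end Fermat.Agent.W1.RHF
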