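import Fermat.Agent.W1.RHFAbstract

/-!
# W1-RHF, Laurent form (helper94)

`A` a commutative ring, `𝔞 ⊂ A` a nilpotent ideal, `ι` a finite index set ("the points `x`"),
`n : ι → ℕ`.  `L := ι → LaurentSeries A`.

* `pol n : L →ₗ (ι × ℕ →₀ A)`: the polar part beyond order `n x`;
  `pol n l (x, k)` is the coefficient of `t ^ (-(n x + k + 1))` in `l x`.
* a *normalised family* is `b : ι × ℕ → L` with `pol n (b j) = single j 1`.
* **`exists_unique_rhf`**: if `U x * t ^ n x ≡ 1 mod 𝔞` then there is a unique pair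
  `(ω, w)`, `ω : ι × ℕ →₀ A`, `w : ι → A⟦X⟧`, with `1 + ∑ ω j • b j = U * w`.
  Moreover `ω j ∈ 𝔞` and `w x ≡ X ^ n x mod 𝔞` (coefficientwise).
-/

namespace Fermat.Agent.W1.RHF

open HahnSeries

variable {A : Type*} [CommRing A] {ι : Type*}

/-- The monomial `t ^ m` as a Laurent series. -/
noncomputable abbrev tpow (A : Type*) [CommRing A] (m : ℤ) : LaurentSeries A :=
  HahnSeries.single m (1 : A)

theorem tpow_mul_tpow (m m' : ℤ) : tpow A m * tpow A m' = tpow A (m + m') := by
  simp [tpow, HahnSeries.single_mul_single]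

theorem tpow_neg_mul_tpow (m : ℤ) : tpow A (-m) * tpow A m = 1 := by
  rw [tpow_mul_tpow]; simp [tpow]

theorem tpow_mul_tpow_neg (m : ℤ) : tpow A m * tpow A (-m) = 1 := by
  rw [tpow_mul_tpow]; simp [tpow]

theorem coeff_tpow_mul (m g : ℤ) (l : LaurentSeries A) :
    (tpow A m * l).coeff g = l.coeff (g - m) := by
  rw [tpow, HahnSeries.coeff_single_mul, one_mul]

/-- polar coefficient function: `(x, k) ↦` coefficient of `t ^ (-(n x + k + 1))` of `l x`. -/
def polFun (n : ι → ℕ) (l : ι → LaurentSeries A) (j : ι × ℕ) : A :=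
  (l j.1).coeff (-((n j.1 : ℤ) + (j.2 : ℤ) + 1))

theorem polFun_support_finite [Finite ι] (n : ι → ℕ) (l : ι → LaurentSeries A) :
    (Function.support (polFun n l)).Finite := by
  classical
  have hsub : Function.support (polFun n l) ⊆
      ⋃ x : ι, (fun k : ℕ => (x, k)) '' {k : ℕ | (k : ℤ) ≤ -(l x).order} := by
    rintro ⟨x, k⟩ hk
    simp only [Function.mem_support, polFun] at hk
    simp only [Set.mem_iUnion, Set.mem_image, Prod.mk.injEq]
    refine ⟨x, k, ?_, rfl, rfl⟩
    by_contra hlt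
    have hlt : ¬ ((k : ℤ) ≤ -(l x).order) := hlt
    rw [not_le] at hlt
    apply hk
    apply HahnSeries.coeff_eq_zero_of_lt_order
    have : (0 : ℤ) ≤ (n x : ℤ) := Int.natCast_nonneg _
    omega
  refine Set.Finite.subset (Set.finite_iUnion fun x => Set.Finite.image _ ?_) hsub
  have : {k : ℕ | (k : ℤ) ≤ -(l x).order} ⊆ (Finset.range ((-(l x).order).toNat + 1) : Set ℕ) := by
    intro k hk
    have hk : (k : ℤ) ≤ -(l x).order := hk
    simp only [Finset.coe_range, Set.mem_Iio]
    omega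
  exact (Finset.finite_toSet _).subset this

/-- The polar part beyond order `n`, as a linear map. -/
noncomputable def pol [Finite ι] (n : ι → ℕ) : (ι → LaurentSeries A) →ₗ[A] (ι × ℕ →₀ A) where
  toFun l := Finsupp.ofSupportFinite (polFun n l) (polFun_support_finite n l)
  map_add' l l' := by
    ext j
    simp [Finsupp.ofSupportFinite_coe, polFun]
  map_smul' a l := by
    ext j
    simp [Finsupp.ofSupportFinite_coe, polFun]

@[simp]
theorem pol_apply [Finite ι] (n : ι → ℕ) (l : ι → LaurentSeries A) (x : ι) (k : ℕ) :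
    pol n l (x, k) = (l x).coeff (-((n x : ℤ) + (k : ℤ) + 1)) := rfl

theorem pol_one [Finite ι] (n : ι → ℕ) : pol (A := A) n (1 : ι → LaurentSeries A) = 0 := by
  ext ⟨x, k⟩
  rw [pol_apply, Pi.one_apply, HahnSeries.coeff_one, if_neg]
  · simp
  · have : (0 : ℤ) ≤ (n x : ℤ) := Int.natCast_nonneg _
    have : (0 : ℤ) ≤ (k : ℤ) := Int.natCast_nonneg _
    omega

/-- `t ^ (-n) * (power series)` has no polar part beyond `n`. -/
theorem pol_tpow_mul_coe [Finite ι] (n : ι → ℕ) (w : ι → PowerSeries A) :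
    pol n (fun x => tpow A (-(n x : ℤ)) * HahnSeries.ofPowerSeries ℤ A (w x)) = 0 := by
  ext ⟨x, k⟩
  rw [pol_apply, coeff_tpow_mul, PowerSeries.coeff_coe, if_pos]
  · simp
  · have : (0 : ℤ) ≤ (k : ℤ) := Int.natCast_nonneg _
    omega

/-- the power series part of `t ^ n * l` -/
noncomputable def powPart (n : ι → ℕ) (l : ι → LaurentSeries A) (x : ι) : PowerSeries A :=
  PowerSeries.mk fun i => (l x).coeff ((i : ℤ) - (n x : ℤ))

theorem eq_tpow_mul_powPart [Finite ι] (n : ι → ℕ) (l : ι → LaurentSeries A)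
    (hl : pol n l = 0) (x : ι) :
    l x = tpow A (-(n x : ℤ)) * HahnSeries.ofPowerSeries ℤ A (powPart n l x) := by
  ext g
  rw [coeff_tpow_mul, PowerSeries.coeff_coe]
  split_ifs with h
  · -- g + n < 0
    have hk : g = -((n x : ℤ) + ((-g - n x - 1).toNat : ℤ) + 1) := by
      have : 0 ≤ -g - n x - 1 := by omega
      rw [Int.toNat_of_nonneg this]; ring
    have := DFunLike.congr_fun hl (x, (-g - n x - 1).toNat)
    rw [pol_apply, ← hk] at this
    simpa using this
  · rw [powPart, PowerSeries.coeff_mk]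
    congr 1
    have : 0 ≤ g - -(n x : ℤ) := by omega
    rw [Int.natAbs_of_nonneg this]; ring

theorem coe_injective' : Function.Injective (HahnSeries.ofPowerSeries ℤ A) :=
  HahnSeries.ofPowerSeries_injective

/-- multiplication by `t ^ m` is injective -/
theorem tpow_mul_injective (m : ℤ) : Function.Injective fun l : LaurentSeries A => tpow A m * l := by
  intro l l' h
  have := congrArg (fun y => tpow A (-m) * y) h
  simpa [← mul_assoc, tpow_neg_mul_tpow] using this

section smulTop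

/-- multiplication by a tuple of Laurent series, as an `A`-linear map -/
noncomputable def mulL (c : ι → LaurentSeries A) :
    (ι → LaurentSeries A) →ₗ[A] (ι → LaurentSeries A) where
  toFun l := c * l
  map_add' := mul_add c
  map_smul' a l := by
    funext x
    simp only [Pi.mul_apply, Pi.smul_apply, RingHom.id_apply]
    rw [← HahnSeries.C_mul_eq_smul, ← HahnSeries.C_mul_eq_smul]
    ring

@[simp]
theorem mulL_apply (c l : ι → LaurentSeries A) : mulL c l = c * l := rfl

/-- `𝔞 • ⊤` is an ideal of the ring of tuples of Laurent series. -/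
theorem mul_mem_smul_top (𝔞 : Ideal A) {x : ι → LaurentSeries A}
    (hx : x ∈ 𝔞 • (⊤ : Submodule A (ι → LaurentSeries A))) (y : ι → LaurentSeries A) :
    x * y ∈ 𝔞 • (⊤ : Submodule A (ι → LaurentSeries A)) := by
  have := map_mem_smul_top 𝔞 (mulL y) hx
  rwa [mulL_apply, mul_comm] at this

/-- coefficients of an element of `𝔞 • ⊤ ⊆ LaurentSeries A` lie in `𝔞` -/
theorem coeff_mem_of_mem_smul_top (𝔞 : Ideal A) {l : LaurentSeries A}
    (hl : l ∈ 𝔞 • (⊤ : Submodule A (LaurentSeries A))) (g : ℤ) : l.coeff g ∈ 𝔞 := by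
  let c : LaurentSeries A →ₗ[A] A :=
    { toFun := fun l => l.coeff g
      map_add' := fun _ _ => HahnSeries.coeff_add
      map_smul' := fun _ _ => by simp }
  have := map_mem_smul_top 𝔞 c hl
  simpa [c] using this

/-- coefficients of an element of `𝔞 • ⊤ ⊆ PowerSeries A` lie in `𝔞` -/
theorem pscoeff_mem_of_mem_smul_top (𝔞 : Ideal A) {w : PowerSeries A}
    (hw : w ∈ 𝔞 • (⊤ : Submodule A (PowerSeries A))) (i : ℕ) : PowerSeries.coeff i w ∈ 𝔞 := by
  have := map_mem_smul_top 𝔞 (PowerSeries.coeff (R := A) i) hw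
  simpa using this

/-- values of an element of `𝔞 • ⊤ ⊆ (J →₀ A)` lie in `𝔞` -/
theorem finsupp_apply_mem_of_mem_smul_top {J : Type*} (𝔞 : Ideal A) {ω : J →₀ A}
    (hω : ω ∈ 𝔞 • (⊤ : Submodule A (J →₀ A))) (j : J) : ω j ∈ 𝔞 := by
  have := map_mem_smul_top 𝔞 (Finsupp.lapply (R := A) j) hω
  simpa using this

/-- components of an element of `𝔞 • ⊤ ⊆ (ι → M)` lie in `𝔞 • ⊤` -/
theorem pi_apply_mem_of_mem_smul_top {M : Type*} [AddCommGroup M] [Module A M] (𝔞 : Ideal A)
    {f : ι → M} (hf : f ∈ 𝔞 • (⊤ : Submodule A (ι → M))) (x : ι) :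
    f x ∈ 𝔞 • (⊤ : Submodule A M) :=
  map_mem_smul_top 𝔞 (LinearMap.proj (R := A) (φ := fun _ : ι => M) x) hf

/-- a tuple with all components in `𝔞 • ⊤` lies in `𝔞 • ⊤` (finite index set) -/
theorem pi_mem_smul_top_of_forall [Finite ι] {M : Type*} [AddCommGroup M] [Module A M]
    (𝔞 : Ideal A) {f : ι → M} (hf : ∀ x, f x ∈ 𝔞 • (⊤ : Submodule A M)) :
    f ∈ 𝔞 • (⊤ : Submodule A (ι → M)) := by
  classical
  have := Fintype.ofFinite ι
  have h : f = ∑ x, (LinearMap.single A (fun _ : ι => M) x) (f x) := by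
    funext y
    simp [Finset.sum_apply, Pi.single_apply]
  rw [h]
  exact Submodule.sum_mem _ fun x _ => map_mem_smul_top 𝔞 _ (hf x)

end smulTop

section main

variable [Finite ι] (𝔞 : Ideal A) (n : ι → ℕ) (b : ι × ℕ → ι → LaurentSeries A)
  (U : ι → LaurentSeries A)

/-- the linear combination map of the family `b` -/
noncomputable abbrev beta : (ι × ℕ →₀ A) →ₗ[A] (ι → LaurentSeries A) :=
  Finsupp.linearCombination A b

theorem pol_beta (hb : ∀ j, pol n (b j) = Finsupp.single j 1) (ω : ι × ℕ →₀ A) :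
    pol n (beta b ω) = ω := by
  induction ω using Finsupp.induction_linear with
  | zero => simp
  | add f g hf hg => rw [map_add, map_add, hf, hg]
  | single j a =>
    rw [beta, Finsupp.linearCombination_single, map_smul, hb j, Finsupp.smul_single, smul_eq_mul,
      mul_one]

/-- the tuple `c x = U x * t ^ n x` -/
noncomputable def cTuple : ι → LaurentSeries A := fun x => U x * tpow A (n x)

/-- the remainder `l - β (pol l)`, which lies in `t ^ (-n) * A⟦t⟧` -/
noncomputable def rem : (ι → LaurentSeries A) →ₗ[A] (ι → LaurentSeries A) :=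
  LinearMap.id - (beta b) ∘ₗ (pol n)

theorem pol_rem (hb : ∀ j, pol n (b j) = Finsupp.single j 1) (l : ι → LaurentSeries A) :
    pol n (rem n b l) = 0 := by
  simp [rem, pol_beta n b hb]

/-- the perturbed map `Ψ l = l + (c - 1) * rem l = c * rem l + β (pol l)` -/
noncomputable def Psi : (ι → LaurentSeries A) →ₗ[A] (ι → LaurentSeries A) :=
  LinearMap.id + (mulL (cTuple n U - 1)) ∘ₗ (rem n b)

theorem Psi_apply (l : ι → LaurentSeries A) :
    Psi n b U l = cTuple n U * rem n b l + beta b (pol n l) := by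
  simp only [Psi, rem, LinearMap.add_apply, LinearMap.id_coe, id_eq, LinearMap.coe_comp,
    Function.comp_apply, mulL_apply, LinearMap.sub_apply]
  ring

theorem Psi_sub_mem (hU : cTuple n U - 1 ∈ 𝔞 • (⊤ : Submodule A (ι → LaurentSeries A)))
    (l : ι → LaurentSeries A) :
    Psi n b U l - (LinearEquiv.refl A (ι → LaurentSeries A)) l
      ∈ 𝔞 • (⊤ : Submodule A (ι → LaurentSeries A)) := by
  have : Psi n b U l - (LinearEquiv.refl A (ι → LaurentSeries A)) l
      = (cTuple n U - 1) * rem n b l := by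
    simp [Psi]
  rw [this]
  exact mul_mem_smul_top 𝔞 hU _

theorem Psi_bijective (h𝔞 : IsNilpotent 𝔞)
    (hU : cTuple n U - 1 ∈ 𝔞 • (⊤ : Submodule A (ι → LaurentSeries A))) :
    Function.Bijective (Psi n b U) :=
  bijective_of_sub_mem 𝔞 h𝔞 (LinearEquiv.refl A _) (Psi n b U) (Psi_sub_mem 𝔞 n b U hU)

/-- the pair `(ω, w)` attached to `l` -/
noncomputable def pairOf (l : ι → LaurentSeries A) : (ι × ℕ →₀ A) × (ι → PowerSeries A) :=
  (-(pol n l), powPart n (rem n b l))

/-- the element `l = t ^ (-n) * w - β ω` attached to a pair -/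
noncomputable def ofPair (p : (ι × ℕ →₀ A) × (ι → PowerSeries A)) : ι → LaurentSeries A :=
  (fun x => tpow A (-(n x : ℤ)) * HahnSeries.ofPowerSeries ℤ A (p.2 x)) - beta b p.1

theorem pol_ofPair (hb : ∀ j, pol n (b j) = Finsupp.single j 1)
    (p : (ι × ℕ →₀ A) × (ι → PowerSeries A)) : pol n (ofPair n b p) = -p.1 := by
  rw [ofPair, map_sub, pol_tpow_mul_coe, pol_beta n b hb, zero_sub]

theorem rem_ofPair (hb : ∀ j, pol n (b j) = Finsupp.single j 1)
    (p : (ι × ℕ →₀ A) × (ι → PowerSeries A)) :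
    rem n b (ofPair n b p) = fun x => tpow A (-(n x : ℤ)) * HahnSeries.ofPowerSeries ℤ A (p.2 x) := by
  have h1 : rem n b (ofPair n b p) = ofPair n b p - beta b (pol n (ofPair n b p)) := by
    simp [rem]
  rw [h1, pol_ofPair n b hb, map_neg, sub_neg_eq_add, ofPair, sub_add_cancel]

theorem cTuple_mul_tpow (x : ι) (y : LaurentSeries A) :
    cTuple n U x * (tpow A (-(n x : ℤ)) * y) = U x * y := by
  rw [cTuple, mul_assoc, ← mul_assoc (tpow A (n x)), tpow_mul_tpow_neg, one_mul]

theorem Psi_ofPair (hb : ∀ j, pol n (b j) = Finsupp.single j 1)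
    (p : (ι × ℕ →₀ A) × (ι → PowerSeries A)) :
    Psi n b U (ofPair n b p)
      = (fun x => U x * HahnSeries.ofPowerSeries ℤ A (p.2 x)) - beta b p.1 := by
  rw [Psi_apply, rem_ofPair n b hb, pol_ofPair n b hb, map_neg, ← sub_eq_add_neg]
  congr 1
  funext x
  rw [Pi.mul_apply, cTuple_mul_tpow]

theorem ofPair_injective (hb : ∀ j, pol n (b j) = Finsupp.single j 1) :
    Function.Injective (ofPair (A := A) n b) := by
  intro p p' h
  have h1 : p.1 = p'.1 := by
    have := congrArg (pol n) h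
    rw [pol_ofPair n b hb, pol_ofPair n b hb] at this
    exact neg_injective this
  have h2 : p.2 = p'.2 := by
    have := congrArg (rem n b) h
    rw [rem_ofPair n b hb, rem_ofPair n b hb] at this
    funext x
    have hx := congrFun this x
    exact coe_injective' (tpow_mul_injective _ hx)
  exact Prod.ext h1 h2

theorem ofPair_pairOf (hb : ∀ j, pol n (b j) = Finsupp.single j 1) (l : ι → LaurentSeries A) :
    ofPair n b (pairOf n b l) = l := by
  have h : (fun x => tpow A (-(n x : ℤ)) * HahnSeries.ofPowerSeries ℤ A (powPart n (rem n b l) x))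
      = rem n b l := by
    funext x
    exact (eq_tpow_mul_powPart n (rem n b l) (pol_rem n b hb l) x).symm
  rw [ofPair, pairOf]
  simp only
  rw [h, map_neg, sub_neg_eq_add]
  simp [rem]

/-- **Riemann–Hilbert factorisation modulo a nilpotent ideal.**
`b` a normalised family (`pol n (b j) = single j 1`), `U x * t ^ n x ≡ 1 mod 𝔞`.
Then there is a unique pair `(ω, w)` with `1 + ∑ ω j • b j = U * w`. -/
theorem exists_unique_rhf (h𝔞 : IsNilpotent 𝔞)
    (hb : ∀ j, pol n (b j) = Finsupp.single j 1)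
    (hU : cTuple n U - 1 ∈ 𝔞 • (⊤ : Submodule A (ι → LaurentSeries A))) :
    ∃! p : (ι × ℕ →₀ A) × (ι → PowerSeries A),
      ∀ x, 1 + beta b p.1 x = U x * HahnSeries.ofPowerSeries ℤ A (p.2 x) := by
  obtain ⟨l, hl⟩ := (Psi_bijective 𝔞 n b U h𝔞 hU).2 1
  have key : ∀ p : (ι × ℕ →₀ A) × (ι → PowerSeries A),
      (∀ x, 1 + beta b p.1 x = U x * HahnSeries.ofPowerSeries ℤ A (p.2 x))
        ↔ Psi n b U (ofPair n b p) = 1 := by
    intro p
    rw [Psi_ofPair n b U hb]
    constructor
    · intro h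
      funext x
      have := h x
      simp only [Pi.sub_apply, Pi.one_apply]
      rw [← this]; ring
    · intro h x
      have := congrFun h x
      simp only [Pi.sub_apply, Pi.one_apply] at this
      rw [← this]; ring
  refine ⟨pairOf n b l, ?_, ?_⟩
  · show ∀ x, _
    rw [key, ofPair_pairOf n b hb, hl]
  · intro p hp
    have h1 : Psi n b U (ofPair n b p) = 1 := (key p).1 hp
    have h2 : ofPair n b p = l := (Psi_bijective 𝔞 n b U h𝔞 hU).1 (h1.trans hl.symm)
    apply ofPair_injective n b hb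
    rw [h2, ofPair_pairOf n b hb]

/-- congruences for the solution: `ω j ∈ 𝔞` and `w x ≡ X ^ n x` coefficientwise mod `𝔞`. -/
theorem rhf_congr
    (hb : ∀ j, pol n (b j) = Finsupp.single j 1)
    (hU : cTuple n U - 1 ∈ 𝔞 • (⊤ : Submodule A (ι → LaurentSeries A)))
    (p : (ι × ℕ →₀ A) × (ι → PowerSeries A))
    (hp : ∀ x, 1 + beta b p.1 x = U x * HahnSeries.ofPowerSeries ℤ A (p.2 x)) :
    (∀ j, p.1 j ∈ 𝔞) ∧ ∀ x i, PowerSeries.coeff i (p.2 x - PowerSeries.X ^ n x) ∈ 𝔞 := by
  set l := ofPair n b p with hldef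
  have hΨ : Psi n b U l = 1 := by
    rw [hldef, Psi_ofPair n b U hb]
    funext x
    have := hp x
    simp only [Pi.sub_apply, Pi.one_apply]
    rw [← this]; ring
  -- l - 1 ∈ 𝔞 • ⊤
  have hl1 : l - 1 ∈ 𝔞 • (⊤ : Submodule A (ι → LaurentSeries A)) := by
    have := preimage_sub_mem 𝔞 (LinearEquiv.refl A _) (Psi n b U) (Psi_sub_mem 𝔞 n b U hU) l
    rw [hΨ] at this
    simpa using this
  constructor
  · intro j
    have h1 : pol n (l - 1) ∈ 𝔞 • (⊤ : Submodule A (ι × ℕ →₀ A)) :=
      map_mem_smul_top 𝔞 (pol n) hl1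
    rw [map_sub, pol_one, sub_zero, hldef, pol_ofPair n b hb] at h1
    have h2 := finsupp_apply_mem_of_mem_smul_top 𝔞 h1 j
    simpa using h2
  · intro x i
    have h1 : rem n b (l - 1) ∈ 𝔞 • (⊤ : Submodule A (ι → LaurentSeries A)) :=
      map_mem_smul_top 𝔞 (rem n b) hl1
    have h2 : rem n b (1 : ι → LaurentSeries A) = 1 := by
      simp [rem, pol_one]
    rw [map_sub, h2, hldef, rem_ofPair n b hb] at h1
    have h3 := pi_apply_mem_of_mem_smul_top 𝔞 h1 x
    simp only [Pi.sub_apply, Pi.one_apply] at h3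
    have h4 := coeff_mem_of_mem_smul_top 𝔞 h3 ((i : ℤ) - (n x : ℤ))
    rw [HahnSeries.coeff_sub, coeff_tpow_mul, PowerSeries.coeff_coe, if_neg (by omega),
      HahnSeries.coeff_one] at h4
    have e1 : ((i : ℤ) - (n x : ℤ) - -(n x : ℤ)).natAbs = i := by
      have : (i : ℤ) - (n x : ℤ) - -(n x : ℤ) = (i : ℤ) := by ring
      rw [this, Int.natAbs_natCast]
    rw [e1] at h4
    rw [map_sub, PowerSeries.coeff_X_pow]
    have e2 : ((i : ℤ) - (n x : ℤ) = 0) ↔ i = n x := by omega
    simp only [e2] at h4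
    exact h4

end main

end Fermat.Agent.W1.RHF
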