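import Fermat.Agent.W1.SubQuotBasic

/-!
# W1-SQ, part 2: linear algebra of a separating lattice of equivariant functions

For a finite set `M` and an `R`-subalgebra `H ⊂ Map(M, ℚ̄)` (`R ⊂ ℚ` a PID with fraction field `ℚ`)
which is finitely generated, Galois equivariant and separates points:

* `sq_span_top`      : the `ℚ̄`-span of `H` is the space of all functions;
* `sq_exists_basis`  : `H` has an `R`-basis which is linearly independent over `ℚ̄`;
* `sq_exists_smul_mem` : every Galois equivariant function has a non-zero integer multiple in `H`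
  (`ℚ H = Map_G(M, ℚ̄)`).
-/

set_option autoImplicit false
set_option linter.unusedSectionVars false
set_option linter.unusedSimpArgs false
set_option linter.style.haveILetI false

namespace Fermat.Agent.W1

section SpanTop

variable {R : Subring ℚ} {M : Type}

/-- The `ℚ̄`-span of a subalgebra is a `ℚ̄`-subalgebra. -/
theorem sq_span_eq_adjoin (H : Subalgebra R (M → AlgebraicClosure ℚ)) :
    Submodule.span (AlgebraicClosure ℚ) (H : Set (M → AlgebraicClosure ℚ)) =
      Subalgebra.toSubmodule
        (Algebra.adjoin (AlgebraicClosure ℚ) (H : Set (M → AlgebraicClosure ℚ))) := by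
  rw [Algebra.adjoin_eq_span]
  congr 1
  have h1 : ((H.toSubsemiring.toSubmonoid : Submonoid (M → AlgebraicClosure ℚ)) :
      Set (M → AlgebraicClosure ℚ)) = (H : Set (M → AlgebraicClosure ℚ)) := rfl
  rw [← h1, Submonoid.closure_eq]

/-- Over a finite set, the `ℚ̄`-span of a separating subalgebra is everything. -/
theorem sq_span_top [Finite M] (H : Subalgebra R (M → AlgebraicClosure ℚ))
    (hsep : ∀ P Q : M, (∀ h ∈ H, h P = h Q) → P = Q) :
    Submodule.span (AlgebraicClosure ℚ) (H : Set (M → AlgebraicClosure ℚ)) = ⊤ := by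
  classical
  haveI : Fintype M := Fintype.ofFinite M
  rw [sq_span_eq_adjoin]
  set A := Algebra.adjoin (AlgebraicClosure ℚ) (H : Set (M → AlgebraicClosure ℚ)) with hA
  -- separating functions
  have hex : ∀ P Q : M, P ≠ Q → ∃ h ∈ H, h P ≠ h Q := by
    intro P Q hPQ
    by_contra hcon
    refine hPQ (hsep P Q fun h hh => ?_)
    by_contra hne
    exact hcon ⟨h, hh, hne⟩
  -- the indicator functions
  have hind : ∀ P : M, (fun x => if x = P then (1 : AlgebraicClosure ℚ) else 0) ∈ A := by
    intro P
    -- a factor for every `Q ≠ P`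
    have hfac : ∀ Q : M, ∃ g ∈ A, g P = 1 ∧ (Q ≠ P → g Q = 0) := by
      intro Q
      by_cases hQ : Q = P
      · exact ⟨1, A.one_mem, rfl, fun h => absurd hQ h⟩
      · obtain ⟨h, hh, hne⟩ := hex P Q (Ne.symm hQ)
        have hne' : h P - h Q ≠ 0 := sub_ne_zero.2 hne
        refine ⟨(h P - h Q)⁻¹ • (h - algebraMap (AlgebraicClosure ℚ) _ (h Q)),
          A.smul_mem (A.sub_mem (Algebra.subset_adjoin hh) (A.algebraMap_mem _)) _, ?_, ?_⟩
        · simp [Pi.algebraMap_apply, hne']
        · intro _
          simp [Pi.algebraMap_apply]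
    choose g hgA hgP hgQ using hfac
    have h1 : (∏ Q ∈ Finset.univ.erase P, g Q) ∈ A := A.prod_mem fun Q _ => hgA Q
    convert h1 using 1
    funext x
    rw [Finset.prod_apply]
    by_cases hx : x = P
    · subst hx
      rw [if_pos rfl]
      symm
      refine Finset.prod_eq_one fun Q hQ => ?_
      by_cases hQx : Q = x
      · exact absurd hQx (Finset.ne_of_mem_erase hQ)
      · -- `g Q x` where `x = P`
        exact hgP Q
    · rw [if_neg hx]
      symm
      refine Finset.prod_eq_zero (Finset.mem_erase.2 ⟨hx, Finset.mem_univ x⟩) ?_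
      exact hgQ x hx
  rw [eq_top_iff]
  intro f _
  have hf : f = ∑ P : M, f P • (fun x => if x = P then (1 : AlgebraicClosure ℚ) else 0) := by
    funext x
    simp [Finset.sum_apply]
  rw [hf]
  exact (Subalgebra.mem_toSubmodule A).2 (A.sum_mem fun P _ => A.smul_mem (hind P) _)

end SpanTop

section Basis

variable {R : Subring ℚ} {M : Type} [AddCommGroup M]
  {act : (AlgebraicClosure ℚ ≃ₐ[ℚ] AlgebraicClosure ℚ) → M → M}
  {H : Subalgebra R (M → AlgebraicClosure ℚ)}
  [IsPrincipalIdealRing R] [IsFractionRing R ℚ]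

/-- A finitely generated lattice of equivariant functions has an `R`-basis which is linearly
independent over `ℚ̄`. -/
theorem sq_exists_basis (hfg : (Subalgebra.toSubmodule H).FG)
    (hequiv : ∀ h ∈ H, ∀ (σ : AlgebraicClosure ℚ ≃ₐ[ℚ] AlgebraicClosure ℚ) (P : M),
      h (act σ P) = σ (h P)) :
    ∃ (n : ℕ) (b : Module.Basis (Fin n) R H),
      LinearIndependent (AlgebraicClosure ℚ)
        (fun i => ((b i : H) : M → AlgebraicClosure ℚ)) := by
  haveI : Module.Finite R H := Module.Finite.iff_fg.2 hfg
  haveI : Module.IsTorsionFree R H := isTorsionFree_lattice H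
  haveI : Module.Free R H := Module.free_of_finite_type_torsion_free'
  refine ⟨_, Module.finBasis R H, ?_⟩
  set b := Module.finBasis R H
  have h1 : LinearIndependent R (fun i => ((b i : H) : M → AlgebraicClosure ℚ)) := by
    have := b.linearIndependent.map' (Subalgebra.toSubmodule H).subtype
      (Submodule.ker_subtype _)
    exact this
  have h2 : LinearIndependent ℚ (fun i => ((b i : H) : M → AlgebraicClosure ℚ)) :=
    (LinearIndependent.iff_fractionRing R ℚ).1 h1
  exact linearIndependent_qbar_of_rat act _ (fun i σ x => hequiv _ (b i).2 σ x) h2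

/-- An `R`-basis of a separating lattice spans all functions over `ℚ̄`. -/
theorem sq_basis_span_top [Finite M] (hsep : ∀ P Q : M, (∀ h ∈ H, h P = h Q) → P = Q)
    {n : ℕ} (b : Module.Basis (Fin n) R H) :
    Submodule.span (AlgebraicClosure ℚ)
      (Set.range fun i => ((b i : H) : M → AlgebraicClosure ℚ)) = ⊤ := by
  rw [eq_top_iff, ← sq_span_top H hsep, Submodule.span_le]
  intro h hh
  have h1 : (⟨h, hh⟩ : H) = ∑ i, b.repr ⟨h, hh⟩ i • b i := (b.sum_repr _).symm
  have h2 : h = ∑ i, (algebraMap R (AlgebraicClosure ℚ) (b.repr ⟨h, hh⟩ i)) •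
      ((b i : H) : M → AlgebraicClosure ℚ) := by
    have h3 := congrArg (fun x : H => (x : M → AlgebraicClosure ℚ)) h1
    simp only [AddSubmonoidClass.coe_finsetSum] at h3
    refine h3.trans ?_
    refine Finset.sum_congr rfl fun i _ => ?_
    funext x
    simp [Algebra.smul_def]
  rw [h2]
  exact Submodule.sum_mem _ fun i _ =>
    Submodule.smul_mem _ _ (Submodule.subset_span ⟨i, rfl⟩)

/-- **`ℚ H = Map_G(M, ℚ̄)`**: every Galois equivariant function has a non-zero integer multiple
in a separating lattice `H`. -/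
theorem sq_exists_smul_mem [Finite M] (hfg : (Subalgebra.toSubmodule H).FG)
    (hequiv : ∀ h ∈ H, ∀ (σ : AlgebraicClosure ℚ ≃ₐ[ℚ] AlgebraicClosure ℚ) (P : M),
      h (act σ P) = σ (h P))
    (hsep : ∀ P Q : M, (∀ h ∈ H, h P = h Q) → P = Q)
    (f : M → AlgebraicClosure ℚ)
    (hf : ∀ (σ : AlgebraicClosure ℚ ≃ₐ[ℚ] AlgebraicClosure ℚ) (P : M),
      f (act σ P) = σ (f P)) :
    ∃ d : ℕ, d ≠ 0 ∧ d • f ∈ H := by
  classical
  obtain ⟨n, b, hli⟩ := sq_exists_basis hfg hequiv
  have hspan := sq_basis_span_top hsep b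
  set v : Fin n → M → AlgebraicClosure ℚ := fun i => ((b i : H) : M → AlgebraicClosure ℚ)
    with hv
  have hfmem : f ∈ Submodule.span (AlgebraicClosure ℚ) (Set.range v) := by
    rw [hspan]; trivial
  obtain ⟨c, hc⟩ := (Submodule.mem_span_range_iff_exists_fun (AlgebraicClosure ℚ)).1 hfmem
  -- the coefficients are Galois invariant
  have hfix : ∀ (σ : AlgebraicClosure ℚ ≃ₐ[ℚ] AlgebraicClosure ℚ) (i : Fin n),
      σ (c i) = c i := by
    intro σ
    have h1 : ∑ i, σ (c i) • v i = f := by
      funext x
      have h2 := congrFun hc (act σ.symm x)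
      simp only [Finset.sum_apply, Pi.smul_apply, smul_eq_mul] at h2 ⊢
      have h3 := congrArg σ h2
      rw [hf σ.symm x] at h3
      simp only [map_sum, map_mul, AlgEquiv.apply_symm_apply] at h3
      rw [← h3]
      refine Finset.sum_congr rfl fun i _ => ?_
      have h5 : v i (act σ.symm x) = σ.symm (v i x) := hequiv _ (b i).2 σ.symm x
      rw [h5]
      simp
    have h4 : ∑ i, (σ (c i) - c i) • v i = 0 := by
      simp only [sub_smul, Finset.sum_sub_distrib, h1, hc, sub_self]
    intro i
    exact sub_eq_zero.1 (Fintype.linearIndependent_iff.1 hli _ h4 i)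
  choose q hq using fun i => w1_exists_rat_of_fixed (c i) (fun σ => hfix σ i)
  -- clear denominators
  refine ⟨∏ i, (q i).den, ?_, ?_⟩
  · exact Finset.prod_ne_zero_iff.2 fun i _ => (q i).den_ne_zero
  · set d : ℕ := ∏ i, (q i).den with hd
    have hz : ∀ i, ∃ z : ℤ, (d : ℚ) * q i = z := by
      intro i
      obtain ⟨e, he⟩ : (q i).den ∣ d := Finset.dvd_prod_of_mem _ (Finset.mem_univ i)
      refine ⟨e * (q i).num, ?_⟩
      rw [he]
      push_cast
      have := Rat.den_mul_eq_num (q i)
      calc ((q i).den : ℚ) * e * q i = e * ((q i).den * q i) := by ring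
        _ = e * (q i).num := by rw [this]
    choose z hz using hz
    have h5 : d • f = ∑ i, z i • v i := by
      rw [← hc, Finset.smul_sum]
      refine Finset.sum_congr rfl fun i _ => ?_
      funext x
      simp only [Pi.smul_apply, smul_eq_mul, nsmul_eq_mul, zsmul_eq_mul]
      rw [← hq i]
      have h6 := congrArg (algebraMap ℚ (AlgebraicClosure ℚ)) (hz i)
      simp only [map_mul, map_natCast, map_intCast] at h6
      rw [← mul_assoc, h6]
    rw [h5]
    exact H.sum_mem fun i _ => H.zsmul_mem (b i).2 _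

end Basis

end Fermat.Agent.W1
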