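import Fermat.Agent.W1.SubQuotLin

/-!
# W1-SQ, part 3: quotients of Hopf lattices (SQ2)

`sq_quot`: if `H` is a Hopf lattice on the finite group `M` and `π : M → M''` is a surjective
equivariant additive map, then `H'' = {φ : M'' → ℚ̄ | φ ∘ π ∈ H}` is a Hopf lattice on `M''`.

* finitely generated: `R` is noetherian;
* separation: the traces `P'' ↦ ∑_{π x = P''} h x` are equivariant, hence have a multiple in
  `H''` (`sq_exists_smul_mem`), and they separate points because `H` spans all functions;
* comultiplication: `H''` is saturated in `H`; expand `(P, Q) ↦ h (P + Q)` in `ℚ̄`-linearly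
  independent `R`-bases and use the invariance under the kernel of `π` in each variable.
-/

set_option autoImplicit false
set_option linter.unusedSectionVars false
set_option linter.unusedSimpArgs false
set_option linter.style.haveILetI false

namespace Fermat.Agent.W1

section Quot

variable {R : Subring ℚ} {M M'' : Type} [AddCommGroup M] [AddCommGroup M'']
  {act : (AlgebraicClosure ℚ ≃ₐ[ℚ] AlgebraicClosure ℚ) → M → M}
  {act'' : (AlgebraicClosure ℚ ≃ₐ[ℚ] AlgebraicClosure ℚ) → M'' → M''}
  {H : Subalgebra R (M → AlgebraicClosure ℚ)}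

/-- Pull-back along a surjective map is injective. -/
theorem sq_pull_injective {π : M → M''} (hπ : Function.Surjective π) :
    Function.Injective (pullFn R π) := by
  intro f g hfg
  funext P''
  obtain ⟨P, rfl⟩ := hπ P''
  exact congrFun hfg P

theorem sq_mem_comap {π : M → M''} {φ : M'' → AlgebraicClosure ℚ} :
    φ ∈ H.comap (pullFn R π) ↔ (fun P => φ (π P)) ∈ H := Iff.rfl

/-- The action is by permutations (1). -/
theorem sq_act_symm_act
    (hequiv : ∀ h ∈ H, ∀ (σ : AlgebraicClosure ℚ ≃ₐ[ℚ] AlgebraicClosure ℚ) (P : M),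
      h (act σ P) = σ (h P))
    (hsep : ∀ P Q : M, (∀ h ∈ H, h P = h Q) → P = Q)
    (σ : AlgebraicClosure ℚ ≃ₐ[ℚ] AlgebraicClosure ℚ) (P : M) :
    act σ.symm (act σ P) = P := by
  refine hsep _ _ fun h hh => ?_
  rw [hequiv h hh, hequiv h hh]
  simp

/-- The action is by permutations (2). -/
theorem sq_act_act_symm
    (hequiv : ∀ h ∈ H, ∀ (σ : AlgebraicClosure ℚ ≃ₐ[ℚ] AlgebraicClosure ℚ) (P : M),
      h (act σ P) = σ (h P))
    (hsep : ∀ P Q : M, (∀ h ∈ H, h P = h Q) → P = Q)
    (σ : AlgebraicClosure ℚ ≃ₐ[ℚ] AlgebraicClosure ℚ) (P : M) :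
    act σ (act σ.symm P) = P := by
  refine hsep _ _ fun h hh => ?_
  rw [hequiv h hh, hequiv h hh]
  simp

/-- The sum of a function over the fibres of `π`. -/
noncomputable def sqTrace [Fintype M] [DecidableEq M''] (π : M → M'')
    (h : M → AlgebraicClosure ℚ) : M'' → AlgebraicClosure ℚ :=
  fun P'' => ∑ x ∈ Finset.univ.filter (fun x => π x = P''), h x

/-- The trace of an element of `H` is equivariant. -/
theorem sq_trace_equivariant [Fintype M] [DecidableEq M'']
    (hequiv : ∀ h ∈ H, ∀ (σ : AlgebraicClosure ℚ ≃ₐ[ℚ] AlgebraicClosure ℚ) (P : M),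
      h (act σ P) = σ (h P))
    (hsep : ∀ P Q : M, (∀ h ∈ H, h P = h Q) → P = Q)
    {π : M → M''} (hπ : Function.Surjective π)
    (hπequiv : ∀ σ P, π (act σ P) = act'' σ (π P))
    (h : M → AlgebraicClosure ℚ) (hh : h ∈ H)
    (σ : AlgebraicClosure ℚ ≃ₐ[ℚ] AlgebraicClosure ℚ) (P'' : M'') :
    sqTrace π h (act'' σ P'') = σ (sqTrace π h P'') := by
  unfold sqTrace
  rw [map_sum]
  symm
  refine Finset.sum_nbij' (fun x => act σ x) (fun y => act σ.symm y) ?_ ?_ ?_ ?_ ?_
  · intro a ha
    simp only [Finset.mem_filter, Finset.mem_univ, true_and] at ha ⊢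
    rw [hπequiv, ha]
  · intro y hy
    simp only [Finset.mem_filter, Finset.mem_univ, true_and] at hy ⊢
    obtain ⟨x₀, rfl⟩ := hπ P''
    rw [hπequiv, hy, ← hπequiv, ← hπequiv, sq_act_symm_act hequiv hsep]
  · intro a _
    exact sq_act_symm_act hequiv hsep σ a
  · intro y _
    exact sq_act_act_symm hequiv hsep σ y
  · intro a _
    exact (hequiv h hh σ a).symm

variable [IsPrincipalIdealRing R] [IsFractionRing R ℚ]

/-- The quotient lattice is finitely generated. -/
theorem sq_quot_fg (hfg : (Subalgebra.toSubmodule H).FG) {π : M → M''}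
    (hπ : Function.Surjective π) :
    (Subalgebra.toSubmodule (H.comap (pullFn R π))).FG := by
  haveI : IsNoetherian R (Subalgebra.toSubmodule H) := isNoetherian_of_fg_of_noetherian _ hfg
  refine Submodule.fg_of_fg_map_injective (pullFn R π).toLinearMap
    (sq_pull_injective (R := R) hπ) ?_
  have hle : (Subalgebra.toSubmodule (H.comap (pullFn R π))).map (pullFn R π).toLinearMap ≤
      Subalgebra.toSubmodule H := by
    rintro _ ⟨f, hf, rfl⟩
    exact hf
  exact isNoetherian_submodule.1 inferInstance _ hle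

/-- The quotient lattice is equivariant. -/
theorem sq_quot_equivariant
    (hequiv : ∀ h ∈ H, ∀ (σ : AlgebraicClosure ℚ ≃ₐ[ℚ] AlgebraicClosure ℚ) (P : M),
      h (act σ P) = σ (h P))
    {π : M → M''} (hπ : Function.Surjective π)
    (hπequiv : ∀ σ P, π (act σ P) = act'' σ (π P)) :
    ∀ φ ∈ H.comap (pullFn R π), ∀ (σ : AlgebraicClosure ℚ ≃ₐ[ℚ] AlgebraicClosure ℚ) (P : M''),
      φ (act'' σ P) = σ (φ P) := by
  intro φ hφ σ P''
  obtain ⟨P, rfl⟩ := hπ P''
  rw [← hπequiv]
  exact hequiv _ hφ σ P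

/-- The quotient lattice separates points. -/
theorem sq_quot_separates [Finite M] (hfg : (Subalgebra.toSubmodule H).FG)
    (hequiv : ∀ h ∈ H, ∀ (σ : AlgebraicClosure ℚ ≃ₐ[ℚ] AlgebraicClosure ℚ) (P : M),
      h (act σ P) = σ (h P))
    (hsep : ∀ P Q : M, (∀ h ∈ H, h P = h Q) → P = Q)
    {π : M → M''} (hπ : Function.Surjective π)
    (hπequiv : ∀ σ P, π (act σ P) = act'' σ (π P)) :
    ∀ P Q : M'', (∀ φ ∈ H.comap (pullFn R π), φ P = φ Q) → P = Q := by
  classical
  haveI : Fintype M := Fintype.ofFinite M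
  intro P'' Q'' hPQ
  by_contra hne
  -- traces agree
  have htr : ∀ h ∈ H, sqTrace π h P'' = sqTrace π h Q'' := by
    intro h hh
    have he : ∀ (σ : AlgebraicClosure ℚ ≃ₐ[ℚ] AlgebraicClosure ℚ) (P : M),
        (fun P => sqTrace π h (π P)) (act σ P) = σ ((fun P => sqTrace π h (π P)) P) := by
      intro σ P
      show sqTrace π h (π (act σ P)) = σ (sqTrace π h (π P))
      rw [hπequiv]
      exact sq_trace_equivariant hequiv hsep hπ hπequiv h hh σ (π P)
    obtain ⟨d, hd0, hd⟩ := sq_exists_smul_mem hfg hequiv hsep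
      (fun P => sqTrace π h (π P)) he
    have h1 : d • sqTrace π h ∈ H.comap (pullFn R π) := by
      rw [sq_mem_comap]
      exact hd
    have h2 := hPQ _ h1
    simp only [Pi.smul_apply, nsmul_eq_mul] at h2
    have hdK : (d : AlgebraicClosure ℚ) ≠ 0 := Nat.cast_ne_zero.2 hd0
    exact mul_left_cancel₀ hdK h2
  -- the linear functional
  let L : (M → AlgebraicClosure ℚ) →ₗ[AlgebraicClosure ℚ] AlgebraicClosure ℚ :=
    { toFun := fun f => sqTrace π f P'' - sqTrace π f Q''
      map_add' := by
        intro f g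
        simp only [sqTrace, Pi.add_apply, Finset.sum_add_distrib]
        ring
      map_smul' := by
        intro c f
        simp only [sqTrace, Pi.smul_apply, smul_eq_mul, ← Finset.mul_sum, RingHom.id_apply]
        ring }
  have hL : Submodule.span (AlgebraicClosure ℚ) (H : Set (M → AlgebraicClosure ℚ)) ≤
      LinearMap.ker L := by
    rw [Submodule.span_le]
    intro h hh
    rw [SetLike.mem_coe, LinearMap.mem_ker]
    show sqTrace π h P'' - sqTrace π h Q'' = 0
    rw [htr h hh, sub_self]
  rw [sq_span_top H hsep] at hL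
  have h3 : L (fun x => if π x = P'' then 1 else 0) = 0 :=
    LinearMap.mem_ker.1 (hL trivial)
  have h4 : L (fun x => if π x = P'' then 1 else 0) =
      ((Finset.univ.filter (fun x => π x = P'')).card : AlgebraicClosure ℚ) := by
    show sqTrace π _ P'' - sqTrace π _ Q'' = _
    have h5 : sqTrace π (fun x => if π x = P'' then (1 : AlgebraicClosure ℚ) else 0) P'' =
        ((Finset.univ.filter (fun x => π x = P'')).card : AlgebraicClosure ℚ) := by
      unfold sqTrace
      rw [Finset.sum_congr rfl (g := fun _ => (1 : AlgebraicClosure ℚ))]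
      · simp
      · intro x hx
        simp only [Finset.mem_filter, Finset.mem_univ, true_and] at hx
        show (if π x = P'' then (1 : AlgebraicClosure ℚ) else 0) = 1
        rw [if_pos hx]
    have h6 : sqTrace π (fun x => if π x = P'' then (1 : AlgebraicClosure ℚ) else 0) Q'' = 0 := by
      unfold sqTrace
      refine Finset.sum_eq_zero fun x hx => ?_
      simp only [Finset.mem_filter, Finset.mem_univ, true_and] at hx
      show (if π x = P'' then (1 : AlgebraicClosure ℚ) else 0) = 0
      rw [if_neg]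
      intro h7
      exact hne (h7.symm.trans hx)
    rw [h5, h6, sub_zero]
  rw [h4] at h3
  obtain ⟨x₀, hx₀⟩ := hπ P''
  have h8 : (Finset.univ.filter (fun x => π x = P'')).card ≠ 0 := by
    refine Finset.card_ne_zero.2 ⟨x₀, ?_⟩
    simp [hx₀]
  exact h8 (Nat.cast_eq_zero.1 h3)

omit [IsPrincipalIdealRing R] [IsFractionRing R ℚ] [AddCommGroup M] in
/-- Evaluation of a scalar multiple in a lattice. -/
theorem sq_coe_smul_apply (H : Subalgebra R (M → AlgebraicClosure ℚ)) (r : R) (h : H) (Q : M) :
    ((r • h : H) : M → AlgebraicClosure ℚ) Q =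
      algebraMap R (AlgebraicClosure ℚ) r * (h : M → AlgebraicClosure ℚ) Q := by
  show (r • (h : M → AlgebraicClosure ℚ)) Q = _
  rw [Pi.smul_apply, Algebra.smul_def]

/-- Comparison of coefficients with respect to a linearly independent family. -/
theorem sq_coeff_eq {X Y : Type} {n : ℕ} (v : Fin n → Y → AlgebraicClosure ℚ)
    (hv : LinearIndependent (AlgebraicClosure ℚ) v)
    (g : Fin n → X → AlgebraicClosure ℚ) (x x' : X)
    (h : ∀ y, ∑ j, g j x * v j y = ∑ j, g j x' * v j y) : ∀ j, g j x = g j x' := by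
  have h1 : ∑ j, (g j x - g j x') • v j = 0 := by
    funext y
    simp only [Finset.sum_apply, Pi.smul_apply, smul_eq_mul, Pi.zero_apply, sub_mul,
      Finset.sum_sub_distrib]
    rw [h y, sub_self]
  intro j
  exact sub_eq_zero.1 (Fintype.linearIndependent_iff.1 hv _ h1 j)

/-- A function invariant under translation by the kernel of `π` factors through `π`. -/
theorem sq_descend (π : M →+ M'') (hπ : Function.Surjective π)
    (g : M → AlgebraicClosure ℚ)
    (hinv : ∀ P m, π m = 0 → g (P + m) = g P) :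
    ∃ g'' : M'' → AlgebraicClosure ℚ, ∀ P, g'' (π P) = g P := by
  refine ⟨fun P'' => g (Function.surjInv hπ P''), fun P => ?_⟩
  have h1 : π (Function.surjInv hπ (π P)) = π P := Function.surjInv_eq hπ _
  have h2 : π (P - Function.surjInv hπ (π P)) = 0 := by rw [map_sub, h1, sub_self]
  have h3 := hinv (Function.surjInv hπ (π P)) _ h2
  rw [add_sub_cancel] at h3
  exact h3.symm

/-- The quotient lattice is closed under the comultiplication. -/
theorem sq_quot_comul [Finite M] (hH : IsHopfLattice R act H) (π : M →+ M'')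
    (hπ : Function.Surjective π) (hπequiv : ∀ σ P, π (act σ P) = act'' σ (π P)) :
    ∀ φ ∈ H.comap (pullFn R π), (fun PQ : M'' × M'' => φ (PQ.1 + PQ.2)) ∈
      Submodule.span R {F : M'' × M'' → AlgebraicClosure ℚ |
        ∃ a ∈ H.comap (pullFn R π), ∃ b ∈ H.comap (pullFn R π),
          F = fun PQ => a PQ.1 * b PQ.2} := by
  classical
  intro φ hφ
  obtain ⟨n, y, hy⟩ := sq_exists_basis hH.fg hH.equivariant
  have hfg'' := sq_quot_fg hH.fg hπ
  have hequiv'' := sq_quot_equivariant (act'' := act'') hH.equivariant hπ hπequiv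
  obtain ⟨k, u, hu⟩ := sq_exists_basis hfg'' hequiv''
  -- the pulled back basis of `H''` is linearly independent on `M`
  have hu' : LinearIndependent (AlgebraicClosure ℚ)
      (fun i => fun P : M => ((u i : H.comap (pullFn R π)) : M'' → AlgebraicClosure ℚ) (π P)) := by
    have h1 := hu.map' (LinearMap.funLeft (AlgebraicClosure ℚ) (AlgebraicClosure ℚ) π)
      (LinearMap.ker_eq_bot.2 (LinearMap.funLeft_injective_of_surjective _ _ π hπ))
    exact h1
  -- Step 1: expansion of `F` in the second variable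
  have hstep1 : ∀ F ∈ Submodule.span R {F : M × M → AlgebraicClosure ℚ |
      ∃ a ∈ H, ∃ b ∈ H, F = fun PQ => a PQ.1 * b PQ.2},
      ∃ g : Fin n → M → AlgebraicClosure ℚ, (∀ j, g j ∈ H) ∧
        ∀ P Q, F (P, Q) = ∑ j, g j P * ((y j : H) : M → AlgebraicClosure ℚ) Q := by
    intro F hF
    induction hF using Submodule.span_induction with
    | mem F hF =>
      obtain ⟨a, ha, b, hb, rfl⟩ := hF
      refine ⟨fun j => y.repr ⟨b, hb⟩ j • a, fun j => H.smul_mem ha _, fun P Q => ?_⟩
      have h1 : (⟨b, hb⟩ : H) = ∑ j, y.repr ⟨b, hb⟩ j • y j := (y.sum_repr _).symm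
      have h2 := congrArg (fun x : H => (x : M → AlgebraicClosure ℚ) Q) h1
      simp only [AddSubmonoidClass.coe_finsetSum, Finset.sum_apply] at h2
      show a P * b Q = _
      rw [h2, Finset.mul_sum]
      refine Finset.sum_congr rfl fun j _ => ?_
      rw [sq_coe_smul_apply]
      show _ = (y.repr ⟨b, hb⟩ j • a) P * _
      rw [Pi.smul_apply, Algebra.smul_def]
      ring
    | zero =>
      exact ⟨fun _ => 0, fun _ => H.zero_mem, fun P Q => by simp⟩
    | add F G _ _ hF hG =>
      obtain ⟨g, hg, hgF⟩ := hF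
      obtain ⟨g', hg', hgG⟩ := hG
      refine ⟨fun j => g j + g' j, fun j => H.add_mem (hg j) (hg' j), fun P Q => ?_⟩
      simp only [Pi.add_apply, hgF, hgG, add_mul, Finset.sum_add_distrib]
    | smul r F _ hF =>
      obtain ⟨g, hg, hgF⟩ := hF
      refine ⟨fun j => r • g j, fun j => H.smul_mem (hg j) _, fun P Q => ?_⟩
      simp only [Pi.smul_apply, hgF, Algebra.smul_def]
      rw [Finset.mul_sum]
      refine Finset.sum_congr rfl fun j _ => ?_
      ring
  obtain ⟨g, hg, hgF⟩ := hstep1 _ (hH.comul_mem _ hφ)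
  have hF : ∀ P Q : M, φ (π (P + Q)) = ∑ j, g j P * ((y j : H) : M → AlgebraicClosure ℚ) Q :=
    fun P Q => hgF P Q
  -- Step 2: the `g j` are invariant under the kernel
  have hginv : ∀ j P m, π m = 0 → g j (P + m) = g j P := by
    intro j P m hm
    refine sq_coeff_eq _ hy g (P + m) P (fun Q => ?_) j
    rw [← hF, ← hF]
    congr 1
    rw [map_add, map_add, map_add, hm, add_zero]
  choose g'' hg'' using fun j => sq_descend π hπ (g j) (hginv j)
  have hg''mem : ∀ j, g'' j ∈ H.comap (pullFn R π) := by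
    intro j
    rw [sq_mem_comap]
    have : (fun P => g'' j (π P)) = g j := funext (hg'' j)
    rw [this]
    exact hg j
  -- Step 3: expansion in the basis of `H''`
  have hexp : ∀ j (P'' : M''), g'' j P'' =
      ∑ i, algebraMap R (AlgebraicClosure ℚ) (u.repr ⟨g'' j, hg''mem j⟩ i) *
        ((u i : H.comap (pullFn R π)) : M'' → AlgebraicClosure ℚ) P'' := by
    intro j P''
    have h1 : (⟨g'' j, hg''mem j⟩ : H.comap (pullFn R π)) =
        ∑ i, u.repr ⟨g'' j, hg''mem j⟩ i • u i := (u.sum_repr _).symm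
    have h2 := congrArg
      (fun x : H.comap (pullFn R π) => (x : M'' → AlgebraicClosure ℚ) P'') h1
    simp only [AddSubmonoidClass.coe_finsetSum, Finset.sum_apply] at h2
    refine h2.trans ?_
    refine Finset.sum_congr rfl fun i _ => ?_
    exact sq_coe_smul_apply _ _ _ _
  set kk : Fin k → M → AlgebraicClosure ℚ := fun i =>
    ∑ j, u.repr ⟨g'' j, hg''mem j⟩ i • ((y j : H) : M → AlgebraicClosure ℚ) with hkk
  have hkkmem : ∀ i, kk i ∈ H := fun i =>
    H.sum_mem fun j _ => H.smul_mem (y j).2 _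
  have hF2 : ∀ P Q : M, φ (π (P + Q)) =
      ∑ i, kk i Q * ((u i : H.comap (pullFn R π)) : M'' → AlgebraicClosure ℚ) (π P) := by
    intro P Q
    rw [hF]
    have h1 : ∀ j, g j P = ∑ i, algebraMap R (AlgebraicClosure ℚ) (u.repr ⟨g'' j, hg''mem j⟩ i) *
        ((u i : H.comap (pullFn R π)) : M'' → AlgebraicClosure ℚ) (π P) := by
      intro j
      rw [← hg'' j P, hexp]
    simp only [h1, hkk, Finset.sum_apply, Pi.smul_apply, Algebra.smul_def, Finset.sum_mul]
    rw [Finset.sum_comm]
    refine Finset.sum_congr rfl fun i _ => ?_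
    refine Finset.sum_congr rfl fun j _ => ?_
    rw [Pi.mul_apply, Pi.algebraMap_apply]
    ring
  -- Step 4: the `kk i` are invariant under the kernel
  have hkinv : ∀ i Q m, π m = 0 → kk i (Q + m) = kk i Q := by
    intro i Q m hm
    refine sq_coeff_eq _ hu' kk (Q + m) Q (fun P => ?_) i
    show ∑ i, kk i (Q + m) * ((u i : H.comap (pullFn R π)) : M'' → AlgebraicClosure ℚ) (π P) =
      ∑ i, kk i Q * ((u i : H.comap (pullFn R π)) : M'' → AlgebraicClosure ℚ) (π P)
    rw [← hF2, ← hF2]
    congr 1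
    rw [map_add, map_add, map_add, hm, add_zero]
  choose k'' hk'' using fun i => sq_descend π hπ (kk i) (hkinv i)
  have hk''mem : ∀ i, k'' i ∈ H.comap (pullFn R π) := by
    intro i
    rw [sq_mem_comap]
    have : (fun P => k'' i (π P)) = kk i := funext (hk'' i)
    rw [this]
    exact hkkmem i
  -- Step 5
  have hfinal : (fun PQ : M'' × M'' => φ (PQ.1 + PQ.2)) =
      ∑ i, (fun PQ : M'' × M'' =>
        ((u i : H.comap (pullFn R π)) : M'' → AlgebraicClosure ℚ) PQ.1 * k'' i PQ.2) := by
    funext ⟨P'', Q''⟩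
    obtain ⟨P, rfl⟩ := hπ P''
    obtain ⟨Q, rfl⟩ := hπ Q''
    rw [Finset.sum_apply]
    show φ (π P + π Q) = _
    rw [← map_add, hF2]
    refine Finset.sum_congr rfl fun i _ => ?_
    rw [hk'' i Q, mul_comm]
  rw [hfinal]
  exact Submodule.sum_mem _ fun i _ =>
    Submodule.subset_span ⟨_, (u i).2, _, hk''mem i, rfl⟩

/-- **(SQ2)** The quotient of a Hopf lattice by an equivariant surjection is a Hopf lattice. -/
theorem sq_quot [Finite M] (hH : IsHopfLattice R act H) (π : M →+ M'')
    (hπ : Function.Surjective π) (hπequiv : ∀ σ P, π (act σ P) = act'' σ (π P)) :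
    IsHopfLattice R act'' (H.comap (pullFn R π)) where
  fg := sq_quot_fg hH.fg hπ
  equivariant := sq_quot_equivariant hH.equivariant hπ hπequiv
  separates := sq_quot_separates hH.fg hH.equivariant hH.separates hπ hπequiv
  comul_mem := sq_quot_comul hH π hπ hπequiv
  antipode_mem := by
    intro φ hφ
    rw [sq_mem_comap] at hφ ⊢
    have h1 := hH.antipode_mem _ hφ
    convert h1 using 2 with P
    rw [map_neg]
  counit_mem := by
    intro φ hφ
    rw [sq_mem_comap] at hφ
    obtain ⟨r, hr⟩ := hH.counit_mem _ hφ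
    refine ⟨r, ?_⟩
    rw [← hr]
    show φ 0 = φ (π 0)
    rw [map_zero]

end Quot

end Fermat.Agent.W1
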